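import Fermat.Agent.NEB.Geom.H39_WEig
import Fermat.Agent.NEB.EIG.H39_EigA3

/-!
# NEB-GEOM, leaf **W-EIG** (helper39): EIG-A + W-EIG

`stmt_EIG_W` : `A` a `p`-power torsion abelian group with `A[p]` finite (NO divisibility), with a
system of characters `ms : MonoSys p (N c) c A` and operators `TA ℓ`, `diaA d` as in
`H39.stmt_EIG_A`; `etaT : 𝕋 →+* End_ℤ A` with `etaT (z ℓ) = TA ℓ * diaA ⟨ℓ⟩ ^ j` for the good primes;
the `θ`-part `W` of `𝒪 ⊗ A` is `p`-divisible.  Then the Hecke algebra of level `N c²` acts on `W`,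
`T_ℓ ↦ thetaEta etaT θ (z ℓ)`.

Proof: `D = p ^ e A` is `p`-divisible (`exists_pow_smul_stable`), `stmt_EIG_A` on `D`, `stmt_W_EIG`.
-/

set_option autoImplicit false

namespace Fermat.Agent.NEB.Geom.H39

open IsLocalRing TensorProduct Module
open CongruenceSubgroup Matrix.SpecialLinearGroup ModularForm
open scoped MatrixGroups
open Fermat.Agent.Betti ModularCurve.Period
open Fermat.Agent.S59.Lim Fermat.Agent.S59.Lim.H2
open Fermat.Agent.NEB.EIG.H39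

section Restrict

variable {p M c : ℕ} {A : Type} [AddCommGroup A]

/-- Restriction of a system of characters to a subgroup. -/
def monoRestrict (ms : MonoSys p M c A) (D : AddSubgroup A) : MonoSys p M c ↥D where
  m k x := ms.m k (x : A)
  m_add k x y hx hy := ms.m_add k x y (congrArg Subtype.val hx) (congrArg Subtype.val hy)
  h := ms.h
  h_ne := ms.h_ne
  m_ker k x hx h0 := Subtype.ext (ms.m_ker k x (congrArg Subtype.val hx) h0)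
  m_par k x hx := ms.m_par k x (congrArg Subtype.val hx)
  m_red k x hx γ := ms.m_red k x (congrArg Subtype.val hx) γ

end Restrict

section Main

/-- **EIG-A + W-EIG**. -/
theorem stmt_EIG_W (p : ℕ) [Fact p.Prime] (N : ℕ) (hN : N ≠ 0) (qs : List ℕ) (hnd : qs.Nodup)
    (hpr : ∀ q ∈ qs, q.Prime) (hqN : ∀ q ∈ qs, ¬ q ∣ N)
    (c N' : ℕ) (hc : c = qs.prod) (hN' : N' = N * c * c) [NeZero N'] (S : Set ℕ)
    (hS : ∀ q : ℕ, q.Prime → q ∣ N' → q ∈ S)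
    (A : Type) [AddCommGroup A] (htors : ∀ x : A, ∃ k : ℕ, p ^ k • x = 0)
    (hfin : Finite {x : A // p • x = 0})
    (ms : MonoSys p (N * c) c A)
    (TA : ℕ → Module.End ℤ A)
    (hTA : ∀ (ℓ : ℕ) (hℓ : ℓ.Prime) (hℓM : ¬ ℓ ∣ N * c) (k : ℕ) (x : A), p ^ k • x = 0 →
      ms.m k (TA ℓ x) = TDg (N * c) c (dvd_mul_left _ _) hℓ hℓM (ms.m k x))
    (diaA : (ZMod c)ˣ →* Module.End ℤ A)
    (hdiaA : ∀ (g : SL(2, ℤ)) (hg : ((N * c : ℕ) : ℤ) ∣ g 1 0) (d : (ZMod c)ˣ),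
      (d : ZMod c) = ((g 0 0 : ℤ) : ZMod c) → ∀ (k : ℕ) (x : A), p ^ k • x = 0 →
      ms.m k (diaA d x) = Dg (dvd_mul_left _ _) g hg (ms.m k x))
    (hcomm : ∀ (ℓ : ℕ), ℓ.Prime → ¬ ℓ ∣ N * c → ∀ d, Commute (TA ℓ) (diaA d))
    (j : ℕ) (hdn : ∀ d, diaA d ^ (2 * j + 1) = 1)
    {𝒪 : Type} [CommRing 𝒪] [IsLocalRing 𝒪] {𝕋 : Type} [CommRing 𝕋]
    (etaT : 𝕋 →+* Module.End ℤ A) (θ : 𝕋 →+* ResidueField 𝒪)
    (hWdiv : ∀ w : ↥(thetaPart etaT θ), ∃ w' : ↥(thetaPart etaT θ), (p : 𝒪) • w' = w)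
    (z : ℕ → 𝕋)
    (hz : ∀ (ℓ : ℕ), ℓ.Prime → ¬ ℓ ∣ N' → ℓ ∉ S → etaT (z ℓ) = TA ℓ * diaA (unitOf c ℓ) ^ j)
    (θ' : CuspForm.heckeAlgebra N' 2 S →+* ResidueField 𝒪)
    (hθ : ∀ (ℓ : ℕ) (hℓ : ℓ.Prime) (hℓN : ¬ ℓ ∣ N') (hℓS : ℓ ∉ S),
      θ' (CuspForm.heckeAlgebra.T hℓ hℓN hℓS) = θ (z ℓ)) :
    ∃ etaW : CuspForm.heckeAlgebra N' 2 S →+* Module.End 𝒪 ↥(thetaPart etaT θ),
      (∀ (ℓ : ℕ) (hℓ : ℓ.Prime) (hℓN : ¬ ℓ ∣ N') (hℓS : ℓ ∉ S),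
        etaW (CuspForm.heckeAlgebra.T hℓ hℓN hℓS) = thetaEta etaT θ (z ℓ)) ∧
      (∀ x, ∃ t : 𝕋, etaW x = thetaEta etaT θ t ∧ θ' x = θ t) ∧
      (∀ (x : CuspForm.heckeAlgebra N' 2 S) (a : 𝒪), residue 𝒪 a = θ' x →
        ∀ w : ↥(thetaPart etaT θ),
          ∃ m : ℕ, ((etaW x - a • (1 : Module.End 𝒪 ↥(thetaPart etaT θ))) ^ m) w = 0) := by
  obtain ⟨e, he⟩ := exists_pow_smul_stable p htors hfin
  obtain ⟨etaD, hetaD⟩ := stmt_EIG_A p N hN qs hnd hpr hqN c N' hc hN' S hS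
    ↥(divSub p e A) (divSub_div he) (divSub_tors htors) (monoRestrict ms (divSub p e A))
    (fun ℓ => resEnd p e (TA ℓ))
    (fun ℓ hℓ hℓM k x hx => hTA ℓ hℓ hℓM k x (congrArg Subtype.val hx))
    ((resEnd p e : Module.End ℤ A →+* _).toMonoidHom.comp diaA)
    (fun g hg d hd k x hx => hdiaA g hg d hd k x (congrArg Subtype.val hx))
    (fun ℓ hℓ hℓM d => (hcomm ℓ hℓ hℓM d).map (resEnd p e))
    j
    (fun d => by
      show resEnd p e (diaA d) ^ (2 * j + 1) = 1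
      rw [← map_pow, hdn d, map_one])
  refine stmt_W_EIG etaT θ p e hWdiv (divSub p e A) (fun x => pow_smul_mem_divSub x) hS etaD z
    (fun ℓ hℓ hℓN hℓS x => ?_) θ' hθ
  rw [hetaD ℓ hℓ hℓN hℓS, hz ℓ hℓ hℓN hℓS]
  show ((resEnd p e (TA ℓ) * resEnd p e (diaA (unitOf c ℓ)) ^ j) x : A) = _
  rw [← map_pow, ← map_mul, coe_resEnd]

end Main

end Fermat.Agent.NEB.Geom.H39
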