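import Mathlib
import Fermat.Agent.NEB.H29_Inv

/-!
# NEB-GEOM, leaf Z-FIN, part 1 (helper29): the kernel of `π^*` on torsion is finite

`φ : E → L` a homomorphism of function fields over an algebraically closed field, `G` a finite
group acting on `L` with fixed field `φ E`.  The kernel of `π^* : Pic⁰(E)[m] → Pic⁰(L)[m]` embeds
into the maps `G → μ_m` (Kummer theory), hence is finite; so `Pic⁰(E)[m]` is finite if
`Pic⁰(L)[m]` is.
-/

set_option autoImplicit false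
set_option linter.style.haveILetI false

noncomputable section

namespace Fermat.Agent.NEB.Geom.H29

open AlgebraicCurve Fermat.Agent.RED Fermat.Agent.NEB.H14 Fermat.Agent.NEB.H29 Fermat.Agent.GTor

section Abs

/-- A subgroup with finite image and finite kernel under a homomorphism is finite. -/
theorem finite_of_finite_image_of_finite_ker {A B : Type*} [AddCommGroup A] [AddCommGroup B]
    (f : A →+ B) (S : AddSubgroup A) (h1 : (f '' (S : Set A)).Finite)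
    (h2 : {x : A | x ∈ S ∧ f x = 0}.Finite) : (S : Set A).Finite := by
  have hsub : (S : Set A) ⊆ ⋃ b ∈ f '' (S : Set A), {a : A | a ∈ S ∧ f a = b} := by
    intro a ha
    simp only [Set.mem_iUnion, Set.mem_ofPred_eq, exists_prop]
    exact ⟨f a, ⟨a, ha, rfl⟩, ha, rfl⟩
  refine (Set.Finite.biUnion h1 fun b hb => ?_).subset hsub
  obtain ⟨a₀, ha₀, rfl⟩ := hb
  refine (h2.image (fun x => a₀ + x)).subset ?_
  rintro a ⟨ha, hfa⟩
  refine ⟨a - a₀, ⟨S.sub_mem ha ha₀, ?_⟩, by simp⟩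
  rw [map_sub, hfa, sub_self]

end Abs

section Ker

variable {K E L : Type} [Field K] [Field E] [Field L] [Algebra K E] [Algebra K L] [IsAlgClosed K]

/-- `y₀ = [D]`, `m D = div f`, `φ f = h ^ m`, and `g h = χ(g) h`. -/
def HasKerChar (φ : E →ₐ[K] L) {G : Type} [Group G] (ρ : G →* (L ≃ₐ[K] L)) (m : ℕ)
    (y₀ : Pic0 K E) (χ : G → L) : Prop :=
  ∃ (D : Divisor.degZero (K := K) (F := E)) (f : E) (h : L), f ≠ 0 ∧ Pic0.mk D = y₀ ∧
    (∀ v : Place K E, (m : ℤ) * (D : Divisor K E) v = v.ord f) ∧ h ≠ 0 ∧ φ f = h ^ m ∧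
    ∀ g : G, ρ g h = χ g * h

/-- Every class of the kernel has a character with values in `μ_m`. -/
theorem exists_hasKerChar (hE : IsFF K E) (hL : IsFF K L) (φ : E →ₐ[K] L)
    {G : Type} [Group G] (ρ : G →* (L ≃ₐ[K] L))
    (hfixE : ∀ (d : G) (x : E), ρ d (φ x) = φ x) (m : ℕ) (hm : m ≠ 0)
    (y₀ : Pic0 K E) (hy : (m : ℤ) • y₀ = 0) (hker : pullP φ y₀ = 0) :
    ∃ χ : G → L, (∀ g, χ g ^ m = 1) ∧ HasKerChar φ ρ m y₀ χ := by
  obtain ⟨D, f, hf, rfl, hD⟩ := exists_kummer_rep m y₀ hy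
  have hpull := isCorr_pullD hE hL φ
  rw [pullP, picMap_mk hpull.isGood, H33.mk_eq_zero_iff] at hker
  obtain ⟨h₀, hh₀, hDh⟩ := hker
  simp only [coe_degZeroMap] at hDh
  have hφf : φ f ≠ 0 := (hpull.hasFn f hf).1
  have hord : ∀ w : Place K L, w.ord (φ f) = w.ord (h₀ ^ m) := by
    intro w
    rw [← pullD_kummer hE hL φ (m : ℤ) (D : Divisor K E) hf hD w, hDh w, ord_pow_nat]
  obtain ⟨c, hc0, hc⟩ := exists_const_mul (constHyp_of_isFF hL) hφf (pow_ne_zero m hh₀) hord m hm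
  have hc' : algebraMap K L c ≠ 0 := by simpa using hc0
  have hh : h₀ * algebraMap K L c ≠ 0 := mul_ne_zero hh₀ hc'
  have hfh : φ f = (h₀ * algebraMap K L c) ^ m := by rw [hc, mul_pow]
  refine ⟨fun g => ρ g (h₀ * algebraMap K L c) * (h₀ * algebraMap K L c)⁻¹, fun g => ?_,
    D, f, h₀ * algebraMap K L c, hf, rfl, hD, hh, hfh, fun g => ?_⟩
  · rw [mul_pow, ← map_pow, ← hfh, hfixE, inv_pow, ← hfh, mul_inv_cancel₀ hφf]
  · rw [mul_assoc, inv_mul_cancel₀ hh, mul_one]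

omit [IsAlgClosed K] in
/-- The character determines the class. -/
theorem eq_of_hasKerChar (φ : E →ₐ[K] L) {G : Type} [Group G] (ρ : G →* (L ≃ₐ[K] L))
    (hfix : ∀ x : L, (∀ d, ρ d x = x) → ∃ x₀ : E, φ x₀ = x) (m : ℕ) (hm : m ≠ 0)
    (y₀ y₁ : Pic0 K E) (χ : G → L) (h₀ : HasKerChar φ ρ m y₀ χ) (h₁ : HasKerChar φ ρ m y₁ χ) :
    y₀ = y₁ := by
  obtain ⟨D, f, h, hf, rfl, hD, hh, hfh, hχ⟩ := h₀
  obtain ⟨D', f', h', hf', rfl, hD', hh', hfh', hχ'⟩ := h₁
  have hinv : ∀ g : G, ρ g (h * h'⁻¹) = h * h'⁻¹ := by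
    intro g
    have hχg : χ g ≠ 0 := by
      intro h0
      have := hχ g
      rw [h0, zero_mul] at this
      exact hh ((map_eq_zero_iff _ (ρ g).injective).mp this)
    rw [map_mul, map_inv₀, hχ g, hχ' g]
    field_simp
  obtain ⟨e, he⟩ := hfix _ hinv
  have he0 : e ≠ 0 := by
    rintro rfl
    rw [map_zero] at he
    exact mul_ne_zero hh (inv_ne_zero hh') he.symm
  have hfe : f = e ^ m * f' := by
    apply φ.toRingHom.injective
    show φ f = φ (e ^ m * f')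
    rw [map_mul, map_pow, he, hfh, hfh', mul_pow, inv_pow, mul_assoc,
      inv_mul_cancel₀ (pow_ne_zero m hh'), mul_one]
  have hsub : Pic0.mk (D - D') = 0 := by
    rw [H33.mk_eq_zero_iff]
    refine ⟨e, he0, fun v => ?_⟩
    have h1 := hD v
    have h2 := hD' v
    rw [hfe, v.ord_mul (pow_ne_zero m he0) hf', ord_pow_nat, ← h2] at h1
    rw [AddSubgroup.coe_sub, Finsupp.sub_apply]
    have hm' : (m : ℤ) ≠ 0 := by exact_mod_cast hm
    apply mul_left_cancel₀ hm'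
    rw [mul_sub, h1]
    ring
  have : Pic0.mk (D - D') = Pic0.mk D - Pic0.mk D' := rfl
  rw [this, sub_eq_zero] at hsub
  exact hsub

omit [IsAlgClosed K] [Algebra K L] in
/-- The `m`-th roots of unity of a field form a finite set. -/
theorem finite_roots_of_one (m : ℕ) (hm : m ≠ 0) : Finite {ζ : L // ζ ^ m = 1} := by
  have h : {ζ : L | ζ ^ m = 1}.Finite :=
    (Polynomial.nthRootsFinset m (1 : L)).finite_toSet.subset fun ζ hζ =>
      (Polynomial.mem_nthRootsFinset (Nat.pos_of_ne_zero hm) 1).mpr hζ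
  exact h.to_subtype

/-- **The kernel of `π^*` on `m`-torsion is finite.** -/
theorem finite_ker_pullP (hE : IsFF K E) (hL : IsFF K L) (φ : E →ₐ[K] L)
    {G : Type} [Group G] [Finite G] (ρ : G →* (L ≃ₐ[K] L))
    (hfixE : ∀ (d : G) (x : E), ρ d (φ x) = φ x)
    (hfix : ∀ x : L, (∀ d, ρ d x = x) → ∃ x₀ : E, φ x₀ = x) (m : ℕ) (hm : m ≠ 0) :
    {y₀ : Pic0 K E | (m : ℤ) • y₀ = 0 ∧ pullP φ y₀ = 0}.Finite := by
  haveI := finite_roots_of_one (L := L) m hm
  have hex : ∀ y : {y₀ : Pic0 K E | (m : ℤ) • y₀ = 0 ∧ pullP φ y₀ = 0},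
      ∃ χ : G → {ζ : L // ζ ^ m = 1}, HasKerChar φ ρ m (y : Pic0 K E) (fun g => (χ g : L)) := by
    rintro ⟨y₀, hy, hker⟩
    obtain ⟨χ, hχ, h⟩ := exists_hasKerChar hE hL φ ρ hfixE m hm y₀ hy hker
    exact ⟨fun g => ⟨χ g, hχ g⟩, h⟩
  choose c hc using hex
  have hinj : Function.Injective c := by
    intro y y' hyy
    apply Subtype.ext
    refine eq_of_hasKerChar φ ρ hfix m hm _ _ _ (hc y) ?_
    rw [hyy]
    exact hc y'
  exact Set.finite_coe_iff.mp (Finite.of_injective c hinj)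

/-- **Descent of finiteness**: `Pic⁰(E)[m]` is finite if `Pic⁰(L)[m]` is. -/
theorem finite_torsion_of_cover (hE : IsFF K E) (hL : IsFF K L) (φ : E →ₐ[K] L)
    {G : Type} [Group G] [Finite G] (ρ : G →* (L ≃ₐ[K] L))
    (hfixE : ∀ (d : G) (x : E), ρ d (φ x) = φ x)
    (hfix : ∀ x : L, (∀ d, ρ d x = x) → ∃ x₀ : E, φ x₀ = x) (m : ℕ) (hm : m ≠ 0)
    (hfin : {y : Pic0 K L | (m : ℤ) • y = 0}.Finite) :
    {y₀ : Pic0 K E | (m : ℤ) • y₀ = 0}.Finite := by
  have h := finite_of_finite_image_of_finite_ker (pullP φ) (Pic0.torsion K E m) ?_ ?_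
  · refine h.subset fun y₀ hy => ?_
    exact Pic0.mem_torsion.mpr hy
  · refine hfin.subset ?_
    rintro _ ⟨y₀, hy, rfl⟩
    have hy' : (m : ℤ) • y₀ = 0 := Pic0.mem_torsion.mp hy
    show (m : ℤ) • pullP φ y₀ = 0
    rw [← map_zsmul, hy', map_zero]
  · refine (finite_ker_pullP hE hL φ ρ hfixE hfix m hm).subset ?_
    rintro y₀ ⟨hy, hker⟩
    exact ⟨Pic0.mem_torsion.mp hy, hker⟩

end Ker

end Fermat.Agent.NEB.Geom.H29
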