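import Mathlib
import Fermat.Agent.NEB.Geom.H29_ZFinKer
import Fermat.Agent.NEB.EIG.H98_MonoDefs
import Fermat.Agent.NEB.H14_JHRel
import Fermat.Agent.NEB.H14_JHData
import Fermat.Agent.GTor.H56_FinUnr

/-!
# NEB-GEOM, leaf Z-FIN (helper29): `J_H[p ^ k]` is finite

* `finite_torsion_of_mono` : if `p ∤ |H'|`, EIG-MONO (`H98.Stmt_MonoH M c H' p ι`) embeds
  `J_{H'}[p ^ k]` into `Hom(Γ₀(M) ∩ Γ₁(c), ℤ/p^k)`, a finite group;
* `stmt_ZFIN` : for `H' ≤ H` with `p ∤ |H'|`: `J_H[p ^ k]` is finite (the kernel of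
  `π^* : J_H[p ^ k] → J_{H'}[p ^ k]` is finite by Kummer theory, `finite_ker_pullP`);
* `stmt_ZFIN'` : the same with `H'` the subgroup of the `p ^ e`-th powers of `H`.
-/

set_option autoImplicit false
set_option linter.style.haveILetI false

noncomputable section

namespace Fermat.Agent.NEB.Geom.H29

open AlgebraicCurve ModularCurve CongruenceSubgroup
open Fermat.Agent.NEB Fermat.Agent.NEB.H14 Fermat.Agent.NEB.JH Fermat.Agent.RED
open Fermat.Agent.NEB.EIG.H39 Fermat.Agent.NEB.EIG.H98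
open scoped MatrixGroups

section FG

/-- `Γ₀(M) ∩ Γ₁(c)` contains the principal congruence subgroup of level `M c`. -/
theorem gamma_le_gam1 (M c : ℕ) : Gamma (M * c) ≤ Gam1 M c := by
  intro γ hγ
  rw [Gamma_mem] at hγ
  obtain ⟨h00, -, h10, -⟩ := hγ
  have h10' : ((M * c : ℕ) : ℤ) ∣ γ 1 0 := by
    rw [← ZMod.intCast_zmod_eq_zero_iff_dvd]
    exact h10
  have h00' : ((M * c : ℕ) : ℤ) ∣ γ 0 0 - 1 := by
    rw [← ZMod.intCast_zmod_eq_zero_iff_dvd, Int.cast_sub, Int.cast_one, h00, sub_self]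
  have hM : (M : ℤ) ∣ ((M * c : ℕ) : ℤ) := ⟨c, by push_cast; ring⟩
  have hc : (c : ℤ) ∣ ((M * c : ℕ) : ℤ) := ⟨M, by push_cast; ring⟩
  exact ⟨hM.trans h10', hc.trans h10', hc.trans h00'⟩

/-- `Γ₀(M) ∩ Γ₁(c)` is finitely generated. -/
theorem groupFG_gam1 (M c : ℕ) [NeZero M] [NeZero c] : Group.FG ↥(Gam1 M c) := by
  haveI := Fermat.Agent.GTor.H56.groupFG_SL2Z'
  haveI : NeZero (M * c) := ⟨mul_ne_zero (NeZero.ne M) (NeZero.ne c)⟩
  haveI : (Gam1 M c).FiniteIndex := Subgroup.finiteIndex_of_le (gamma_le_gam1 M c)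
  exact Subgroup.fg_of_index_ne_zero (Gam1 M c)

end FG

section Mono

variable {M c : ℕ} [NeZero M] [NeZero c]

/-- **Finiteness from EIG-MONO** when `p ∤ |H'|`. -/
theorem finite_torsion_of_mono (H' : Subgroup (ZMod c)ˣ) (p : ℕ) [Fact p.Prime]
    (hcop : (Nat.card H').Coprime p) (ι : Kbar →+* ℂ) (hmono : Stmt_MonoH M c H' p ι) (k : ℕ) :
    {y : JH M c H' | ((p ^ k : ℕ) : ℤ) • y = 0}.Finite := by
  obtain ⟨mono, -, hker, -⟩ := hmono
  haveI := groupFG_gam1 M c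
  haveI : NeZero (p ^ k) := ⟨pow_ne_zero k (Fact.out : p.Prime).ne_zero⟩
  haveI : Finite (Additive ↥(Gam1 M c) →+ ZMod (p ^ k)) :=
    Fermat.Agent.GTor.H56.finite_addMonoidHom_of_fg _ _
  have hinj : Function.Injective (mono k) := by
    rw [injective_iff_map_eq_zero]
    intro x hx
    have h1 := hker k x hx
    have h2 : ((p ^ k : ℕ) : ℤ) • (x : JH M c H') = 0 := Pic0.mem_torsion.mp x.2
    rw [natCast_zsmul] at h2
    have hco : (Nat.card H').Coprime (p ^ k) := hcop.pow_right k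
    apply Subtype.ext
    show (x : JH M c H') = 0
    have h3 := (Nat.Coprime.isCoprime hco)
    obtain ⟨a, b, hab⟩ := h3
    have h4 : ((a * (Nat.card H' : ℤ) + b * ((p ^ k : ℕ) : ℤ)) : ℤ) • (x : JH M c H') = 0 := by
      rw [add_zsmul, mul_zsmul, mul_zsmul, natCast_zsmul, natCast_zsmul,
        h1, h2, smul_zero, smul_zero, add_zero]
    rw [hab, one_smul] at h4
    exact h4
  haveI : Finite (Pic0.torsion Kbar ↥(FHbar M c H') (p ^ k)) := Finite.of_injective _ hinj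
  have h5 : (Set.range (Subtype.val : Pic0.torsion Kbar ↥(FHbar M c H') (p ^ k) → JH M c H')).Finite :=
    Set.finite_range _
  refine h5.subset fun y hy => ?_
  exact ⟨⟨y, Pic0.mem_torsion.mpr hy⟩, rfl⟩

/-- **Z-FIN**: `J_H[p ^ k]` is finite, given EIG-MONO for a subgroup `H' ≤ H` of order prime to
`p`. -/
theorem stmt_ZFIN {H H' : Subgroup (ZMod c)ˣ} (hH : H' ≤ H) (h2 : 2 ≤ c) (hc : c ∣ M)
    (p : ℕ) [Fact p.Prime] (hcop : (Nat.card H').Coprime p) (ι : Kbar →+* ℂ)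
    (hmono : Stmt_MonoH M c H' p ι) (k : ℕ) :
    {y : JH M c H | ((p ^ k : ℕ) : ℤ) • y = 0}.Finite := by
  haveI := finite_units_zmod c
  have dd := diamondData M c H h2 hc
  have dd' := diamondData M c H' h2 hc
  refine finite_torsion_of_cover (isFF_JH M c H h2 hc) (isFF_JH M c H' h2 hc) (inclRel M hH)
    (dd'.ρ.comp H.subtype) (fun d x => rho_inclRel_of_mem hH dd' dd d.2 x)
    (fun x hx => relFixed hH dd' dd x (fun d hd => hx ⟨d, hd⟩)) (p ^ k)
    (pow_ne_zero k (Fact.out : p.Prime).ne_zero) (finite_torsion_of_mono H' p hcop ι hmono k)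

end Mono

section PrimePart

/-- The subgroup of the `p ^ e`-th powers, `p ^ e ‖ |H|`: the prime-to-`p` part of a finite
commutative group. -/
def primePart {G : Type*} [CommGroup G] (H : Subgroup G) (p : ℕ) : Subgroup G :=
  H.map (powMonoidHom (p ^ (Nat.card H).factorization p))

theorem primePart_le {G : Type*} [CommGroup G] (H : Subgroup G) (p : ℕ) : primePart H p ≤ H := by
  rintro y ⟨x, hx, rfl⟩
  exact H.pow_mem hx _

theorem card_primePart_coprime {G : Type*} [CommGroup G] [Finite G] (H : Subgroup G) (p : ℕ)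
    [hp : Fact p.Prime] : (Nat.card (primePart H p)).Coprime p := by
  have hH0 : Nat.card H ≠ 0 := Nat.card_pos.ne'
  have hm : p.Coprime (ordCompl[p] (Nat.card H)) := Nat.coprime_ordCompl hp.out hH0
  have hkill : ∀ y : primePart H p, y ^ (ordCompl[p] (Nat.card H)) = 1 := by
    rintro ⟨y, x, hx, rfl⟩
    apply Subtype.ext
    show (powMonoidHom (p ^ (Nat.card H).factorization p) x) ^ (ordCompl[p] (Nat.card H)) = 1
    rw [powMonoidHom_apply, ← pow_mul, Nat.ordProj_mul_ordCompl_eq_self]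
    have h1 : (⟨x, hx⟩ : H) ^ Nat.card H = 1 := pow_card_eq_one'
    exact congrArg Subtype.val h1
  apply Nat.Coprime.symm
  rw [Nat.Prime.coprime_iff_not_dvd hp.out]
  intro hdvd
  obtain ⟨y, hy⟩ := exists_prime_orderOf_dvd_card' p hdvd
  have h2 : orderOf y ∣ ordCompl[p] (Nat.card H) := orderOf_dvd_of_pow_eq_one (hkill y)
  rw [hy] at h2
  exact (Nat.Prime.coprime_iff_not_dvd hp.out).mp hm h2

/-- **Z-FIN**, with the prime-to-`p` part of `H`. -/
theorem stmt_ZFIN' {M c : ℕ} [NeZero M] [NeZero c] (H : Subgroup (ZMod c)ˣ) (h2 : 2 ≤ c)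
    (hc : c ∣ M) (p : ℕ) [Fact p.Prime] (ι : Kbar →+* ℂ)
    (hmono : Stmt_MonoH M c (primePart H p) p ι) (k : ℕ) :
    {y : JH M c H | ((p ^ k : ℕ) : ℤ) • y = 0}.Finite := by
  haveI := finite_units_zmod c
  exact stmt_ZFIN (primePart_le H p) h2 hc p (card_primePart_coprime H p) ι hmono k

end PrimePart

end Fermat.Agent.NEB.Geom.H29
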