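import Mathlib
import Fermat.Agent.NEB.Geom.H29_ZFin
import Fermat.Agent.NEB.EIG.H98_MonoH
import Fermat.Agent.S17.OpenStab

/-!
# NEB-GEOM, leaf Z-GALCONT (helper29): points of `J_H` have open stabilisers

* `galcont_of_isFF`   : for a function field `ℚ̄ · F₀ ⊂ ℚ̄((q))` (`F₀ ⊂ ℚ((q))`), every divisor class
  of degree `0` is fixed by `Gal(ℚ̄/L)` for a number field `L`.
* `stmt_ZGALCONT`     : the case `J_H = JH M c H`.
* `stmt_ZFIN_final`   : `J_H[p^k]` is finite, UNCONDITIONALLY (Z-FIN with EIG-MONO of helper98).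
* `galcont_finite`    : one number field for a finite set of classes.
* `stmt_ZGALCONT_tors`: one number field `L` such that `Gal(ℚ̄/L)` fixes `J_H[p^k]` pointwise.
-/

set_option autoImplicit false

noncomputable section

namespace Fermat.Agent.NEB.Geom.H29

open AlgebraicCurve ModularCurve IntermediateField
open Fermat.Agent.NEB Fermat.Agent.NEB.H14 Fermat.Agent.NEB.JH Fermat.Agent.RED

/-- Finiteness of zeros from `IsFF`. -/
theorem zerosFinite_of_isFF (F₀ : IntermediateField ℚ (LaurentSeries ℚ))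
    (hFF : IsFF Kbar ↥(laurentBaseChange Kbar F₀)) : Fermat.Agent.S17.ZerosFinite F₀ := by
  intro x hx
  have : HasPrincipalDivisors Kbar ↥(laurentBaseChange Kbar F₀) := hasPD hFF
  obtain ⟨D, hD, -⟩ := HasPrincipalDivisors.exists_divisor (K := Kbar) x hx
  refine D.support.finite_toSet.subset fun v hv => ?_
  have h0 : 0 < v.ord x := hv
  rw [Finset.mem_coe, Finsupp.mem_support_iff, hD v]
  exact h0.ne'

/-- **GALCONT**, general form: every class of `Pic⁰(ℚ̄ · F₀)` is fixed by the Galois group of a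
number field. -/
theorem galcont_of_isFF (F₀ : IntermediateField ℚ (LaurentSeries ℚ))
    (hFF : IsFF Kbar ↥(laurentBaseChange Kbar F₀))
    (y : Pic0 Kbar ↥(laurentBaseChange Kbar F₀)) :
    ∃ L : IntermediateField ℚ Kbar, FiniteDimensional ℚ L ∧
      ∀ σ : Kbar ≃ₐ[ℚ] Kbar, (∀ x ∈ L, σ x = x) → σ • y = y := by
  obtain ⟨L, hL, h⟩ :=
    Fermat.Agent.S17.exists_field_fixing_class F₀ (zerosFinite_of_isFF F₀ hFF) y
  exact ⟨L, hL, fun σ hσ => h σ ((IntermediateField.mem_fixingSubgroup_iff L σ).2 hσ)⟩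

/-- One number field for finitely many classes. -/
theorem galcont_finite (F₀ : IntermediateField ℚ (LaurentSeries ℚ))
    (hFF : IsFF Kbar ↥(laurentBaseChange Kbar F₀))
    (S : Set (Pic0 Kbar ↥(laurentBaseChange Kbar F₀))) (hS : S.Finite) :
    ∃ L : IntermediateField ℚ Kbar, FiniteDimensional ℚ L ∧
      ∀ σ : Kbar ≃ₐ[ℚ] Kbar, (∀ x ∈ L, σ x = x) → ∀ y ∈ S, σ • y = y := by
  induction S, hS using Set.Finite.induction_on with
  | empty => exact ⟨⊥, inferInstance, fun _ _ y hy => absurd hy (Set.notMem_empty y)⟩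
  | @insert a S _ _ ih =>
      obtain ⟨L₁, h₁, hL₁⟩ := ih
      obtain ⟨L₂, h₂, hL₂⟩ := galcont_of_isFF F₀ hFF a
      refine ⟨L₁ ⊔ L₂, IntermediateField.finiteDimensional_sup L₁ L₂, fun σ hσ y hy => ?_⟩
      rcases hy with rfl | hy
      · exact hL₂ σ fun x hx => hσ x ((le_sup_right : L₂ ≤ L₁ ⊔ L₂) hx)
      · exact hL₁ σ (fun x hx => hσ x ((le_sup_left : L₁ ≤ L₁ ⊔ L₂) hx)) y hy

/-- **Z-GALCONT**: every point of `J_H` is fixed by the Galois group of a number field. -/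
theorem stmt_ZGALCONT (M c : ℕ) [NeZero M] (H : Subgroup (ZMod c)ˣ) (h2 : 2 ≤ c) (hc : c ∣ M)
    (y : JH M c H) :
    ∃ L : IntermediateField ℚ Kbar, FiniteDimensional ℚ L ∧
      ∀ σ : Kbar ≃ₐ[ℚ] Kbar, (∀ x ∈ L, σ x = x) → σ • y = y :=
  galcont_of_isFF (FHQ M c H) (isFF_JH M c H h2 hc) y

/-- An embedding `ℚ̄ → ℂ`. -/
theorem exists_kbar_to_complex : Nonempty (Kbar →+* ℂ) := by
  have : Algebra.IsAlgebraic ℚ (AlgebraicClosure ℚ) := AlgebraicClosure.isAlgebraic ℚ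
  exact ⟨(IsAlgClosed.lift : AlgebraicClosure ℚ →ₐ[ℚ] ℂ).toRingHom⟩

/-- **Z-FIN**, unconditional: `J_H[p^k]` is finite. -/
theorem stmt_ZFIN_final {M c : ℕ} [NeZero M] [NeZero c] (H : Subgroup (ZMod c)ˣ) (h2 : 2 ≤ c)
    (hc : c ∣ M) (p : ℕ) [Fact p.Prime] (k : ℕ) :
    {y : JH M c H | ((p ^ k : ℕ) : ℤ) • y = 0}.Finite := by
  obtain ⟨ι⟩ := exists_kbar_to_complex
  exact stmt_ZFIN' H h2 hc p ι
    (Fermat.Agent.NEB.EIG.H98.stmt_MonoH ι h2 hc (NeZero.ne M) (Fact.out : p.Prime).ne_zero) k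

/-- **Z-GALCONT** for torsion: one number field `L` such that `Gal(ℚ̄/L)` fixes `J_H[p^k]`. -/
theorem stmt_ZGALCONT_tors {M c : ℕ} [NeZero M] [NeZero c] (H : Subgroup (ZMod c)ˣ) (h2 : 2 ≤ c)
    (hc : c ∣ M) (p : ℕ) [Fact p.Prime] (k : ℕ) :
    ∃ L : IntermediateField ℚ Kbar, FiniteDimensional ℚ L ∧
      ∀ σ : Kbar ≃ₐ[ℚ] Kbar, (∀ x ∈ L, σ x = x) →
        ∀ y : JH M c H, ((p ^ k : ℕ) : ℤ) • y = 0 → σ • y = y :=
  galcont_finite (FHQ M c H) (isFF_JH M c H h2 hc) _ (stmt_ZFIN_final H h2 hc p k)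

end Fermat.Agent.NEB.Geom.H29
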