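import Fermat.Agent.S59.Lim.H2_Theta

/-!
# Item 72 (LG-NEB), package NEB-GEOM (helper84): the `𝒪`-level leaves `W-*` (pure algebra)

Plan: `NOTES/plan/NEB_GEOM.md`, section 2.  Everything here is PURE ALGEBRA on helper2's
`θ`-part (`S59/Lim/H2_Theta.lean`):

* `A` : an abelian group, `p`-power torsion with `A[p]` finite (`= J_H[p^∞]`);
* `𝕋` : a commutative ring with `η : 𝕋 →+* End_ℤ A` (`= ℤ[T'_ℓ, U_j, ⟨d⟩]`, a polynomial ring) and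
  `θ : 𝕋 →+* k = 𝒪/𝔪`;  `W := H2.thetaPart η θ ⊆ X := 𝒪 ⊗_ℤ A`;
* `K : AddSubgroup A` : the kernel of reduction `K_A` at a place; `KO 𝒪 K = 𝒪 ⊗ K ⊆ X`;
* `dia : G →* End_ℤ A` : the diamond operators (`G = (ℤ/c)ˣ`), `dia u ^ (p^n) = 1`, `dia u ∈ η(𝕋)`;
* `t₀ : 𝕋` with `θ t₀ ≠ 0` (`= T_ℓ₀ - (ℓ₀ + 1)`, the Eisenstein operator): bijective on `W`.

Leaves (exact statements): `Stmt_W_unit`, `Stmt_W_ES`, `Stmt_W_LG`, `Stmt_W_DIV`, `Stmt_W_HSTEP`,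
`Stmt_W_INV`, `Stmt_W_FROBNIL`, `Stmt_W_proj`.  Definitions and `Prop`s only; no `sorry`.

All operators on `X` are base changes `f.baseChange 𝒪` of `ℤ`-linear endomorphisms of `A`;
flatness of `𝒪` over `ℤ` (`H2.flat_int`) makes kernels/invariants commute with `𝒪 ⊗ -`
(`H2.ker_baseChange_eq`).
-/

set_option autoImplicit false

noncomputable section

open IsLocalRing TensorProduct Module

namespace Fermat.Agent.NEB.Geom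

open Fermat.Agent.S59.Lim Fermat.Agent.S59.Lim.H2

/-- `𝒪 ⊗ K ⊆ 𝒪 ⊗ A` (the image). -/
def KO (𝒪 : Type) [CommRing 𝒪] {A : Type} [AddCommGroup A] (K : AddSubgroup A) :
    Submodule 𝒪 (𝒪 ⊗[ℤ] A) :=
  LinearMap.range ((AddSubgroup.toIntSubmodule K).subtype.baseChange 𝒪)

/-- **W-UNIT**: an operator `t₀` with `θ t₀ ≠ 0` is bijective on the `θ`-part. -/
def Stmt_W_unit : Prop :=
  ∀ (𝒪 : Type) [CommRing 𝒪] [IsLocalRing 𝒪] (A : Type) [AddCommGroup A]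
    (𝕋 : Type) [CommRing 𝕋] (η : 𝕋 →+* Module.End ℤ A) (θ : 𝕋 →+* ResidueField 𝒪)
    (t₀ : 𝕋), θ t₀ ≠ 0 → Function.Bijective (thetaEta η θ t₀)

/-- **W-PROJ**: the `θ`-part is a direct summand of `X`, functorially: there is a projector `e`
onto it commuting with all base-changed operators which commute with `η`, and compatible with
equivariant maps. -/
def Stmt_W_proj : Prop :=
  ∀ (𝒪 : Type) [CommRing 𝒪] [IsDomain 𝒪] [IsDiscreteValuationRing 𝒪] [Finite (ResidueField 𝒪)]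
    (ϖ : 𝒪), Irreducible ϖ → ∀ (p : ℕ) [Fact p.Prime], (p : 𝒪) ∈ maximalIdeal 𝒪 → (p : 𝒪) ≠ 0 →
    ∀ (𝕋 : Type) [CommRing 𝕋] (θ : 𝕋 →+* ResidueField 𝒪),
    ∃ e : ∀ (A : Type) [AddCommGroup A], (𝕋 →+* Module.End ℤ A) →
        Module.End 𝒪 (𝒪 ⊗[ℤ] A),
      ∀ (A : Type) [AddCommGroup A], (∀ x : A, ∃ k : ℕ, p ^ k • x = 0) →
        Finite {x : A // p • x = 0} → ∀ (η : 𝕋 →+* Module.End ℤ A),
        (∀ x, e A η x ∈ thetaPart η θ) ∧ (∀ x ∈ thetaPart η θ, e A η x = x) ∧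
        (∀ f : Module.End ℤ A, (∀ t, Commute (η t) f) →
          Commute (f.baseChange 𝒪) (e A η)) ∧
        (∀ (B : Type) [AddCommGroup B], (∀ x : B, ∃ k : ℕ, p ^ k • x = 0) →
          Finite {x : B // p • x = 0} → ∀ (ηB : 𝕋 →+* Module.End ℤ B) (g : A →ₗ[ℤ] B),
          (∀ t, g ∘ₗ η t = ηB t ∘ₗ g) →
            ∀ x, g.baseChange 𝒪 (e A η x) = e B ηB (g.baseChange 𝒪 x))

/-- **W-ES** (the fixed-point trick): an operator `E` with values in `K` (commuting with `η`)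
vanishes on the `θ`-part, if the `Δ`-fixed part of `K` is killed by `t₀` with `θ t₀ ≠ 0`.
(`E = ⟨ℓ⟩φ² - T_ℓ φ + ℓ`: CL-ES; the hypothesis on `K` is FIX.) -/
def Stmt_W_ES : Prop :=
  ∀ (𝒪 : Type) [CommRing 𝒪] [IsDomain 𝒪] [IsDiscreteValuationRing 𝒪] [Finite (ResidueField 𝒪)]
    (ϖ : 𝒪), Irreducible ϖ → ∀ (p : ℕ) [Fact p.Prime], (p : 𝒪) ∈ maximalIdeal 𝒪 → (p : 𝒪) ≠ 0 →
    ∀ (A : Type) [AddCommGroup A], (∀ x : A, ∃ k : ℕ, p ^ k • x = 0) →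
      Finite {x : A // p • x = 0} →
    ∀ (𝕋 : Type) [CommRing 𝕋] (η : 𝕋 →+* Module.End ℤ A) (θ : 𝕋 →+* ResidueField 𝒪)
      (G : Type) [CommGroup G] [Finite G] (dia : G →* Module.End ℤ A) (n : ℕ),
      (∀ u, dia u ^ (p ^ n) = 1) → (∀ u, ∃ z : 𝕋, η z = dia u) →
    ∀ (K : AddSubgroup A) (t₀ : 𝕋), θ t₀ ≠ 0 →
      (∀ x ∈ K, (∀ u, dia u x = x) → η t₀ x = 0) →
    ∀ E : Module.End ℤ A, (∀ t, Commute (η t) E) → (∀ x, E x ∈ K) →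
      ∀ x ∈ thetaPart η θ, E.baseChange 𝒪 x = 0

/-- **W-LG** (local–global compatibility at a Taylor–Wiles prime, via `TWH.absLG`).
`Γ` = the decomposition group, `I` = inertia, `frob` a Frobenius, `φ = gal frob * dia u₀` the
twisted Frobenius, `U : 𝕋` the operator `U_q`, `a` a lift of `θ U`.
Hypotheses: `K` is stable under `η`, `φ`; `(σ - 1) A ⊆ K` for `σ ∈ I` (CL-INERTIA);
`U φ x = q x` on `KO ∩ W^Δ` (W-KEYq); `θ(U)² ≠ q = 1` in `k`; inertia is trivial on `W[ϖ]^Δ`;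
the tame relations at every finite level `A[p^m]` (`TWGal.Stmt_TAME`).
Conclusion: inertia is trivial on the generalised `a`-eigenspace of `φ` in `W`. -/
def Stmt_W_LG : Prop :=
  ∀ (𝒪 : Type) [CommRing 𝒪] [IsDomain 𝒪] [IsDiscreteValuationRing 𝒪] [Finite (ResidueField 𝒪)]
    (ϖ : 𝒪), Irreducible ϖ → ∀ (p : ℕ) [Fact p.Prime], (p : 𝒪) ∈ maximalIdeal 𝒪 → (p : 𝒪) ≠ 0 →
    ∀ (A : Type) [AddCommGroup A], (∀ x : A, ∃ k : ℕ, p ^ k • x = 0) →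
      Finite {x : A // p • x = 0} →
    ∀ (𝕋 : Type) [CommRing 𝕋] (η : 𝕋 →+* Module.End ℤ A) (θ : 𝕋 →+* ResidueField 𝒪)
      (G : Type) [CommGroup G] [Finite G] (dia : G →* Module.End ℤ A) (n : ℕ),
      (∀ u, dia u ^ (p ^ n) = 1) → (∀ u, ∃ z : 𝕋, η z = dia u) →
    ∀ (K : AddSubgroup A), (∀ (t : 𝕋) (x : A), x ∈ K → η t x ∈ K) →
    ∀ (Γ : Type) [Group Γ] (gal : Γ →* Module.End ℤ A), (∀ g t, Commute (η t) (gal g)) →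
      (∀ g, ∀ x ∈ K, gal g x ∈ K) →
    ∀ (I : Subgroup Γ) (frob : Γ), (∀ σ ∈ I, frob * σ * frob⁻¹ ∈ I) →
      (∀ σ ∈ I, ∀ x : A, gal σ x - x ∈ K) →
    ∀ (u₀ : G) (U : 𝕋) (q : ℕ) (a : 𝒪), residue 𝒪 a = θ U →
      (q : ResidueField 𝒪) = 1 → θ U ^ 2 ≠ 1 →
      -- W-KEYq
      (∀ x ∈ thetaPart η θ, x ∈ KO 𝒪 K → (∀ u, (dia u).baseChange 𝒪 x = x) →
        (η U).baseChange 𝒪 ((gal frob).baseChange 𝒪 x) = (q : 𝒪) • x) →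
      -- inertia is trivial on `W[ϖ]^Δ`
      (∀ σ ∈ I, ∀ x ∈ thetaPart η θ, ϖ • x = 0 → (∀ u, (dia u).baseChange 𝒪 x = x) →
        (gal σ).baseChange 𝒪 x = x) →
      -- tame relations at finite level
      (∀ m : ℕ, ∃ τ₀ ∈ I,
        (∀ σ ∈ I, ∃ j e : ℕ, ∀ x : A, p ^ m • x = 0 →
          gal (((τ₀ ^ j)⁻¹ * σ) ^ (q ^ e)) x = x) ∧
        (∃ e : ℕ, ∀ x : A, p ^ m • x = 0 →
          gal (((τ₀ ^ q)⁻¹ * (frob * τ₀ * frob⁻¹)) ^ (q ^ e)) x = x)) →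
    ∀ σ ∈ I, ∀ x ∈ thetaPart η θ,
      (∃ N : ℕ, ((((gal frob * dia u₀).baseChange 𝒪 -
        a • (1 : Module.End 𝒪 (𝒪 ⊗[ℤ] A))) ^ N) x = 0)) →
      (gal σ).baseChange 𝒪 x = x

/-- **W-DIV**: if `t₀ ^ N A ⊆ p A` for some `N` (`NEB.H29.stmt_DIV_tower`) and `θ t₀ ≠ 0`, then
the `θ`-part is `ϖ`-divisible (hence `IsDiv`). -/
def Stmt_W_DIV : Prop :=
  ∀ (𝒪 : Type) [CommRing 𝒪] [IsDomain 𝒪] [IsDiscreteValuationRing 𝒪] [Finite (ResidueField 𝒪)]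
    (ϖ : 𝒪), Irreducible ϖ → ∀ (p : ℕ) [Fact p.Prime], (p : 𝒪) ∈ maximalIdeal 𝒪 → (p : 𝒪) ≠ 0 →
    ∀ (A : Type) [AddCommGroup A], (∀ x : A, ∃ k : ℕ, p ^ k • x = 0) →
      Finite {x : A // p • x = 0} →
    ∀ (𝕋 : Type) [CommRing 𝕋] (η : 𝕋 →+* Module.End ℤ A) (θ : 𝕋 →+* ResidueField 𝒪)
      (t₀ : 𝕋), θ t₀ ≠ 0 → (∃ N : ℕ, ∀ x : A, ∃ y : A, (η t₀ ^ N) x = p • y) →
      IsDiv ϖ ↥(thetaPart η θ)

/-- **W-HSTEP**: norm surjectivity along the tower on `W[ϖ]`, from the `ℤ`-level statement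
(`NEB.H29.stmt_HSTEP_tower`: surjectivity up to a power of the Eisenstein operator `t₀`). -/
def Stmt_W_HSTEP : Prop :=
  ∀ (𝒪 : Type) [CommRing 𝒪] [IsDomain 𝒪] [IsDiscreteValuationRing 𝒪] [Finite (ResidueField 𝒪)]
    (ϖ : 𝒪), Irreducible ϖ → ∀ (p : ℕ) [Fact p.Prime], (p : 𝒪) ∈ maximalIdeal 𝒪 → (p : 𝒪) ≠ 0 →
    ∀ (A : Type) [AddCommGroup A], (∀ x : A, ∃ k : ℕ, p ^ k • x = 0) →
      Finite {x : A // p • x = 0} →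
    ∀ (𝕋 : Type) [CommRing 𝕋] (η : 𝕋 →+* Module.End ℤ A) (θ : 𝕋 →+* ResidueField 𝒪)
      (t₀ : 𝕋), θ t₀ ≠ 0 →
    ∀ (r n : ℕ) (d : Fin r → Module.End ℤ A), (∀ j, ∃ z : 𝕋, η z = d j) →
      (∀ (j : Fin r) (v : A), p • v = 0 → (∀ i, i ≤ j → d i v = v) →
        ∃ (w : A) (m : ℕ), p • w = 0 ∧ (∀ i, i < j → d i w = w) ∧
          ∑ e ∈ Finset.range (p ^ n), (d j ^ e) w = (η t₀ ^ m) v) →
    ∀ (j : Fin r) (v : 𝒪 ⊗[ℤ] A), v ∈ thetaPart η θ → ϖ • v = 0 →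
      (∀ i, i ≤ j → (d i).baseChange 𝒪 v = v) →
      ∃ w ∈ thetaPart η θ, ϖ • w = 0 ∧ (∀ i, i < j → (d i).baseChange 𝒪 w = w) ∧
        ∑ e ∈ Finset.range (p ^ n), (((d j).baseChange 𝒪) ^ e) w = v

/-- **W-INV**: the `Δ`-invariants of `W[ϖ]` are pull-backs from the `θ`-part of the lower level
`B`, from the `ℤ`-level statement (`NEB.H29.stmt_INV_JH'`: up to the Eisenstein operator). -/
def Stmt_W_INV : Prop :=
  ∀ (𝒪 : Type) [CommRing 𝒪] [IsDomain 𝒪] [IsDiscreteValuationRing 𝒪] [Finite (ResidueField 𝒪)]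
    (ϖ : 𝒪), Irreducible ϖ → ∀ (p : ℕ) [Fact p.Prime], (p : 𝒪) ∈ maximalIdeal 𝒪 → (p : 𝒪) ≠ 0 →
    ∀ (A : Type) [AddCommGroup A], (∀ x : A, ∃ k : ℕ, p ^ k • x = 0) →
      Finite {x : A // p • x = 0} →
    ∀ (B : Type) [AddCommGroup B], (∀ x : B, ∃ k : ℕ, p ^ k • x = 0) →
      Finite {x : B // p • x = 0} →
    ∀ (𝕋 : Type) [CommRing 𝕋] (η : 𝕋 →+* Module.End ℤ A) (ηB : 𝕋 →+* Module.End ℤ B)
      (θ : 𝕋 →+* ResidueField 𝒪) (t₀ : 𝕋), θ t₀ ≠ 0 →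
    ∀ (up : B →ₗ[ℤ] A), (∀ t, up ∘ₗ ηB t = η t ∘ₗ up) →
    ∀ (G : Type) [CommGroup G] [Finite G] (dia : G →* Module.End ℤ A),
      (∀ u, ∃ z : 𝕋, η z = dia u) →
      (∀ y : A, p • y = 0 → (∀ u, dia u y = y) →
        ∃ (y₀ : B) (m : ℕ), p • y₀ = 0 ∧ up y₀ = (η t₀ ^ m) y) →
    ∀ v ∈ thetaPart η θ, ϖ • v = 0 → (∀ u, (dia u).baseChange 𝒪 v = v) →
      ∃ y ∈ thetaPart ηB θ, ϖ • y = 0 ∧ up.baseChange 𝒪 y = v

/-- **W-FROBNIL** (socle filtration): an operator `Q` commuting with commuting operators `d j` of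
`p`-power order, which is nilpotent on every `Δ`-fixed element of `W[ϖ]`, is nilpotent on every
element of `W[ϖ]`. -/
def Stmt_W_FROBNIL : Prop :=
  ∀ (𝒪 : Type) [CommRing 𝒪] [IsLocalRing 𝒪] (ϖ : 𝒪) (p : ℕ) [Fact p.Prime],
    (p : 𝒪) ∈ Ideal.span {ϖ} →
    ∀ (W : Type) [AddCommGroup W] [Module 𝒪 W], Finite (Submodule.torsionBy 𝒪 W ϖ) →
    ∀ (r n : ℕ) (d : Fin r → Module.End 𝒪 W), (∀ j, d j ^ (p ^ n) = 1) →
      (∀ i j, Commute (d i) (d j)) →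
    ∀ Q : Module.End 𝒪 W, (∀ j, Commute (d j) Q) →
      (∀ x : W, ϖ • x = 0 → (∀ j, d j x = x) → ∃ m : ℕ, (Q ^ m) x = 0) →
      ∀ x : W, ϖ • x = 0 → ∃ m : ℕ, (Q ^ m) x = 0

end Fermat.Agent.NEB.Geom
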