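import Fermat.Agent.S59.Lim.H94_ThetaTw
import Fermat.Agent.NEB.Geom.DefsW

/-!
# Item 72 (LG-NEB), package NEB-GEOM: the leaves W-UNIT, W-DIV, W-HSTEP, W-INV (helper94)

Proofs of `Stmt_W_unit`, `Stmt_W_DIV`, `Stmt_W_HSTEP`, `Stmt_W_INV` of `NEB/Geom/DefsW.lean`,
from the abstract lemmas of `S59/Lim/H94_ThetaTw.lean`.
-/

set_option autoImplicit false
set_option linter.unusedSectionVars false
set_option linter.unusedVariables false
set_option linter.style.haveILetI false

open IsLocalRing TensorProduct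

noncomputable section

namespace Fermat.Agent.NEB.Geom.H94

open Fermat.Agent.S59.Lim Fermat.Agent.S59.Lim.H2 Fermat.Agent.S59.Lim.H94
open Fermat.Agent.NEB.Geom

/-- **W-UNIT** -/
theorem stmt_W_unit : Stmt_W_unit := by
  intro 𝒪 _ _ A _ 𝕋 _ η θ t₀ ht₀
  exact thetaEta_bijective η θ t₀ ht₀

/-- **W-DIV** -/
theorem stmt_W_DIV : Stmt_W_DIV := by
  intro 𝒪 _ _ _ _ ϖ hϖ p hp hpm hp0 A _ htors hfin 𝕋 _ η θ t₀ ht₀ hN
  exact isDiv_thetaPart_of_pow η θ hϖ hp.out hpm hp0 htors hfin t₀ ht₀ hN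

/-- **W-HSTEP** -/
theorem stmt_W_HSTEP : Stmt_W_HSTEP := by
  intro 𝒪 _ _ _ _ ϖ hϖ p hp hpm hp0 A _ htors hfin 𝕋 _ η θ t₀ ht₀ r n d hd hyp j v hv hϖv hdv
  classical
  choose z hz using hd
  -- the data
  let g : Module.End ℤ A := ∑ e ∈ Finset.range (p ^ n), d j ^ e
  let f : Fin r → Module.End ℤ A := fun i => if i ≤ j then d i - 1 else 0
  let h : Fin r → Module.End ℤ A := fun i => if i < j then d i - 1 else 0
  have hgη : g = η (∑ e ∈ Finset.range (p ^ n), z j ^ e) := by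
    rw [map_sum]
    exact Finset.sum_congr rfl fun e _ => by rw [map_pow, hz]
  have hg : ∀ t, g ∘ₗ η t = η t ∘ₗ g := by
    intro t
    rw [hgη]
    exact ((Commute.all _ t).map η).eq
  have hh : ∀ i t, Commute (η t) (h i) := by
    intro i t
    show Commute (η t) (if i < j then d i - 1 else 0)
    split_ifs with hij
    · rw [← hz i, ← map_one η, ← map_sub]
      exact (Commute.all _ _).map η
    · exact Commute.zero_right _
  have hyp' : ∀ k : A, p • k = 0 → (∀ i, f i k = 0) →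
      ∃ (y : A) (m : ℕ), p • y = 0 ∧ (∀ i, h i y = 0) ∧ g y = (η t₀ ^ m) k := by
    intro k hk hfk
    have hk' : ∀ i, i ≤ j → d i k = k := by
      intro i hij
      have := hfk i
      simp only [f, if_pos hij, LinearMap.sub_apply, Module.End.one_apply] at this
      exact sub_eq_zero.mp this
    obtain ⟨w, m, h1, h2, h3⟩ := hyp j k hk hk'
    refine ⟨w, m, h1, ?_, ?_⟩
    · intro i
      show (if i < j then d i - 1 else 0 : Module.End ℤ A) w = 0
      split_ifs with hij
      · rw [LinearMap.sub_apply, Module.End.one_apply, h2 i hij, sub_self]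
      · rfl
    · rw [← h3]
      exact LinearMap.sum_apply _ _ _
  have hfv : ∀ i, (f i).baseChange 𝒪 v = 0 := by
    intro i
    show (if i ≤ j then d i - 1 else 0 : Module.End ℤ A).baseChange 𝒪 v = 0
    split_ifs with hij
    · rw [sub_one_baseChange, hdv i hij, sub_self]
    · rw [LinearMap.baseChange_zero]
      rfl
  obtain ⟨y, hy, hy1, hy2, hy3⟩ := theta_lift η η θ hϖ hp.out hpm hp0 htors hfin htors hfin t₀
    ht₀ g hg f h hh hyp' hv hϖv hfv
  refine ⟨y, hy, hy1, ?_, ?_⟩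
  · intro i hij
    have := hy2 i
    simp only [h, if_pos hij] at this
    rw [sub_one_baseChange] at this
    exact sub_eq_zero.mp this
  · rw [← sum_pow_baseChange]
    exact hy3

/-- **W-INV** -/
theorem stmt_W_INV : Stmt_W_INV := by
  intro 𝒪 _ _ _ _ ϖ hϖ p hp hpm hp0 A _ htorsA hfinA B _ htorsB hfinB 𝕋 _ η ηB θ t₀ ht₀ up hup
    G _ _ dia hdia hyp v hv hϖv hdv
  have hyp' : ∀ k : A, p • k = 0 → (∀ u : G, (dia u - 1) k = 0) →
      ∃ (y : B) (m : ℕ), p • y = 0 ∧ (∀ i : Empty, (Empty.elim i : Module.End ℤ B) y = 0) ∧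
        up y = (η t₀ ^ m) k := by
    intro k hk hfk
    obtain ⟨y₀, m, h1, h2⟩ := hyp k hk (fun u => by
      have := hfk u
      rw [LinearMap.sub_apply, Module.End.one_apply] at this
      exact sub_eq_zero.mp this)
    exact ⟨y₀, m, h1, fun i => i.elim, h2⟩
  obtain ⟨y, hy, hy1, -, hy3⟩ := theta_lift η ηB θ hϖ hp.out hpm hp0 htorsA hfinA htorsB hfinB t₀
    ht₀ up hup (fun u : G => dia u - 1) (fun i : Empty => (Empty.elim i : Module.End ℤ B))
    (fun i => i.elim) hyp' hv hϖv (fun u => by rw [sub_one_baseChange, hdv u, sub_self])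
  exact ⟨y, hy, hy1, hy3⟩

end Fermat.Agent.NEB.Geom.H94
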