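import Fermat.Agent.NEB.Geom.AsmDefs
import Fermat.Agent.NEB.Geom.H94_W

/-!
# Item 72 (LG-NEB), package NEB-GEOM: the assembly leaf A-HSTEP (helper94)

* `tEisPoly`      : the Eisenstein element `X_ℓ₀ Z_{ℓ₀⁻¹}^{j₀} - (ℓ₀ + 1)` of `𝕋⁺`;
* `etaTw_tEisPoly`: `η⁺(tEisPoly) = tEis = T_ℓ₀^H - (ℓ₀ + 1)`;
* `thetaTw_tEisPoly` : `θ⁺(tEisPoly) = θ(T_ℓ₀) - (ℓ₀ + 1)`;
* `a_hstep`       : `Stmt_TOWER_INST → Stmt_A_hstep D` (with `A[p]` finite: Z-FIN);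
* `isDiv_Wtw`     : `Stmt_TOWER_INST → IsDiv ϖ Wtw` (field `isDiv` of `TwSetup`, for A-ETA).
-/

set_option autoImplicit false
set_option linter.unusedSectionVars false
set_option linter.unusedVariables false
set_option linter.style.haveILetI false

noncomputable section

open ModularCurve AlgebraicCurve IsLocalRing TensorProduct Polynomial

namespace Fermat.Agent.NEB.Geom.H94

open Fermat.Agent.NEB Fermat.Agent.NEB.JH Fermat.Agent.S59.Asm Fermat.Agent.S59.Lim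
  Fermat.Agent.S59.Lim.H2 Fermat.Agent.NEB.Geom

section Gen

/-- `f u ^ j * f u⁻¹ ^ j = 1` for a monoid homomorphism on a group. -/
theorem map_pow_mul_map_inv_pow {G E : Type*} [Group G] [Monoid E] (f : G →* E) (u : G)
    (j : ℕ) : f u ^ j * f u⁻¹ ^ j = 1 := by
  have h : Commute u u⁻¹ := (Commute.refl u).inv_right
  rw [← map_pow, ← map_pow, ← map_mul, ← h.mul_pow, mul_inv_cancel, one_pow, map_one]

/-- the value of a ring homomorphism at an "Eisenstein" polynomial -/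
theorem map_eis_eq {ι : Type} {E : Type} [Ring E] (η : MvPolynomial ι ℤ →+* E) (i₁ i₂ : ι)
    (j m : ℕ) (T d d' : E) (h1 : η (MvPolynomial.X i₁) = T * d ^ j)
    (h2 : η (MvPolynomial.X i₂) = d') (hdd : d ^ j * d' ^ j = 1) :
    η (MvPolynomial.X i₁ * MvPolynomial.X i₂ ^ j - ((m : ℕ) : MvPolynomial ι ℤ))
      = T - ((m : ℕ) : ℤ) • (1 : E) := by
  rw [map_sub, map_mul, map_pow, h1, h2, map_natCast, mul_assoc, hdd, mul_one,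
    zsmul_one, Int.cast_natCast]

/-- the value of an evaluation at an "Eisenstein" polynomial -/
theorem eval_eis_eq {ι : Type} {k : Type} [Field k] (v : ι → k) (i₁ i₂ : ι)
    (j m : ℕ) (h2 : v i₂ = 1) :
    MvPolynomial.eval₂Hom (Int.castRingHom k) v
      (MvPolynomial.X i₁ * MvPolynomial.X i₂ ^ j - ((m : ℕ) : MvPolynomial ι ℤ))
      = v i₁ - (m : k) := by
  rw [map_sub, map_mul, map_pow, MvPolynomial.eval₂Hom_X', MvPolynomial.eval₂Hom_X',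
    map_natCast, h2, one_pow, mul_one]

end Gen

section GenTheta

variable {𝒪 : Type} [CommRing 𝒪] [IsLocalRing 𝒪] {𝕋 : Type} [CommRing 𝕋]
  {A : Type} [AddCommGroup A]

theorem coe_pow_thetaZ (η : 𝕋 →+* Module.End ℤ A) (θ : 𝕋 →+* ResidueField 𝒪)
    (g : Module.End ℤ A) (hg : ∀ t, Commute (η t) g) (e : ℕ) (x : ↥(thetaPart η θ)) :
    ((((thetaZ θ g hg) ^ e) x : ↥(thetaPart η θ)) : 𝒪 ⊗[ℤ] A)
      = ((g.baseChange 𝒪) ^ e) x.1 := by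
  induction e generalizing x with
  | zero => rfl
  | succ e ih =>
    rw [pow_succ, Module.End.mul_apply, ih, pow_succ, Module.End.mul_apply]
    rfl

theorem coe_nm_thetaZ (η : 𝕋 →+* Module.End ℤ A) (θ : 𝕋 →+* ResidueField 𝒪)
    (g : Module.End ℤ A) (hg : ∀ t, Commute (η t) g) (m : ℕ) (x : ↥(thetaPart η θ)) :
    ((Fermat.Agent.S59.TWH.H90.nm m (thetaZ θ g hg) x : ↥(thetaPart η θ)) : 𝒪 ⊗[ℤ] A)
      = ∑ e ∈ Finset.range m, ((g.baseChange 𝒪) ^ e) x.1 := by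
  rw [Fermat.Agent.S59.TWH.H90.nm_apply]
  rw [← Finset.sum_congr rfl (fun e _ => coe_pow_thetaZ η θ g hg e x)]
  exact map_sum (Submodule.subtype (thetaPart η θ)) _ _

/-- from the statement on elements of `𝒪 ⊗ A` to the statement on the subtype -/
theorem hstep_subtype (η : 𝕋 →+* Module.End ℤ A) (θ : 𝕋 →+* ResidueField 𝒪) {r : ℕ}
    (d : Fin r → Module.End ℤ A) (hd : ∀ j t, Commute (η t) (d j)) (ϖ : 𝒪) (m : ℕ)
    (h : ∀ (j : Fin r) (v : 𝒪 ⊗[ℤ] A), v ∈ thetaPart η θ → ϖ • v = 0 →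
      (∀ i, i ≤ j → (d i).baseChange 𝒪 v = v) →
      ∃ w ∈ thetaPart η θ, ϖ • w = 0 ∧ (∀ i, i < j → (d i).baseChange 𝒪 w = w) ∧
        ∑ e ∈ Finset.range m, (((d j).baseChange 𝒪) ^ e) w = v)
    (j : Fin r) (v : ↥(thetaPart η θ)) (hv : ϖ • v = 0)
    (hdv : ∀ i, i ≤ j → thetaZ θ (d i) (hd i) v = v) :
    ∃ w : ↥(thetaPart η θ), ϖ • w = 0 ∧ (∀ i, i < j → thetaZ θ (d i) (hd i) w = w) ∧
      Fermat.Agent.S59.TWH.H90.nm m (thetaZ θ (d j) (hd j)) w = v := by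
  obtain ⟨w, hw, hw1, hw2, hw3⟩ := h j v.1 v.2 (congrArg Subtype.val hv)
    (fun i hij => congrArg Subtype.val (hdv i hij))
  refine ⟨⟨w, hw⟩, Subtype.ext hw1, fun i hij => Subtype.ext (hw2 i hij), Subtype.ext ?_⟩
  exact (coe_nm_thetaZ η θ (d j) (hd j) m ⟨w, hw⟩).trans hw3

end GenTheta

section Eis

variable (N : ℕ) (S : Finset ℕ) (p n : ℕ) {r : ℕ} (qv : Fin r → ℕ)

/-- The Eisenstein element `X_ℓ₀ Z_{ℓ₀⁻¹}^{j₀} - (ℓ₀ + 1)` of `𝕋⁺`. -/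
def tEisPoly (ℓ₀ : ℕ) : PolyTw r (twC qv) :=
  MvPolynomial.X (Sum.inl ℓ₀) *
      MvPolynomial.X (Sum.inr (Sum.inr (Fermat.Agent.NEB.EIG.H39.unitOf (twC qv) ℓ₀)⁻¹))
        ^ jTw p n
    - ((ℓ₀ + 1 : ℕ) : PolyTw r (twC qv))

variable [NeZero (N * twC qv)] (h2 : 2 ≤ twC qv)

theorem etaTw_tEisPoly
    (hcomm : ∀ i j, Commute (opsTw N S p n qv h2 i) (opsTw N S p n qv h2 j))
    (ℓ₀ : ℕ) (hℓ₀ : GoodTw N S qv ℓ₀) :
    etaTw N S p n qv h2 hcomm (tEisPoly p n qv ℓ₀) = tEis N p n qv h2 ℓ₀ := by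
  classical
  have hX : etaTw N S p n qv h2 hcomm (MvPolynomial.X (Sum.inl ℓ₀))
      = Tz (N * twC qv) (twC qv) (twH p n qv) h2 (dvd_mul_left _ _) p ℓ₀ *
        diaZ (N * twC qv) (twC qv) (twH p n qv) h2 (dvd_mul_left _ _) p
          (Fermat.Agent.NEB.EIG.H39.unitOf (twC qv) ℓ₀) ^ jTw p n := by
    refine (polyHom_X _ _ _).trans ?_
    show (if GoodTw N S qv ℓ₀ then _ else _) = _
    rw [if_pos hℓ₀]
    rfl
  have hZ : etaTw N S p n qv h2 hcomm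
      (MvPolynomial.X (Sum.inr (Sum.inr (Fermat.Agent.NEB.EIG.H39.unitOf (twC qv) ℓ₀)⁻¹)))
      = diaZ (N * twC qv) (twC qv) (twH p n qv) h2 (dvd_mul_left _ _) p
          (Fermat.Agent.NEB.EIG.H39.unitOf (twC qv) ℓ₀)⁻¹ :=
    polyHom_X _ _ _
  exact map_eis_eq (etaTw N S p n qv h2 hcomm) _ _ (jTw p n) (ℓ₀ + 1) _ _ _ hX hZ
    (map_pow_mul_map_inv_pow
      (diaZ (N * twC qv) (twC qv) (twH p n qv) h2 (dvd_mul_left _ _) p) _ _)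

theorem thetaTw_tEisPoly {k : Type} [Field k] [NeZero N]
    (θ : CuspForm.heckeAlgebra N 2 (↑S : Set ℕ) →+* k) (α : Fin r → k)
    (ℓ₀ : ℕ) (hℓ₀ : GoodTw N S qv ℓ₀) :
    thetaTw N S qv θ α (tEisPoly p n qv ℓ₀) =
      θ (CuspForm.heckeAlgebra.T hℓ₀.1 hℓ₀.not_dvd hℓ₀.not_mem) - ((ℓ₀ : k) + 1) := by
  classical
  have h1 := eval_eis_eq (thetaVal N S qv θ α) (Sum.inl ℓ₀)
    (Sum.inr (Sum.inr (Fermat.Agent.NEB.EIG.H39.unitOf (twC qv) ℓ₀)⁻¹)) (jTw p n) (ℓ₀ + 1) rfl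
  have h2 : thetaVal N S qv θ α (Sum.inl ℓ₀)
      = θ (CuspForm.heckeAlgebra.T hℓ₀.1 hℓ₀.not_dvd hℓ₀.not_mem) := by
    show (if h : GoodTw N S qv ℓ₀ then _ else _) = _
    rw [dif_pos hℓ₀]
  refine h1.trans ?_
  rw [h2, Nat.cast_add, Nat.cast_one]

end Eis

section Main

variable {𝒪 : Type} [CommRing 𝒪] [IsDomain 𝒪] [IsDiscreteValuationRing 𝒪]
  {ϖ : 𝒪} {p : ℕ} {N : ℕ} [NeZero N] {S : Finset ℕ}
  {θ : CuspForm.heckeAlgebra N 2 (↑S : Set ℕ) →+* ResidueField 𝒪}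
  {ρbar : ResidualGaloisRep (ResidueField 𝒪)} {n : ℕ} {r : ℕ} {qv : Fin r → ℕ}
  [NeZero (N * twC qv)] [NeZero (twC qv)] [NeZero (twLevel N qv)]

/-- `θ⁺` does not vanish at the Eisenstein element. -/
theorem thetaTw_tEisPoly_ne (D : TwSetup 𝒪 ϖ p N S θ ρbar n qv) :
    thetaTw N S qv θ D.α (tEisPoly p n qv D.ℓ₀) ≠ 0 := by
  rw [thetaTw_tEisPoly N S p n qv θ D.α D.ℓ₀ D.hℓ₀]
  exact sub_ne_zero.mpr D.hne

theorem not_dvd_of_goodTw {ℓ : ℕ} (h : GoodTw N S qv ℓ) : ¬ ℓ ∣ N * twC qv := by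
  intro hd
  apply h.2.1
  have h1 : N * twC qv ∣ twLevel N qv := by
    unfold twLevel twC
    refine mul_dvd_mul_left N ?_
    rw [Finset.prod_pow]
    exact Dvd.intro _ (sq _).symm
  exact hd.trans h1

/-- **A-HSTEP**: norm surjectivity along the tower on `W[ϖ]`, from TOWER-INST and W-HSTEP. -/
theorem a_hstep [Finite (ResidueField 𝒪)] [Fact p.Prime] (hϖ : Irreducible ϖ)
    (hpm : (p : 𝒪) ∈ maximalIdeal 𝒪) (hp0 : (p : 𝒪) ≠ 0)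
    (D : TwSetup 𝒪 ϖ p N S θ ρbar n qv)
    (hfin : Finite {x : AH (N * twC qv) (twC qv) (twH p n qv) p // p • x = 0})
    (hT : Stmt_TOWER_INST N S p n qv D.h2) : Stmt_A_hstep D := by
  obtain ⟨-, hstep, -⟩ := hT D.hTW D.δ D.hδ D.ℓ₀ D.hℓ₀.1 (not_dvd_of_goodTw D.hℓ₀)
  have hE := etaTw_tEisPoly N S p n qv D.h2 D.hcomm D.ℓ₀ D.hℓ₀
  have key := stmt_W_HSTEP 𝒪 ϖ hϖ p hpm hp0 (AH (N * twC qv) (twC qv) (twH p n qv) p)
    (fun x => isPTors_coe x) hfin (PolyTw r (twC qv)) (etaTw N S p n qv D.h2 D.hcomm)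
    (thetaTw N S qv θ D.α) (tEisPoly p n qv D.ℓ₀) (thetaTw_tEisPoly_ne D) r n
    (fun j => diaZ (N * twC qv) (twC qv) (twH p n qv) D.h2 (dvd_mul_left _ _) p (D.δ j))
    (fun j => ⟨MvPolynomial.X (Sum.inr (Sum.inr (D.δ j))), polyHom_X _ _ _⟩)
    (fun j v hv hdv => by
      obtain ⟨w, m, h1, h2, h3⟩ := hstep j v hv hdv
      exact ⟨w, m, h1, h2, by rw [hE]; exact h3⟩)
  exact hstep_subtype (etaTw N S p n qv D.h2 D.hcomm) (thetaTw N S qv θ D.α)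
    (fun j => diaZ (N * twC qv) (twC qv) (twH p n qv) D.h2 (dvd_mul_left _ _) p (D.δ j))
    (fun j t => D.comm_dia (D.δ j) t) ϖ (p ^ n) key

/-- **A-ETA, field `isDiv`**: `W` is `IsDiv`, from TOWER-INST (DIV) and W-DIV. -/
theorem isDiv_Wtw [Finite (ResidueField 𝒪)] [Fact p.Prime] (hϖ : Irreducible ϖ)
    (hpm : (p : 𝒪) ∈ maximalIdeal 𝒪) (hp0 : (p : 𝒪) ≠ 0) (h2 : 2 ≤ twC qv)
    (hcomm : ∀ i j, Commute (opsTw N S p n qv h2 i) (opsTw N S p n qv h2 j))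
    (α : Fin r → ResidueField 𝒪) (hTW : TwHyp N S p n qv)
    (δ : Fin r → (ZMod (twC qv))ˣ) (hδ : IsDeltaGen p n qv δ)
    (ℓ₀ : ℕ) (hℓ₀ : GoodTw N S qv ℓ₀)
    (hne : θ (CuspForm.heckeAlgebra.T hℓ₀.1 hℓ₀.not_dvd hℓ₀.not_mem)
      ≠ ((ℓ₀ : ResidueField 𝒪) + 1))
    (hfin : Finite {x : AH (N * twC qv) (twC qv) (twH p n qv) p // p • x = 0})
    (hT : Stmt_TOWER_INST N S p n qv h2) :
    IsDiv ϖ ↥(Wtw 𝒪 N S p n qv h2 hcomm θ α) := by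
  obtain ⟨hdiv, -⟩ := hT hTW δ hδ ℓ₀ hℓ₀.1 (not_dvd_of_goodTw hℓ₀)
  have hE := etaTw_tEisPoly N S p n qv h2 hcomm ℓ₀ hℓ₀
  have hθ : thetaTw N S qv θ α (tEisPoly p n qv ℓ₀) ≠ 0 := by
    rw [thetaTw_tEisPoly N S p n qv θ α ℓ₀ hℓ₀]
    exact sub_ne_zero.mpr hne
  exact stmt_W_DIV 𝒪 ϖ hϖ p hpm hp0 (AH (N * twC qv) (twC qv) (twH p n qv) p)
    (fun x => isPTors_coe x) hfin (PolyTw r (twC qv)) (etaTw N S p n qv h2 hcomm)
    (thetaTw N S qv θ α) (tEisPoly p n qv ℓ₀) hθ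
    (by
      obtain ⟨Nn, hNn⟩ := hdiv
      exact ⟨Nn, fun x => by rw [hE]; exact hNn x⟩)

end Main

end Fermat.Agent.NEB.Geom.H94
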