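import Mathlib
import Fermat.Agent.R.H89_FrobCyc
import Fermat.Agent.Lib.Minkowski
import Fermat.Agent.Lib.FrobExists

/-!
# NEB-GEOM leaf Z-CYC (helper6): the cyclotomic character mod `c`

`chiC c : Gal(ℚ̄/ℚ) →* (ZMod c)ˣ` is the cyclotomic character mod `c`
(`σ ζ = ζ ^ χ_c(σ)` for every `c`-th root of unity `ζ`).

* `chiC_spec`, `chiC_eq_of_pow`, `chiC_eq_one_iff` : characterisation (any other definition of
  the cyclotomic character mod `c` is equal to this one by `chiC_ext`);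
* `chiC_unitsMap` : compatibility with `ZMod.unitsMap` for `d ∣ c`;
* `chiC_frob` : `χ_c(Frob_ℓ) = ℓ` for `ℓ` prime to `c`;
* `chiC_inertia` : inertia at `q` is trivial on `ζ_m`, `q ∤ m`;
* `chiC_surjective` : `χ_c` is surjective;
* `chiC_inertia_surjective_primePow` : `I_q ↠ (ℤ/q^k)ˣ`;
* `chiC_inertia_surjective` : for `c = q ^ k * m`, `q ∤ m`, the image of `I_q` under `χ_c` is
  exactly the kernel of `(ℤ/c)ˣ → (ℤ/m)ˣ`; `exists_inertia_chiC` : the component form.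
-/

set_option autoImplicit false
set_option linter.unusedSectionVars false
set_option linter.style.haveILetI false

namespace Fermat.Agent.NEB.Geom.H6

local notation "Γℚ" => (AlgebraicClosure ℚ ≃ₐ[ℚ] AlgebraicClosure ℚ)
local notation "Qb" => AlgebraicClosure ℚ

/-- The cyclotomic character mod `c` on `Gal(ℚ̄/ℚ)`. -/
noncomputable def chiC (c : ℕ) [NeZero c] : Γℚ →* (ZMod c)ˣ :=
  MonoidHom.mk'
    (fun σ => modularCyclotomicCharacter (AlgebraicClosure ℚ)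
      (HasEnoughRootsOfUnity.natCard_rootsOfUnity (AlgebraicClosure ℚ) c)
      (σ : AlgebraicClosure ℚ ≃+* AlgebraicClosure ℚ))
    (fun a b => by rw [← map_mul]; congr 1)

theorem chiC_apply (c : ℕ) [NeZero c] (σ : Γℚ) :
    chiC c σ = modularCyclotomicCharacter (AlgebraicClosure ℚ)
      (HasEnoughRootsOfUnity.natCard_rootsOfUnity (AlgebraicClosure ℚ) c)
      (σ : AlgebraicClosure ℚ ≃+* AlgebraicClosure ℚ) := rfl

/-- **Specification**: `σ ζ = ζ ^ χ_c(σ)` for every `c`-th root of unity. -/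
theorem chiC_spec (c : ℕ) [NeZero c] (σ : Γℚ) (ζ : Qb) (hζ : ζ ^ c = 1) :
    σ ζ = ζ ^ ((chiC c σ : (ZMod c)ˣ) : ZMod c).val := by
  have hu : IsUnit ζ := IsUnit.of_pow_eq_one hζ (NeZero.ne c)
  obtain ⟨t, rfl⟩ := hu
  have ht : t ∈ rootsOfUnity c Qb := by
    rw [mem_rootsOfUnity]
    apply Units.ext
    rw [Units.val_pow_eq_pow_val, hζ, Units.val_one]
  have := modularCyclotomicCharacter.spec (AlgebraicClosure ℚ)
      (HasEnoughRootsOfUnity.natCard_rootsOfUnity (AlgebraicClosure ℚ) c)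
      (σ : AlgebraicClosure ℚ ≃+* AlgebraicClosure ℚ) ht
  rw [chiC_apply]
  exact this

/-- **Uniqueness**: if `σ` raises every `c`-th root of unity to the power `m`, then
`χ_c(σ) = m mod c`. -/
theorem chiC_eq_of_pow (c : ℕ) [NeZero c] (σ : Γℚ) (m : ℕ)
    (h : ∀ t : Qb, t ^ c = 1 → σ t = t ^ m) :
    ((chiC c σ : (ZMod c)ˣ) : ZMod c) = (m : ZMod c) := by
  rw [chiC_apply]
  symm
  apply modularCyclotomicCharacter.unique
  intro t ht
  have ht1 : ((t : Qbˣ) : Qb) ^ c = 1 := by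
    have := (mem_rootsOfUnity c t).1 ht
    rw [← Units.val_pow_eq_pow_val, this, Units.val_one]
  have h1 := h _ ht1
  rw [ZMod.val_natCast]
  change σ (t : Qb) = _
  rw [h1]
  exact pow_eq_pow_mod m ht1

/-- It is enough to test on one primitive `c`-th root of unity. -/
theorem chiC_eq_of_pow_primitive (c : ℕ) [NeZero c] (σ : Γℚ) (m : ℕ) (ζ : Qb)
    (hζ : IsPrimitiveRoot ζ c) (h : σ ζ = ζ ^ m) :
    ((chiC c σ : (ZMod c)ˣ) : ZMod c) = (m : ZMod c) := by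
  apply chiC_eq_of_pow
  intro t ht
  obtain ⟨i, -, rfl⟩ := hζ.eq_pow_of_pow_eq_one ht
  rw [map_pow, h, ← pow_mul, ← pow_mul, mul_comm]

/-- If `σ` fixes every `c`-th root of unity then `χ_c(σ) = 1`. -/
theorem chiC_eq_one_of_fix (c : ℕ) [NeZero c] (σ : Γℚ)
    (h : ∀ t : Qb, t ^ c = 1 → σ t = t) : chiC c σ = 1 := by
  apply Units.ext
  rw [chiC_eq_of_pow c σ 1 (fun t ht => by rw [h t ht, pow_one])]
  simp

theorem chiC_eq_one_iff (c : ℕ) [NeZero c] (σ : Γℚ) :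
    chiC c σ = 1 ↔ ∀ t : Qb, t ^ c = 1 → σ t = t := by
  refine ⟨fun h t ht => ?_, chiC_eq_one_of_fix c σ⟩
  have h1 := chiC_spec c σ t ht
  rw [h, Units.val_one] at h1
  by_cases hc : c = 1
  · subst hc
    rw [pow_one] at ht
    rw [ht, map_one]
  · haveI : Fact (1 < c) := ⟨lt_of_le_of_ne (Nat.pos_of_ne_zero (NeZero.ne c)) (Ne.symm hc)⟩
    rw [ZMod.val_one, pow_one] at h1
    exact h1

/-- Two elements of `(ZMod c)ˣ`-valued maps agreeing with the spec are equal: any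
homomorphism (indeed any map) `χ` with `σ ζ = ζ ^ χ(σ)` on the `c`-th roots of unity is `chiC`. -/
theorem chiC_ext (c : ℕ) [NeZero c] (χ : Γℚ → (ZMod c)ˣ)
    (h : ∀ (σ : Γℚ) (t : Qb), t ^ c = 1 → σ t = t ^ ((χ σ : (ZMod c)ˣ) : ZMod c).val)
    (σ : Γℚ) : χ σ = chiC c σ := by
  apply Units.ext
  rw [chiC_eq_of_pow c σ _ (h σ), ZMod.natCast_val, ZMod.cast_id', id]

/-- Compatibility: `χ_c` reduces to `χ_d` for `d ∣ c`. -/
theorem chiC_unitsMap {c d : ℕ} [NeZero c] [NeZero d] (hd : d ∣ c) (σ : Γℚ) :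
    ZMod.unitsMap hd (chiC c σ) = chiC d σ := by
  apply Units.ext
  have key : ((chiC d σ : (ZMod d)ˣ) : ZMod d) =
      ((((chiC c σ : (ZMod c)ˣ) : ZMod c).val : ℕ) : ZMod d) := by
    apply chiC_eq_of_pow
    intro t ht
    apply chiC_spec c σ t
    obtain ⟨e, rfl⟩ := hd
    rw [pow_mul, ht, one_pow]
  rw [key, ZMod.unitsMap_val, ZMod.natCast_val]

/-- **`χ_c(Frob_ℓ) = ℓ`** for a prime `ℓ` not dividing `c`. -/
theorem chiC_frob (c : ℕ) [NeZero c] (ℓ : ℕ) (hℓ : ℓ.Prime) (hc : c.Coprime ℓ)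
    (A : ValuationSubring Qb) (hA : A.LiesOverPrime ℓ) (σ : Γℚ) (hσ : A.IsFrobeniusAt σ ℓ) :
    ((chiC c σ : (ZMod c)ˣ) : ZMod c) = (ℓ : ZMod c) :=
  chiC_eq_of_pow c σ ℓ
    (fun t ht => Fermat.Agent.R.H89.stmt_FrobCyc ℓ hℓ A hA σ hσ c hc t ht)

/-- Unit form of `chiC_frob`. -/
theorem chiC_frob_unit (c : ℕ) [NeZero c] (ℓ : ℕ) (hℓ : ℓ.Prime) (hc : c.Coprime ℓ)
    (A : ValuationSubring Qb) (hA : A.LiesOverPrime ℓ) (σ : Γℚ) (hσ : A.IsFrobeniusAt σ ℓ) :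
    chiC c σ = ZMod.unitOfCoprime ℓ hc.symm := by
  apply Units.ext
  rw [chiC_frob c ℓ hℓ hc A hA σ hσ, ZMod.coe_unitOfCoprime]

/-- **Inertia at `q` acts trivially on `ζ_m`, `q ∤ m`.** -/
theorem inertia_fixes (q : ℕ) (A : ValuationSubring Qb) (hA : A.LiesOverPrime q)
    (σ : Γℚ) (hσ : σ ∈ A.inertiaSubgroupIn ℚ) (m : ℕ) (hm : m.Coprime q)
    (ζ : Qb) (hζ : ζ ^ m = 1) : σ ζ = ζ :=
  Fermat.Agent.R.H89.inertia_fixes_rootsOfUnity q A hA σ hσ m hm ζ hζ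

/-- **Inertia at `q` is killed by `χ_m`, `q ∤ m`.** -/
theorem chiC_inertia (m : ℕ) [NeZero m] (q : ℕ) (hm : m.Coprime q)
    (A : ValuationSubring Qb) (hA : A.LiesOverPrime q)
    (σ : Γℚ) (hσ : σ ∈ A.inertiaSubgroupIn ℚ) : chiC m σ = 1 :=
  chiC_eq_one_of_fix m σ (fun t ht => inertia_fixes q A hA σ hσ m hm t ht)

/-- **`χ_c` is surjective** (irreducibility of the cyclotomic polynomial). -/
theorem chiC_surjective (c : ℕ) [NeZero c] : Function.Surjective (chiC c) := by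
  intro u
  obtain ⟨ζ, hζ⟩ := HasEnoughRootsOfUnity.exists_primitiveRoot Qb c
  have hcop : ((u : ZMod c).val).Coprime c := ZMod.val_coe_unit_coprime u
  have hζ' : IsPrimitiveRoot (ζ ^ (u : ZMod c).val) c := hζ.pow_of_coprime _ hcop
  have hpos : 0 < c := Nat.pos_of_ne_zero (NeZero.ne c)
  have h1 : minpoly ℚ ζ = Polynomial.cyclotomic c ℚ :=
    (Polynomial.cyclotomic_eq_minpoly_rat hζ hpos).symm
  have h2 : minpoly ℚ (ζ ^ (u : ZMod c).val) = Polynomial.cyclotomic c ℚ :=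
    (Polynomial.cyclotomic_eq_minpoly_rat hζ' hpos).symm
  have hconj : IsConjRoot ℚ (ζ ^ (u : ZMod c).val) ζ := by
    rw [isConjRoot_def, h1, h2]
  haveI : Algebra.IsAlgebraic ℚ (AlgebraicClosure ℚ) := AlgebraicClosure.isAlgebraic ℚ
  haveI : IsAlgClosure ℚ (AlgebraicClosure ℚ) := ⟨inferInstance, inferInstance⟩
  haveI : IsGalois ℚ (AlgebraicClosure ℚ) := inferInstance
  haveI : Normal ℚ (AlgebraicClosure ℚ) := IsGalois.to_normal
  obtain ⟨σ, hσ⟩ := hconj.exists_algEquiv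
  refine ⟨σ, ?_⟩
  apply Units.ext
  rw [chiC_eq_of_pow_primitive c σ _ ζ hζ hσ, ZMod.natCast_val, ZMod.cast_id', id]

/-- **`I_q ↠ (ℤ/q^k)ˣ`** (Minkowski: `ℚ(ζ_{q^k})/ℚ` is totally ramified at `q`, because the
fixed field of the image of inertia is unramified everywhere). -/
theorem chiC_inertia_surjective_primePow (q : ℕ) (hq : q.Prime) (k : ℕ) [NeZero (q ^ k)]
    (A : ValuationSubring Qb) (hA : A.LiesOverPrime q) (u : (ZMod (q ^ k))ˣ) :
    ∃ σ ∈ A.inertiaSubgroupIn ℚ, chiC (q ^ k) σ = u := by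
  classical
  set U : Subgroup (ZMod (q ^ k))ˣ := (A.inertiaSubgroupIn ℚ).map (chiC (q ^ k)) with hU
  let ψ : Γℚ →* (ZMod (q ^ k))ˣ ⧸ U := (QuotientGroup.mk' U).comp (chiC (q ^ k))
  have hψ : ∀ σ, ψ σ = 1 := by
    apply Fermat.Agent.Lib.Minkowski.hom_eq_one_of_unramified_everywhere
    · obtain ⟨ζ, hζ⟩ := HasEnoughRootsOfUnity.exists_primitiveRoot Qb (q ^ k)
      refine ⟨{ζ}, fun σ hσ => ?_⟩
      have h1 : chiC (q ^ k) σ = 1 := by
        apply chiC_eq_one_of_fix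
        intro t ht
        obtain ⟨i, -, rfl⟩ := hζ.eq_pow_of_pow_eq_one ht
        rw [map_pow, hσ ζ (Finset.mem_singleton_self ζ)]
      change (QuotientGroup.mk' U) (chiC (q ^ k) σ) = 1
      rw [h1, map_one]
    · intro ℓ hℓ
      by_cases hℓq : ℓ = q
      · subst hℓq
        refine ⟨A, hA, fun σ hσ => ?_⟩
        change (QuotientGroup.mk' U) (chiC (ℓ ^ k) σ) = 1
        rw [QuotientGroup.mk'_apply, QuotientGroup.eq_one_iff]
        exact Subgroup.mem_map_of_mem _ hσ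
      · obtain ⟨A', hA'⟩ := Fermat.Agent.Lib.FrobExists.exists_liesOverPrime ℓ hℓ
        refine ⟨A', hA', fun σ hσ => ?_⟩
        have hcop : (q ^ k).Coprime ℓ :=
          Nat.Coprime.pow_left k ((Nat.coprime_primes hq hℓ).2 (Ne.symm hℓq))
        have h1 := chiC_inertia (q ^ k) ℓ hcop A' hA' σ hσ
        change (QuotientGroup.mk' U) (chiC (q ^ k) σ) = 1
        rw [h1, map_one]
  obtain ⟨τ, rfl⟩ := chiC_surjective (q ^ k) u
  have h := hψ τ
  have hmem : chiC (q ^ k) τ ∈ U := by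
    change (QuotientGroup.mk' U) (chiC (q ^ k) τ) = 1 at h
    rwa [QuotientGroup.mk'_apply, QuotientGroup.eq_one_iff] at h
  obtain ⟨σ, hσ, hσe⟩ := Subgroup.mem_map.1 hmem
  exact ⟨σ, hσ, hσe⟩

/-- **`I_q ↠ (ℤ/q)ˣ`.** -/
theorem chiC_inertia_surjective_prime (q : ℕ) (hq : q.Prime) [NeZero q]
    (A : ValuationSubring Qb) (hA : A.LiesOverPrime q) (u : (ZMod q)ˣ) :
    ∃ σ ∈ A.inertiaSubgroupIn ℚ, chiC q σ = u := by
  haveI : NeZero (q ^ 1) := ⟨by rw [pow_one]; exact NeZero.ne q⟩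
  have hd : q ∣ q ^ 1 := by rw [pow_one]
  have hsurj : Function.Surjective (ZMod.unitsMap hd) := ZMod.unitsMap_surjective hd
  obtain ⟨v, rfl⟩ := hsurj u
  obtain ⟨σ, hσ, hσv⟩ := chiC_inertia_surjective_primePow q hq 1 A hA v
  exact ⟨σ, hσ, by rw [← hσv, chiC_unitsMap]⟩

/-- Chinese remainder theorem, injectivity on units. -/
theorem units_ext_of_coprime {a b : ℕ} (hab : a.Coprime b) (x y : (ZMod (a * b))ˣ)
    (h1 : ZMod.unitsMap (dvd_mul_right a b) x = ZMod.unitsMap (dvd_mul_right a b) y)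
    (h2 : ZMod.unitsMap (dvd_mul_left b a) x = ZMod.unitsMap (dvd_mul_left b a) y) : x = y := by
  apply Units.ext
  have e1 := congrArg (fun z : (ZMod a)ˣ => (z : ZMod a)) h1
  have e2 := congrArg (fun z : (ZMod b)ˣ => (z : ZMod b)) h2
  simp only [ZMod.unitsMap_val] at e1 e2
  apply (ZMod.chineseRemainder hab).injective
  apply Prod.ext
  · simpa [ZMod.chineseRemainder] using e1
  · simpa [ZMod.chineseRemainder] using e2

/-- **The image of inertia at `q` in `(ℤ/c)ˣ`, `c = q ^ k * m` with `q ∤ m`**: every unit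
which is trivial mod `m` is `χ_c(σ)` for some `σ ∈ I_q`. -/
theorem chiC_inertia_surjective (q : ℕ) (hq : q.Prime) (k m : ℕ) (hm : m.Coprime q)
    [NeZero (q ^ k * m)] (A : ValuationSubring Qb) (hA : A.LiesOverPrime q)
    (u : (ZMod (q ^ k * m))ˣ) (hu : ZMod.unitsMap (dvd_mul_left m (q ^ k)) u = 1) :
    ∃ σ ∈ A.inertiaSubgroupIn ℚ, chiC (q ^ k * m) σ = u := by
  have hne : q ^ k * m ≠ 0 := NeZero.ne _
  haveI : NeZero (q ^ k) := ⟨fun h => hne (by rw [h, zero_mul])⟩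
  haveI : NeZero m := ⟨fun h => hne (by rw [h, mul_zero])⟩
  obtain ⟨σ, hσ, hσe⟩ := chiC_inertia_surjective_primePow q hq k A hA
    (ZMod.unitsMap (dvd_mul_right (q ^ k) m) u)
  refine ⟨σ, hσ, ?_⟩
  apply units_ext_of_coprime (Nat.Coprime.pow_left k hm.symm)
  · rw [chiC_unitsMap, hσe]
  · rw [chiC_unitsMap, hu, chiC_inertia m q hm A hA σ hσ]

/-- The image of inertia at `q` under `χ_c`, `c = q ^ k * m` with `q ∤ m`, is exactly the kernel
of the reduction `(ℤ/c)ˣ → (ℤ/m)ˣ`. -/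
theorem map_inertia_chiC (q : ℕ) (hq : q.Prime) (k m : ℕ) (hm : m.Coprime q)
    [NeZero (q ^ k * m)] (A : ValuationSubring Qb) (hA : A.LiesOverPrime q) :
    (A.inertiaSubgroupIn ℚ).map (chiC (q ^ k * m)) =
      (ZMod.unitsMap (dvd_mul_left m (q ^ k))).ker := by
  have hne : q ^ k * m ≠ 0 := NeZero.ne _
  haveI : NeZero m := ⟨fun h => hne (by rw [h, mul_zero])⟩
  ext u
  rw [Subgroup.mem_map, MonoidHom.mem_ker]
  constructor
  · rintro ⟨σ, hσ, rfl⟩
    rw [chiC_unitsMap, chiC_inertia m q hm A hA σ hσ]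
  · intro hu
    exact chiC_inertia_surjective q hq k m hm A hA u hu

/-- Version of `chiC_inertia_surjective` for a general modulus `c` with a factorisation
`c = q ^ k * m`, `q ∤ m`. -/
theorem chiC_inertia_surjective' (c q k m : ℕ) [NeZero c] (hq : q.Prime) (hm : m.Coprime q)
    (hc : c = q ^ k * m) (hmc : m ∣ c) (A : ValuationSubring Qb) (hA : A.LiesOverPrime q)
    (u : (ZMod c)ˣ) (hu : ZMod.unitsMap hmc u = 1) :
    ∃ σ ∈ A.inertiaSubgroupIn ℚ, chiC c σ = u := by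
  subst hc
  exact chiC_inertia_surjective q hq k m hm A hA u hu

/-- **Component form** (the Taylor–Wiles case `c = ∏ q_j`, `q = q_j`, `m = c / q_j`): for every
`v ∈ (ℤ/q^k)ˣ` there is `σ ∈ I_q` with `χ_c(σ) ≡ v mod q^k` and `χ_c(σ) ≡ 1 mod m`. -/
theorem exists_inertia_chiC (c q k m : ℕ) [NeZero c] (hq : q.Prime) (hm : m.Coprime q)
    (hqc : q ^ k ∣ c) (hmc : m ∣ c) (A : ValuationSubring Qb) (hA : A.LiesOverPrime q)
    (v : (ZMod (q ^ k))ˣ) :
    ∃ σ ∈ A.inertiaSubgroupIn ℚ, ZMod.unitsMap hqc (chiC c σ) = v ∧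
      ZMod.unitsMap hmc (chiC c σ) = 1 := by
  have hne : c ≠ 0 := NeZero.ne _
  haveI : NeZero (q ^ k) := ⟨fun h => hne (by rw [h, zero_dvd_iff] at hqc; exact hqc)⟩
  haveI : NeZero m := ⟨fun h => hne (by rw [h, zero_dvd_iff] at hmc; exact hmc)⟩
  obtain ⟨σ, hσ, hσe⟩ := chiC_inertia_surjective_primePow q hq k A hA v
  exact ⟨σ, hσ, by rw [chiC_unitsMap, hσe], by rw [chiC_unitsMap, chiC_inertia m q hm A hA σ hσ]⟩

end Fermat.Agent.NEB.Geom.H6
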