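import Fermat.Agent.NEB.Geom.Defs
import Fermat.Agent.NEB.Geom.DefsW
import Fermat.Agent.NEB.Geom.H6_ZCyc
import Fermat.Agent.NEB.EIG.H39_OP

/-!
# Item 72 (LG-NEB), package NEB-GEOM (helper84): the concrete `ℤ`-level objects

* `ptors p X`, `resP p f` : the `p`-power torsion subgroup and the restriction of a homomorphism.
* `AH M c H p = J_H[p^∞]` with its operators `Tz ℓ` (`T_ℓ^H`), `Uz q` (`U_q^H`),
  `diaZ` (diamonds), `galZ` (Galois), and the twisted operators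
  `TzTw j ℓ = T_ℓ^H ⟨ℓ⟩^j`, `galTw j σ = σ ⟨χ_c σ⟩^(j+1)`.
* `A0 M p = J₀(M)[p^∞]` with `Tz0`, `galZ0`, `upZ`, `downZ`.
* the Taylor–Wiles setting: `twC qv = ∏ q_j`, `twH p n qv` = the `p^n`-th powers in `(ℤ/c)ˣ`.

Definitions only; no `sorry`.
-/

set_option autoImplicit false
set_option linter.unusedSectionVars false
set_option linter.style.haveILetI false

noncomputable section

open ModularCurve AlgebraicCurve

namespace Fermat.Agent.NEB.Geom

open Fermat.Agent.NEB Fermat.Agent.NEB.JH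

/-! ## `p`-power torsion -/

/-- The `p`-power torsion subgroup. -/
def ptors (p : ℕ) (X : Type*) [AddCommGroup X] : AddSubgroup X where
  carrier := {x | IsPTors p x}
  zero_mem' := ⟨0, smul_zero _⟩
  add_mem' := by
    rintro x y ⟨k, hk⟩ ⟨k', hk'⟩
    refine ⟨k + k', ?_⟩
    have h1 : (p ^ (k + k') : ℕ) • x = 0 := by
      rw [pow_add, mul_comm, mul_smul, hk, smul_zero]
    have h2 : (p ^ (k + k') : ℕ) • y = 0 := by
      rw [pow_add, mul_smul, hk', smul_zero]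
    rw [smul_add, h1, h2, add_zero]
  neg_mem' := by
    rintro x ⟨k, hk⟩
    exact ⟨k, by rw [smul_neg, hk, neg_zero]⟩

theorem mem_ptors {p : ℕ} {X : Type*} [AddCommGroup X] {x : X} :
    x ∈ ptors p X ↔ IsPTors p x := Iff.rfl

theorem isPTors_map {p : ℕ} {X Y : Type*} [AddCommGroup X] [AddCommGroup Y] (f : X →+ Y)
    {x : X} (hx : IsPTors p x) : IsPTors p (f x) := by
  obtain ⟨k, hk⟩ := hx
  exact ⟨k, by rw [← map_nsmul, hk, map_zero]⟩

/-- Restriction of a homomorphism to the `p`-power torsion, as a `ℤ`-linear map. -/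
def resP (p : ℕ) {X Y : Type*} [AddCommGroup X] [AddCommGroup Y] (f : X →+ Y) :
    ↥(ptors p X) →ₗ[ℤ] ↥(ptors p Y) :=
  AddMonoidHom.toIntLinearMap
    ((f.comp (ptors p X).subtype).codRestrict (ptors p Y) (fun x => isPTors_map f x.2))

@[simp] theorem coe_resP (p : ℕ) {X Y : Type*} [AddCommGroup X] [AddCommGroup Y] (f : X →+ Y)
    (x : ↥(ptors p X)) : ((resP p f x : ↥(ptors p Y)) : Y) = f (x : X) := rfl

theorem resP_comp (p : ℕ) {X Y Z : Type*} [AddCommGroup X] [AddCommGroup Y] [AddCommGroup Z]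
    (g : Y →+ Z) (f : X →+ Y) : resP p (g.comp f) = (resP p g) ∘ₗ (resP p f) := by
  ext x; rfl

theorem resP_id (p : ℕ) {X : Type*} [AddCommGroup X] :
    resP p (AddMonoidHom.id X) = LinearMap.id := by
  ext x; rfl

theorem resP_add (p : ℕ) {X Y : Type*} [AddCommGroup X] [AddCommGroup Y] (f g : X →+ Y) :
    resP p (f + g) = resP p f + resP p g := by
  ext x; rfl

theorem resP_sub (p : ℕ) {X Y : Type*} [AddCommGroup X] [AddCommGroup Y] (f g : X →+ Y) :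
    resP p (f - g) = resP p f - resP p g := by
  ext x; rfl

theorem resP_mul (p : ℕ) {X : Type*} [AddCommGroup X] (f g : X →+ X) :
    resP p (f.comp g) = (resP p f : Module.End ℤ ↥(ptors p X)) * resP p g := by
  ext x; rfl

theorem isPTors_coe {p : ℕ} {X : Type*} [AddCommGroup X] (x : ↥(ptors p X)) :
    ∃ k : ℕ, p ^ k • x = 0 := by
  obtain ⟨k, hk⟩ := x.2
  exact ⟨k, Subtype.ext hk⟩

/-! ## The operators on `J_H[p^∞]` -/

section JHop

variable (M c : ℕ) [NeZero M] (H : Subgroup (ZMod c)ˣ) (h2 : 2 ≤ c) (hc : c ∣ M) (p : ℕ)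

/-- `J_H[p^∞]`. -/
abbrev AH : Type := ↥(ptors p (JH M c H))

/-- `J₀(M)[p^∞]`. -/
abbrev A0 : Type := ↥(ptors p (JZero M))

/-- `T_ℓ^H` on `J_H[p^∞]` (`ℓ ∤ M`; junk for `ℓ = 0`). -/
def Tz (ℓ : ℕ) : Module.End ℤ (AH M c H p) :=
  if h : ℓ = 0 then 0 else
    haveI : NeZero ℓ := ⟨h⟩
    resP p (TH (heckeData M c ℓ H h2 hc).hβ)

/-- `U_q^H` on `J_H[p^∞]` (`q ∣ M`; junk for `q = 0`). -/
def Uz (q : ℕ) : Module.End ℤ (AH M c H p) :=
  if h : q = 0 then 0 else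
    haveI : NeZero q := ⟨h⟩
    resP p (UH (heckeData M c q H h2 hc).hβ)

theorem Tz_apply (ℓ : ℕ) [NeZero ℓ] (x : AH M c H p) :
    ((Tz M c H h2 hc p ℓ x : AH M c H p) : JH M c H)
      = TH (heckeData M c ℓ H h2 hc).hβ (x : JH M c H) := by
  have h : ¬ ℓ = 0 := NeZero.ne ℓ
  simp only [Tz, dif_neg h]
  rfl

theorem Uz_apply (q : ℕ) [NeZero q] (x : AH M c H p) :
    ((Uz M c H h2 hc p q x : AH M c H p) : JH M c H)
      = UH (heckeData M c q H h2 hc).hβ (x : JH M c H) := by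
  have h : ¬ q = 0 := NeZero.ne q
  simp only [Uz, dif_neg h]
  rfl

/-- The diamond operators on `J_H[p^∞]`. -/
def diaZ : (ZMod c)ˣ →* Module.End ℤ (AH M c H p) where
  toFun u := resP p (diamond (diamondData M c H h2 hc) u)
  map_one' := by
    ext x
    show (diamondData M c H h2 hc).ρ 1 • (x : JH M c H) = (x : JH M c H)
    rw [map_one, one_smul]
  map_mul' u v := by
    ext x
    show (diamondData M c H h2 hc).ρ (u * v) • (x : JH M c H)
      = (diamondData M c H h2 hc).ρ u • ((diamondData M c H h2 hc).ρ v • (x : JH M c H))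
    rw [map_mul, mul_smul]

theorem diaZ_apply (u : (ZMod c)ˣ) (x : AH M c H p) :
    ((diaZ M c H h2 hc p u x : AH M c H p) : JH M c H)
      = (diamondData M c H h2 hc).ρ u • (x : JH M c H) := rfl

/-- The Galois action on `J_H[p^∞]`. -/
def galZ : GalQ →* Module.End ℤ (AH M c H p) where
  toFun σ := resP p (DistribSMul.toAddMonoidHom (JH M c H) σ)
  map_one' := by
    ext x
    show (1 : GalQ) • (x : JH M c H) = (x : JH M c H)
    rw [one_smul]
  map_mul' σ τ := by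
    ext x
    show (σ * τ) • (x : JH M c H) = σ • (τ • (x : JH M c H))
    rw [mul_smul]

theorem galZ_apply (σ : GalQ) (x : AH M c H p) :
    ((galZ M c H p σ x : AH M c H p) : JH M c H) = σ • (x : JH M c H) := rfl

/-- The twisted Hecke operator `T'_ℓ = T_ℓ^H ⟨ℓ⟩^j`. -/
def TzTw (j ℓ : ℕ) : Module.End ℤ (AH M c H p) :=
  Tz M c H h2 hc p ℓ * diaZ M c H h2 hc p (Fermat.Agent.NEB.EIG.H39.unitOf c ℓ) ^ j

/-- The twisted Galois action `gal'(σ) = σ ⟨χ_c σ⟩^(j+1)`, as a function (it is a monoid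
homomorphism: `galTw_mul`). -/
def galTw [NeZero c] (j : ℕ) (σ : GalQ) : Module.End ℤ (AH M c H p) :=
  galZ M c H p σ * diaZ M c H h2 hc p (Fermat.Agent.NEB.Geom.H6.chiC c σ) ^ (j + 1)

/-- `T_ℓ` on `J₀(M)[p^∞]` (`= U_ℓ` if `ℓ ∣ M`). -/
def Tz0 (ℓ : ℕ) : Module.End ℤ (A0 M p) :=
  if h : ℓ = 0 then 0 else
    haveI : NeZero ℓ := ⟨h⟩
    resP p (T0 M ℓ)

theorem Tz0_apply (ℓ : ℕ) [NeZero ℓ] (x : A0 M p) :
    ((Tz0 M p ℓ x : A0 M p) : JZero M) = T0 M ℓ (x : JZero M) := by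
  have h : ¬ ℓ = 0 := NeZero.ne ℓ
  simp only [Tz0, dif_neg h]
  rfl

/-- `U_q = β_* α^*` on `J₀(M)[p^∞]` (`q ∣ M`; the transpose of `Tz0`). -/
def Uz0 (q : ℕ) : Module.End ℤ (A0 M p) :=
  if h : q = 0 then 0 else
    haveI : NeZero q := ⟨h⟩
    resP p (U0 M q)

theorem Uz0_apply (q : ℕ) [NeZero q] (x : A0 M p) :
    ((Uz0 M p q x : A0 M p) : JZero M) = U0 M q (x : JZero M) := by
  have h : ¬ q = 0 := NeZero.ne q
  simp only [Uz0, dif_neg h]
  rfl

/-- The Galois action on `J₀(M)[p^∞]`. -/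
def galZ0 : GalQ →* Module.End ℤ (A0 M p) where
  toFun σ := resP p (DistribSMul.toAddMonoidHom (JZero M) σ)
  map_one' := by
    ext x
    show (1 : GalQ) • (x : JZero M) = (x : JZero M)
    rw [one_smul]
  map_mul' σ τ := by
    ext x
    show (σ * τ) • (x : JZero M) = σ • (τ • (x : JZero M))
    rw [mul_smul]

/-- `π^* : J₀(M)[p^∞] → J_H[p^∞]`. -/
def upZ : A0 M p →ₗ[ℤ] AH M c H p := resP p (piUp M c H)

/-- `π_* : J_H[p^∞] → J₀(M)[p^∞]`. -/
def downZ : AH M c H p →ₗ[ℤ] A0 M p := resP p (piDown M c H)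

end JHop

/-! ## The Taylor–Wiles setting -/

/-- `c = ∏ q_j`. -/
def twC {r : ℕ} (qv : Fin r → ℕ) : ℕ := ∏ j, qv j

/-- `H` = the `p^n`-th powers in `(ℤ/c)ˣ`. -/
def twH (p n : ℕ) {r : ℕ} (qv : Fin r → ℕ) : Subgroup (ZMod (twC qv))ˣ :=
  (powMonoidHom (p ^ n) : (ZMod (twC qv))ˣ →* (ZMod (twC qv))ˣ).range

/-! ## The polynomial Hecke ring `𝕋⁺ = ℤ[x_ℓ, y_j, z_u]` -/

/-- The ring homomorphism from a polynomial ring to a (non-commutative) ring `E` given by a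
commuting family. -/
def polyHom {ι : Type} {E : Type} [Ring E] (f : ι → E) (hf : ∀ i j, Commute (f i) (f j)) :
    MvPolynomial ι ℤ →+* E :=
  letI : CommRing ↥(Algebra.adjoin ℤ (Set.range f)) :=
    { (inferInstance : Ring ↥(Algebra.adjoin ℤ (Set.range f))) with
      mul_comm := by
        haveI := Algebra.isMulCommutative_adjoin ℤ (s := Set.range f) (by
          rintro _ ⟨i, rfl⟩ _ ⟨j, rfl⟩
          exact (hf i j).eq)
        exact fun a b => mul_comm' a b }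
  (Algebra.adjoin ℤ (Set.range f)).val.toRingHom.comp
    (MvPolynomial.aeval (R := ℤ) (S₁ := ↥(Algebra.adjoin ℤ (Set.range f)))
      (fun i => (⟨f i, Algebra.subset_adjoin ⟨i, rfl⟩⟩ :
        ↥(Algebra.adjoin ℤ (Set.range f))))).toRingHom

theorem polyHom_X {ι : Type} {E : Type} [Ring E] (f : ι → E) (hf : ∀ i j, Commute (f i) (f j))
    (i : ι) : polyHom f hf (MvPolynomial.X i) = f i := by
  unfold polyHom
  simp

section TW

open Fermat.Agent.S59.Asm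

variable (N : ℕ) (S : Finset ℕ) (p n : ℕ) {r : ℕ} (qv : Fin r → ℕ)

/-- The good primes at the Taylor–Wiles level. -/
def GoodTw (ℓ : ℕ) : Prop := ℓ.Prime ∧ ¬ ℓ ∣ twLevel N qv ∧ ℓ ∉ (↑(twSet S qv) : Set ℕ)

theorem GoodTw.not_dvd {N : ℕ} {S : Finset ℕ} {r : ℕ} {qv : Fin r → ℕ} {ℓ : ℕ}
    (h : GoodTw N S qv ℓ) : ¬ ℓ ∣ N :=
  fun hd => h.2.1 (Dvd.dvd.mul_right hd _)

theorem GoodTw.not_mem {N : ℕ} {S : Finset ℕ} {r : ℕ} {qv : Fin r → ℕ} {ℓ : ℕ}
    (h : GoodTw N S qv ℓ) : ℓ ∉ (↑S : Set ℕ) := by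
  intro hS
  apply h.2.2
  simp only [twSet, Finset.coe_union, Set.mem_union]
  exact Or.inl hS

/-- The index set of the generators of `𝕋⁺`: `T'_ℓ`, `U_{q_j}`, `⟨u⟩`. -/
abbrev IdxTw (r c : ℕ) : Type := ℕ ⊕ (Fin r ⊕ (ZMod c)ˣ)

/-- `𝕋⁺`. -/
abbrev PolyTw (r c : ℕ) : Type := MvPolynomial (IdxTw r c) ℤ

/-- `j₀ = (p^n - 1)/2`: `⟨d⟩^{j₀} = ⟨d⟩^{-1/2}` on the `p`-group `Δ`. -/
def jTw (p n : ℕ) : ℕ := (p ^ n - 1) / 2

variable [NeZero (N * twC qv)] (h2 : 2 ≤ twC qv)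

open Classical in
/-- The operators on `J_H[p^∞]`: `T'_ℓ` (good `ℓ`), `U_{q_j}`, `⟨u⟩`. -/
def opsTw : IdxTw r (twC qv) → Module.End ℤ (AH (N * twC qv) (twC qv) (twH p n qv) p)
  | Sum.inl ℓ => if GoodTw N S qv ℓ then
      TzTw (N * twC qv) (twC qv) (twH p n qv) h2 (dvd_mul_left _ _) p (jTw p n) ℓ else 0
  | Sum.inr (Sum.inl j) => Uz (N * twC qv) (twC qv) (twH p n qv) h2 (dvd_mul_left _ _) p (qv j)
  | Sum.inr (Sum.inr u) => diaZ (N * twC qv) (twC qv) (twH p n qv) h2 (dvd_mul_left _ _) p u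

open Classical in
/-- The operators on `J₀(N c)[p^∞]`: `T_ℓ` (good `ℓ`), `U_{q_j}`, `1`. -/
def opsTw0 : IdxTw r (twC qv) → Module.End ℤ (A0 (N * twC qv) p)
  | Sum.inl ℓ => if GoodTw N S qv ℓ then Tz0 (N * twC qv) p ℓ else 0
  | Sum.inr (Sum.inl j) => Uz0 (N * twC qv) p (qv j)
  | Sum.inr (Sum.inr _) => 1

section Theta

variable {k : Type} [Field k] [NeZero N]

open Classical in
/-- The values of `θ⁺` on the generators. -/
def thetaVal (θ : CuspForm.heckeAlgebra N 2 (↑S : Set ℕ) →+* k) (α : Fin r → k) :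
    IdxTw r (twC qv) → k
  | Sum.inl ℓ => if h : GoodTw N S qv ℓ then
      θ (CuspForm.heckeAlgebra.T h.1 h.not_dvd h.not_mem) else 0
  | Sum.inr (Sum.inl j) => α j
  | Sum.inr (Sum.inr _) => 1

/-- `θ⁺ : 𝕋⁺ → k`. -/
def thetaTw (θ : CuspForm.heckeAlgebra N 2 (↑S : Set ℕ) →+* k) (α : Fin r → k) :
    PolyTw r (twC qv) →+* k :=
  MvPolynomial.eval₂Hom (Int.castRingHom k) (thetaVal N S qv θ α)

end Theta

end TW

end Fermat.Agent.NEB.Geom
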