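import Fermat.Agent.NEB.Geom.DefsL
import Fermat.Agent.Lib.FrobDensity.Main

/-!
# NEB-GEOM leaf W-NONEIS (helper6)

`stmt_W_NONEIS : Stmt_W_NONEIS`: for an absolutely irreducible `ρbar` with Frobenius
characteristic polynomials `X² - θ(T_ℓ) X + ℓ` and any finite set `T` of primes there is a good
prime `ℓ₀ ∉ T` with `θ(T_ℓ₀) ≠ ℓ₀ + 1`.

Proof: otherwise every Frobenius outside a finite set has the eigenvalue `1`; by the Frobenius
density theorem (`Lib.FrobDensity.stmt_FD`, division form) every `ρbar(g)` is a power of such a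
Frobenius, hence has a nonzero fixed vector.  A group of `2 × 2` matrices all of whose elements
have the eigenvalue `1` stabilises a line (`exists_stable_vec`): if some `h ≠ 1` has determinant
`1`, then `n = h - 1` satisfies `tr (n g) = 0` for all `g`, and the image of `n` is stable;
otherwise the group is abelian and the fixed line of any `g₀ ≠ 1` is stable.
(Neither `p ≠ 2` nor the finiteness of `k` is used.)
-/

set_option autoImplicit false
set_option linter.unusedSectionVars false
set_option linter.unusedVariables false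

noncomputable section

open ModularCurve AlgebraicCurve IsLocalRing TensorProduct Polynomial

namespace Fermat.Agent.NEB.Geom.H6

open Matrix

open Matrix

section Mat2

variable {k : Type*} [Field k]

/-- Two vectors of `k²` with vanishing determinant, the first one nonzero: the second is a
multiple of the first. -/
theorem exists_smul_of_det_eq_zero (w u : Fin 2 → k) (hw : w ≠ 0)
    (h : w 0 * u 1 - w 1 * u 0 = 0) : ∃ c : k, u = c • w := by
  by_cases h0 : w 0 = 0
  · have h1 : w 1 ≠ 0 := by
      intro h1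
      apply hw
      funext i
      fin_cases i
      · exact h0
      · exact h1
    refine ⟨u 1 / w 1, ?_⟩
    funext i
    fin_cases i
    · simp only [Fin.zero_eta, Pi.smul_apply, smul_eq_mul, h0, mul_zero]
      rw [h0, zero_mul, zero_sub, neg_eq_zero] at h
      rcases mul_eq_zero.1 h with h | h
      · exact absurd h h1
      · exact h
    · simp only [Fin.mk_one, Pi.smul_apply, smul_eq_mul]
      field_simp
  · refine ⟨u 0 / w 0, ?_⟩
    funext i
    fin_cases i
    · simp only [Fin.zero_eta, Pi.smul_apply, smul_eq_mul]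
      field_simp
    · simp only [Fin.mk_one, Pi.smul_apply, smul_eq_mul]
      field_simp
      linear_combination h

/-- `det (A - 1) = det A - tr A + 1` for `2 × 2` matrices. -/
theorem det_sub_one_fin_two (A : Matrix (Fin 2) (Fin 2) k) :
    (A - 1).det = A.det - A.trace + 1 := by
  rw [Matrix.det_fin_two, Matrix.det_fin_two, Matrix.trace_fin_two]
  simp only [Matrix.sub_apply, Matrix.one_apply_eq, Matrix.one_apply_ne, ne_eq, Fin.isValue,
    zero_ne_one, one_ne_zero, not_false_eq_true, sub_zero]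
  ring

/-- A nonzero `2 × 2` matrix `n` with `tr n = 0 = det n`: there is `w ≠ 0` (a column of `n`)
such that every `X` with `tr (n X) = 0` maps `w` into `k w`. -/
theorem exists_vec_of_trace_mul_eq_zero (n : Matrix (Fin 2) (Fin 2) k) (hn : n ≠ 0)
    (htr : n.trace = 0) (hdet : n.det = 0) :
    ∃ w : Fin 2 → k, w ≠ 0 ∧ ∀ X : Matrix (Fin 2) (Fin 2) k, (n * X).trace = 0 →
      ∃ c : k, X.mulVec w = c • w := by
  rw [Matrix.trace_fin_two] at htr
  rw [Matrix.det_fin_two] at hdet
  have key : ∀ X : Matrix (Fin 2) (Fin 2) k, (n * X).trace =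
      n 0 0 * X 0 0 + n 0 1 * X 1 0 + n 1 0 * X 0 1 + n 1 1 * X 1 1 := by
    intro X
    rw [Matrix.trace_fin_two, Matrix.mul_apply, Matrix.mul_apply, Fin.sum_univ_two,
      Fin.sum_univ_two]
    ring
  by_cases hcol : n 0 0 = 0 ∧ n 1 0 = 0
  · -- first column zero: `w` = second column `(b, 0)`
    obtain ⟨ha, hc⟩ := hcol
    have hd : n 1 1 = 0 := by rw [ha, zero_add] at htr; exact htr
    have hb : n 0 1 ≠ 0 := by
      intro hb
      apply hn
      ext i j
      fin_cases i <;> fin_cases j
      · exact ha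
      · exact hb
      · exact hc
      · exact hd
    refine ⟨![n 0 1, 0], ?_, ?_⟩
    · intro h
      apply hb
      have := congrFun h 0
      simpa using this
    · intro X hX
      rw [key, ha, hc, hd] at hX
      have hz : X 1 0 = 0 := by
        have : n 0 1 * X 1 0 = 0 := by linear_combination hX
        rcases mul_eq_zero.1 this with h | h
        · exact absurd h hb
        · exact h
      refine ⟨X 0 0, ?_⟩
      funext i
      fin_cases i
      · simp [Matrix.mulVec, dotProduct, Fin.sum_univ_two, mul_comm]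
      · simp [Matrix.mulVec, dotProduct, Fin.sum_univ_two, hz]
  · -- `w` = first column `(a, c)`
    have hw : (![n 0 0, n 1 0] : Fin 2 → k) ≠ 0 := by
      intro h
      apply hcol
      constructor
      · have := congrFun h 0
        simpa using this
      · have := congrFun h 1
        simpa using this
    refine ⟨![n 0 0, n 1 0], hw, ?_⟩
    intro X hX
    rw [key] at hX
    apply exists_smul_of_det_eq_zero _ _ hw
    simp only [Matrix.mulVec, dotProduct, Fin.sum_univ_two, Matrix.cons_val_zero,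
      Matrix.cons_val_one]
    have hd : n 1 1 = -n 0 0 := by linear_combination htr
    rw [hd] at hX hdet
    linear_combination (-(n 1 0)) * hX - X 1 0 * hdet

/-- A nonzero singular `2 × 2` matrix has a one-dimensional kernel. -/
theorem exists_ker_vec (n : Matrix (Fin 2) (Fin 2) k) (hn : n ≠ 0) (hdet : n.det = 0) :
    ∃ u : Fin 2 → k, u ≠ 0 ∧ n.mulVec u = 0 ∧
      ∀ y : Fin 2 → k, n.mulVec y = 0 → ∃ c : k, y = c • u := by
  rw [Matrix.det_fin_two] at hdet
  by_cases hrow : n 0 0 = 0 ∧ n 0 1 = 0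
  · obtain ⟨ha, hb⟩ := hrow
    have hrow2 : ¬ (n 1 0 = 0 ∧ n 1 1 = 0) := by
      rintro ⟨hc, hd⟩
      apply hn
      ext i j
      fin_cases i <;> fin_cases j
      · exact ha
      · exact hb
      · exact hc
      · exact hd
    have hu : (![n 1 1, -n 1 0] : Fin 2 → k) ≠ 0 := by
      intro h
      apply hrow2
      constructor
      · have := congrFun h 1
        simpa using this
      · have := congrFun h 0
        simpa using this
    refine ⟨![n 1 1, -n 1 0], hu, ?_, ?_⟩
    · funext i
      fin_cases i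
      · simp [Matrix.mulVec, dotProduct, Fin.sum_univ_two, ha, hb]
      · simp only [Matrix.mulVec, dotProduct, Fin.sum_univ_two, Fin.mk_one, Matrix.cons_val_zero,
          Matrix.cons_val_one, Pi.zero_apply]
        ring
    · intro y hy
      apply exists_smul_of_det_eq_zero _ _ hu
      have h1 := congrFun hy 1
      simp only [Matrix.mulVec, dotProduct, Fin.sum_univ_two, Pi.zero_apply] at h1
      simp only [Matrix.cons_val_zero, Matrix.cons_val_one]
      linear_combination h1
  · have hu : (![n 0 1, -n 0 0] : Fin 2 → k) ≠ 0 := by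
      intro h
      apply hrow
      constructor
      · have := congrFun h 1
        simpa using this
      · have := congrFun h 0
        simpa using this
    refine ⟨![n 0 1, -n 0 0], hu, ?_, ?_⟩
    · funext i
      fin_cases i
      · simp only [Matrix.mulVec, dotProduct, Fin.sum_univ_two, Fin.zero_eta, Matrix.cons_val_zero,
          Matrix.cons_val_one, Pi.zero_apply]
        ring
      · simp only [Matrix.mulVec, dotProduct, Fin.sum_univ_two, Fin.mk_one, Matrix.cons_val_zero,
          Matrix.cons_val_one, Pi.zero_apply]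
        linear_combination -hdet
    · intro y hy
      apply exists_smul_of_det_eq_zero _ _ hu
      have h0 := congrFun hy 0
      simp only [Matrix.mulVec, dotProduct, Fin.sum_univ_two, Pi.zero_apply] at h0
      simp only [Matrix.cons_val_zero, Matrix.cons_val_one]
      linear_combination h0

end Mat2


section Group2

variable {k : Type*} [Field k]

/-- A group of `2 × 2` matrices all of whose elements have the eigenvalue `1` stabilises a
line. -/
theorem exists_stable_vec {Γ : Type*} [Group Γ] (M : Γ →* Matrix (Fin 2) (Fin 2) k)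
    (h : ∀ g, (M g - 1).det = 0) :
    ∃ w : Fin 2 → k, w ≠ 0 ∧ ∀ g, ∃ c : k, (M g).mulVec w = c • w := by
  have htr : ∀ g, (M g).trace = 1 + (M g).det := by
    intro g
    have := h g
    rw [det_sub_one_fin_two] at this
    linear_combination -this
  have hdd : ∀ g, (M g).det * (M g⁻¹).det = 1 := by
    intro g
    rw [← Matrix.det_mul, ← map_mul, mul_inv_cancel, map_one, Matrix.det_one]
  by_cases hA : ∃ h₀, (M h₀).det = 1 ∧ M h₀ ≠ 1
  · obtain ⟨h₀, hd, hne⟩ := hA
    have hn : M h₀ - 1 ≠ 0 := sub_ne_zero.2 hne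
    have hntr : (M h₀ - 1).trace = 0 := by
      rw [Matrix.trace_sub, htr, hd, Matrix.trace_one]
      simp
      norm_num
    obtain ⟨w, hw, hW⟩ := exists_vec_of_trace_mul_eq_zero (M h₀ - 1) hn hntr (h h₀)
    refine ⟨w, hw, fun g => hW (M g) ?_⟩
    rw [sub_mul, one_mul, Matrix.trace_sub, ← map_mul, htr, htr, map_mul, Matrix.det_mul, hd]
    ring
  · push Not at hA
    by_cases hB : ∀ g, M g = 1
    · refine ⟨![1, 0], ?_, fun g => ⟨1, by rw [hB g, Matrix.one_mulVec, one_smul]⟩⟩
      intro h0
      have := congrFun h0 0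
      simp at this
    · push Not at hB
      obtain ⟨g₀, hg₀⟩ := hB
      obtain ⟨u, hu, hnu, hker⟩ := exists_ker_vec (M g₀ - 1) (sub_ne_zero.2 hg₀) (h g₀)
      refine ⟨u, hu, fun g => ?_⟩
      have hcomm : M g₀ * M g = M g * M g₀ := by
        have h1 : M (g₀ * g * g₀⁻¹ * g⁻¹) = 1 := by
          apply hA
          rw [map_mul, map_mul, map_mul, Matrix.det_mul, Matrix.det_mul, Matrix.det_mul]
          have e1 := hdd g₀
          have e2 := hdd g
          linear_combination (M g).det * (M g⁻¹).det * e1 + e2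
        have h2 : g₀ * g = (g₀ * g * g₀⁻¹ * g⁻¹) * (g * g₀) := by group
        calc M g₀ * M g = M (g₀ * g) := (map_mul M _ _).symm
          _ = M ((g₀ * g * g₀⁻¹ * g⁻¹) * (g * g₀)) := by rw [← h2]
          _ = M g * M g₀ := by rw [map_mul, h1, one_mul, map_mul]
      have hz : (M g₀ - 1).mulVec ((M g).mulVec u) = 0 := by
        rw [Matrix.mulVec_mulVec, sub_mul, one_mul, hcomm]
        have : M g * M g₀ - M g = M g * (M g₀ - 1) := by rw [mul_sub, mul_one]
        rw [this, ← Matrix.mulVec_mulVec, hnu, Matrix.mulVec_zero]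
      obtain ⟨c, hc⟩ := hker _ hz
      exact ⟨c, hc⟩

end Group2

/-- If every `ρbar(g)` has a nonzero fixed vector then `ρbar` has a stable line. -/
theorem exists_stable_line {k : Type} [Field k] (ρbar : ResidualGaloisRep k)
    (hfix : ∀ g : GalQ, ∃ v : ρbar.V, v ≠ 0 ∧ ρbar.ρ g v = v) :
    ∃ v : ρbar.V, v ≠ 0 ∧ ∀ g : GalQ, ∃ c : k, ρbar.ρ g v = c • v := by
  classical
  let b : Module.Basis (Fin 2) k ρbar.V := Module.finBasisOfFinrankEq k ρbar.V ρbar.finrank_eq
  let M : GalQ →* Matrix (Fin 2) (Fin 2) k :=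
    ((LinearMap.toMatrixAlgEquiv b : Module.End k ρbar.V ≃ₐ[k] Matrix (Fin 2) (Fin 2) k) :
      Module.End k ρbar.V →* Matrix (Fin 2) (Fin 2) k).comp ρbar.ρ
  have hM : ∀ (g : GalQ) (x : ρbar.V), (M g).mulVec (b.repr x) = b.repr (ρbar.ρ g x) := by
    intro g x
    exact LinearMap.toMatrix_mulVec_repr b b (ρbar.ρ g) x
  have hdet : ∀ g, (M g - 1).det = 0 := by
    intro g
    obtain ⟨v, hv, hgv⟩ := hfix g
    apply Matrix.exists_mulVec_eq_zero_iff.1
    refine ⟨b.repr v, ?_, ?_⟩
    · intro h0
      apply hv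
      apply b.repr.injective
      rw [map_zero]
      exact DFunLike.coe_injective h0
    · rw [Matrix.sub_mulVec, Matrix.one_mulVec, hM, hgv, sub_self]
  obtain ⟨w, hw, hW⟩ := exists_stable_vec M hdet
  refine ⟨b.equivFun.symm w, ?_, fun g => ?_⟩
  · intro h0
    apply hw
    have := congrArg b.equivFun h0
    rwa [LinearEquiv.apply_symm_apply, map_zero] at this
  · obtain ⟨c, hc⟩ := hW g
    refine ⟨c, ?_⟩
    apply b.equivFun.injective
    have h1 : ⇑(b.repr (b.equivFun.symm w)) = w := by
      have := b.equivFun.apply_symm_apply w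
      exact this
    have h2 := hM g (b.equivFun.symm w)
    rw [h1, hc] at h2
    rw [map_smul, LinearEquiv.apply_symm_apply]
    exact h2.symm

/-- A residual representation with a stable line is not absolutely irreducible. -/
theorem not_absIrr_of_stable_line {k : Type} [Field k] (ρbar : ResidualGaloisRep k)
    (v : ρbar.V) (hv : v ≠ 0) (hstab : ∀ g : GalQ, ∃ c : k, ρbar.ρ g v = c • v) :
    ¬ ρbar.IsAbsolutelyIrreducible := by
  classical
  intro habs
  set K := AlgebraicClosure k
  let b : Module.Basis (Fin 2) k ρbar.V := Module.finBasisOfFinrankEq k ρbar.V ρbar.finrank_eq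
  let bK : Module.Basis (Fin 2) K (K ⊗[k] ρbar.V) := Algebra.TensorProduct.basis K b
  let W : Submodule K (K ⊗[k] ρbar.V) := Submodule.span K {(1 : K) ⊗ₜ[k] v}
  have hWstab : ∀ σ : GalQ, ∀ x ∈ W, (ρbar.baseChange K).ρ σ x ∈ W := by
    intro σ x hx
    obtain ⟨a, rfl⟩ := Submodule.mem_span_singleton.1 hx
    obtain ⟨c, hc⟩ := hstab σ
    have h1 : (ρbar.baseChange K).ρ σ ((1 : K) ⊗ₜ[k] v) = (algebraMap k K c) • ((1 : K) ⊗ₜ[k] v) := by
      change (ρbar.ρ σ).baseChange K ((1 : K) ⊗ₜ[k] v) = _
      rw [LinearMap.baseChange_tmul, hc, TensorProduct.tmul_smul, algebraMap_smul]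
    rw [map_smul, h1]
    exact W.smul_mem _ (W.smul_mem _ (Submodule.mem_span_singleton_self _))
  have hne : (1 : K) ⊗ₜ[k] v ≠ 0 := by
    intro h0
    apply hv
    apply b.repr.injective
    rw [map_zero]
    have h1 := congrArg bK.repr h0
    rw [map_zero, Algebra.TensorProduct.basis_repr_tmul, one_smul] at h1
    ext i
    have h2 := DFunLike.congr_fun h1 i
    rw [Finsupp.mapRange_apply, Finsupp.zero_apply] at h2
    rw [Finsupp.zero_apply]
    exact (map_eq_zero_iff _ (algebraMap k K).injective).1 h2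
  rcases habs W hWstab with hbot | htop
  · apply hne
    have : (1 : K) ⊗ₜ[k] v ∈ W := Submodule.mem_span_singleton_self _
    rw [hbot] at this
    exact (Submodule.mem_bot K).1 this
  · have h1 : Module.finrank K W ≤ 1 := by
      have := finrank_span_le_card (R := K) ({(1 : K) ⊗ₜ[k] v} : Set (K ⊗[k] ρbar.V))
      simpa using this
    have h2 : Module.finrank K W = 2 := by
      rw [htop, finrank_top, Module.finrank_baseChange, ρbar.finrank_eq]
    omega

/-- **Leaf W-NONEIS.** -/
theorem stmt_W_NONEIS : Stmt_W_NONEIS := by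
  classical
  intro k _ _ p _ _ _ ρbar habs N _ S _ θ hFrob T
  by_contra hcon
  have hall : ∀ (ℓ₀ : ℕ) (hℓ : ℓ₀.Prime) (hℓN : ¬ ℓ₀ ∣ N) (hℓS : ℓ₀ ∉ (↑S : Set ℕ)), ℓ₀ ∉ T →
      θ (CuspForm.heckeAlgebra.T hℓ hℓN hℓS) = (ℓ₀ : k) + 1 := by
    intro ℓ₀ hℓ hℓN hℓS hT
    by_contra hne
    exact hcon ⟨ℓ₀, hℓ, hℓN, hℓS, hT, hne⟩
  obtain ⟨L, hLfin, hL⟩ := ρbar.factorsThroughFiniteLevel
  have hfix : ∀ g : GalQ, ∃ v : ρbar.V, v ≠ 0 ∧ ρbar.ρ g v = v := by
    intro g
    obtain ⟨ℓ, A, σ, j, hℓ, hℓS', hA, hσ, hag⟩ :=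
      Fermat.Agent.Lib.FrobDensity.stmt_FD (S ∪ T ∪ N.primeFactors) L hLfin g
    have hℓS : ℓ ∉ (↑S : Set ℕ) := fun hmem =>
      hℓS' (Finset.mem_union_left _ (Finset.mem_union_left _ (Finset.mem_coe.1 hmem)))
    have hℓT : ℓ ∉ T := fun hmem =>
      hℓS' (Finset.mem_union_left _ (Finset.mem_union_right _ hmem))
    have hℓN : ¬ ℓ ∣ N := fun hd =>
      hℓS' (Finset.mem_union_right _ (Nat.mem_primeFactors.2 ⟨hℓ, hd, NeZero.ne N⟩))
    have hcp := hFrob ℓ hℓ hℓN hℓS A hA σ hσ
    rw [hall ℓ hℓ hℓN hℓS hℓT] at hcp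
    have hroot : (LinearMap.charpoly (ρbar.ρ σ)).IsRoot 1 := by
      rw [hcp, Polynomial.IsRoot.def]
      simp
    obtain ⟨v, hv⟩ :=
      ((Module.End.hasEigenvalue_iff_isRoot_charpoly (ρbar.ρ σ) 1).2 hroot).exists_hasEigenvector
    have hσv : ρbar.ρ σ v = v := by
      have := hv.apply_eq_smul
      rwa [one_smul] at this
    have hpow : ∀ m : ℕ, ((ρbar.ρ σ) ^ m) v = v := by
      intro m
      induction m with
      | zero => simp
      | succ m ih => rw [pow_succ, Module.End.mul_apply, hσv, ih]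
    have h1 : ρbar.ρ ((σ ^ j)⁻¹ * g) = 1 := by
      apply hL
      intro x hx
      rw [AlgEquiv.mul_apply, ← hag x hx]
      exact (σ ^ j).symm_apply_apply x
    have hg : ρbar.ρ g = ρbar.ρ σ ^ j := by
      have h2 : g = σ ^ j * ((σ ^ j)⁻¹ * g) := by group
      calc ρbar.ρ g = ρbar.ρ (σ ^ j * ((σ ^ j)⁻¹ * g)) := by rw [← h2]
        _ = ρbar.ρ σ ^ j := by rw [map_mul, h1, mul_one, map_pow]
    exact ⟨v, hv.2, by rw [hg, hpow]⟩
  obtain ⟨v, hv, hstab⟩ := exists_stable_line ρbar hfix
  exact not_absIrr_of_stable_line ρbar v hv hstab habs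

end Fermat.Agent.NEB.Geom.H6
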