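import Fermat.Agent.NEB.Geom.DefsC
import Fermat.Agent.NEB.H29_TowerJH
import Fermat.Agent.S59.Datum.Defs
import Fermat.Agent.S59.Min

/-!
# Item 72 (LG-NEB), package NEB-GEOM (helper84): the concrete leaves

Plan: `NOTES/plan/NEB_GEOM.md`.  Objects: `NEB/Geom/DefsC.lean`.  Statements only; no `sorry`.

* `Stmt_FIX'`       : FIX in the form used by the assembly (hypothesis `InK1 (t x)`).
* `Stmt_Z_COMMtw`   : the operators `opsTw` commute pairwise and with `galZ` (from `H29_ZComm`).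
* `Stmt_TOWER_INST` : `stmt_DIV_tower`, `stmt_HSTEP_tower`, `stmt_INV_JH'`, `piUp_piDown` for
  `H = twH p n qv` and generators `δ_j` of `Δ`, on `AH = J_H[p^∞]`.
* `Stmt_W_NONEIS`   : a good prime `ℓ₀` with `θ(T_ℓ₀) ≠ ℓ₀ + 1` (Chebotarev + irreducibility).
* `Stmt_W_MD`       : level `N`: the Hecke ring homomorphism on `J₀(N)[p^∞]`, Eichler–Shimura,
  unramifiedness, and nontriviality of the `θ`-part.
-/

set_option autoImplicit false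
set_option linter.unusedSectionVars false

noncomputable section

open ModularCurve AlgebraicCurve IsLocalRing TensorProduct Polynomial

namespace Fermat.Agent.NEB.Geom

open Fermat.Agent.NEB Fermat.Agent.NEB.JH Fermat.Agent.S59.Asm Fermat.Agent.S59.Lim
  Fermat.Agent.S59.Lim.H2

/-- **FIX'** (from INV', CL-RES, CL-TI): at a place over a prime `r ∤ M p`, for a `Δ`-fixed
`p`-power torsion class `x`: if `t x` lies in the kernel of reduction then `t x = 0`,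
`t = T_ℓ^H - (ℓ + 1)`. -/
def Stmt_FIX' (M c : ℕ) (H : Subgroup (ZMod c)ˣ) (p : ℕ) : Prop :=
  2 ≤ c → c ∣ M → M ≠ 0 →
  ∀ (n : ℕ), (∀ d : (ZMod c)ˣ, d ^ (p ^ n) ∈ H ∨ -(d ^ (p ^ n)) ∈ H) →
  (∀ w : Place Kbar ↥(FHbar M c H),
      ∃ x : ↥(modularFunctionFieldBar M), w.ord (inclBar M c H x) = 1) →
  ∀ (ℓ : ℕ) [NeZero M] [NeZero ℓ], ℓ.Prime → ¬ ℓ ∣ M → ∀ hd : HeckeData M c ℓ H,
  ∀ (P : ValuationSubring Kbar) (r : ℕ), r.Prime → ¬ r ∣ M → r ≠ p → P.LiesOverPrime r →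
  ∀ x : JH M c H, IsPTors p x → (∀ d, hd.dd.ρ d • x = x) →
    InK1 P p (FHbar M c H) (TH hd.hβ x - (ℓ + 1) • x) → TH hd.hβ x - (ℓ + 1) • x = 0

section TW

variable (N : ℕ) (S : Finset ℕ) (p n : ℕ) {r : ℕ} (qv : Fin r → ℕ)

/-- The standing hypotheses on a Taylor–Wiles family (without the Galois part). -/
structure TwHyp : Prop where
  hp : p.Prime
  hp2 : p ≠ 2
  hN : N ≠ 0
  hr : 0 < r
  inj : Function.Injective qv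
  prime : ∀ j, (qv j).Prime
  cong : ∀ j, p ^ (n + 1) ∣ qv j - 1
  notS : ∀ j, qv j ∉ S
  hNS : ∀ q : ℕ, q.Prime → q ∣ N → q ∈ S
  hpS : p ∈ S

variable [NeZero (N * twC qv)] (h2 : 2 ≤ twC qv)

/-- **Z-COMMtw**: the operators `T'_ℓ`, `U_{q_j}`, `⟨u⟩` on `J_H[p^∞]` commute pairwise and with the
Galois action; the same at level `Γ₀(N c)`. -/
def Stmt_Z_COMMtw : Prop :=
  TwHyp N S p n qv →
  (∀ i j, Commute (opsTw N S p n qv h2 i) (opsTw N S p n qv h2 j)) ∧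
  (∀ i σ, Commute (opsTw N S p n qv h2 i) (galZ (N * twC qv) (twC qv) (twH p n qv) p σ)) ∧
  (∀ i j, Commute (opsTw0 N S p qv i) (opsTw0 N S p qv j)) ∧
  (∀ i σ, Commute (opsTw0 N S p qv i) (galZ0 (N * twC qv) p σ)) ∧
  (∀ i, upZ (N * twC qv) (twC qv) (twH p n qv) p ∘ₗ opsTw0 N S p qv i
      = opsTw N S p n qv h2 i ∘ₗ upZ (N * twC qv) (twC qv) (twH p n qv) p) ∧
  (∀ i, downZ (N * twC qv) (twC qv) (twH p n qv) p ∘ₗ opsTw N S p n qv h2 i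
      = opsTw0 N S p qv i ∘ₗ downZ (N * twC qv) (twC qv) (twH p n qv) p) ∧
  (∀ σ, upZ (N * twC qv) (twC qv) (twH p n qv) p ∘ₗ galZ0 (N * twC qv) p σ
      = galZ (N * twC qv) (twC qv) (twH p n qv) p σ ∘ₗ upZ (N * twC qv) (twC qv) (twH p n qv) p)

/-- The Eisenstein operator `T_ℓ₀^H - (ℓ₀ + 1)` on `J_H[p^∞]`. -/
def tEis (ℓ₀ : ℕ) : Module.End ℤ (AH (N * twC qv) (twC qv) (twH p n qv) p) :=
  Tz (N * twC qv) (twC qv) (twH p n qv) h2 (dvd_mul_left _ _) p ℓ₀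
    - ((ℓ₀ + 1 : ℕ) : ℤ) • (1 : Module.End ℤ (AH (N * twC qv) (twC qv) (twH p n qv) p))

/-- Generators of `Δ = (ℤ/c)ˣ / H`: `δ_j ≡ 1 mod q_i` (`i ≠ j`) and `δ_j` has order exactly `p^n`
modulo `H`. -/
def IsDeltaGen (δ : Fin r → (ZMod (twC qv))ˣ) : Prop :=
  (∀ i j, i ≠ j → ∀ h : qv i ∣ twC qv, ZMod.unitsMap h (δ j) = 1) ∧
  (∀ j e, δ j ^ e ∈ twH p n qv → p ^ n ∣ e)

/-- **TOWER-INST**: the tower theorems of helper29 for `H = twH p n qv` on `J_H[p^∞]`: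
DIV (`t^N A ⊆ p A`), HSTEP, INV, and `π^* π_* = ∏_j ∑_e ⟨δ_j⟩^e`. -/
def Stmt_TOWER_INST : Prop :=
  TwHyp N S p n qv → ∀ δ : Fin r → (ZMod (twC qv))ˣ, IsDeltaGen p n qv δ →
  ∀ ℓ₀ : ℕ, ℓ₀.Prime → ¬ ℓ₀ ∣ N * twC qv →
  (∃ Nn : ℕ, ∀ x : AH (N * twC qv) (twC qv) (twH p n qv) p,
    ∃ y : AH (N * twC qv) (twC qv) (twH p n qv) p, (tEis N p n qv h2 ℓ₀ ^ Nn) x = p • y) ∧
  (∀ (j : Fin r) (v : AH (N * twC qv) (twC qv) (twH p n qv) p), p • v = 0 →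
    (∀ i, i ≤ j → diaZ (N * twC qv) (twC qv) (twH p n qv) h2 (dvd_mul_left _ _) p (δ i) v = v) →
    ∃ (w : AH (N * twC qv) (twC qv) (twH p n qv) p) (m : ℕ), p • w = 0 ∧
      (∀ i, i < j →
        diaZ (N * twC qv) (twC qv) (twH p n qv) h2 (dvd_mul_left _ _) p (δ i) w = w) ∧
      ∑ e ∈ Finset.range (p ^ n),
        (diaZ (N * twC qv) (twC qv) (twH p n qv) h2 (dvd_mul_left _ _) p (δ j) ^ e) w
          = (tEis N p n qv h2 ℓ₀ ^ m) v) ∧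
  (∀ y : AH (N * twC qv) (twC qv) (twH p n qv) p, p • y = 0 →
    (∀ u, diaZ (N * twC qv) (twC qv) (twH p n qv) h2 (dvd_mul_left _ _) p u y = y) →
    ∃ (y₀ : A0 (N * twC qv) p) (m : ℕ), p • y₀ = 0 ∧
      upZ (N * twC qv) (twC qv) (twH p n qv) p y₀ = (tEis N p n qv h2 ℓ₀ ^ m) y) ∧
  (upZ (N * twC qv) (twC qv) (twH p n qv) p ∘ₗ downZ (N * twC qv) (twC qv) (twH p n qv) p
    = Fermat.Agent.S59.TWH.H90.nmTot (p ^ n)
        (fun j => diaZ (N * twC qv) (twC qv) (twH p n qv) h2 (dvd_mul_left _ _) p (δ j))) ∧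
  (∀ u, diaZ (N * twC qv) (twC qv) (twH p n qv) h2 (dvd_mul_left _ _) p u ^ (p ^ n) = 1) ∧
  (∀ y₀ : A0 (N * twC qv) p, upZ (N * twC qv) (twC qv) (twH p n qv) p y₀ = 0 →
    Tz0 (N * twC qv) p ℓ₀ y₀ - ((ℓ₀ + 1 : ℕ) : ℤ) • y₀ = 0)

end TW

/-- **W-NONEIS**: for an absolutely irreducible `ρbar` with Frobenius characteristic polynomials
`X² - θ(T_ℓ) X + ℓ`, and any finite set `T` of primes, there is a prime `ℓ₀ ∉ T`, `ℓ₀ ∤ N`,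
`ℓ₀ ∉ S` with `θ(T_ℓ₀) ≠ ℓ₀ + 1`.  (Chebotarev `S48.Cheb.H78.stmt_Cheb` + Brauer–Nesbitt in
dimension 2: otherwise `tr ρbar = 1 + χ_p`, `det ρbar = χ_p`, so `ρbar` is reducible.) -/
def Stmt_W_NONEIS : Prop :=
  ∀ (k : Type) [Field k] [Finite k] (p : ℕ) [Fact p.Prime], p ≠ 2 → (p : k) = 0 →
    ∀ (ρbar : ResidualGaloisRep k), ρbar.IsAbsolutelyIrreducible →
    ∀ (N : ℕ) [NeZero N] (S : Finset ℕ), p ∈ S →
    ∀ (θ : CuspForm.heckeAlgebra N 2 (↑S : Set ℕ) →+* k),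
    Fermat.Agent.S59.Datum.FrobHyp ρbar N S θ →
    ∀ T : Finset ℕ, ∃ (ℓ₀ : ℕ) (hℓ : ℓ₀.Prime) (hℓN : ¬ ℓ₀ ∣ N) (hℓS : ℓ₀ ∉ (↑S : Set ℕ)),
      ℓ₀ ∉ T ∧ θ (CuspForm.heckeAlgebra.T hℓ hℓN hℓS) ≠ ((ℓ₀ : k) + 1)

/-- **W-MD** (level `N`): the Hecke ring acts on `J₀(N)[p^∞]` (a `p`-divisible group with finite
`p`-torsion), commuting with Galois; Eichler–Shimura holds exactly; inertia at `q ∤ N p` acts
trivially; every point is fixed by an open subgroup; and the `θ`-part of `𝒪 ⊗ J₀(N)[p^∞]` is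
nontrivial for every `θ`. -/
def Stmt_W_MD : Prop :=
  ∀ (p : ℕ) [Fact p.Prime] (N : ℕ) [NeZero N] (S : Finset ℕ),
    (∀ q : ℕ, q.Prime → q ∣ N → q ∈ S) →
    ∃ ηC : CuspForm.heckeAlgebra N 2 (↑S : Set ℕ) →+* Module.End ℤ (A0 N p),
      (∀ (ℓ : ℕ) (hℓ : ℓ.Prime) (hℓN : ¬ ℓ ∣ N) (hℓS : ℓ ∉ (↑S : Set ℕ)),
        ηC (CuspForm.heckeAlgebra.T hℓ hℓN hℓS) = Tz0 N p ℓ) ∧
      (∀ t σ, Commute (ηC t) (galZ0 N p σ)) ∧
      (∀ x : A0 N p, ∃ y : A0 N p, p • y = x) ∧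
      Finite {x : A0 N p // p • x = 0} ∧
      (∀ (ℓ : ℕ), ℓ.Prime → ¬ ℓ ∣ N → ℓ ≠ p →
        ∀ P : ValuationSubring Kbar, P.LiesOverPrime ℓ → ∀ σ : GalQ, P.IsFrobeniusAt σ ℓ →
          galZ0 N p σ * galZ0 N p σ - Tz0 N p ℓ * galZ0 N p σ
            + (ℓ : ℤ) • (1 : Module.End ℤ (A0 N p)) = 0) ∧
      (∀ (q : ℕ), q.Prime → ¬ q ∣ N → q ≠ p →
        ∀ P : ValuationSubring Kbar, P.LiesOverPrime q → ∀ σ ∈ P.inertiaSubgroupIn ℚ,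
          galZ0 N p σ = 1) ∧
      (∀ x : A0 N p, ∃ L : IntermediateField ℚ Kbar, FiniteDimensional ℚ L ∧
        ∀ σ : GalQ, (∀ y ∈ L, σ y = y) → galZ0 N p σ x = x) ∧
      (∀ (𝒪 : Type) [CommRing 𝒪] [IsDomain 𝒪] [IsDiscreteValuationRing 𝒪]
        [Finite (ResidueField 𝒪)] [CharZero 𝒪], (p : 𝒪) ∈ maximalIdeal 𝒪 →
        ∀ θ : CuspForm.heckeAlgebra N 2 (↑S : Set ℕ) →+* ResidueField 𝒪,
          Nontrivial ↥(thetaPart ηC θ))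

end Fermat.Agent.NEB.Geom
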