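import Mathlib

/-!
# NEB-GEOM, TOWER-INST: group theory of `Δ = G / G^P` (helper29)

Pure group theory (Mathlib only).  `G` a commutative group with an isomorphism
`π : G ≃* Π j, C j` onto a product of finite cyclic groups with `P ∣ |C j|`
(`G = (ℤ/c)ˣ`, `c = ∏ q_j`, `P = p ^ n`), and elements `δ_j` with trivial components outside `j`
such that `δ_j ^ e ∈ G^P → P ∣ e`.

* `cyc_gen`           : a finite cyclic group is generated by `d` and the `P`-th powers.
* `mem_pow_range_iff` : `P`-th powers are detected componentwise.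
* `exists_decomp`     : `x = h ^ P * ∏ δ_j ^ s_j`.
* `chain`             : the chain `Hs j = G^P ⊔ ⟨δ_i : i < j⟩`, with `chain_top`, `orderOf_chain`.
* `monomial_bijective`: `x ↦ ρ (∏ δ_j ^ x_j)` is a bijection `(Fin P)^r → range ρ` if
  `ker ρ = G^P`.
-/

set_option autoImplicit false
set_option linter.unusedVariables false

namespace Fermat.Agent.NEB.Geom.H29

/-! ## Cyclic groups -/

section cyc

variable {C : Type*} [CommGroup C] [Finite C] [IsCyclic C]

/-- A finite cyclic group `C` with `P ∣ |C|` is generated by the `P`-th powers and any `d` whose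
class modulo `P`-th powers has order `P`. -/
theorem cyc_gen (P : ℕ) (hP : P ∣ Nat.card C) (d : C)
    (hd : ∀ e : ℕ, d ^ e ∈ (powMonoidHom P : C →* C).range → P ∣ e) (z : C) :
    ∃ (s : ℕ) (y : C), z = d ^ s * y ^ P := by
  classical
  set R : Subgroup C := (powMonoidHom P : C →* C).range with hR
  have hidx : R.index = P := by
    rw [hR, IsCyclic.index_powMonoidHom_range, Nat.gcd_eq_right hP]
  have hord : orderOf (d : C ⧸ R) = P := by
    apply Nat.dvd_antisymm
    · apply orderOf_dvd_of_pow_eq_one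
      rw [← QuotientGroup.mk_pow, QuotientGroup.eq_one_iff]
      exact ⟨d, rfl⟩
    · apply hd
      have h := pow_orderOf_eq_one (d : C ⧸ R)
      rw [← QuotientGroup.mk_pow, QuotientGroup.eq_one_iff] at h
      exact h
  have hcard : Nat.card (C ⧸ R) = P := by
    rw [← Subgroup.index_eq_card]
    exact hidx
  have htop : Subgroup.zpowers (d : C ⧸ R) = ⊤ := by
    apply Subgroup.eq_top_of_card_eq
    rw [Nat.card_zpowers, hord, hcard]
  have hz : (z : C ⧸ R) ∈ Subgroup.zpowers (d : C ⧸ R) := by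
    rw [htop]
    exact Subgroup.mem_top _
  rw [← mem_powers_iff_mem_zpowers] at hz
  obtain ⟨s, hs⟩ := hz
  have hmem : (d ^ s)⁻¹ * z ∈ R := by
    rw [← QuotientGroup.eq, QuotientGroup.mk_pow]
    exact hs
  obtain ⟨y, hy⟩ := hmem
  refine ⟨s, y, ?_⟩
  rw [powMonoidHom_apply] at hy
  rw [hy, mul_inv_cancel_left]

end cyc

/-! ## Products of cyclic groups -/

section prod

variable {G : Type*} [CommGroup G] {r : ℕ} {C : Fin r → Type*} [∀ j, CommGroup (C j)]
  (π : G ≃* (Π j, C j)) (P : ℕ)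

/-- `P`-th powers are detected componentwise. -/
theorem mem_pow_range_iff (x : G) :
    x ∈ (powMonoidHom P : G →* G).range ↔
      ∀ j, π x j ∈ (powMonoidHom P : C j →* C j).range := by
  constructor
  · rintro ⟨y, rfl⟩ j
    refine ⟨π y j, ?_⟩
    rw [powMonoidHom_apply, powMonoidHom_apply, map_pow, Pi.pow_apply]
  · intro h
    choose y hy using h
    refine ⟨π.symm y, ?_⟩
    apply π.injective
    funext j
    rw [powMonoidHom_apply, map_pow, π.apply_symm_apply, Pi.pow_apply]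
    exact hy j

/-- The subgroup of the elements whose `j`-th component is a `P`-th power. -/
def compPow (j : Fin r) : Subgroup G :=
  ((powMonoidHom P : C j →* C j).range).comap ((Pi.evalMonoidHom C j).comp π.toMonoidHom)

theorem mem_compPow {j : Fin r} {x : G} :
    x ∈ compPow π P j ↔ π x j ∈ (powMonoidHom P : C j →* C j).range := Iff.rfl

theorem pow_range_le_compPow (j : Fin r) : (powMonoidHom P : G →* G).range ≤ compPow π P j :=
  fun x hx => (mem_pow_range_iff π P x).1 hx j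

variable (δ : Fin r → G)

/-- The hypotheses on the generators `δ_j`. -/
structure IsGenFam : Prop where
  triv : ∀ i j, i ≠ j → π (δ j) i = 1
  ord : ∀ j (e : ℕ), δ j ^ e ∈ (powMonoidHom P : G →* G).range → P ∣ e

variable {π P δ}

theorem IsGenFam.delta_mem_compPow (h : IsGenFam π P δ) {i j : Fin r} (hij : i ≠ j) :
    δ i ∈ compPow π P j := by
  rw [mem_compPow, h.triv j i hij.symm]
  exact one_mem _

theorem IsGenFam.dvd_of_pow_mem (h : IsGenFam π P δ) {j : Fin r} {e : ℕ}
    (he : δ j ^ e ∈ compPow π P j) : P ∣ e := by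
  apply h.ord j
  rw [mem_pow_range_iff π]
  intro i
  by_cases hij : i = j
  · subst hij
    exact he
  · rw [map_pow, Pi.pow_apply, h.triv i j hij, one_pow]
    exact one_mem _

/-- The components of a monomial. -/
theorem IsGenFam.monomial_apply (h : IsGenFam π P δ) (s : Fin r → ℕ) (j : Fin r) :
    π (∏ i, δ i ^ s i) j = π (δ j) j ^ s j := by
  rw [map_prod, Finset.prod_apply, Finset.prod_eq_single j]
  · rw [map_pow, Pi.pow_apply]
  · intro i _ hij
    rw [map_pow, Pi.pow_apply, h.triv j i hij.symm, one_pow]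
  · intro hj
    exact absurd (Finset.mem_univ j) hj

/-- **Decomposition**: every element is a `P`-th power times a monomial in the `δ_j`. -/
theorem IsGenFam.exists_decomp [∀ j, Finite (C j)] [∀ j, IsCyclic (C j)]
    (h : IsGenFam π P δ) (hP : ∀ j, P ∣ Nat.card (C j)) (x : G) :
    ∃ (s : Fin r → ℕ) (y : G), x = y ^ P * ∏ j, δ j ^ s j := by
  have key : ∀ j, ∃ (s : ℕ) (y : C j), π x j = π (δ j) j ^ s * y ^ P := by
    intro j
    refine cyc_gen P (hP j) (π (δ j) j) (fun e he => ?_) (π x j)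
    apply h.dvd_of_pow_mem (j := j)
    rw [mem_compPow, map_pow, Pi.pow_apply]
    exact he
  choose s y hy using key
  refine ⟨s, π.symm y, ?_⟩
  apply π.injective
  funext j
  rw [map_mul, Pi.mul_apply, h.monomial_apply, map_pow, π.apply_symm_apply, Pi.pow_apply, hy j,
    mul_comm]

/-! ### The chain -/

/-- The extension of `δ` to `ℕ` by `1`. -/
def deltaExt (δ : Fin r → G) (i : ℕ) : G := if h : i < r then δ ⟨i, h⟩ else 1

theorem deltaExt_of_lt (δ : Fin r → G) {i : ℕ} (h : i < r) : deltaExt δ i = δ ⟨i, h⟩ := by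
  rw [deltaExt, dif_pos h]

theorem deltaExt_val (δ : Fin r → G) (i : Fin r) : deltaExt δ (i : ℕ) = δ i :=
  deltaExt_of_lt δ i.2

/-- The chain `Hs j = H ⊔ ⟨δ_i : i < j⟩`. -/
def chain (H : Subgroup G) (δ : Fin r → G) : ℕ → Subgroup G
  | 0 => H
  | j + 1 => chain H δ j ⊔ Subgroup.zpowers (deltaExt δ j)

theorem chain_zero (H : Subgroup G) (δ : Fin r → G) : chain H δ 0 = H := rfl

theorem chain_succ (H : Subgroup G) (δ : Fin r → G) (j : ℕ) :
    chain H δ (j + 1) = chain H δ j ⊔ Subgroup.zpowers (deltaExt δ j) := rfl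

theorem chain_mono (H : Subgroup G) (δ : Fin r → G) : Monotone (chain H δ) :=
  monotone_nat_of_le_succ fun _ => le_sup_left

theorem le_chain (H : Subgroup G) (δ : Fin r → G) (j : ℕ) : H ≤ chain H δ j :=
  chain_mono H δ (Nat.zero_le j)

theorem delta_mem_chain (H : Subgroup G) (δ : Fin r → G) {i j : ℕ} (hij : i < j) :
    deltaExt δ i ∈ chain H δ j :=
  chain_mono H δ (Nat.succ_le_of_lt hij)
    ((le_sup_right : Subgroup.zpowers (deltaExt δ i) ≤ chain H δ (i + 1))
      (Subgroup.mem_zpowers _))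

/-- The chain below `j` lies in `compPow j`. -/
theorem IsGenFam.chain_le_compPow (h : IsGenFam π P δ) (k : Fin r) :
    ∀ j : ℕ, j ≤ (k : ℕ) → chain (powMonoidHom P : G →* G).range δ j ≤ compPow π P k := by
  intro j
  induction j with
  | zero => intro _; exact pow_range_le_compPow π P k
  | succ j ih =>
    intro hj
    rw [chain_succ]
    refine sup_le (ih (Nat.le_of_succ_le hj)) ?_
    rw [Subgroup.zpowers_le]
    have hjr : j < r := lt_of_lt_of_le (Nat.lt_of_succ_le hj) (Nat.le_of_lt k.2)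
    rw [deltaExt_of_lt δ hjr]
    apply h.delta_mem_compPow
    intro hjk
    have : j = (k : ℕ) := by rw [← hjk]
    omega

/-- The top of the chain is everything. -/
theorem IsGenFam.chain_top [∀ j, Finite (C j)] [∀ j, IsCyclic (C j)]
    (h : IsGenFam π P δ) (hP : ∀ j, P ∣ Nat.card (C j)) (x : G) :
    x ∈ chain (powMonoidHom P : G →* G).range δ r := by
  obtain ⟨s, y, rfl⟩ := h.exists_decomp hP x
  refine Subgroup.mul_mem _ (le_chain _ δ r ⟨y, rfl⟩) (Subgroup.prod_mem _ fun j _ => ?_)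
  refine Subgroup.pow_mem _ ?_ _
  have := delta_mem_chain (powMonoidHom P : G →* G).range δ j.2
  rwa [deltaExt_val] at this

/-- The order of `δ_j` modulo the `j`-th step of the chain is `P`. -/
theorem IsGenFam.orderOf_chain (h : IsGenFam π P δ) {A : Type*} [Group A] (ρ : G →* A)
    (j : ℕ) (hj : j < r)
    (hker : ∀ d, ρ d = 1 ↔ d ∈ chain (powMonoidHom P : G →* G).range δ j) :
    orderOf (ρ (deltaExt δ j)) = P := by
  apply Nat.dvd_antisymm
  · apply orderOf_dvd_of_pow_eq_one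
    rw [← map_pow, hker]
    exact le_chain _ δ j ⟨deltaExt δ j, rfl⟩
  · have key : ∀ m : ℕ, ρ (deltaExt δ j) ^ m = 1 → P ∣ m := by
      intro m h1
      rw [← map_pow, hker] at h1
      have h2 := h.chain_le_compPow ⟨j, hj⟩ j le_rfl h1
      rw [deltaExt_of_lt δ hj] at h2
      exact h.dvd_of_pow_mem h2
    exact key _ (pow_orderOf_eq_one _)

/-! ### Monomials -/

/-- `x ↦ ρ (∏ δ_j ^ x_j)` is injective on the box `(Fin P)^r` if `ker ρ ⊆ G^P`. -/
theorem IsGenFam.monomial_injective (h : IsGenFam π P δ) {A : Type*} [Group A] (ρ : G →* A)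
    (hker : ∀ d, ρ d = 1 → d ∈ (powMonoidHom P : G →* G).range) :
    Function.Injective fun x : Fin r → Fin P => ρ (∏ j, δ j ^ (x j : ℕ)) := by
  intro x y hxy
  have hxy' : ρ (∏ j, δ j ^ (x j : ℕ)) = ρ (∏ j, δ j ^ (y j : ℕ)) := hxy
  have key : ∀ (x y : Fin r → Fin P), ρ (∏ j, δ j ^ (x j : ℕ)) = ρ (∏ j, δ j ^ (y j : ℕ)) →
      ∀ k, (y k : ℕ) ≤ (x k : ℕ) → x k = y k := by
    intro x y hxy k hle
    have h1 : ρ ((∏ j, δ j ^ (x j : ℕ)) * (∏ j, δ j ^ (y j : ℕ))⁻¹) = 1 := by
      rw [map_mul, map_inv, hxy, mul_inv_cancel]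
    have h2 := pow_range_le_compPow π P k (hker _ h1)
    rw [mem_compPow, map_mul, map_inv, Pi.mul_apply, Pi.inv_apply, h.monomial_apply,
      h.monomial_apply] at h2
    have h3 : π (δ k) k ^ ((x k : ℕ) - (y k : ℕ)) ∈ (powMonoidHom P : C k →* C k).range := by
      rw [pow_sub _ hle]
      exact h2
    have h4 : P ∣ (x k : ℕ) - (y k : ℕ) := by
      apply h.dvd_of_pow_mem (j := k)
      rw [mem_compPow, map_pow, Pi.pow_apply]
      exact h3
    have h5 : (x k : ℕ) - (y k : ℕ) = 0 :=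
      Nat.eq_zero_of_dvd_of_lt h4 (lt_of_le_of_lt (Nat.sub_le _ _) (x k).2)
    apply Fin.ext
    omega
  funext k
  rcases le_total (y k : ℕ) (x k : ℕ) with hle | hle
  · exact key x y hxy' k hle
  · exact (key y x hxy'.symm k hle).symm

/-- **Decomposition**, with exponents in the box `(Fin P)^r`. -/
theorem IsGenFam.exists_decomp_box [∀ j, Finite (C j)] [∀ j, IsCyclic (C j)]
    (h : IsGenFam π P δ) (hP0 : P ≠ 0) (hP : ∀ j, P ∣ Nat.card (C j)) (d : G) :
    ∃ (x : Fin r → Fin P) (y : G), d = y ^ P * ∏ j, δ j ^ (x j : ℕ) := by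
  obtain ⟨s, y, rfl⟩ := h.exists_decomp hP d
  refine ⟨fun j => ⟨s j % P, Nat.mod_lt _ (Nat.pos_of_ne_zero hP0)⟩,
    y * ∏ j, δ j ^ (s j / P), ?_⟩
  rw [mul_pow, mul_assoc, ← Finset.prod_pow, ← Finset.prod_mul_distrib]
  congr 1
  refine Finset.prod_congr rfl fun j _ => ?_
  show δ j ^ s j = (δ j ^ (s j / P)) ^ P * δ j ^ (s j % P)
  rw [← pow_mul, ← pow_add, mul_comm, Nat.div_add_mod (s j) P]

/-- `x ↦ ρ (∏ δ_j ^ x_j)` maps the box `(Fin P)^r` onto the range of `ρ` if `G^P ⊆ ker ρ`. -/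
theorem IsGenFam.monomial_surjective [∀ j, Finite (C j)] [∀ j, IsCyclic (C j)]
    (h : IsGenFam π P δ) (hP0 : P ≠ 0) (hP : ∀ j, P ∣ Nat.card (C j))
    {A : Type*} [Group A] (ρ : G →* A)
    (hker : ∀ d, d ∈ (powMonoidHom P : G →* G).range → ρ d = 1) (d : G) :
    ∃ x : Fin r → Fin P, ρ (∏ j, δ j ^ (x j : ℕ)) = ρ d := by
  obtain ⟨x, y, rfl⟩ := h.exists_decomp_box hP0 hP d
  refine ⟨x, ?_⟩
  have hy : ρ (y ^ P) = 1 := hker _ ⟨y, rfl⟩
  rw [map_mul, hy, one_mul]

end prod

/-! ## The units of `ℤ/c`, `c = ∏ q_j` -/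

section zmod

variable {r : ℕ} (qv : Fin r → ℕ)

/-- The Chinese remainder theorem for the units of `ℤ/∏ q_j`. -/
noncomputable def crtUnits (hcop : Pairwise (Function.onFun Nat.Coprime qv)) :
    (ZMod (∏ j, qv j))ˣ ≃* (Π j, (ZMod (qv j))ˣ) :=
  (Units.mapEquiv (ZMod.prodEquivPi qv hcop).toMulEquiv).trans MulEquiv.piUnits

theorem crtUnits_apply (hcop : Pairwise (Function.onFun Nat.Coprime qv))
    (x : (ZMod (∏ j, qv j))ˣ) (j : Fin r) :
    crtUnits qv hcop x j = ZMod.unitsMap (Finset.dvd_prod_of_mem qv (Finset.mem_univ j)) x := by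
  apply Units.ext
  show ZMod.prodEquivPi qv hcop (x : ZMod (∏ j, qv j)) j = _
  rw [ZMod.prodEquivPi_apply]
  rfl

theorem pairwise_coprime_of_primes (hinj : Function.Injective qv) (hq : ∀ j, (qv j).Prime) :
    Pairwise (Function.onFun Nat.Coprime qv) := fun i j hij =>
  (Nat.coprime_primes (hq i) (hq j)).mpr fun h => hij (hinj h)

theorem card_units_of_prime {q : ℕ} (hq : q.Prime) : Nat.card (ZMod q)ˣ = q - 1 := by
  have : Fact q.Prime := ⟨hq⟩
  rw [Nat.card_eq_fintype_card, ZMod.card_units]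

theorem isCyclic_units_of_prime {q : ℕ} (hq : q.Prime) : IsCyclic (ZMod q)ˣ := by
  have : Fact q.Prime := ⟨hq⟩
  infer_instance

theorem finite_units_of_prime {q : ℕ} (hq : q.Prime) : Finite (ZMod q)ˣ := by
  have : Fact q.Prime := ⟨hq⟩
  infer_instance

/-- `-1` is a `P`-th power for odd `P`. -/
theorem neg_one_mem_pow_range {R : Type*} [CommRing R] {P : ℕ} (hP : Odd P) :
    (-1 : Rˣ) ∈ (powMonoidHom P : Rˣ →* Rˣ).range :=
  ⟨-1, by rw [powMonoidHom_apply, hP.neg_one_pow]⟩

end zmod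

end Fermat.Agent.NEB.Geom.H29
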