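import Mathlib
import Fermat.Agent.NEB.H70_NormQ
import Fermat.Agent.NEB.H29_InvJH
import Fermat.Agent.NEB.H14_JHData
import Fermat.Agent.Lib.HeckeComm.H2_NormSeriesComm
import Fermat.Agent.GTor.H2_HKalgC

/-!
# NEB-GEOM, leaf Z-COMM (helper29): the Hecke operators of `J_H` commute

`T^H_ℓ`, `T^H_ℓ'` (`ℓ ≠ ℓ'` primes not dividing `M`) and `U^H_q` (`q ∣ M`, in the form
`[F_H(Mq) : β F_H(M)] = q`) commute pairwise on `J_H = Pic⁰(F_H)`.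

Proof: by the principle `IsCorr.eq` it suffices to compare the Kummer functions, which are given
by `q`-expansion formulas (`H70.coe_THfn`, `H70.coe_UHfn_of_finrank`); the formal operators
`qExpand`, `uSeries` commute for coprime indices (`Lib/HeckeComm/H2_NormSeriesComm`).
-/

set_option autoImplicit false
set_option linter.style.haveILetI false

noncomputable section

namespace Fermat.Agent.NEB.Geom.H29

open AlgebraicCurve ModularCurve HahnSeries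
open Fermat.Agent.NEB Fermat.Agent.NEB.H14 Fermat.Agent.NEB.JH Fermat.Agent.RED
open Fermat.Agent.NEB.H70 Fermat.Agent.GTor Fermat.Agent.GTor.H44 Fermat.Agent.Lib.HeckeComm

/-! ## 1. Formal series -/

section Series

variable {C : Type} [Field C] {ℓ ℓ' : ℕ} [NeZero ℓ] [NeZero ℓ']

theorem qExpand_uSeries_eq {ζ₀ : Cˣ} (hζ : IsPrimitiveRoot ζ₀ ℓ) (s : LaurentSeries C) :
    qExpand C ℓ (uSeries ℓ s) = twistProd C ℓ s :=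
  qExpand_descend (isSupp_twistProd hζ s)

/-- `U_ℓ` commutes with `q ↦ q ^ ℓ'` for coprime `ℓ`, `ℓ'`. -/
theorem uSeries_qExpand (hco : Nat.Coprime ℓ' ℓ) {ζ₀ : Cˣ} (hζ : IsPrimitiveRoot ζ₀ ℓ)
    (s : LaurentSeries C) :
    uSeries ℓ (qExpand C ℓ' s) = qExpand C ℓ' (uSeries ℓ s) := by
  apply qExpand_injective (R := C) ℓ
  rw [qExpand_uSeries_eq hζ, twistProd_qExpand ℓ ℓ' hco, qExpand_comm ℓ ℓ',
    qExpand_uSeries_eq hζ]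

/-- `U_ℓ` and `U_ℓ'` commute for coprime `ℓ`, `ℓ'`. -/
theorem uSeries_uSeries (hco : Nat.Coprime ℓ' ℓ) {ζ₀ ζ₀' : Cˣ} (hζ : IsPrimitiveRoot ζ₀ ℓ)
    (hζ' : IsPrimitiveRoot ζ₀' ℓ') (s : LaurentSeries C) :
    uSeries ℓ (uSeries ℓ' s) = uSeries ℓ' (uSeries ℓ s) := by
  apply qExpand_injective (R := C) ℓ
  apply qExpand_injective (R := C) ℓ'
  rw [qExpand_uSeries_eq hζ, ← twistProd_qExpand ℓ ℓ' hco, qExpand_uSeries_eq hζ',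
    qExpand_comm ℓ' ℓ, qExpand_uSeries_eq hζ', ← twistProd_qExpand ℓ' ℓ hco.symm,
    qExpand_uSeries_eq hζ, twistProd_twistProd_comm]

/-- The twisted norms commute. -/
theorem twNorm_twNorm (hco : Nat.Coprime ℓ' ℓ) {ζ₀ ζ₀' : Cˣ} (hζ : IsPrimitiveRoot ζ₀ ℓ)
    (hζ' : IsPrimitiveRoot ζ₀' ℓ') (a b c d : LaurentSeries C) :
    twNorm ℓ (twNorm ℓ' a b) (twNorm ℓ' c d) = twNorm ℓ' (twNorm ℓ a c) (twNorm ℓ b d) := by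
  unfold twNorm
  rw [map_mul, map_mul, uSeries_mul hζ, uSeries_mul hζ', uSeries_qExpand hco hζ,
    uSeries_qExpand hco.symm hζ', uSeries_uSeries hco hζ hζ', qExpand_comm ℓ ℓ']
  ring

/-- `U_q` commutes with the twisted norm. -/
theorem uSeries_twNorm (hco : Nat.Coprime ℓ' ℓ) {ζ₀ ζ₀' : Cˣ} (hζ : IsPrimitiveRoot ζ₀ ℓ)
    (hζ' : IsPrimitiveRoot ζ₀' ℓ') (a b : LaurentSeries C) :
    uSeries ℓ' (twNorm ℓ a b) = twNorm ℓ (uSeries ℓ' a) (uSeries ℓ' b) := by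
  unfold twNorm
  rw [uSeries_mul hζ', uSeries_qExpand hco.symm hζ', uSeries_uSeries hco hζ hζ']

end Series

/-! ## 2. The Kummer functions -/

section Fn

variable {M c : ℕ} [NeZero M] {H : Subgroup (ZMod c)ˣ}

/-- The Kummer function of `U^H` is equivariant for the diamond operators. -/
theorem UHfn_equiv {ℓ : ℕ} [NeZero ℓ] (hd : HeckeData M c ℓ H) (d : (ZMod c)ˣ)
    (x : ↥(FHbar M c H)) : hd.dd.ρ d (UHfn hd.hβ x) = UHfn hd.hβ (hd.dd.ρ d x) := by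
  show hd.dd.ρ d (normFn (betaBar hd.hβ) (alphaH M c ℓ H x))
    = normFn (betaBar hd.hβ) (alphaH M c ℓ H (hd.dd.ρ d x))
  rw [← hd.alphaGal d x]
  exact Fermat.Agent.NEB.H29.normFn_algEquiv (betaBar hd.hβ) (hd.dd.ρ d) (hd.dd'.ρ d)
    (hd.betaGal d) _

/-- The Kummer function of `T^H` is equivariant for the diamond operators (of any
`DiamondData`). -/
theorem THfn_equiv {ℓ : ℕ} [NeZero ℓ] (hd : HeckeData M c ℓ H) (dd : DiamondData M c H)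
    (d : (ZMod c)ˣ) (x : ↥(FHbar M c H)) : dd.ρ d (THfn hd.hβ x) = THfn hd.hβ (dd.ρ d x) := by
  rw [diamondData_rho_eq dd hd.dd, diamondData_rho_eq dd hd.dd]
  exact (Fermat.Agent.NEB.H29.opHyp_THfn hd 1).equiv d x

theorem UHfn_equiv' {ℓ : ℕ} [NeZero ℓ] (hd : HeckeData M c ℓ H) (dd : DiamondData M c H)
    (d : (ZMod c)ˣ) (x : ↥(FHbar M c H)) : dd.ρ d (UHfn hd.hβ x) = UHfn hd.hβ (dd.ρ d x) := by
  rw [diamondData_rho_eq dd hd.dd, diamondData_rho_eq dd hd.dd]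
  exact UHfn_equiv hd d x

variable {ℓ ℓ' : ℕ} [NeZero ℓ] [NeZero ℓ']

/-- `THfn_ℓ ∘ THfn_ℓ' = THfn_ℓ' ∘ THfn_ℓ`. -/
theorem THfn_comm (hd : HeckeData M c ℓ H) (hd' : HeckeData M c ℓ' H) (hc2 : 2 ≤ c)
    (hc : c ∣ M) (hℓ : ℓ.Prime) (hℓM : ¬ ℓ ∣ M) (hℓ' : ℓ'.Prime) (hℓ'M : ¬ ℓ' ∣ M)
    (hne : ℓ ≠ ℓ') (u u' : (ZMod c)ˣ) (hu : (u : ZMod c) = (ℓ : ZMod c))
    (hu' : (u' : ZMod c) = (ℓ' : ZMod c)) (f : ↥(FHbar M c H)) :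
    THfn hd.hβ (THfn hd'.hβ f) = THfn hd'.hβ (THfn hd.hβ f) := by
  obtain ⟨ζ, hζ⟩ := H2.exists_primitiveRoot_Qbar ℓ
  obtain ⟨ζ', hζ'⟩ := H2.exists_primitiveRoot_Qbar ℓ'
  have hco : Nat.Coprime ℓ' ℓ := (Nat.coprime_primes hℓ' hℓ).mpr (Ne.symm hne)
  apply Subtype.ext
  rw [coe_THfn hd hc2 hc hℓ hℓM u hu, coe_THfn hd' hc2 hc hℓ' hℓ'M u' hu',
    THfn_equiv hd' hd.dd, coe_THfn hd' hc2 hc hℓ' hℓ'M u' hu',
    coe_THfn hd' hc2 hc hℓ' hℓ'M u' hu', coe_THfn hd hc2 hc hℓ hℓM u hu,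
    THfn_equiv hd hd'.dd, coe_THfn hd hc2 hc hℓ hℓM u hu, twNorm_twNorm hco hζ hζ']
  have e : hd'.dd.ρ u' (hd.dd.ρ u f) = hd.dd.ρ u (hd'.dd.ρ u' f) := by
    rw [diamondData_rho_eq hd'.dd hd.dd, diamondData_rho_eq hd'.dd hd.dd, ← AlgEquiv.mul_apply,
      ← AlgEquiv.mul_apply, ← map_mul, ← map_mul, mul_comm]
  rw [e]

/-- `THfn_ℓ ∘ UHfn_q = UHfn_q ∘ THfn_ℓ` (`ℓ ∤ M`, `[F_H(Mq) : β F_H(M)] = q`). -/
theorem THfn_UHfn_comm (hd : HeckeData M c ℓ H) (hd' : HeckeData M c ℓ' H) (hc2 : 2 ≤ c)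
    (hc : c ∣ M) (hℓ : ℓ.Prime) (hℓM : ¬ ℓ ∣ M) (hℓ' : ℓ'.Prime)
    (hdeg : finrankAlong Kbar (betaBar hd'.hβ) = ℓ')
    (hne : ℓ ≠ ℓ') (u : (ZMod c)ˣ) (hu : (u : ZMod c) = (ℓ : ZMod c)) (f : ↥(FHbar M c H)) :
    THfn hd.hβ (UHfn hd'.hβ f) = UHfn hd'.hβ (THfn hd.hβ f) := by
  obtain ⟨ζ, hζ⟩ := H2.exists_primitiveRoot_Qbar ℓ
  obtain ⟨ζ', hζ'⟩ := H2.exists_primitiveRoot_Qbar ℓ'
  have hco : Nat.Coprime ℓ' ℓ := (Nat.coprime_primes hℓ' hℓ).mpr (Ne.symm hne)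
  apply Subtype.ext
  rw [coe_THfn hd hc2 hc hℓ hℓM u hu, UHfn_equiv' hd' hd.dd, coe_UHfn_of_finrank hd' hdeg,
    coe_UHfn_of_finrank hd' hdeg, coe_UHfn_of_finrank hd' hdeg, coe_THfn hd hc2 hc hℓ hℓM u hu,
    uSeries_twNorm hco hζ hζ']

/-- `UHfn_q ∘ UHfn_q' = UHfn_q' ∘ UHfn_q`. -/
theorem UHfn_comm (hd : HeckeData M c ℓ H) (hd' : HeckeData M c ℓ' H) (hℓ : ℓ.Prime)
    (hℓ' : ℓ'.Prime) (hdeg : finrankAlong Kbar (betaBar hd.hβ) = ℓ)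
    (hdeg' : finrankAlong Kbar (betaBar hd'.hβ) = ℓ')
    (hne : ℓ ≠ ℓ') (f : ↥(FHbar M c H)) :
    UHfn hd.hβ (UHfn hd'.hβ f) = UHfn hd'.hβ (UHfn hd.hβ f) := by
  obtain ⟨ζ, hζ⟩ := H2.exists_primitiveRoot_Qbar ℓ
  obtain ⟨ζ', hζ'⟩ := H2.exists_primitiveRoot_Qbar ℓ'
  have hco : Nat.Coprime ℓ' ℓ := (Nat.coprime_primes hℓ' hℓ).mpr (Ne.symm hne)
  apply Subtype.ext
  rw [coe_UHfn_of_finrank hd hdeg, coe_UHfn_of_finrank hd' hdeg', coe_UHfn_of_finrank hd' hdeg',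
    coe_UHfn_of_finrank hd hdeg, uSeries_uSeries hco hζ hζ']

end Fn

/-! ## 3. The operators -/

section Op

variable {M c : ℕ} [NeZero M] {H : Subgroup (ZMod c)ˣ} {ℓ ℓ' : ℕ} [NeZero ℓ] [NeZero ℓ']

omit [NeZero M] [NeZero ℓ] in
/-- A prime not dividing `M` is a unit modulo `c ∣ M`. -/
theorem exists_unit_of_prime (hc : c ∣ M) (hℓ : ℓ.Prime) (hℓM : ¬ ℓ ∣ M) :
    ∃ u : (ZMod c)ˣ, (u : ZMod c) = (ℓ : ZMod c) := by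
  have hco : Nat.Coprime ℓ c := by
    rw [Nat.Prime.coprime_iff_not_dvd hℓ]
    exact fun h => hℓM (h.trans hc)
  exact ⟨ZMod.unitOfCoprime ℓ hco, ZMod.coe_unitOfCoprime ℓ hco⟩

/-- Correspondences whose functions commute, commute on `Pic⁰`. -/
theorem picMap_comm_of_fn {K F : Type} [Field K] [Field F] [Algebra K F] [IsAlgClosed K]
    (hF : IsFF K F) {Φ Ψ : Divisor K F →+ Divisor K F} {N N' : F → F} {d d' : ℤ}
    (hΦ : IsCorr Φ N d) (hΨ : IsCorr Ψ N' d') (h : ∀ f, f ≠ 0 → N (N' f) = N' (N f))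
    (x : Pic0 K F) : picMap Φ (picMap Ψ x) = picMap Ψ (picMap Φ x) := by
  haveI := hasPD hF
  have h1 : Φ.comp Ψ = Ψ.comp Φ := (hΦ.comp hΨ).eq (hΨ.comp hΦ) h
  have h2 := picMap_comp hΦ.isGood hΨ.isGood
  have h3 := picMap_comp hΨ.isGood hΦ.isGood
  rw [h1] at h2
  have h4 := DFunLike.congr_fun (h2.symm.trans h3) x
  simp only [AddMonoidHom.comp_apply] at h4
  exact h4

/-- The degree of `β` on `F_H` is the degree of `β` on `F₀` (so it is `q` for `q ∥ M q`, by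
OLD-DEG). -/
theorem finrankAlong_betaH_of_zero (hd : HeckeData M c ℓ H) {n : ℕ}
    (h0 : finrankAlong Kbar (heckeBetaBar Kbar M ℓ) = n) :
    finrankAlong Kbar (betaBar hd.hβ) = n :=
  (Fermat.Agent.NEB.H70.finrankAlong_betaH_eq hd).trans h0

/-- **Z-COMM (T, T)**: `T^H_ℓ` and `T^H_ℓ'` commute. -/
theorem TH_comm (hd : HeckeData M c ℓ H) (hd' : HeckeData M c ℓ' H) (hc2 : 2 ≤ c)
    (hc : c ∣ M) (hℓ : ℓ.Prime) (hℓM : ¬ ℓ ∣ M) (hℓ' : ℓ'.Prime) (hℓ'M : ¬ ℓ' ∣ M)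
    (hne : ℓ ≠ ℓ') (x : JH M c H) :
    TH hd.hβ (TH hd'.hβ x) = TH hd'.hβ (TH hd.hβ x) := by
  obtain ⟨u, hu⟩ := exists_unit_of_prime (c := c) hc hℓ hℓM
  obtain ⟨u', hu'⟩ := exists_unit_of_prime (c := c) hc hℓ' hℓ'M
  rw [TH_eq_picMap hd.isFF hd.isFF' hd.hβ, TH_eq_picMap hd'.isFF hd'.isFF' hd'.hβ]
  exact picMap_comm_of_fn hd.isFF (isCorr_THdiv hd.isFF hd.isFF' hd.hβ)
    (isCorr_THdiv hd'.isFF hd'.isFF' hd'.hβ)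
    (fun f _ => THfn_comm hd hd' hc2 hc hℓ hℓM hℓ' hℓ'M hne u u' hu hu' f) x

/-- **Z-COMM (T, U)**: `T^H_ℓ` and `U^H_q` commute. -/
theorem TH_UH_comm (hd : HeckeData M c ℓ H) (hd' : HeckeData M c ℓ' H) (hc2 : 2 ≤ c)
    (hc : c ∣ M) (hℓ : ℓ.Prime) (hℓM : ¬ ℓ ∣ M) (hℓ' : ℓ'.Prime)
    (hdeg : finrankAlong Kbar (betaBar hd'.hβ) = ℓ')
    (hne : ℓ ≠ ℓ') (x : JH M c H) :
    TH hd.hβ (UH hd'.hβ x) = UH hd'.hβ (TH hd.hβ x) := by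
  obtain ⟨u, hu⟩ := exists_unit_of_prime (c := c) hc hℓ hℓM
  rw [TH_eq_picMap hd.isFF hd.isFF' hd.hβ, UH_eq_picMap hd'.isFF hd'.isFF' hd'.hβ]
  exact picMap_comm_of_fn hd.isFF (isCorr_THdiv hd.isFF hd.isFF' hd.hβ)
    (isCorr_UHdiv hd'.isFF hd'.isFF' hd'.hβ)
    (fun f _ => THfn_UHfn_comm hd hd' hc2 hc hℓ hℓM hℓ' hdeg hne u hu f) x

/-- **Z-COMM (U, U)**: `U^H_q` and `U^H_q'` commute. -/
theorem UH_comm (hd : HeckeData M c ℓ H) (hd' : HeckeData M c ℓ' H) (hℓ : ℓ.Prime)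
    (hℓ' : ℓ'.Prime) (hdeg : finrankAlong Kbar (betaBar hd.hβ) = ℓ)
    (hdeg' : finrankAlong Kbar (betaBar hd'.hβ) = ℓ')
    (hne : ℓ ≠ ℓ') (x : JH M c H) :
    UH hd.hβ (UH hd'.hβ x) = UH hd'.hβ (UH hd.hβ x) := by
  rw [UH_eq_picMap hd.isFF hd.isFF' hd.hβ, UH_eq_picMap hd'.isFF hd'.isFF' hd'.hβ]
  exact picMap_comm_of_fn hd.isFF (isCorr_UHdiv hd.isFF hd.isFF' hd.hβ)
    (isCorr_UHdiv hd'.isFF hd'.isFF' hd'.hβ)
    (fun f _ => UHfn_comm hd hd' hℓ hℓ' hdeg hdeg' hne f) x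

end Op

end Fermat.Agent.NEB.Geom.H29
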