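import Fermat.Agent.NEB.Geom.H70_KU
import Fermat.Agent.NEB.OLD.H6_DegBeta

/-!
# Item 72 (LG-NEB), package NEB-GEOM: CL-U and CL-UF at primes dividing the level (helper70)

* `finrankAlong_beta_eq_alpha` : `[F₀(Mq) : β F₀(M)] = [F₀(Mq) : α F₀(M)]` for every `M` and every
  prime `q` (induction on `M` in the square `β' ∘ α = α' ∘ β`).
* `finrankAlong_betaH_of_dvd` : `[F_H(Mq) : β F_H(M)] = q` for a prime `q ∣ M`.
* `InKU.UH`, `inKU_UF` : CL-U and CL-UF for the uniform kernel, `q ∣ M`.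
-/

set_option autoImplicit false
set_option linter.style.haveILetI false

noncomputable section

open ModularCurve AlgebraicCurve

namespace Fermat.Agent.NEB.Geom.H70

open Fermat.Agent.NEB Fermat.Agent.NEB.JH Fermat.Agent.NEB.H14 Fermat.Agent.S36.H44

/-- `[F₀(Mq) : α F₀(M)]` is `q + 1` or `q`. -/
theorem finrankAlong_alpha_ne_zero (M q : ℕ) [NeZero M] [NeZero q] (hq : q.Prime) :
    finrankAlong Kbar (heckeAlphaBar Kbar M q) ≠ 0 := by
  by_cases h : q ∣ M
  · rw [Fermat.Agent.NEB.OLD.H6.finrankAlong_alpha_of_dvd M q hq h]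
    exact hq.ne_zero
  · rw [Fermat.Agent.RED.H95.finrankAlong_alpha hq h]
    exact Nat.succ_ne_zero q

/-- **Degrees of the two degeneracy maps agree**, for every level. -/
theorem finrankAlong_beta_eq_alpha (q : ℕ) [NeZero q] (hq : q.Prime) :
    ∀ (M : ℕ) [NeZero M],
      finrankAlong Kbar (heckeBetaBar Kbar M q) = finrankAlong Kbar (heckeAlphaBar Kbar M q) := by
  intro M
  induction M using Nat.strong_induction_on with
  | _ M ih =>
    intro hM
    by_cases h : q ∣ M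
    · obtain ⟨M', rfl⟩ := h
      have hM'0 : M' ≠ 0 := fun h0 => by
        apply NeZero.ne (q * M')
        rw [h0, mul_zero]
      haveI : NeZero M' := ⟨hM'0⟩
      have hlt : M' < q * M' := by
        have := hq.one_lt
        nlinarith [Nat.pos_of_ne_zero hM'0]
      have hih := ih M' hlt
      -- rewrite the level `q * M'` as `M' * q`
      have hcomm : q * M' = M' * q := mul_comm q M'
      revert hM
      rw [hcomm]
      intro hM
      haveI : NeZero (M' * q * q) :=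
        ⟨Nat.mul_ne_zero (NeZero.ne (M' * q)) (NeZero.ne q)⟩
      have hsq : (heckeBetaBar Kbar (M' * q) q).toRingHom.comp (heckeAlphaBar Kbar M' q).toRingHom
          = (heckeAlphaBar Kbar (M' * q) q).toRingHom.comp (heckeBetaBar Kbar M' q).toRingHom := by
        ext x
        simp only [RingHom.comp_apply, AlgHom.toRingHom_eq_coe, RingHom.coe_coe,
          coe_heckeBetaBar, coe_heckeAlphaBar]
      have h1 := finrank_comp_h44 (heckeAlphaBar Kbar M' q).toRingHom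
        (heckeBetaBar Kbar (M' * q) q).toRingHom
      have h2 := finrank_comp_h44 (heckeBetaBar Kbar M' q).toRingHom
        (heckeAlphaBar Kbar (M' * q) q).toRingHom
      rw [hsq, h2] at h1
      have e1 : finrankHom (heckeBetaBar Kbar M' q).toRingHom
          = finrankHom (heckeAlphaBar Kbar M' q).toRingHom := hih
      rw [e1] at h1
      have h0 : finrankHom (heckeAlphaBar Kbar M' q).toRingHom ≠ 0 :=
        finrankAlong_alpha_ne_zero M' q hq
      exact (Nat.eq_of_mul_eq_mul_left (Nat.pos_of_ne_zero h0) h1).symm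
    · rw [Fermat.Agent.RED.H95.finrankAlong_alpha hq h,
        Fermat.Agent.RED.H95.finrankAlong_beta hq h]

/-- `[F₀(Mq) : β F₀(M)] = q` for a prime `q ∣ M`. -/
theorem finrankAlong_beta_of_dvd (M q : ℕ) [NeZero M] [NeZero q] (hq : q.Prime) (hqM : q ∣ M) :
    finrankAlong Kbar (heckeBetaBar Kbar M q) = q := by
  rw [finrankAlong_beta_eq_alpha q hq M]
  exact Fermat.Agent.NEB.OLD.H6.finrankAlong_alpha_of_dvd M q hq hqM

section JH

variable {M c ℓ : ℕ} [NeZero M] [NeZero ℓ] {H : Subgroup (ZMod c)ˣ}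
variable {P : ValuationSubring Kbar} {p : ℕ}

/-- `[F_H(Mℓ) : β F_H(M)] = ℓ` for a prime `ℓ ∣ M`. -/
theorem finrankAlong_betaH_of_dvd (hd : HeckeData M c ℓ H) (hℓ : ℓ.Prime) (hℓM : ℓ ∣ M) :
    finrankAlong Kbar (betaBar hd.hβ) = ℓ := by
  rw [Fermat.Agent.NEB.H70.finrankAlong_betaH_eq hd]
  exact finrankAlong_beta_of_dvd M ℓ hℓ hℓM

/-- The `q`-expansion of the Kummer function of `U_ℓ^H`, `ℓ ∣ M`:
`UHfn f = ∏_{ζ^ℓ = 1} f (ζ q^{1/ℓ})`. -/
theorem coe_UHfn_of_dvd (hd : HeckeData M c ℓ H) (hℓ : ℓ.Prime) (hℓM : ℓ ∣ M)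
    (f : ↥(FHbar M c H)) :
    ((UHfn hd.hβ f : ↥(FHbar M c H)) : LaurentSeries Kbar)
      = Fermat.Agent.NEB.H70.uSeries ℓ (f : LaurentSeries Kbar) :=
  Fermat.Agent.NEB.H70.coe_UHfn_of_finrank hd (finrankAlong_betaH_of_dvd hd hℓ hℓM) f

/-- **CL-U** (uniform): `InKU` is stable under `U_ℓ^H`, `ℓ ∣ M` prime. -/
theorem InKU.UH (hd : HeckeData M c ℓ H) (hℓ : ℓ.Prime) (hℓM : ℓ ∣ M) {x : JH M c H}
    (hx : InKU P p hd.dd x) : InKU P p hd.dd (JH.UH hd.hβ x) :=
  hx.UH_of_finrank hd (finrankAlong_betaH_of_dvd hd hℓ hℓM)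

/-- **CL-UF** (uniform): for a Frobenius `φ` at `P ∣ ℓ`, `ℓ ∣ M`:
`(U_ℓ^H - φ) J_H[p^∞] ⊆ K_A`. -/
theorem inKU_UF (hd : HeckeData M c ℓ H) (hℓ : ℓ.Prime) (hℓM : ℓ ∣ M)
    (hP : P.LiesOverPrime ℓ) {φ : GalQ} (hφ : P.IsFrobeniusAt φ ℓ) {x : JH M c H}
    (hx : IsPTors p x) : InKU P p hd.dd (JH.UH hd.hβ x - φ • x) :=
  inKU_UF_of_finrank hd (finrankAlong_betaH_of_dvd hd hℓ hℓM) hℓ hP hφ hx

/-- **CL-UF** as stated in `Geom/Defs.lean`. -/
theorem stmt_CL_UF (M c : ℕ) (H : Subgroup (ZMod c)ˣ) (p : ℕ) : Stmt_CL_UF M c H p :=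
  fun _ _ _ hq hqM _ hd _ hP _ hφ _ hx => (inKU_UF hd hq hqM hP hφ hx).inKA

end JH

end Fermat.Agent.NEB.Geom.H70
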