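import Mathlib
import Fermat.Agent.NEB.Geom.DefsL
import Fermat.Agent.NEB.Geom.H29_ZComm
import Fermat.Agent.NEB.Geom.H70_KU2

/-!
# NEB-GEOM, leaf Z-COMMtw (helper29)

`stmt_Z_COMMtw : Stmt_Z_COMMtw N S p n qv h2`: the operators `T'_ℓ`, `U_{q_j}`, `⟨u⟩` on
`J_H[p^∞]` commute pairwise and with the Galois action; the same at level `Γ₀(N c)`; and they are
intertwined by `π^*`, `π_*`.

Level `Γ₀`: the commutation is deduced from the one on `J_H` for `H = ⊤` (where `π_* π^* = 1`).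
-/

set_option autoImplicit false
set_option linter.unusedSectionVars false
set_option linter.style.haveILetI false

noncomputable section

namespace Fermat.Agent.NEB.Geom.H29

open AlgebraicCurve ModularCurve
open Fermat.Agent.NEB Fermat.Agent.NEB.H14 Fermat.Agent.NEB.JH Fermat.Agent.RED
open Fermat.Agent.S59.Asm

/-- Commutation of endomorphisms of `ptors`, checked on the underlying elements. -/
theorem commute_ptors {X : Type*} [AddCommGroup X] {p : ℕ} (a b : Module.End ℤ ↥(ptors p X))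
    (h : ∀ x : ↥(ptors p X), ((a (b x) : ↥(ptors p X)) : X) = ((b (a x) : ↥(ptors p X)) : X)) :
    Commute a b := by
  show a * b = b * a
  exact LinearMap.ext fun x => Subtype.ext (h x)

/-! ## 1. The operators on `J_H[p^∞]` -/

section gen

variable (M c : ℕ) [NeZero M] (H : Subgroup (ZMod c)ˣ) (h2 : 2 ≤ c) (hc : c ∣ M) (p : ℕ)

theorem Tz_zero : Tz M c H h2 hc p 0 = 0 := by
  simp only [Tz, dif_pos]

theorem Uz_zero : Uz M c H h2 hc p 0 = 0 := by
  simp only [Uz, dif_pos]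

theorem commute_diaZ_diaZ (u v : (ZMod c)ˣ) :
    Commute (diaZ M c H h2 hc p u) (diaZ M c H h2 hc p v) := by
  show _ * _ = _ * _
  rw [← map_mul, ← map_mul, mul_comm]

theorem commute_Tz_diaZ (ℓ : ℕ) (u : (ZMod c)ˣ) :
    Commute (Tz M c H h2 hc p ℓ) (diaZ M c H h2 hc p u) := by
  by_cases h : ℓ = 0
  · subst h
    rw [Tz_zero]
    exact Commute.zero_left _
  · haveI : NeZero ℓ := ⟨h⟩
    refine commute_ptors _ _ fun x => ?_
    rw [Tz_apply, diaZ_apply, diaZ_apply, Tz_apply]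
    exact TH_diamond (heckeData M c ℓ H h2 hc) u (x : JH M c H)

theorem commute_Uz_diaZ (q : ℕ) (u : (ZMod c)ˣ) :
    Commute (Uz M c H h2 hc p q) (diaZ M c H h2 hc p u) := by
  by_cases h : q = 0
  · subst h
    rw [Uz_zero]
    exact Commute.zero_left _
  · haveI : NeZero q := ⟨h⟩
    refine commute_ptors _ _ fun x => ?_
    rw [Uz_apply, diaZ_apply, diaZ_apply, Uz_apply]
    exact UH_diamond (heckeData M c q H h2 hc) u (x : JH M c H)

theorem commute_Tz_galZ (ℓ : ℕ) (σ : GalQ) :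
    Commute (Tz M c H h2 hc p ℓ) (galZ M c H p σ) := by
  by_cases h : ℓ = 0
  · subst h
    rw [Tz_zero]
    exact Commute.zero_left _
  · haveI : NeZero ℓ := ⟨h⟩
    refine commute_ptors _ _ fun x => ?_
    rw [Tz_apply, galZ_apply, galZ_apply, Tz_apply]
    exact TH_galois (heckeData M c ℓ H h2 hc).isFF (heckeData M c ℓ H h2 hc).isFF'
      (heckeData M c ℓ H h2 hc).hβ σ (x : JH M c H)

theorem commute_Uz_galZ (q : ℕ) (σ : GalQ) :
    Commute (Uz M c H h2 hc p q) (galZ M c H p σ) := by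
  by_cases h : q = 0
  · subst h
    rw [Uz_zero]
    exact Commute.zero_left _
  · haveI : NeZero q := ⟨h⟩
    refine commute_ptors _ _ fun x => ?_
    rw [Uz_apply, galZ_apply, galZ_apply, Uz_apply]
    exact UH_galois (heckeData M c q H h2 hc).isFF (heckeData M c q H h2 hc).isFF'
      (heckeData M c q H h2 hc).hβ σ (x : JH M c H)

theorem commute_diaZ_galZ (u : (ZMod c)ˣ) (σ : GalQ) :
    Commute (diaZ M c H h2 hc p u) (galZ M c H p σ) := by
  refine commute_ptors _ _ fun x => ?_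
  rw [diaZ_apply, galZ_apply, galZ_apply, diaZ_apply]
  exact diamond_galois (isFF_JH M c H h2 hc) (diamondData M c H h2 hc) u σ (x : JH M c H)

theorem commute_Tz_Tz {ℓ ℓ' : ℕ} (hℓ : ℓ.Prime) (hℓM : ¬ ℓ ∣ M) (hℓ' : ℓ'.Prime)
    (hℓ'M : ¬ ℓ' ∣ M) : Commute (Tz M c H h2 hc p ℓ) (Tz M c H h2 hc p ℓ') := by
  by_cases hne : ℓ = ℓ'
  · subst hne
    exact Commute.refl _
  · haveI : NeZero ℓ := ⟨hℓ.ne_zero⟩
    haveI : NeZero ℓ' := ⟨hℓ'.ne_zero⟩
    refine commute_ptors _ _ fun x => ?_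
    rw [Tz_apply, Tz_apply, Tz_apply, Tz_apply]
    exact TH_comm (heckeData M c ℓ H h2 hc) (heckeData M c ℓ' H h2 hc) h2 hc hℓ hℓM hℓ' hℓ'M hne
      (x : JH M c H)

theorem commute_Tz_Uz {ℓ q : ℕ} (hℓ : ℓ.Prime) (hℓM : ¬ ℓ ∣ M) (hq : q.Prime) (hqM : q ∣ M) :
    Commute (Tz M c H h2 hc p ℓ) (Uz M c H h2 hc p q) := by
  have hne : ℓ ≠ q := fun h => hℓM (h ▸ hqM)
  haveI : NeZero ℓ := ⟨hℓ.ne_zero⟩
  haveI : NeZero q := ⟨hq.ne_zero⟩
  refine commute_ptors _ _ fun x => ?_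
  rw [Tz_apply, Uz_apply, Uz_apply, Tz_apply]
  exact TH_UH_comm (heckeData M c ℓ H h2 hc) (heckeData M c q H h2 hc) h2 hc hℓ hℓM hq
    (Fermat.Agent.NEB.Geom.H70.finrankAlong_betaH_of_dvd (heckeData M c q H h2 hc) hq hqM) hne
    (x : JH M c H)

theorem commute_Uz_Uz {q q' : ℕ} (hq : q.Prime) (hqM : q ∣ M) (hq' : q'.Prime) (hq'M : q' ∣ M) :
    Commute (Uz M c H h2 hc p q) (Uz M c H h2 hc p q') := by
  by_cases hne : q = q'
  · subst hne
    exact Commute.refl _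
  · haveI : NeZero q := ⟨hq.ne_zero⟩
    haveI : NeZero q' := ⟨hq'.ne_zero⟩
    refine commute_ptors _ _ fun x => ?_
    rw [Uz_apply, Uz_apply, Uz_apply, Uz_apply]
    exact UH_comm (heckeData M c q H h2 hc) (heckeData M c q' H h2 hc) hq hq'
      (Fermat.Agent.NEB.Geom.H70.finrankAlong_betaH_of_dvd (heckeData M c q H h2 hc) hq hqM)
      (Fermat.Agent.NEB.Geom.H70.finrankAlong_betaH_of_dvd (heckeData M c q' H h2 hc) hq' hq'M)
      hne (x : JH M c H)

/-- A twisted operator commutes with whatever commutes with `T_ℓ` and the diamonds. -/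
theorem commute_TzTw_of {X : Module.End ℤ (AH M c H p)} (j ℓ : ℕ)
    (h1 : Commute (Tz M c H h2 hc p ℓ) X)
    (h2' : ∀ u, Commute (diaZ M c H h2 hc p u) X) :
    Commute (TzTw M c H h2 hc p j ℓ) X :=
  Commute.mul_left h1 ((h2' _).pow_left j)

/-- `π^*` on `J₀[p^∞]` followed by a diamond. -/
theorem diaZ_upZ (u : (ZMod c)ˣ) (x : A0 M p) :
    diaZ M c H h2 hc p u (upZ M c H p x) = upZ M c H p x := by
  apply Subtype.ext
  rw [diaZ_apply]
  exact diamond_piUp (isFF_JH M c H h2 hc) (diamondData M c H h2 hc) u (x : JZero M)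

theorem diaZ_pow_upZ (u : (ZMod c)ˣ) (j : ℕ) (x : A0 M p) :
    (diaZ M c H h2 hc p u ^ j) (upZ M c H p x) = upZ M c H p x := by
  induction j with
  | zero => rfl
  | succ j ih => rw [pow_succ, Module.End.mul_apply, diaZ_upZ, ih]

theorem downZ_diaZ (u : (ZMod c)ˣ) (x : AH M c H p) :
    downZ M c H p (diaZ M c H h2 hc p u x) = downZ M c H p x := by
  apply Subtype.ext
  show piDown M c H ((diamondData M c H h2 hc).ρ u • (x : JH M c H)) = piDown M c H (x : JH M c H)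
  exact piDown_diamond (isFF_JH M c H h2 hc) (diamondData M c H h2 hc) u (x : JH M c H)

theorem downZ_diaZ_pow (u : (ZMod c)ˣ) (j : ℕ) (x : AH M c H p) :
    downZ M c H p ((diaZ M c H h2 hc p u ^ j) x) = downZ M c H p x := by
  induction j generalizing x with
  | zero => rfl
  | succ j ih => rw [pow_succ, Module.End.mul_apply, ih, downZ_diaZ]

theorem upZ_Tz0 (ℓ : ℕ) (x : A0 M p) :
    upZ M c H p (Tz0 M p ℓ x) = Tz M c H h2 hc p ℓ (upZ M c H p x) := by
  by_cases h : ℓ = 0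
  · subst h
    have h0 : Tz0 M p 0 = 0 := by simp only [Tz0, dif_pos]
    rw [Tz_zero, h0]
    simp
  · haveI : NeZero ℓ := ⟨h⟩
    apply Subtype.ext
    rw [Tz_apply]
    show piUp M c H ((Tz0 M p ℓ x : A0 M p) : JZero M) = _
    rw [Tz0_apply]
    exact piUp_T0 (heckeData M c ℓ H h2 hc) (x : JZero M)

theorem upZ_Uz0 (q : ℕ) (x : A0 M p) :
    upZ M c H p (Uz0 M p q x) = Uz M c H h2 hc p q (upZ M c H p x) := by
  by_cases h : q = 0
  · subst h
    have h0 : Uz0 M p 0 = 0 := by simp only [Uz0, dif_pos]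
    rw [Uz_zero, h0]
    simp
  · haveI : NeZero q := ⟨h⟩
    apply Subtype.ext
    rw [Uz_apply]
    show piUp M c H ((Uz0 M p q x : A0 M p) : JZero M) = _
    rw [Uz0_apply]
    exact piUp_U0 (heckeData M c q H h2 hc) (x : JZero M)

theorem downZ_Tz (ℓ : ℕ) (x : AH M c H p) :
    downZ M c H p (Tz M c H h2 hc p ℓ x) = Tz0 M p ℓ (downZ M c H p x) := by
  by_cases h : ℓ = 0
  · subst h
    have h0 : Tz0 M p 0 = 0 := by simp only [Tz0, dif_pos]
    rw [Tz_zero, h0]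
    simp
  · haveI : NeZero ℓ := ⟨h⟩
    apply Subtype.ext
    rw [Tz0_apply]
    show piDown M c H ((Tz M c H h2 hc p ℓ x : AH M c H p) : JH M c H) = _
    rw [Tz_apply]
    exact piDown_TH (heckeData M c ℓ H h2 hc) (x : JH M c H)

theorem downZ_Uz (q : ℕ) (x : AH M c H p) :
    downZ M c H p (Uz M c H h2 hc p q x) = Uz0 M p q (downZ M c H p x) := by
  by_cases h : q = 0
  · subst h
    have h0 : Uz0 M p 0 = 0 := by simp only [Uz0, dif_pos]
    rw [Uz_zero, h0]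
    simp
  · haveI : NeZero q := ⟨h⟩
    apply Subtype.ext
    rw [Uz0_apply]
    show piDown M c H ((Uz M c H h2 hc p q x : AH M c H p) : JH M c H) = _
    rw [Uz_apply]
    exact piDown_UH (heckeData M c q H h2 hc) (x : JH M c H)

include h2 hc in
theorem upZ_galZ0 (σ : GalQ) (x : A0 M p) :
    upZ M c H p (galZ0 M p σ x) = galZ M c H p σ (upZ M c H p x) := by
  apply Subtype.ext
  show piUp M c H (σ • (x : JZero M)) = σ • piUp M c H (x : JZero M)
  exact piUp_galois (isFF_JH M c H h2 hc) σ (x : JZero M)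

include h2 hc in
theorem downZ_galZ (σ : GalQ) (x : AH M c H p) :
    downZ M c H p (galZ M c H p σ x) = galZ0 M p σ (downZ M c H p x) := by
  apply Subtype.ext
  show piDown M c H (σ • (x : JH M c H)) = σ • piDown M c H (x : JH M c H)
  exact piDown_galois (isFF_JH M c H h2 hc) σ (x : JH M c H)

end gen

/-! ## 2. Level `Γ₀`: commutation through `H = ⊤` -/

section top

variable (M c : ℕ) [NeZero M] (h2 : 2 ≤ c) (hc : c ∣ M) (p : ℕ)

include h2 hc

theorem finrankAlong_inclBar_top :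
    finrankAlong Kbar (inclBar M c (⊤ : Subgroup (ZMod c)ˣ)) = 1 := by
  rw [Fermat.Agent.NEB.H94.finrankAlong_inclBar M c ⊤ h2 hc (NeZero.ne M)
    (Fermat.Agent.NEB.H84.stmt_FH_gal M c ⊤)]
  have h : Fermat.Agent.NEB.H94.pmSubgroup c ⊤ = ⊤ := by
    rw [Subgroup.eq_top_iff']
    intro d
    exact Or.inl (Subgroup.mem_top d)
  rw [h, Subgroup.index_top]

theorem piDown_piUp_top (x : JZero M) :
    piDown M c (⊤ : Subgroup (ZMod c)ˣ) (piUp M c ⊤ x) = x := by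
  rw [piDown_piUp (isFF_JH M c ⊤ h2 hc), finrankAlong_inclBar_top M c h2 hc, one_smul]

theorem downZ_upZ_top (x : A0 M p) :
    downZ M c (⊤ : Subgroup (ZMod c)ˣ) p (upZ M c ⊤ p x) = x :=
  Subtype.ext (piDown_piUp_top M c h2 hc (x : JZero M))

/-- Operators on `J₀[p^∞]` which are pushed down from commuting operators on `J_⊤[p^∞]`
commute. -/
theorem commute0_of_top {a b : Module.End ℤ (AH M c (⊤ : Subgroup (ZMod c)ˣ) p)}
    {a₀ b₀ : Module.End ℤ (A0 M p)}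
    (ha : ∀ y, downZ M c ⊤ p (a y) = a₀ (downZ M c ⊤ p y))
    (hb : ∀ y, downZ M c ⊤ p (b y) = b₀ (downZ M c ⊤ p y))
    (hab : Commute a b) : Commute a₀ b₀ := by
  show a₀ * b₀ = b₀ * a₀
  refine LinearMap.ext fun x => ?_
  have hx := downZ_upZ_top M c h2 hc p x
  have h1 : a₀ (b₀ x) = downZ M c ⊤ p (a (b (upZ M c ⊤ p x))) := by
    rw [ha, hb, hx]
  have h2' : b₀ (a₀ x) = downZ M c ⊤ p (b (a (upZ M c ⊤ p x))) := by
    rw [hb, ha, hx]
  have h3 : a (b (upZ M c ⊤ p x)) = b (a (upZ M c ⊤ p x)) :=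
    LinearMap.congr_fun hab.eq (upZ M c ⊤ p x)
  show a₀ (b₀ x) = b₀ (a₀ x)
  rw [h1, h2', h3]

theorem commute_Tz0_Tz0 {ℓ ℓ' : ℕ} (hℓ : ℓ.Prime) (hℓM : ¬ ℓ ∣ M) (hℓ' : ℓ'.Prime)
    (hℓ'M : ¬ ℓ' ∣ M) : Commute (Tz0 M p ℓ) (Tz0 M p ℓ') :=
  commute0_of_top M c h2 hc p (downZ_Tz M c ⊤ h2 hc p ℓ) (downZ_Tz M c ⊤ h2 hc p ℓ')
    (commute_Tz_Tz M c ⊤ h2 hc p hℓ hℓM hℓ' hℓ'M)

theorem commute_Tz0_Uz0 {ℓ q : ℕ} (hℓ : ℓ.Prime) (hℓM : ¬ ℓ ∣ M) (hq : q.Prime) (hqM : q ∣ M) :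
    Commute (Tz0 M p ℓ) (Uz0 M p q) :=
  commute0_of_top M c h2 hc p (downZ_Tz M c ⊤ h2 hc p ℓ) (downZ_Uz M c ⊤ h2 hc p q)
    (commute_Tz_Uz M c ⊤ h2 hc p hℓ hℓM hq hqM)

theorem commute_Uz0_Uz0 {q q' : ℕ} (hq : q.Prime) (hqM : q ∣ M) (hq' : q'.Prime)
    (hq'M : q' ∣ M) : Commute (Uz0 M p q) (Uz0 M p q') :=
  commute0_of_top M c h2 hc p (downZ_Uz M c ⊤ h2 hc p q) (downZ_Uz M c ⊤ h2 hc p q')
    (commute_Uz_Uz M c ⊤ h2 hc p hq hqM hq' hq'M)

theorem commute_Tz0_galZ0 (ℓ : ℕ) (σ : GalQ) : Commute (Tz0 M p ℓ) (galZ0 M p σ) :=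
  commute0_of_top M c h2 hc p (downZ_Tz M c ⊤ h2 hc p ℓ) (downZ_galZ M c ⊤ h2 hc p σ)
    (commute_Tz_galZ M c ⊤ h2 hc p ℓ σ)

theorem commute_Uz0_galZ0 (q : ℕ) (σ : GalQ) : Commute (Uz0 M p q) (galZ0 M p σ) :=
  commute0_of_top M c h2 hc p (downZ_Uz M c ⊤ h2 hc p q) (downZ_galZ M c ⊤ h2 hc p σ)
    (commute_Uz_galZ M c ⊤ h2 hc p q σ)

end top

/-! ## 3. The Taylor–Wiles setting -/

section TW

variable (N : ℕ) (S : Finset ℕ) (p n : ℕ) {r : ℕ} (qv : Fin r → ℕ)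

theorem twC_dvd_level : twC qv ∣ N * twC qv := dvd_mul_left _ _

theorem qv_dvd_level (j : Fin r) : qv j ∣ N * twC qv :=
  Dvd.dvd.mul_left (Finset.dvd_prod_of_mem qv (Finset.mem_univ j)) N

theorem not_dvd_level_of_good {N : ℕ} {S : Finset ℕ} {r : ℕ} {qv : Fin r → ℕ} {ℓ : ℕ}
    (h : GoodTw N S qv ℓ) : ¬ ℓ ∣ N * twC qv := by
  intro hd
  apply h.2.1
  unfold twLevel
  exact hd.trans (mul_dvd_mul_left N
    (Finset.prod_dvd_prod_of_dvd _ _ fun j _ => dvd_pow_self _ two_ne_zero))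

variable [NeZero (N * twC qv)] (h2 : 2 ≤ twC qv)

theorem opsTw_inl_good {ℓ : ℕ} (hg : GoodTw N S qv ℓ) :
    opsTw N S p n qv h2 (Sum.inl ℓ)
      = TzTw (N * twC qv) (twC qv) (twH p n qv) h2 (dvd_mul_left _ _) p (jTw p n) ℓ := by
  simp only [opsTw, if_pos hg]

theorem opsTw_inl_bad {ℓ : ℕ} (hg : ¬ GoodTw N S qv ℓ) :
    opsTw N S p n qv h2 (Sum.inl ℓ) = 0 := by
  simp only [opsTw, if_neg hg]

theorem opsTw0_inl_good {ℓ : ℕ} (hg : GoodTw N S qv ℓ) :
    opsTw0 N S p qv (Sum.inl ℓ) = Tz0 (N * twC qv) p ℓ := by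
  simp only [opsTw0, if_pos hg]

theorem opsTw0_inl_bad {ℓ : ℕ} (hg : ¬ GoodTw N S qv ℓ) :
    opsTw0 N S p qv (Sum.inl ℓ) = 0 := by
  simp only [opsTw0, if_neg hg]

/-- The operators commute pairwise. -/
theorem commute_opsTw (hq : ∀ j, (qv j).Prime) (i j : IdxTw r (twC qv)) :
    Commute (opsTw N S p n qv h2 i) (opsTw N S p n qv h2 j) := by
  have hc : twC qv ∣ N * twC qv := dvd_mul_left _ _
  -- the basic commutations
  have hTd : ∀ ℓ u, Commute
      (opsTw N S p n qv h2 (Sum.inl ℓ))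
      (diaZ (N * twC qv) (twC qv) (twH p n qv) h2 hc p u) := by
    intro ℓ u
    by_cases hg : GoodTw N S qv ℓ
    · rw [opsTw_inl_good N S p n qv h2 hg]
      exact commute_TzTw_of _ _ _ h2 hc p _ _ (commute_Tz_diaZ _ _ _ h2 hc p ℓ u)
        (fun v => commute_diaZ_diaZ _ _ _ h2 hc p v u)
    · rw [opsTw_inl_bad N S p n qv h2 hg]
      exact Commute.zero_left _
  have hTU : ∀ ℓ k, Commute
      (opsTw N S p n qv h2 (Sum.inl ℓ))
      (Uz (N * twC qv) (twC qv) (twH p n qv) h2 hc p (qv k)) := by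
    intro ℓ k
    by_cases hg : GoodTw N S qv ℓ
    · rw [opsTw_inl_good N S p n qv h2 hg]
      exact commute_TzTw_of _ _ _ h2 hc p _ _
        (commute_Tz_Uz _ _ _ h2 hc p hg.1 (not_dvd_level_of_good hg) (hq k) (qv_dvd_level N qv k))
        (fun v => (commute_Uz_diaZ _ _ _ h2 hc p (qv k) v).symm)
    · rw [opsTw_inl_bad N S p n qv h2 hg]
      exact Commute.zero_left _
  have hTT : ∀ ℓ ℓ', Commute
      (opsTw N S p n qv h2 (Sum.inl ℓ)) (opsTw N S p n qv h2 (Sum.inl ℓ')) := by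
    intro ℓ ℓ'
    by_cases hg : GoodTw N S qv ℓ
    · by_cases hg' : GoodTw N S qv ℓ'
      · rw [opsTw_inl_good N S p n qv h2 hg]
        refine commute_TzTw_of _ _ _ h2 hc p _ _ ?_ (fun v => (hTd ℓ' v).symm)
        rw [opsTw_inl_good N S p n qv h2 hg']
        exact (commute_TzTw_of _ _ _ h2 hc p _ _
          (commute_Tz_Tz _ _ _ h2 hc p hg'.1 (not_dvd_level_of_good hg') hg.1 (not_dvd_level_of_good hg))
          (fun v => (commute_Tz_diaZ _ _ _ h2 hc p ℓ v).symm)).symm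
      · rw [opsTw_inl_bad N S p n qv h2 hg']
        exact Commute.zero_right _
    · rw [opsTw_inl_bad N S p n qv h2 hg]
      exact Commute.zero_left _
  rcases i with ℓ | k | u <;> rcases j with ℓ' | k' | u'
  · exact hTT ℓ ℓ'
  · exact hTU ℓ k'
  · exact hTd ℓ u'
  · exact (hTU ℓ' k).symm
  · exact commute_Uz_Uz _ _ _ h2 hc p (hq k) (qv_dvd_level N qv k) (hq k')
      (qv_dvd_level N qv k')
  · exact commute_Uz_diaZ _ _ _ h2 hc p (qv k) u'
  · exact (hTd ℓ' u).symm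
  · exact (commute_Uz_diaZ _ _ _ h2 hc p (qv k') u).symm
  · exact commute_diaZ_diaZ _ _ _ h2 hc p u u'

/-- The operators commute with the Galois action. -/
theorem commute_opsTw_galZ (i : IdxTw r (twC qv)) (σ : GalQ) :
    Commute (opsTw N S p n qv h2 i) (galZ (N * twC qv) (twC qv) (twH p n qv) p σ) := by
  have hc : twC qv ∣ N * twC qv := dvd_mul_left _ _
  rcases i with ℓ | k | u
  · by_cases hg : GoodTw N S qv ℓ
    · rw [opsTw_inl_good N S p n qv h2 hg]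
      exact commute_TzTw_of _ _ _ h2 hc p _ _ (commute_Tz_galZ _ _ _ h2 hc p ℓ σ)
        (fun v => commute_diaZ_galZ _ _ _ h2 hc p v σ)
    · rw [opsTw_inl_bad N S p n qv h2 hg]
      exact Commute.zero_left _
  · exact commute_Uz_galZ _ _ _ h2 hc p (qv k) σ
  · exact commute_diaZ_galZ _ _ _ h2 hc p u σ

include h2 in
/-- The operators at level `Γ₀` commute pairwise. -/
theorem commute_opsTw0 (hq : ∀ j, (qv j).Prime) (i j : IdxTw r (twC qv)) :
    Commute (opsTw0 N S p qv i) (opsTw0 N S p qv j) := by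
  have hc : twC qv ∣ N * twC qv := dvd_mul_left _ _
  have hTU : ∀ ℓ k, Commute (opsTw0 N S p qv (Sum.inl ℓ)) (Uz0 (N * twC qv) p (qv k)) := by
    intro ℓ k
    by_cases hg : GoodTw N S qv ℓ
    · rw [opsTw0_inl_good N S p qv hg]
      exact commute_Tz0_Uz0 _ _ h2 hc p hg.1 (not_dvd_level_of_good hg) (hq k) (qv_dvd_level N qv k)
    · rw [opsTw0_inl_bad N S p qv hg]
      exact Commute.zero_left _
  have hTT : ∀ ℓ ℓ', Commute (opsTw0 N S p qv (Sum.inl ℓ)) (opsTw0 N S p qv (Sum.inl ℓ')) := by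
    intro ℓ ℓ'
    by_cases hg : GoodTw N S qv ℓ
    · by_cases hg' : GoodTw N S qv ℓ'
      · rw [opsTw0_inl_good N S p qv hg, opsTw0_inl_good N S p qv hg']
        exact commute_Tz0_Tz0 _ _ h2 hc p hg.1 (not_dvd_level_of_good hg) hg'.1 (not_dvd_level_of_good hg')
      · rw [opsTw0_inl_bad N S p qv hg']
        exact Commute.zero_right _
    · rw [opsTw0_inl_bad N S p qv hg]
      exact Commute.zero_left _
  rcases i with ℓ | k | u <;> rcases j with ℓ' | k' | u'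
  · exact hTT ℓ ℓ'
  · exact hTU ℓ k'
  · exact Commute.one_right _
  · exact (hTU ℓ' k).symm
  · exact commute_Uz0_Uz0 _ _ h2 hc p (hq k) (qv_dvd_level N qv k) (hq k')
      (qv_dvd_level N qv k')
  · exact Commute.one_right _
  · exact Commute.one_left _
  · exact Commute.one_left _
  · exact Commute.one_left _

include h2 in
/-- The operators at level `Γ₀` commute with the Galois action. -/
theorem commute_opsTw0_galZ0 (i : IdxTw r (twC qv)) (σ : GalQ) :
    Commute (opsTw0 N S p qv i) (galZ0 (N * twC qv) p σ) := by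
  have hc : twC qv ∣ N * twC qv := dvd_mul_left _ _
  rcases i with ℓ | k | u
  · by_cases hg : GoodTw N S qv ℓ
    · rw [opsTw0_inl_good N S p qv hg]
      exact commute_Tz0_galZ0 _ _ h2 hc p ℓ σ
    · rw [opsTw0_inl_bad N S p qv hg]
      exact Commute.zero_left _
  · exact commute_Uz0_galZ0 _ _ h2 hc p (qv k) σ
  · exact Commute.one_left _

/-- `π^*` intertwines the operators. -/
theorem upZ_opsTw0 (i : IdxTw r (twC qv)) :
    upZ (N * twC qv) (twC qv) (twH p n qv) p ∘ₗ opsTw0 N S p qv i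
      = opsTw N S p n qv h2 i ∘ₗ upZ (N * twC qv) (twC qv) (twH p n qv) p := by
  have hc : twC qv ∣ N * twC qv := dvd_mul_left _ _
  refine LinearMap.ext fun x => ?_
  simp only [LinearMap.comp_apply]
  rcases i with ℓ | k | u
  · by_cases hg : GoodTw N S qv ℓ
    · rw [opsTw0_inl_good N S p qv hg, opsTw_inl_good N S p n qv h2 hg, TzTw,
        Module.End.mul_apply, diaZ_pow_upZ]
      exact upZ_Tz0 _ _ _ h2 hc p ℓ x
    · rw [opsTw0_inl_bad N S p qv hg, opsTw_inl_bad N S p n qv h2 hg]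
      simp
  · exact upZ_Uz0 _ _ _ h2 hc p (qv k) x
  · exact (diaZ_upZ _ _ _ h2 hc p u x).symm

/-- `π_*` intertwines the operators. -/
theorem downZ_opsTw (i : IdxTw r (twC qv)) :
    downZ (N * twC qv) (twC qv) (twH p n qv) p ∘ₗ opsTw N S p n qv h2 i
      = opsTw0 N S p qv i ∘ₗ downZ (N * twC qv) (twC qv) (twH p n qv) p := by
  have hc : twC qv ∣ N * twC qv := dvd_mul_left _ _
  refine LinearMap.ext fun x => ?_
  simp only [LinearMap.comp_apply]
  rcases i with ℓ | k | u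
  · by_cases hg : GoodTw N S qv ℓ
    · rw [opsTw0_inl_good N S p qv hg, opsTw_inl_good N S p n qv h2 hg, TzTw,
        Module.End.mul_apply, downZ_Tz, downZ_diaZ_pow]
    · rw [opsTw0_inl_bad N S p qv hg, opsTw_inl_bad N S p n qv h2 hg]
      simp
  · exact downZ_Uz _ _ _ h2 hc p (qv k) x
  · exact downZ_diaZ _ _ _ h2 hc p u x

/-- **Z-COMMtw**. -/
theorem stmt_Z_COMMtw : Stmt_Z_COMMtw N S p n qv h2 := by
  intro hyp
  refine ⟨commute_opsTw N S p n qv h2 hyp.prime, commute_opsTw_galZ N S p n qv h2,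
    commute_opsTw0 N S p qv h2 hyp.prime, commute_opsTw0_galZ0 N S p qv h2,
    upZ_opsTw0 N S p n qv h2, downZ_opsTw N S p n qv h2, fun σ => ?_⟩
  refine LinearMap.ext fun x => ?_
  exact upZ_galZ0 _ _ _ h2 (dvd_mul_left _ _) p σ x

end TW

end Fermat.Agent.NEB.Geom.H29
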