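import Mathlib
import Fermat.Agent.NEB.Geom.DefsL
import Fermat.Agent.NEB.Geom.H29_TwGroup
import Fermat.Agent.NEB.Geom.H29_ZCommTw
import Fermat.Agent.NEB.H29_InvJH
import Fermat.Agent.NEB.H34_Unr
import Fermat.Agent.S59.Asm.H57_UnrCond
import Fermat.Agent.S59.TWH.H90_Tower
import Fermat.Agent.S43.Old.H75_DivAll

/-!
# NEB-GEOM, leaf TOWER-INST (helper29)

`stmt_TOWER_INST : Stmt_TOWER_INST N S p n qv h2`: the tower theorems (`stmt_DIV_tower`,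
`stmt_HSTEP_tower`), INV, SIGMA and `π^* π_* = ∏_j ∑_e ⟨δ_j⟩^e` for `H = twH p n qv`
(the `p^n`-th powers of `(ℤ/c)ˣ`, `c = ∏ q_j`) on `J_H[p^∞]`.
-/

set_option autoImplicit false
set_option linter.unusedSectionVars false
set_option linter.unusedVariables false
set_option linter.style.haveILetI false

noncomputable section

namespace Fermat.Agent.NEB.Geom.H29

open AlgebraicCurve ModularCurve
open Fermat.Agent.NEB Fermat.Agent.NEB.H14 Fermat.Agent.NEB.JH Fermat.Agent.RED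
open Fermat.Agent.NEB.H29 Fermat.Agent.S59.Asm Fermat.Agent.S59.TWH.H90

/-! ## 1. Generalities on `ptors` -/

section gen

variable (M c : ℕ) [NeZero M] (H : Subgroup (ZMod c)ˣ) (h2 : 2 ≤ c) (hc : c ∣ M) (p : ℕ)

theorem coe_diaZ_pow (u : (ZMod c)ˣ) (e : ℕ) (x : AH M c H p) :
    (((diaZ M c H h2 hc p u ^ e) x : AH M c H p) : JH M c H)
      = ((diamondData M c H h2 hc).ρ u) ^ e • (x : JH M c H) := by
  rw [← map_pow, diaZ_apply, map_pow]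

theorem coe_sum_ptors {X : Type*} [AddCommGroup X] {ι : Type*} (s : Finset ι)
    (f : ι → ↥(ptors p X)) : ((∑ i ∈ s, f i : ↥(ptors p X)) : X) = ∑ i ∈ s, (f i : X) :=
  AddSubgroup.val_finsetSum _ _ _

theorem coe_nsmul_ptors {X : Type*} [AddCommGroup X] (k : ℕ) (x : ↥(ptors p X)) :
    ((k • x : ↥(ptors p X)) : X) = k • (x : X) :=
  AddSubgroup.coe_nsmul _ _ _

theorem coe_zsmul_ptors {X : Type*} [AddCommGroup X] (k : ℤ) (x : ↥(ptors p X)) :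
    ((k • x : ↥(ptors p X)) : X) = k • (x : X) :=
  AddSubgroup.coe_zsmul _ _ _

/-- The monomials in the diamond operators. -/
theorem mon_diaZ {r : ℕ} (δ : Fin r → (ZMod c)ˣ) (e : Fin r → ℕ) :
    mon (fun j => diaZ M c H h2 hc p (δ j)) e = diaZ M c H h2 hc p (∏ j, δ j ^ e j) := by
  rw [mon, ← List.prod_ofFn, map_list_prod, List.map_ofFn]
  congr 1
  congr 1
  funext j
  exact (map_pow _ _ _).symm

end gen

/-! ## 2. The Taylor–Wiles setting -/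

section TW

variable (N : ℕ) (S : Finset ℕ) (p n : ℕ) {r : ℕ} (qv : Fin r → ℕ)

/-- CRT for `(ℤ/c)ˣ`, `c = twC qv`. -/
def crtTw (hcop : Pairwise (Function.onFun Nat.Coprime qv)) :
    (ZMod (twC qv))ˣ ≃* (Π j, (ZMod (qv j))ˣ) :=
  crtUnits qv hcop

theorem crtTw_apply (hcop : Pairwise (Function.onFun Nat.Coprime qv))
    (x : (ZMod (twC qv))ˣ) (j : Fin r) :
    crtTw qv hcop x j = ZMod.unitsMap (Finset.dvd_prod_of_mem qv (Finset.mem_univ j)) x :=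
  crtUnits_apply qv hcop x j

variable {N S p n qv}

theorem twHyp_coprime (hyp : TwHyp N S p n qv) : Pairwise (Function.onFun Nat.Coprime qv) :=
  pairwise_coprime_of_primes qv hyp.inj hyp.prime

theorem twHyp_dvd_card (hyp : TwHyp N S p n qv) (j : Fin r) :
    p ^ n ∣ Nat.card (ZMod (qv j))ˣ := by
  rw [card_units_of_prime (hyp.prime j)]
  exact (pow_dvd_pow p (Nat.le_succ n)).trans (hyp.cong j)

theorem twHyp_odd_pow (hyp : TwHyp N S p n qv) : Odd (p ^ n) :=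
  (hyp.hp.odd_of_ne_two hyp.hp2).pow

theorem twHyp_neg_one_mem (hyp : TwHyp N S p n qv) : (-1 : (ZMod (twC qv))ˣ) ∈ twH p n qv :=
  neg_one_mem_pow_range (twHyp_odd_pow hyp)

theorem twHyp_isGenFam (hyp : TwHyp N S p n qv) {δ : Fin r → (ZMod (twC qv))ˣ}
    (hδ : IsDeltaGen p n qv δ) : IsGenFam (crtTw qv (twHyp_coprime hyp)) (p ^ n) δ where
  triv i j hij := by
    rw [crtTw_apply]
    exact hδ.1 i j hij _
  ord j e he := hδ.2 j e he

theorem twHyp_unr (hyp : TwHyp N S p n qv) [NeZero (N * twC qv)] (h2 : 2 ≤ twC qv)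
    (w : Place Kbar ↥(FHbar (N * twC qv) (twC qv) (twH p n qv))) :
    ∃ x : ↥(modularFunctionFieldBar (N * twC qv)),
      w.ord (inclBar (N * twC qv) (twC qv) (twH p n qv) x) = 1 :=
  Fermat.Agent.NEB.H34.fh_unr (twC qv) (N * twC qv) (twH p n qv) h2 (dvd_mul_left _ _)
    (NeZero.ne _)
    (Fermat.Agent.S59.Asm.H57.stmt_UNRCOND p n hyp.hp hyp.hp2 r qv hyp.inj
      (fun j => ⟨hyp.prime j, hyp.cong j⟩) (N * twC qv) (dvd_mul_left _ _) (twH p n qv)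
      (fun x => ⟨x, rfl⟩)) w

variable (N p n qv) in
/-- The Eisenstein operator, on the underlying classes. -/
theorem coe_tEis [NeZero (N * twC qv)] (h2 : 2 ≤ twC qv) (ℓ₀ : ℕ) [NeZero ℓ₀]
    (x : AH (N * twC qv) (twC qv) (twH p n qv) p) :
    ((tEis N p n qv h2 ℓ₀ x : AH (N * twC qv) (twC qv) (twH p n qv) p) :
        JH (N * twC qv) (twC qv) (twH p n qv))
      = tEnd (TH (heckeData (N * twC qv) (twC qv) ℓ₀ (twH p n qv) h2 (dvd_mul_left _ _)).hβ)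
          ((ℓ₀ + 1 : ℕ) : ℤ) (x : JH (N * twC qv) (twC qv) (twH p n qv)) := by
  rw [tEnd_apply, ← Tz_apply (N * twC qv) (twC qv) (twH p n qv) h2 (dvd_mul_left _ _) p ℓ₀ x]
  rfl

variable (N p n qv) in
theorem coe_tEis_pow [NeZero (N * twC qv)] (h2 : 2 ≤ twC qv) (ℓ₀ : ℕ) [NeZero ℓ₀] (m : ℕ)
    (x : AH (N * twC qv) (twC qv) (twH p n qv) p) :
    (((tEis N p n qv h2 ℓ₀ ^ m) x : AH (N * twC qv) (twC qv) (twH p n qv) p) :
        JH (N * twC qv) (twC qv) (twH p n qv))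
      = (tEnd (TH (heckeData (N * twC qv) (twC qv) ℓ₀ (twH p n qv) h2 (dvd_mul_left _ _)).hβ)
          ((ℓ₀ + 1 : ℕ) : ℤ) ^ m) (x : JH (N * twC qv) (twC qv) (twH p n qv)) := by
  induction m with
  | zero => rfl
  | succ m ih =>
    rw [pow_succ', pow_succ', Module.End.mul_apply, coe_tEis, ih]
    rfl

/-! ## 3. The tower data -/

section data

variable [NeZero (N * twC qv)] (h2 : 2 ≤ twC qv) (hyp : TwHyp N S p n qv)
  {δ : Fin r → (ZMod (twC qv))ˣ} (hδ : IsDeltaGen p n qv δ)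

include hyp hδ

/-- The kernel of `ρ` at the `j`-th step of the chain. -/
theorem tw_ker_chain {ℓ₀ : ℕ} [NeZero ℓ₀] (j : ℕ) (d : (ZMod (twC qv))ˣ) :
    (heckeData (N * twC qv) (twC qv) ℓ₀ (chain (twH p n qv) δ j) h2 (dvd_mul_left _ _)).dd.ρ d = 1
      ↔ d ∈ chain (twH p n qv) δ j := by
  rw [DiamondData.ker]
  constructor
  · rintro (h | h)
    · exact h
    · have h1 := Subgroup.mul_mem _ (le_chain (twH p n qv) δ j (twHyp_neg_one_mem hyp)) h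
      rwa [neg_mul_neg, one_mul] at h1
  · exact Or.inl

theorem tw_hord {ℓ₀ : ℕ} [NeZero ℓ₀] (j : ℕ) (hj : j < r) :
    orderOf ((heckeData (N * twC qv) (twC qv) ℓ₀ (chain (twH p n qv) δ j) h2
      (dvd_mul_left _ _)).dd.ρ (deltaExt δ j)) = p ^ n :=
  (twHyp_isGenFam hyp hδ).orderOf_chain _ j hj (tw_ker_chain h2 hyp hδ j)

theorem tw_htop (d : (ZMod (twC qv))ˣ) :
    d ∈ chain (twH p n qv) δ r ∨ -d ∈ chain (twH p n qv) δ r := by
  haveI : ∀ j, Finite (ZMod (qv j))ˣ := fun j => finite_units_of_prime (hyp.prime j)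
  haveI : ∀ j, IsCyclic (ZMod (qv j))ˣ := fun j => isCyclic_units_of_prime (hyp.prime j)
  exact Or.inl ((twHyp_isGenFam hyp hδ).chain_top (twHyp_dvd_card hyp) d)

/-- **DIV**: `t^N J_H[p^∞] ⊆ p J_H[p^∞]`. -/
theorem tw_div (ℓ₀ : ℕ) (hℓ₀ : ℓ₀.Prime) (hℓ₀M : ¬ ℓ₀ ∣ N * twC qv) :
    ∃ Nn : ℕ, ∀ x : AH (N * twC qv) (twC qv) (twH p n qv) p,
      ∃ y : AH (N * twC qv) (twC qv) (twH p n qv) p,
        (tEis N p n qv h2 ℓ₀ ^ Nn) x = p • y := by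
  haveI : Fact p.Prime := ⟨hyp.hp⟩
  haveI : NeZero ℓ₀ := ⟨hℓ₀.ne_zero⟩
  haveI : NeZero (twC qv) := ⟨by omega⟩
  refine ⟨divExp (p ^ n) r, fun x => ?_⟩
  obtain ⟨y, hy⟩ := stmt_DIV_tower
    (heckeData (N * twC qv) (twC qv) ℓ₀ (twH p n qv) h2 (dvd_mul_left _ _))
    (chain (twH p n qv) δ) rfl
    (fun j => heckeData (N * twC qv) (twC qv) ℓ₀ (chain (twH p n qv) δ j) h2 (dvd_mul_left _ _))
    hℓ₀ hℓ₀M r (deltaExt δ) (fun j _ => rfl) p n (fun j hj => tw_hord h2 hyp hδ j hj)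
    (tw_htop hyp hδ)
    (fun x => Fermat.Agent.S43.Old.H75.divisible_all (N * twC qv) p hyp.hp.ne_zero x)
    (x : JH (N * twC qv) (twC qv) (twH p n qv))
  rw [← coe_tEis_pow N p n qv h2 ℓ₀] at hy
  have hy' : IsPTors p y := by
    obtain ⟨k, hk⟩ := ((tEis N p n qv h2 ℓ₀ ^ divExp (p ^ n) r) x).2
    refine ⟨k + 1, ?_⟩
    rw [pow_succ, mul_smul, ← hy]
    exact hk
  exact ⟨⟨y, hy'⟩, Subtype.ext (by rw [coe_nsmul_ptors]; exact hy)⟩

/-- **HSTEP** on `J_H[p]`. -/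
theorem tw_hstep (ℓ₀ : ℕ) (hℓ₀ : ℓ₀.Prime) (hℓ₀M : ¬ ℓ₀ ∣ N * twC qv) (j : Fin r)
    (v : AH (N * twC qv) (twC qv) (twH p n qv) p) (hv : p • v = 0)
    (hfix : ∀ i, i ≤ j →
      diaZ (N * twC qv) (twC qv) (twH p n qv) h2 (dvd_mul_left _ _) p (δ i) v = v) :
    ∃ (w : AH (N * twC qv) (twC qv) (twH p n qv) p) (m : ℕ), p • w = 0 ∧
      (∀ i, i < j →
        diaZ (N * twC qv) (twC qv) (twH p n qv) h2 (dvd_mul_left _ _) p (δ i) w = w) ∧
      ∑ e ∈ Finset.range (p ^ n),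
        (diaZ (N * twC qv) (twC qv) (twH p n qv) h2 (dvd_mul_left _ _) p (δ j) ^ e) w
          = (tEis N p n qv h2 ℓ₀ ^ m) v := by
  haveI : Fact p.Prime := ⟨hyp.hp⟩
  haveI : NeZero ℓ₀ := ⟨hℓ₀.ne_zero⟩
  haveI : NeZero (twC qv) := ⟨by omega⟩
  have hv' : p ^ 1 • (v : JH (N * twC qv) (twC qv) (twH p n qv)) = 0 := by
    rw [pow_one, ← coe_nsmul_ptors, hv]
    rfl
  have hvG : ∀ i ≤ (j : ℕ),
      (heckeData (N * twC qv) (twC qv) ℓ₀ (twH p n qv) h2 (dvd_mul_left _ _)).dd.ρ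
        (deltaExt δ i) • (v : JH (N * twC qv) (twC qv) (twH p n qv))
        = (v : JH (N * twC qv) (twC qv) (twH p n qv)) := by
    intro i hi
    have hir : i < r := lt_of_le_of_lt hi j.2
    rw [deltaExt_of_lt δ hir]
    exact congrArg Subtype.val (hfix ⟨i, hir⟩ hi)
  obtain ⟨w, hw, hwfix, hsum⟩ := stmt_HSTEP_tower
    (heckeData (N * twC qv) (twC qv) ℓ₀ (twH p n qv) h2 (dvd_mul_left _ _))
    (chain (twH p n qv) δ) rfl
    (fun j => heckeData (N * twC qv) (twC qv) ℓ₀ (chain (twH p n qv) δ j) h2 (dvd_mul_left _ _))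
    hℓ₀ hℓ₀M (twHyp_unr hyp h2) r (deltaExt δ) (fun j _ => rfl) p n
    (fun j hj => tw_hord h2 hyp hδ j hj) (tw_htop hyp hδ)
    (fun x => Fermat.Agent.S43.Old.H75.divisible_all (N * twC qv) p hyp.hp.ne_zero x)
    (j : ℕ) j.2 1 (v : JH (N * twC qv) (twC qv) (twH p n qv)) hv' hvG
  refine ⟨⟨w, ⟨1, hw⟩⟩, (divExp (p ^ n) (r - ((j : ℕ) + 1)) + 1) * p ^ n * 1 + 1 + 1,
    ?_, ?_, ?_⟩
  · apply Subtype.ext
    rw [coe_nsmul_ptors]
    rw [pow_one] at hw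
    exact hw
  · intro i hi
    apply Subtype.ext
    have h1 := hwfix (i : ℕ) hi
    rw [deltaExt_val] at h1
    exact h1
  · apply Subtype.ext
    rw [coe_sum_ptors, coe_tEis_pow]
    rw [deltaExt_val] at hsum
    rw [← hsum]
    refine Finset.sum_congr rfl fun e _ => ?_
    exact coe_diaZ_pow _ _ _ h2 _ p (δ j) e _

/-- **INV** on `J_H[p]`. -/
theorem tw_inv (ℓ₀ : ℕ) (hℓ₀ : ℓ₀.Prime) (hℓ₀M : ¬ ℓ₀ ∣ N * twC qv)
    (y : AH (N * twC qv) (twC qv) (twH p n qv) p) (hy : p • y = 0)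
    (hfix : ∀ u, diaZ (N * twC qv) (twC qv) (twH p n qv) h2 (dvd_mul_left _ _) p u y = y) :
    ∃ (y₀ : A0 (N * twC qv) p) (m : ℕ), p • y₀ = 0 ∧
      upZ (N * twC qv) (twC qv) (twH p n qv) p y₀ = (tEis N p n qv h2 ℓ₀ ^ m) y := by
  haveI : NeZero ℓ₀ := ⟨hℓ₀.ne_zero⟩
  have hy' : ((p : ℕ) : ℤ) • (y : JH (N * twC qv) (twC qv) (twH p n qv)) = 0 := by
    rw [natCast_zsmul, ← coe_nsmul_ptors, hy]
    rfl
  obtain ⟨y₀, hy₀, hup⟩ := stmt_INV_JH'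
    (heckeData (N * twC qv) (twC qv) ℓ₀ (twH p n qv) h2 (dvd_mul_left _ _))
    hℓ₀ hℓ₀M (twHyp_unr hyp h2) p hyp.hp.ne_zero
    (y : JH (N * twC qv) (twC qv) (twH p n qv)) hy'
    (fun d => congrArg Subtype.val (hfix d))
  rw [natCast_zsmul] at hy₀
  have hmem : IsPTors p y₀ := ⟨1, by rw [pow_one]; exact hy₀⟩
  refine ⟨⟨y₀, hmem⟩, 1, Subtype.ext ?_, Subtype.ext ?_⟩
  · rw [coe_nsmul_ptors]
    exact hy₀
  · show piUp (N * twC qv) (twC qv) (twH p n qv) y₀ = _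
    rw [coe_tEis_pow, pow_one, tEnd_apply, natCast_zsmul]
    exact hup

/-- The kernel of `ρ` for `H = twH`. -/
theorem tw_ker (d : (ZMod (twC qv))ˣ) :
    (diamondData (N * twC qv) (twC qv) (twH p n qv) h2 (dvd_mul_left _ _)).ρ d = 1
      ↔ d ∈ twH p n qv := by
  rw [DiamondData.ker]
  constructor
  · rintro (h | h)
    · exact h
    · have h1 := Subgroup.mul_mem _ (twHyp_neg_one_mem hyp) h
      rwa [neg_mul_neg, one_mul] at h1
  · exact Or.inl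

/-- **NORM**: `π^* π_* = ∏_j ∑_e ⟨δ_j⟩^e` on `J_H[p^∞]`. -/
theorem tw_norm :
    upZ (N * twC qv) (twC qv) (twH p n qv) p ∘ₗ downZ (N * twC qv) (twC qv) (twH p n qv) p
      = nmTot (p ^ n)
          (fun j => diaZ (N * twC qv) (twC qv) (twH p n qv) h2 (dvd_mul_left _ _) p (δ j)) := by
  haveI : ∀ j, Finite (ZMod (qv j))ˣ := fun j => finite_units_of_prime (hyp.prime j)
  haveI : ∀ j, IsCyclic (ZMod (qv j))ˣ := fun j => isCyclic_units_of_prime (hyp.prime j)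
  refine LinearMap.ext fun x => Subtype.ext ?_
  rw [nmTot_apply_eq_sum, coe_sum_ptors]
  simp only [mon_diaZ, diaZ_apply]
  show piUp (N * twC qv) (twC qv) (twH p n qv)
    (piDown (N * twC qv) (twC qv) (twH p n qv)
      (x : JH (N * twC qv) (twC qv) (twH p n qv))) = _
  haveI : Finite (diamondData (N * twC qv) (twC qv) (twH p n qv) h2 (dvd_mul_left _ _)).ρ.range :=
    finite_range_rho _
  letI : Fintype
      (diamondData (N * twC qv) (twC qv) (twH p n qv) h2 (dvd_mul_left _ _)).ρ.range :=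
    Fintype.ofFinite _
  rw [piUp_piDown (isFF_JH (N * twC qv) (twC qv) (twH p n qv) h2 (dvd_mul_left _ _))
    (diamondData (N * twC qv) (twC qv) (twH p n qv) h2 (dvd_mul_left _ _)) _ rfl]
  symm
  refine Fintype.sum_bijective
    (fun e : Fin r → Fin (p ^ n) =>
      (⟨(diamondData (N * twC qv) (twC qv) (twH p n qv) h2 (dvd_mul_left _ _)).ρ
          (∏ j, δ j ^ (e j : ℕ)), ⟨_, rfl⟩⟩ :
        (diamondData (N * twC qv) (twC qv) (twH p n qv) h2 (dvd_mul_left _ _)).ρ.range))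
    ⟨?_, ?_⟩ _ _ (fun e => rfl)
  · intro e e' h
    exact (twHyp_isGenFam hyp hδ).monomial_injective _
      (fun d hd => (tw_ker h2 hyp hδ d).1 hd) (congrArg Subtype.val h)
  · rintro ⟨g, d, rfl⟩
    obtain ⟨e, he⟩ := (twHyp_isGenFam hyp hδ).monomial_surjective
      (pow_ne_zero n hyp.hp.ne_zero) (twHyp_dvd_card hyp)
      (diamondData (N * twC qv) (twC qv) (twH p n qv) h2 (dvd_mul_left _ _)).ρ
      (fun d hd => (tw_ker h2 hyp hδ d).2 hd) d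
    exact ⟨e, Subtype.ext he⟩

/-- The diamond operators have order dividing `p^n`. -/
theorem tw_diaZ_pow (u : (ZMod (twC qv))ˣ) :
    diaZ (N * twC qv) (twC qv) (twH p n qv) h2 (dvd_mul_left _ _) p u ^ (p ^ n) = 1 := by
  rw [← map_pow]
  refine LinearMap.ext fun x => Subtype.ext ?_
  rw [diaZ_apply, (tw_ker h2 hyp hδ (u ^ (p ^ n))).2 ⟨u, rfl⟩, one_smul]
  rfl

omit hδ in
include h2 in
/-- **SIGMA** on `J₀[p^∞]`. -/
theorem tw_sigma (ℓ₀ : ℕ) (hℓ₀ : ℓ₀.Prime) (hℓ₀M : ¬ ℓ₀ ∣ N * twC qv)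
    (y₀ : A0 (N * twC qv) p)
    (hker : upZ (N * twC qv) (twC qv) (twH p n qv) p y₀ = 0) :
    Tz0 (N * twC qv) p ℓ₀ y₀ - ((ℓ₀ + 1 : ℕ) : ℤ) • y₀ = 0 := by
  haveI : NeZero ℓ₀ := ⟨hℓ₀.ne_zero⟩
  obtain ⟨k, hk⟩ := y₀.2
  have hk' : ((p ^ k : ℕ) : ℤ) • (y₀ : JZero (N * twC qv)) = 0 := by
    rw [natCast_zsmul]
    exact hk
  have h := stmt_SIGMA_JH'
    (heckeData (N * twC qv) (twC qv) ℓ₀ (twH p n qv) h2 (dvd_mul_left _ _))
    hℓ₀ hℓ₀M (p ^ k) (pow_ne_zero k hyp.hp.ne_zero) (y₀ : JZero (N * twC qv)) hk'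
    (congrArg Subtype.val hker)
  apply Subtype.ext
  rw [AddSubgroup.coe_sub, coe_zsmul_ptors, Tz0_apply, natCast_zsmul]
  exact h

end data

variable (N S p n qv) in
/-- **TOWER-INST**. -/
theorem stmt_TOWER_INST [NeZero (N * twC qv)] (h2 : 2 ≤ twC qv) :
    Stmt_TOWER_INST N S p n qv h2 := by
  intro hyp δ hδ ℓ₀ hℓ₀ hℓ₀M
  exact ⟨tw_div h2 hyp hδ ℓ₀ hℓ₀ hℓ₀M, tw_hstep h2 hyp hδ ℓ₀ hℓ₀ hℓ₀M,
    tw_inv h2 hyp hδ ℓ₀ hℓ₀ hℓ₀M, tw_norm h2 hyp hδ, tw_diaZ_pow h2 hyp hδ,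
    tw_sigma h2 hyp ℓ₀ hℓ₀ hℓ₀M⟩

end TW

end Fermat.Agent.NEB.Geom.H29
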