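import Fermat.Agent.NEB.Geom.H84_Setup
import Fermat.Agent.NEB.Geom.H94_AHstep
import Fermat.Agent.NEB.Geom.H29_TowerInst
import Fermat.Agent.NEB.Geom.H29_ZGalCont

/-!
# Item 72 (LG-NEB), package NEB-GEOM, leaves A-ETA and A-HSTEP (helper84)

* `finite_AH_p`    : `J_H[p]` is finite (Z-FIN in the form used by the `W-*` leaves);
* `Stmt_W_EIGL`    : W-EIG with locality (leaf; helper39);
* `stmt_A_ETA_of   : Stmt_W_EIGL → Stmt_A_ETA`;
* `stmt_A_HSTEP    : Stmt_A_HSTEP`.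
-/

set_option autoImplicit false
set_option linter.unusedSectionVars false
set_option linter.style.haveILetI false
set_option linter.unusedVariables false

noncomputable section

open ModularCurve AlgebraicCurve IsLocalRing TensorProduct Polynomial

namespace Fermat.Agent.NEB.Geom

open Fermat.Agent.NEB Fermat.Agent.NEB.JH Fermat.Agent.S59 Fermat.Agent.S59.Asm
  Fermat.Agent.S59.Lim Fermat.Agent.S59.Lim.H2

namespace H84

/-- **Z-FIN** in the form used by the `W-*` leaves: `J_H[p^∞][p]` is finite. -/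
theorem finite_AH_p {M c : ℕ} [NeZero M] [NeZero c] (H : Subgroup (ZMod c)ˣ) (h2 : 2 ≤ c)
    (hc : c ∣ M) (p : ℕ) [Fact p.Prime] :
    Finite {x : AH M c H p // p • x = 0} := by
  have hfin := Fermat.Agent.NEB.Geom.H29.stmt_ZFIN_final H h2 hc p 1
  haveI : Finite ↥{y : JH M c H | ((p ^ 1 : ℕ) : ℤ) • y = 0} := hfin.to_subtype
  refine Finite.of_injective
    (fun x : {x : AH M c H p // p • x = 0} =>
      (⟨((x.1 : AH M c H p) : JH M c H), ?_⟩ : ↥{y : JH M c H | ((p ^ 1 : ℕ) : ℤ) • y = 0}))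
    ?_
  · have h := x.2
    have h' : ((p • (x.1 : AH M c H p) : AH M c H p) : JH M c H) = 0 := by rw [h]; rfl
    have h'' : p • ((x.1 : AH M c H p) : JH M c H) = 0 :=
      (AddSubgroup.coe_nsmul (ptors p (JH M c H)) (x.1 : AH M c H p) p).symm.trans h'
    show ((p ^ 1 : ℕ) : ℤ) • ((x.1 : AH M c H p) : JH M c H) = 0
    rw [pow_one, natCast_zsmul]
    exact h''
  · intro x y hxy
    have h1 : ((x.1 : AH M c H p) : JH M c H) = ((y.1 : AH M c H p) : JH M c H) :=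
      Subtype.mk.inj hxy
    exact Subtype.ext (Subtype.ext h1)

end H84

/-- **W-EIG with locality** (leaf): the Hecke ring of level `N ∏ q_j²` acts on the divisible module
`W` through the twisted operators `T'_ℓ`, locally at `θ ∘ rest`. -/
def Stmt_W_EIGL : Prop :=
  ∀ (𝒪 : Type) [CommRing 𝒪] [IsDomain 𝒪] [IsDiscreteValuationRing 𝒪] [Finite (ResidueField 𝒪)]
    [CharZero 𝒪] (ϖ : 𝒪), Irreducible ϖ → ∀ (p : ℕ) [Fact p.Prime], (p : 𝒪) ∈ maximalIdeal 𝒪 →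
    ∀ (N : ℕ) [NeZero N] (S : Finset ℕ) (n r : ℕ) (qv : Fin r → ℕ) (hTW : TwHyp N S p n qv),
    ∀ [NeZero (N * twC qv)] [NeZero (twLevel N qv)] (h2 : 2 ≤ twC qv)
      (hcomm : ∀ i j, Commute (opsTw N S p n qv h2 i) (opsTw N S p n qv h2 j))
      (θ : CuspForm.heckeAlgebra N 2 (↑S : Set ℕ) →+* ResidueField 𝒪)
      (α : Fin r → ResidueField 𝒪),
    IsDiv ϖ ↥(Wtw 𝒪 N S p n qv h2 hcomm θ α) →
    ∃ η : CuspForm.heckeAlgebra (twLevel N qv) 2 (↑(twSet S qv) : Set ℕ) →+*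
        Module.End 𝒪 ↥(Wtw 𝒪 N S p n qv h2 hcomm θ α),
      (∀ (ℓ : ℕ) (hℓ : ℓ.Prime) (hℓN : ¬ ℓ ∣ twLevel N qv)
        (hℓS : ℓ ∉ (↑(twSet S qv) : Set ℕ)),
        η (CuspForm.heckeAlgebra.T hℓ hℓN hℓS) =
          thetaEta (etaTw N S p n qv h2 hcomm) (thetaTw N S qv θ α)
            (MvPolynomial.X (Sum.inl ℓ))) ∧
      (∀ (t : CuspForm.heckeAlgebra (twLevel N qv) 2 (↑(twSet S qv) : Set ℕ)) (a₀ : 𝒪),
        residue 𝒪 a₀ = (θ.comp (Fermat.Agent.S59.Asm.H41.restTW N S qv hTW.prime)) t →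
        ∀ x : ↥(Wtw 𝒪 N S p n qv h2 hcomm θ α), ϖ • x = 0 →
          ∃ m : ℕ, ((η t - a₀ • (1 : Module.End 𝒪 ↥(Wtw 𝒪 N S p n qv h2 hcomm θ α))) ^ m) x
            = 0)

/-- **A-ETA** from W-EIG with locality (and TOWER-INST, Z-FIN, W-DIV, A-CHOICE). -/
theorem stmt_A_ETA_of (hE : Stmt_W_EIGL) : Stmt_A_ETA := by
  intro 𝒪 _ _ _ _ _ _ ϖ p _ N _ S θ ρbar hstd n r qv i1 i2 i3 hTW h2 hcomm α ℓ₀ hℓ₀ hne
  have hp0 : (p : 𝒪) ≠ 0 := Nat.cast_ne_zero.mpr (Fact.out : p.Prime).ne_zero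
  -- generators of `Δ`
  have hex : ∀ j : Fin r, ∃ (A : ValuationSubring Kbar) (σ : GalQ),
      A.LiesOverPrime (qv j) ∧ A.IsFrobeniusAt σ (qv j) :=
    fun j => Fermat.Agent.Lib.FrobExists.exists_place_and_frobenius (qv j) (hTW.prime j)
  choose P frob hP hfr using hex
  have h3 := @H84.exists_sigma N S p n r qv hTW i2 P hP
  obtain ⟨σ, hσ, hδ⟩ := h3
  have hfin := H84.finite_AH_p (twH p n qv) h2 (dvd_mul_left (twC qv) N) p
  have hdiv : IsDiv ϖ ↥(Wtw 𝒪 N S p n qv h2 hcomm θ α) :=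
    Fermat.Agent.NEB.Geom.H94.isDiv_Wtw hstd.hϖ hstd.hpm hp0 h2 hcomm α hTW _ hδ ℓ₀ hℓ₀ hne hfin
      (Fermat.Agent.NEB.Geom.H29.stmt_TOWER_INST N S p n qv h2)
  have hη := hE 𝒪 ϖ hstd.hϖ p hstd.hpm N S n r qv hTW h2 hcomm θ α hdiv
  exact ⟨hdiv, hη⟩

/-- **A-HSTEP**. -/
theorem stmt_A_HSTEP : Stmt_A_HSTEP := by
  intro 𝒪 _ _ _ _ _ _ ϖ p _ N _ S θ ρbar hstd Dm n r qv _ _ _ D
  have hp0 : (p : 𝒪) ≠ 0 := Nat.cast_ne_zero.mpr (Fact.out : p.Prime).ne_zero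
  exact Fermat.Agent.NEB.Geom.H94.a_hstep hstd.hϖ hstd.hpm hp0 D
    (H84.finite_AH_p (twH p n qv) D.h2 (dvd_mul_left (twC qv) N) p)
    (Fermat.Agent.NEB.Geom.H29.stmt_TOWER_INST N S p n qv D.h2)

end Fermat.Agent.NEB.Geom
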