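import Fermat.Agent.S59.Lim.H2_Theta

/-!
# Item 72 (LG-NEB), package NEB-GEOM, leaf PI-WIRE (helper14): the abstract construction

`A ⇄ B → C` abelian groups with Hecke rings `𝕋₁` (on `A`, `B`) and `𝕋₂` (on `C`);
`up : B → A`, `down : A → B` intertwining; `φ : B → C` inducing a bijection of the `θ`-parts;
`up` injective on the `θ₁`-part of `𝒪 ⊗ B`.  Then `π = φ ∘ down`, `πup = up ∘ φ⁻¹` on `θ`-parts.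
-/

set_option autoImplicit false
set_option linter.unusedSectionVars false
set_option linter.unusedVariables false

noncomputable section

open IsLocalRing TensorProduct

namespace Fermat.Agent.NEB.Geom.H14

open Fermat.Agent.S59.Lim Fermat.Agent.S59.Lim.H2

variable {𝒪 : Type} [CommRing 𝒪] [IsLocalRing 𝒪] {𝕋₁ 𝕋₂ : Type} [CommRing 𝕋₁] [CommRing 𝕋₂]
  {A B C : Type} [AddCommGroup A] [AddCommGroup B] [AddCommGroup C]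

/-- **The abstract construction of `π` and `πup`.** -/
theorem pi_wire_abs
    (ηA : 𝕋₁ →+* Module.End ℤ A) (ηB : 𝕋₁ →+* Module.End ℤ B) (ηC : 𝕋₂ →+* Module.End ℤ C)
    (θ₁ : 𝕋₁ →+* ResidueField 𝒪) (θ₂ : 𝕋₂ →+* ResidueField 𝒪)
    (up : B →ₗ[ℤ] A) (hup : ∀ t, up ∘ₗ ηB t = ηA t ∘ₗ up)
    (down : A →ₗ[ℤ] B) (hdown : ∀ t, down ∘ₗ ηA t = ηB t ∘ₗ down)
    (φ : B →ₗ[ℤ] C)
    (hφ1 : ∀ v ∈ thetaPart ηB θ₁, φ.baseChange 𝒪 v ∈ thetaPart ηC θ₂)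
    (hφ2 : ∀ x ∈ thetaPart ηC θ₂, ∃ v ∈ thetaPart ηB θ₁, φ.baseChange 𝒪 v = x)
    (hφ3 : ∀ v ∈ thetaPart ηB θ₁, φ.baseChange 𝒪 v = 0 → v = 0)
    (hinj : ∀ y ∈ thetaPart ηB θ₁, up.baseChange 𝒪 y = 0 → y = 0) :
    ∃ (π : ↥(thetaPart ηA θ₁) →ₗ[𝒪] ↥(thetaPart ηC θ₂))
      (πup : ↥(thetaPart ηC θ₂) →ₗ[𝒪] ↥(thetaPart ηA θ₁)),
      Function.Injective πup ∧
      (∀ x : ↥(thetaPart ηA θ₁),
        ((πup (π x) : ↥(thetaPart ηA θ₁)) : 𝒪 ⊗[ℤ] A) = (up ∘ₗ down).baseChange 𝒪 x.1) ∧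
      (∀ (v : 𝒪 ⊗[ℤ] B) (hv : v ∈ thetaPart ηB θ₁),
        ((πup ⟨φ.baseChange 𝒪 v, hφ1 v hv⟩ : ↥(thetaPart ηA θ₁)) : 𝒪 ⊗[ℤ] A)
          = up.baseChange 𝒪 v) ∧
      (∀ x : ↥(thetaPart ηA θ₁),
        ((π x : ↥(thetaPart ηC θ₂)) : 𝒪 ⊗[ℤ] C) = φ.baseChange 𝒪 (down.baseChange 𝒪 x.1)) := by
  -- `ω`
  let ω₀ : ↥(thetaPart ηB θ₁) →ₗ[𝒪] ↥(thetaPart ηC θ₂) :=
    (φ.baseChange 𝒪).restrict hφ1
  have hω₀ : ∀ v : ↥(thetaPart ηB θ₁),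
      ((ω₀ v : ↥(thetaPart ηC θ₂)) : 𝒪 ⊗[ℤ] C) = φ.baseChange 𝒪 v.1 := fun v => rfl
  have hbij : Function.Bijective ω₀ := by
    constructor
    · rw [← LinearMap.ker_eq_bot, LinearMap.ker_eq_bot']
      intro v hv
      have h0 : φ.baseChange 𝒪 v.1 = 0 := by
        rw [← hω₀, hv]
        rfl
      exact Subtype.ext (hφ3 v.1 v.2 h0)
    · intro x
      obtain ⟨v, hv, hvx⟩ := hφ2 x.1 x.2
      exact ⟨⟨v, hv⟩, Subtype.ext hvx⟩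
  let ω : ↥(thetaPart ηB θ₁) ≃ₗ[𝒪] ↥(thetaPart ηC θ₂) := LinearEquiv.ofBijective ω₀ hbij
  have hω : ∀ v, ω v = ω₀ v := fun v => rfl
  let U : ↥(thetaPart ηB θ₁) →ₗ[𝒪] ↥(thetaPart ηA θ₁) := thetaMap θ₁ up hup
  let D : ↥(thetaPart ηA θ₁) →ₗ[𝒪] ↥(thetaPart ηB θ₁) := thetaMap θ₁ down hdown
  have hU : ∀ v : ↥(thetaPart ηB θ₁),
      ((U v : ↥(thetaPart ηA θ₁)) : 𝒪 ⊗[ℤ] A) = up.baseChange 𝒪 v.1 := fun v => rfl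
  have hD : ∀ x : ↥(thetaPart ηA θ₁),
      ((D x : ↥(thetaPart ηB θ₁)) : 𝒪 ⊗[ℤ] B) = down.baseChange 𝒪 x.1 := fun x => rfl
  have hUinj : Function.Injective U := by
    rw [← LinearMap.ker_eq_bot, LinearMap.ker_eq_bot']
    intro v hv
    have h0 : up.baseChange 𝒪 v.1 = 0 := by
      rw [← hU, hv]
      rfl
    exact Subtype.ext (hinj v.1 v.2 h0)
  refine ⟨ω.toLinearMap ∘ₗ D, U ∘ₗ ω.symm.toLinearMap, ?_, ?_, ?_, ?_⟩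
  · exact hUinj.comp ω.symm.injective
  · intro x
    show ((U (ω.symm (ω (D x))) : ↥(thetaPart ηA θ₁)) : 𝒪 ⊗[ℤ] A) = _
    rw [LinearEquiv.symm_apply_apply, hU, hD, LinearMap.baseChange_comp]
    rfl
  · intro v hv
    show ((U (ω.symm ⟨φ.baseChange 𝒪 v, hφ1 v hv⟩) : ↥(thetaPart ηA θ₁)) : 𝒪 ⊗[ℤ] A) = _
    have h1 : (⟨φ.baseChange 𝒪 v, hφ1 v hv⟩ : ↥(thetaPart ηC θ₂)) = ω ⟨v, hv⟩ := rfl
    rw [h1, LinearEquiv.symm_apply_apply, hU]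
  · intro x
    show ((ω (D x) : ↥(thetaPart ηC θ₂)) : 𝒪 ⊗[ℤ] C) = _
    rw [hω, hω₀, hD]

end Fermat.Agent.NEB.Geom.H14
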