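import Fermat.Agent.NEB.Geom.AsmDefs
import Fermat.Agent.Lib.FrobExists
import Fermat.Agent.S56.Defs

/-!
# Item 72 (LG-NEB), package NEB-GEOM, leaf A-CHOICE (helper84)

The choices at a Taylor–Wiles family: places `P_j ∣ q_j`, Frobenius elements, inertia elements
`σ_j` whose cyclotomic characters generate `Δ`, the eigenvalues `α_j ≠ β_j` and their lifts.

* `pow_dvd_of_gen`      : the group theory (cyclic group, `g^(e t)` a `p^n`-th power ⟹ `p^n ∣ t`);
* `exists_sigma`        : `σ_j ∈ I_{P_j}` with `IsDeltaGen (χ_c(σ_j)^(j₀+1))`;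
* `exists_eig`          : `α β a a'` with `TwEig` and `charpoly_frob`.
-/

set_option autoImplicit false
set_option linter.unusedSectionVars false
set_option linter.style.haveILetI false

noncomputable section

open ModularCurve AlgebraicCurve IsLocalRing TensorProduct Polynomial

namespace Fermat.Agent.NEB.Geom.H84

open Fermat.Agent.NEB Fermat.Agent.NEB.JH Fermat.Agent.S59.Asm Fermat.Agent.NEB.Geom

/-- In a finite cyclic group with generator `g` whose order is divisible by `p^n`: if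
`g^(e t)` is a `p^n`-th power and `e` is prime to `p`, then `p^n ∣ t`. -/
theorem pow_dvd_of_gen {G : Type*} [CommGroup G] [Finite G] (g : G)
    (hg : ∀ x : G, x ∈ Subgroup.zpowers g) {p n : ℕ} (hp : p.Prime) (hpn : p ^ n ∣ Nat.card G)
    {e : ℕ} (he : Nat.Coprime e p) (t : ℕ) (y : G) (h : g ^ (e * t) = y ^ (p ^ n)) :
    p ^ n ∣ t := by
  have hord : orderOf g = Nat.card G := orderOf_eq_card_of_forall_mem_zpowers hg
  obtain ⟨s, hs⟩ : ∃ s : ℕ, g ^ s = y := by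
    have := hg y
    rw [← mem_powers_iff_mem_zpowers] at this
    exact this
  rw [← hs, ← pow_mul, pow_eq_pow_iff_modEq, hord] at h
  have h2 : e * t ≡ s * p ^ n [MOD p ^ n] := h.of_dvd hpn
  have h3 : p ^ n ∣ e * t := by
    have : s * p ^ n ≡ 0 [MOD p ^ n] := (Nat.modEq_zero_iff_dvd).mpr (dvd_mul_left _ _)
    exact (Nat.modEq_zero_iff_dvd).mp (h2.trans this)
  exact (Nat.Coprime.pow_right n he).symm.dvd_of_dvd_mul_left h3

/-- `j₀ + 1 = (p^n + 1)/2` is prime to `p` (`p` odd). -/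
theorem coprime_jTw {p : ℕ} (hp : p.Prime) (hp2 : p ≠ 2) (n : ℕ) :
    Nat.Coprime (jTw p n + 1) p := by
  by_cases hn : n = 0
  · subst hn
    simp [jTw]
  have hodd : Odd (p ^ n) := (hp.odd_of_ne_two hp2).pow
  obtain ⟨m, hm⟩ := hodd
  have hj : jTw p n = m := by
    unfold jTw
    rw [hm]
    omega
  rw [hj]
  have hpd : p ∣ 2 * m + 1 := by
    rw [← hm]
    exact dvd_pow_self p hn
  rw [Nat.coprime_comm, Nat.Prime.coprime_iff_not_dvd hp]
  intro hd
  -- `p ∣ m + 1` and `p ∣ 2 m + 1` ⟹ `p ∣ 1`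
  have h1 : p ∣ 2 * (m + 1) := Dvd.dvd.mul_left hd 2
  have h2 : p ∣ 2 * (m + 1) - (2 * m + 1) := Nat.dvd_sub h1 hpd
  have h3 : 2 * (m + 1) - (2 * m + 1) = 1 := by omega
  rw [h3] at h2
  exact hp.one_lt.ne' (Nat.dvd_one.mp h2)

/-- `2 j₀ + 1 = p^n` (`p` odd). -/
theorem two_jTw {p : ℕ} (hp : p.Prime) (hp2 : p ≠ 2) (n : ℕ) : 2 * jTw p n + 1 = p ^ n := by
  have hodd : Odd (p ^ n) := (hp.odd_of_ne_two hp2).pow
  obtain ⟨m, hm⟩ := hodd
  unfold jTw
  rw [hm]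
  omega

section Sigma

variable {N : ℕ} {S : Finset ℕ} {p n : ℕ} {r : ℕ} {qv : Fin r → ℕ}

theorem twC_ne_zero (hTW : TwHyp N S p n qv) : twC qv ≠ 0 :=
  Finset.prod_ne_zero_iff.mpr fun j _ => (hTW.prime j).ne_zero

theorem dvd_twC (j : Fin r) : qv j ∣ twC qv :=
  Finset.dvd_prod_of_mem qv (Finset.mem_univ j)

theorem two_le_twC (hTW : TwHyp N S p n qv) : 2 ≤ twC qv := by
  obtain ⟨j⟩ : Nonempty (Fin r) := ⟨⟨0, hTW.hr⟩⟩
  have h1 : qv j ∣ twC qv := dvd_twC j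
  have h2 : 2 ≤ qv j := (hTW.prime j).two_le
  exact le_trans h2 (Nat.le_of_dvd (Nat.pos_of_ne_zero (twC_ne_zero hTW)) h1)

/-- **The inertia elements**: `σ_j ∈ I_{P_j}` such that `δ_j = χ_c(σ_j)^(j₀+1)` generate `Δ`. -/
theorem exists_sigma (hTW : TwHyp N S p n qv) [NeZero (twC qv)]
    (P : Fin r → ValuationSubring Kbar) (hP : ∀ j, (P j).LiesOverPrime (qv j)) :
    ∃ σ : Fin r → GalQ, (∀ j, σ j ∈ (P j).inertiaSubgroupIn ℚ) ∧
      IsDeltaGen p n qv
        (fun j => Fermat.Agent.NEB.Geom.H6.chiC (twC qv) (σ j) ^ (jTw p n + 1)) := by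
  classical
  -- choose `σ_j` with `χ_{q_j}(σ_j)` a generator
  have hex : ∀ j : Fin r, ∃ σ : GalQ, σ ∈ (P j).inertiaSubgroupIn ℚ ∧
      ∀ x : (ZMod (qv j))ˣ, x ∈ Subgroup.zpowers
        (haveI : NeZero (qv j) := ⟨(hTW.prime j).ne_zero⟩
         Fermat.Agent.NEB.Geom.H6.chiC (qv j) σ) := by
    intro j
    haveI : NeZero (qv j) := ⟨(hTW.prime j).ne_zero⟩
    haveI : Fact (qv j).Prime := ⟨hTW.prime j⟩
    obtain ⟨g, hg⟩ := (inferInstance : IsCyclic (ZMod (qv j))ˣ).exists_generator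
    obtain ⟨σ, hσ, hσg⟩ :=
      Fermat.Agent.NEB.Geom.H6.chiC_inertia_surjective_prime (qv j) (hTW.prime j) (P j) (hP j) g
    exact ⟨σ, hσ, fun x => hσg ▸ hg x⟩
  choose σ hσ hgen using hex
  refine ⟨σ, hσ, ?_, ?_⟩
  · intro i j hij h
    haveI : NeZero (qv i) := ⟨(hTW.prime i).ne_zero⟩
    show ZMod.unitsMap h (Fermat.Agent.NEB.Geom.H6.chiC (twC qv) (σ j) ^ (jTw p n + 1)) = 1
    rw [map_pow, Fermat.Agent.NEB.Geom.H6.chiC_unitsMap h (σ j)]
    have hco : (qv i).Coprime (qv j) :=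
      (Nat.coprime_primes (hTW.prime i) (hTW.prime j)).mpr (fun e => hij (hTW.inj e))
    rw [Fermat.Agent.NEB.Geom.H6.chiC_inertia (qv i) (qv j) hco (P j) (hP j) (σ j) (hσ j),
      one_pow]
  · intro j t ht
    haveI : NeZero (qv j) := ⟨(hTW.prime j).ne_zero⟩
    haveI : Fact (qv j).Prime := ⟨hTW.prime j⟩
    obtain ⟨y, hy⟩ := ht
    have hy' : y ^ (p ^ n)
        = (Fermat.Agent.NEB.Geom.H6.chiC (twC qv) (σ j) ^ (jTw p n + 1)) ^ t := hy
    have h1 := congrArg (ZMod.unitsMap (dvd_twC (qv := qv) j)) hy'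
    rw [map_pow, map_pow, map_pow,
      Fermat.Agent.NEB.Geom.H6.chiC_unitsMap (dvd_twC (qv := qv) j) (σ j), ← pow_mul] at h1
    have hcard : Nat.card (ZMod (qv j))ˣ = qv j - 1 := by
      rw [Nat.card_eq_fintype_card, ZMod.card_units_eq_totient, Nat.totient_prime (hTW.prime j)]
    have hpn : p ^ n ∣ Nat.card (ZMod (qv j))ˣ := by
      rw [hcard]
      exact Dvd.dvd.trans (pow_dvd_pow p (Nat.le_succ n)) (hTW.cong j)
    exact pow_dvd_of_gen _ (hgen j) hTW.hp hpn (coprime_jTw hTW.hp hTW.hp2 n) t _ h1.symm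

end Sigma

section Eig

variable {𝒪 : Type} [CommRing 𝒪] [IsLocalRing 𝒪]
  {N : ℕ} [NeZero N] {S : Finset ℕ} {p n : ℕ} {r : ℕ} {qv : Fin r → ℕ}

/-- Comparison of the coefficients of two monic quadratic polynomials. -/
theorem quad_coeff {k : Type*} [Field k] {α β t q : k}
    (h : (X - C α) * (X - C β) = X ^ 2 - C t * X + C q) : t = α + β ∧ α * β = q := by
  have h0 := congrArg (fun f => Polynomial.coeff f 0) h
  have h1 := congrArg (fun f => Polynomial.coeff f 1) h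
  simp only [Polynomial.mul_coeff_zero, Polynomial.coeff_sub, Polynomial.coeff_X_zero,
    Polynomial.coeff_C_zero, Polynomial.coeff_add, Polynomial.coeff_X_pow,
    Polynomial.coeff_C_mul, zero_sub] at h0
  have e : (X - C α) * (X - C β) = X ^ 2 - C (α + β) * X + C (α * β) := by
    rw [map_add, map_mul]
    ring
  rw [e] at h1
  simp only [Polynomial.coeff_sub, Polynomial.coeff_add, Polynomial.coeff_X_pow,
    Polynomial.coeff_C_mul, Polynomial.coeff_X_one, Polynomial.coeff_C] at h1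
  norm_num at h0 h1
  refine ⟨?_, h0⟩
  have h2 := congrArg Neg.neg h1
  simp only [neg_neg, neg_add_rev] at h2
  rw [h2]

/-- A prime `q ≡ 1 mod p` is `1` in the residue field. -/
theorem cast_eq_one_of_cong (hpm : (p : 𝒪) ∈ maximalIdeal 𝒪) {q : ℕ} (hq : 0 < q)
    (h : p ^ (n + 1) ∣ q - 1) : ((q : ℕ) : ResidueField 𝒪) = 1 := by
  have hp0 : ((p : ℕ) : ResidueField 𝒪) = 0 := by
    have : residue 𝒪 (p : 𝒪) = 0 := (residue_eq_zero_iff _).mpr hpm
    rwa [map_natCast] at this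
  obtain ⟨m, hm⟩ := h
  have hq' : q = p ^ (n + 1) * m + 1 := by omega
  rw [hq']
  push_cast
  rw [hp0, zero_pow (Nat.succ_ne_zero n), zero_mul, zero_add]

/-- **The eigenvalues**: `α_j ≠ β_j`, their lifts, `TwEig` and the characteristic polynomials. -/
theorem exists_eig (ρbar : ResidualGaloisRep (ResidueField 𝒪))
    (θ : CuspForm.heckeAlgebra N 2 (↑S : Set ℕ) →+* ResidueField 𝒪)
    (hpm : (p : 𝒪) ∈ maximalIdeal 𝒪)
    (hTW : TwHyp N S p n qv) (hfam : Fermat.Agent.S56.IsTWFamily ρbar p n S qv)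
    (hfrob : Fermat.Agent.S59.Datum.FrobHyp ρbar N S θ)
    (P : Fin r → ValuationSubring Kbar) (hP : ∀ j, (P j).LiesOverPrime (qv j))
    (frob : Fin r → GalQ) (hfr : ∀ j, (P j).IsFrobeniusAt (frob j) (qv j)) :
    ∃ (α β : Fin r → ResidueField 𝒪) (a a' : Fin r → 𝒪),
      TwEig 𝒪 N S qv θ α β ∧ (∀ j, residue 𝒪 (a j) = α j) ∧ (∀ j, residue 𝒪 (a' j) = β j) ∧
      ∀ j, LinearMap.charpoly (ρbar.ρ (frob j)) =
        (X - C (residue 𝒪 (a j))) * (X - C (residue 𝒪 (a' j))) := by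
  classical
  have hex : ∀ j : Fin r, ∃ α β : ResidueField 𝒪, α ≠ β ∧
      LinearMap.charpoly (ρbar.ρ (frob j)) = (X - C α) * (X - C β) :=
    fun j => hfam.2.2 j (P j) (hP j) (frob j) (hfr j)
  choose α β hne hcp using hex
  have hqN : ∀ j, ¬ qv j ∣ N := fun j hd => hTW.notS j (hTW.hNS _ (hTW.prime j) hd)
  have hqS : ∀ j, qv j ∉ (↑S : Set ℕ) := fun j h => hTW.notS j (by exact_mod_cast h)
  have hcmp : ∀ j, θ (CuspForm.heckeAlgebra.T (hTW.prime j) (hqN j) (hqS j)) = α j + β j ∧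
      α j * β j = ((qv j : ℕ) : ResidueField 𝒪) := by
    intro j
    have h1 := hfrob (qv j) (hTW.prime j) (hqN j) (hqS j) (P j) (hP j) (frob j) (hfr j)
    rw [hcp j] at h1
    exact quad_coeff h1
  have hq1 : ∀ j, ((qv j : ℕ) : ResidueField 𝒪) = 1 :=
    fun j => cast_eq_one_of_cong hpm (hTW.prime j).pos (hTW.cong j)
  have hsurj := residue_surjective (R := 𝒪)
  choose a ha using fun j => hsurj (α j)
  choose a' ha' using fun j => hsurj (β j)
  refine ⟨α, β, a, a', ⟨hne, ?_, hq1, ?_⟩, ha, ha', ?_⟩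
  · intro j
    rw [(hcmp j).2, hq1 j]
  · intro j hq hqN' hqS'
    exact (hcmp j).1
  · intro j
    rw [ha j, ha' j]
    exact hcp j

end Eig

end Fermat.Agent.NEB.Geom.H84
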