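import Fermat.Agent.NEB.Geom.H84_AsmFinal
import Fermat.Agent.NEB.Geom.H84_Choice
import Fermat.Agent.S59.Asm.Min2
import Fermat.Agent.S59.Lim.H94_LimA

/-!
# Item 72 (LG-NEB), package NEB-GEOM (helper84): the top of the assembly

* `StdHyp`      : the standing hypotheses of `Asm.Stmt_TWGEOM`;
* `Stmt_A_MIN`, `Stmt_A_SETUP`, `Stmt_A_GAL`, `Stmt_A_ES`, `Stmt_A_HSTEP`, `Stmt_A_PI`,
  `Stmt_A_FROBNIL`, `Stmt_A_LG`, `Stmt_A_R0` : the leaves, universally quantified;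
* `stmt_TWGEOM_of` : **all leaves ⟹ `Asm.Stmt_TWGEOM`**.
-/

set_option autoImplicit false
set_option linter.unusedSectionVars false
set_option linter.style.haveILetI false
set_option linter.unusedVariables false

noncomputable section

open ModularCurve AlgebraicCurve IsLocalRing TensorProduct Polynomial

namespace Fermat.Agent.NEB.Geom

open Fermat.Agent.NEB Fermat.Agent.NEB.JH Fermat.Agent.S59 Fermat.Agent.S59.Asm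
  Fermat.Agent.S59.Lim Fermat.Agent.S59.Lim.H2

/-- The standing hypotheses of `Asm.Stmt_TWGEOM` (with a chosen uniformiser). -/
structure StdHyp (𝒪 : Type) [CommRing 𝒪] [IsLocalRing 𝒪] (ϖ : 𝒪) (p : ℕ) (N : ℕ) [NeZero N]
    (S : Finset ℕ) (θ : CuspForm.heckeAlgebra N 2 (↑S : Set ℕ) →+* ResidueField 𝒪)
    (ρbar : ResidualGaloisRep (ResidueField 𝒪)) : Prop where
  hϖ : Irreducible ϖ
  hp2 : p ≠ 2
  hpm : (p : 𝒪) ∈ maximalIdeal 𝒪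
  hres : ResHyp p ρbar S
  hNS : ∀ q : ℕ, q.Prime → q ∣ N → q ∈ S
  hsq : Squarefree N
  hfrob : Fermat.Agent.S59.Datum.FrobHyp ρbar N S θ
  hint : CuspForm.HasIntegralStructure N 2

/-- **A-MIN**: the level-`N` setup exists. -/
def Stmt_A_MIN : Prop :=
  ∀ (𝒪 : Type) [CommRing 𝒪] [IsDomain 𝒪] [IsDiscreteValuationRing 𝒪]
    [IsAdicComplete (maximalIdeal 𝒪) 𝒪] [Finite (ResidueField 𝒪)] [CharZero 𝒪]
    (ϖ : 𝒪) (p : ℕ) [Fact p.Prime] (N : ℕ) [NeZero N] (S : Finset ℕ)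
    (θ : CuspForm.heckeAlgebra N 2 (↑S : Set ℕ) →+* ResidueField 𝒪)
    (ρbar : ResidualGaloisRep (ResidueField 𝒪)), StdHyp 𝒪 ϖ p N S θ ρbar →
    Nonempty (MinSetup 𝒪 ϖ p N S θ)

/-- **A-SETUP**: the Taylor–Wiles setup exists for every Taylor–Wiles family with `r ≥ 1`. -/
def Stmt_A_SETUP : Prop :=
  ∀ (𝒪 : Type) [CommRing 𝒪] [IsDomain 𝒪] [IsDiscreteValuationRing 𝒪]
    [IsAdicComplete (maximalIdeal 𝒪) 𝒪] [Finite (ResidueField 𝒪)] [CharZero 𝒪]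
    (ϖ : 𝒪) (p : ℕ) [Fact p.Prime] (N : ℕ) [NeZero N] (S : Finset ℕ)
    (θ : CuspForm.heckeAlgebra N 2 (↑S : Set ℕ) →+* ResidueField 𝒪)
    (ρbar : ResidualGaloisRep (ResidueField 𝒪)), StdHyp 𝒪 ϖ p N S θ ρbar →
    ∀ (n r : ℕ) (qv : Fin r → ℕ), 0 < r → Fermat.Agent.S56.IsTWFamily ρbar p n S qv →
    ∀ [NeZero (N * twC qv)] [NeZero (twC qv)] [NeZero (twLevel N qv)],
      CuspForm.HasIntegralStructure (twLevel N qv) 2 →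
      Nonempty (TwSetup 𝒪 ϖ p N S θ ρbar n qv)

/-- **A-R0**: the case `r = 0`. -/
def Stmt_A_R0 : Prop :=
  ∀ (𝒪 : Type) [CommRing 𝒪] [IsDomain 𝒪] [IsDiscreteValuationRing 𝒪]
    [IsAdicComplete (maximalIdeal 𝒪) 𝒪] [Finite (ResidueField 𝒪)] [CharZero 𝒪]
    (ϖ : 𝒪) (p : ℕ) [Fact p.Prime] (N : ℕ) [NeZero N] (S : Finset ℕ)
    (θ : CuspForm.heckeAlgebra N 2 (↑S : Set ℕ) →+* ResidueField 𝒪)
    (ρbar : ResidualGaloisRep (ResidueField 𝒪)), StdHyp 𝒪 ϖ p N S θ ρbar →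
    ∀ (Dm : MinSetup 𝒪 ϖ p N S θ) (n : ℕ) (qv : Fin 0 → ℕ) [NeZero (twLevel N qv)],
      Nonempty (TWDiv 𝒪 ϖ p ρbar N S θ Dm.MD n qv)

/-- **A-GAL** (universally quantified): continuity and commutation of the twisted Galois action, the diamond operators. -/
def Stmt_A_GAL : Prop :=
  ∀ (𝒪 : Type) [CommRing 𝒪] [IsDomain 𝒪] [IsDiscreteValuationRing 𝒪]
    [IsAdicComplete (maximalIdeal 𝒪) 𝒪] [Finite (ResidueField 𝒪)] [CharZero 𝒪]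
    (ϖ : 𝒪) (p : ℕ) [Fact p.Prime] (N : ℕ) [NeZero N] (S : Finset ℕ)
    (θ : CuspForm.heckeAlgebra N 2 (↑S : Set ℕ) →+* ResidueField 𝒪)
    (ρbar : ResidualGaloisRep (ResidueField 𝒪)), StdHyp 𝒪 ϖ p N S θ ρbar →
    ∀ (Dm : MinSetup 𝒪 ϖ p N S θ) (n r : ℕ) (qv : Fin r → ℕ)
      [NeZero (N * twC qv)] [NeZero (twC qv)] [NeZero (twLevel N qv)]
      (D : TwSetup 𝒪 ϖ p N S θ ρbar n qv),
      Stmt_A_gal D

/-- **A-ES** (universally quantified): Eichler–Shimura on `W`. -/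
def Stmt_A_ES : Prop :=
  ∀ (𝒪 : Type) [CommRing 𝒪] [IsDomain 𝒪] [IsDiscreteValuationRing 𝒪]
    [IsAdicComplete (maximalIdeal 𝒪) 𝒪] [Finite (ResidueField 𝒪)] [CharZero 𝒪]
    (ϖ : 𝒪) (p : ℕ) [Fact p.Prime] (N : ℕ) [NeZero N] (S : Finset ℕ)
    (θ : CuspForm.heckeAlgebra N 2 (↑S : Set ℕ) →+* ResidueField 𝒪)
    (ρbar : ResidualGaloisRep (ResidueField 𝒪)), StdHyp 𝒪 ϖ p N S θ ρbar →
    ∀ (Dm : MinSetup 𝒪 ϖ p N S θ) (n r : ℕ) (qv : Fin r → ℕ)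
      [NeZero (N * twC qv)] [NeZero (twC qv)] [NeZero (twLevel N qv)]
      (D : TwSetup 𝒪 ϖ p N S θ ρbar n qv),
      Stmt_A_es D

/-- **A-HSTEP** (universally quantified): norm surjectivity along the tower. -/
def Stmt_A_HSTEP : Prop :=
  ∀ (𝒪 : Type) [CommRing 𝒪] [IsDomain 𝒪] [IsDiscreteValuationRing 𝒪]
    [IsAdicComplete (maximalIdeal 𝒪) 𝒪] [Finite (ResidueField 𝒪)] [CharZero 𝒪]
    (ϖ : 𝒪) (p : ℕ) [Fact p.Prime] (N : ℕ) [NeZero N] (S : Finset ℕ)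
    (θ : CuspForm.heckeAlgebra N 2 (↑S : Set ℕ) →+* ResidueField 𝒪)
    (ρbar : ResidualGaloisRep (ResidueField 𝒪)), StdHyp 𝒪 ϖ p N S θ ρbar →
    ∀ (Dm : MinSetup 𝒪 ϖ p N S θ) (n r : ℕ) (qv : Fin r → ℕ)
      [NeZero (N * twC qv)] [NeZero (twC qv)] [NeZero (twLevel N qv)]
      (D : TwSetup 𝒪 ϖ p N S θ ρbar n qv),
      Stmt_A_hstep D

/-- **A-PI** (universally quantified): the maps `π`, `πup`. -/
def Stmt_A_PI : Prop :=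
  ∀ (𝒪 : Type) [CommRing 𝒪] [IsDomain 𝒪] [IsDiscreteValuationRing 𝒪]
    [IsAdicComplete (maximalIdeal 𝒪) 𝒪] [Finite (ResidueField 𝒪)] [CharZero 𝒪]
    (ϖ : 𝒪) (p : ℕ) [Fact p.Prime] (N : ℕ) [NeZero N] (S : Finset ℕ)
    (θ : CuspForm.heckeAlgebra N 2 (↑S : Set ℕ) →+* ResidueField 𝒪)
    (ρbar : ResidualGaloisRep (ResidueField 𝒪)), StdHyp 𝒪 ϖ p N S θ ρbar →
    ∀ (Dm : MinSetup 𝒪 ϖ p N S θ) (n r : ℕ) (qv : Fin r → ℕ)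
      [NeZero (N * twC qv)] [NeZero (twC qv)] [NeZero (twLevel N qv)]
      (D : TwSetup 𝒪 ϖ p N S θ ρbar n qv),
      Stmt_A_pi Dm D

/-- **A-FROBNIL** (universally quantified): `(F - a)(F - a')` is nilpotent on `W[ϖ]`. -/
def Stmt_A_FROBNIL : Prop :=
  ∀ (𝒪 : Type) [CommRing 𝒪] [IsDomain 𝒪] [IsDiscreteValuationRing 𝒪]
    [IsAdicComplete (maximalIdeal 𝒪) 𝒪] [Finite (ResidueField 𝒪)] [CharZero 𝒪]
    (ϖ : 𝒪) (p : ℕ) [Fact p.Prime] (N : ℕ) [NeZero N] (S : Finset ℕ)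
    (θ : CuspForm.heckeAlgebra N 2 (↑S : Set ℕ) →+* ResidueField 𝒪)
    (ρbar : ResidualGaloisRep (ResidueField 𝒪)), StdHyp 𝒪 ϖ p N S θ ρbar →
    ∀ (Dm : MinSetup 𝒪 ϖ p N S θ) (n r : ℕ) (qv : Fin r → ℕ)
      [NeZero (N * twC qv)] [NeZero (twC qv)] [NeZero (twLevel N qv)]
      (D : TwSetup 𝒪 ϖ p N S θ ρbar n qv),
      Stmt_A_frob_nil D

/-- **A-LG** (universally quantified): local–global compatibility at `q_j`. -/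
def Stmt_A_LG : Prop :=
  ∀ (𝒪 : Type) [CommRing 𝒪] [IsDomain 𝒪] [IsDiscreteValuationRing 𝒪]
    [IsAdicComplete (maximalIdeal 𝒪) 𝒪] [Finite (ResidueField 𝒪)] [CharZero 𝒪]
    (ϖ : 𝒪) (p : ℕ) [Fact p.Prime] (N : ℕ) [NeZero N] (S : Finset ℕ)
    (θ : CuspForm.heckeAlgebra N 2 (↑S : Set ℕ) →+* ResidueField 𝒪)
    (ρbar : ResidualGaloisRep (ResidueField 𝒪)), StdHyp 𝒪 ϖ p N S θ ρbar →
    ∀ (Dm : MinSetup 𝒪 ϖ p N S θ) (n r : ℕ) (qv : Fin r → ℕ)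
      [NeZero (N * twC qv)] [NeZero (twC qv)] [NeZero (twLevel N qv)]
      (D : TwSetup 𝒪 ϖ p N S θ ρbar n qv),
      Stmt_A_lg D

/-- **NEB-GEOM, top**: all leaves imply `Asm.Stmt_TWGEOM`. -/
theorem stmt_TWGEOM_of (hMIN : Stmt_A_MIN) (hSETUP : Stmt_A_SETUP) (hR0 : Stmt_A_R0)
    (hGAL : Stmt_A_GAL) (hES : Stmt_A_ES) (hHSTEP : Stmt_A_HSTEP) (hPI : Stmt_A_PI)
    (hFN : Stmt_A_FROBNIL) (hLG : Stmt_A_LG) : Asm.Stmt_TWGEOM := by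
  intro 𝒪 _ _ _ _ _ _ p _ hp2 hpm ρbar Smin hres N _ hint hNS hsq θ hfrob
  obtain ⟨ϖ, hϖ⟩ := IsDiscreteValuationRing.exists_irreducible 𝒪
  have hstd : StdHyp 𝒪 ϖ p N Smin θ ρbar := ⟨hϖ, hp2, hpm, hres, hNS, hsq, hfrob, hint.out⟩
  obtain ⟨Dm⟩ := hMIN 𝒪 ϖ p N Smin θ ρbar hstd
  obtain ⟨M, hM1, hM2⟩ := Fermat.Agent.S59.Lim.stmt_LIM_A 𝒪 ϖ hϖ p hpm ρbar N Smin θ Dm.MD
  refine ⟨M, hM1 Dm.nontriv, ?_⟩
  intro r n qv hfam _ hint'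
  have key : Nonempty (TWDiv 𝒪 ϖ p ρbar N Smin θ Dm.MD n qv) := by
    rcases Nat.eq_zero_or_pos r with hr | hr
    · subst hr
      exact hR0 𝒪 ϖ p N Smin θ ρbar hstd Dm n qv
    · have hprime : ∀ j, (qv j).Prime := fun j => (hfam.2.1 j).1
      have hc0 : twC qv ≠ 0 := Finset.prod_ne_zero_iff.mpr fun j _ => (hprime j).ne_zero
      haveI : NeZero (twC qv) := ⟨hc0⟩
      haveI : NeZero (N * twC qv) := ⟨mul_ne_zero (NeZero.ne N) hc0⟩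
      obtain ⟨D⟩ := hSETUP 𝒪 ϖ p N Smin θ ρbar hstd n r qv hr hfam hint'.out
      exact H84.nonempty_twDiv Dm D
        (hGAL 𝒪 ϖ p N Smin θ ρbar hstd Dm n r qv D)
        (hES 𝒪 ϖ p N Smin θ ρbar hstd Dm n r qv D)
        (hHSTEP 𝒪 ϖ p N Smin θ ρbar hstd Dm n r qv D)
        (hPI 𝒪 ϖ p N Smin θ ρbar hstd Dm n r qv D)
        (hFN 𝒪 ϖ p N Smin θ ρbar hstd Dm n r qv D)
        (hLG 𝒪 ϖ p N Smin θ ρbar hstd Dm n r qv D)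
  obtain ⟨T⟩ := key
  exact hM2 r n qv T

end Fermat.Agent.NEB.Geom
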