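import Fermat.Agent.NEB.Geom.DefsW

/-!
# Item 72 (LG-NEB), package NEB-GEOM, leaf W-ES (helper12): the fixed-point trick

`stmt_W_ES : Stmt_W_ES`.  An operator `E` of `A` with values in `K`, commuting with the Hecke
operators, vanishes on the `θ`-part `W ⊆ 𝒪 ⊗ A` as soon as `t₀` (with `θ t₀ ≠ 0`) kills the
`Δ`-fixed part of `K`.

Proof: `Y = E_𝒪 (W) ⊆ W` is stable under the diamond operators (they lie in `η(𝕋)`).  If `Y ≠ 0`
then `Y[ϖ] ≠ 0` contains a nonzero `Δ`-fixed element `y₀` (`Δ` acts through commuting operators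
of `p`-power order on a module killed by `p`: `exists_fixed_ne_zero`).  By flatness of `𝒪` over
`ℤ`, `y₀` comes from `𝒪 ⊗ K^Δ`, so `t₀ y₀ = 0`; but `t₀` is injective on `W`.
-/

set_option autoImplicit false
set_option linter.style.haveILetI false
set_option linter.unusedSectionVars false
set_option linter.unusedVariables false

noncomputable section

open IsLocalRing TensorProduct Module Polynomial

namespace Fermat.Agent.NEB.Geom.H12

open Fermat.Agent.S59.Lim Fermat.Agent.S59.Lim.H2 Fermat.Agent.NEB.Geom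

/-! ### Operators of `p`-power order on modules killed by `p` -/

/-- `(X - 1)^(p^n) = X^(p^n) - 1 + p g` in `ℤ[X]`. -/
theorem exists_sub_one_pow_eq (p n : ℕ) [hp : Fact p.Prime] :
    ∃ g : Polynomial ℤ, (X - 1 : Polynomial ℤ) ^ (p ^ n) = X ^ (p ^ n) - 1 + C (p : ℤ) * g := by
  have hdvd : C (p : ℤ) ∣ (X - 1 : Polynomial ℤ) ^ (p ^ n) - (X ^ (p ^ n) - 1) := by
    rw [Polynomial.C_dvd_iff_dvd_coeff]
    intro i
    rw [← ZMod.intCast_zmod_eq_zero_iff_dvd]
    have h1 : ((X - 1 : Polynomial ℤ) ^ (p ^ n) - (X ^ (p ^ n) - 1)).map (Int.castRingHom (ZMod p))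
        = 0 := by
      simp only [Polynomial.map_sub, Polynomial.map_pow, Polynomial.map_X, Polynomial.map_one]
      rw [sub_pow_char_pow, one_pow, sub_self]
    have h2 := congrArg (fun q => Polynomial.coeff q i) h1
    simp only [Polynomial.coeff_map, Polynomial.coeff_zero] at h2
    exact h2
  obtain ⟨g, hg⟩ := hdvd
  exact ⟨g, by rw [← hg]; ring⟩

/-- an operator of order `p^n` is unipotent on the elements killed by `p`. -/
theorem sub_one_pow_apply_eq_zero {R M : Type*} [CommRing R] [AddCommGroup M] [Module R M]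
    (p n : ℕ) [Fact p.Prime] (f : Module.End R M) (hf : f ^ (p ^ n) = 1) (y : M)
    (hy : p • y = 0) : ((f - 1) ^ (p ^ n)) y = 0 := by
  obtain ⟨g, hg⟩ := exists_sub_one_pow_eq p n
  have h1 := congrArg (Polynomial.aeval f) hg
  simp only [map_pow, map_sub, Polynomial.aeval_X, map_one, map_add, map_mul,
    Polynomial.aeval_C] at h1
  rw [h1, hf, sub_self, zero_add]
  have h2 : (algebraMap ℤ (Module.End R M) (p : ℤ)) = (p : ℕ) • (1 : Module.End R M) := by
    rw [Algebra.algebraMap_eq_smul_one]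
    exact natCast_zsmul _ _
  rw [h2, Module.End.mul_apply, LinearMap.smul_apply, Module.End.one_apply, ← map_nsmul, hy,
    map_zero]

/-- commuting operators of `p`-power order on a nonzero module killed by `p` have a nonzero
common fixed vector. -/
theorem exists_fixed_ne_zero {R M : Type*} [CommRing R] [AddCommGroup M] [Module R M]
    (p n : ℕ) [Fact p.Prime] {G : Type*} (d : G → Module.End R M)
    (hcomm : ∀ u v, Commute (d u) (d v)) (hpow : ∀ u, d u ^ (p ^ n) = 1)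
    (Y : Submodule R M) (hY : ∀ u, ∀ y ∈ Y, d u y ∈ Y) (hp : ∀ y ∈ Y, p • y = 0)
    (hne : ∃ y ∈ Y, y ≠ 0) (s : Finset G) :
    ∃ y ∈ Y, y ≠ 0 ∧ ∀ u ∈ s, d u y = y := by
  classical
  induction s using Finset.induction_on with
  | empty =>
    obtain ⟨y, hy, hy0⟩ := hne
    exact ⟨y, hy, hy0, fun u hu => absurd hu (Finset.notMem_empty u)⟩
  | insert u s hu ih =>
    obtain ⟨y, hy, hy0, hfix⟩ := ih
    have hnil : ((d u - 1) ^ (p ^ n)) y = 0 :=
      sub_one_pow_apply_eq_zero p n (d u) (hpow u) y (hp y hy)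
    have hex : ∃ m : ℕ, ((d u - 1) ^ m) y = 0 := ⟨_, hnil⟩
    have hm : ((d u - 1) ^ (Nat.find hex)) y = 0 := Nat.find_spec hex
    have hm0 : Nat.find hex ≠ 0 := by
      intro h0
      rw [h0, pow_zero, Module.End.one_apply] at hm
      exact hy0 hm
    obtain ⟨k, hk⟩ := Nat.exists_eq_succ_of_ne_zero hm0
    have hk' : ((d u - 1) ^ k) y ≠ 0 := Nat.find_min hex (by omega : k < Nat.find hex)
    have hstab : ∀ (j : ℕ), ∀ z ∈ Y, ((d u - 1) ^ j) z ∈ Y := by
      intro j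
      induction j with
      | zero => intro z hz; rw [pow_zero, Module.End.one_apply]; exact hz
      | succ j ihj =>
        intro z hz
        rw [pow_succ', Module.End.mul_apply, LinearMap.sub_apply, Module.End.one_apply]
        exact Y.sub_mem (hY u _ (ihj z hz)) (ihj z hz)
    refine ⟨((d u - 1) ^ k) y, hstab k y hy, hk', ?_⟩
    intro v hv
    rcases Finset.mem_insert.mp hv with rfl | hv
    · have h1 : (d v - 1) (((d v - 1) ^ k) y) = 0 := by
        rw [← Module.End.mul_apply, ← pow_succ']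
        rw [hk] at hm
        exact hm
      rw [LinearMap.sub_apply, Module.End.one_apply, sub_eq_zero] at h1
      exact h1
    · have hc : Commute (d v) ((d u - 1) ^ k) :=
        ((hcomm v u).sub_right (Commute.one_right _)).pow_right k
      have h1 := congrArg (fun f : Module.End R M => f y) hc.eq
      simp only [Module.End.mul_apply] at h1
      rw [h1, hfix v hv]

/-! ### Injectivity of `t₀` on the `θ`-part -/

section Inj

variable {𝒪 : Type} [CommRing 𝒪] [IsLocalRing 𝒪] {𝕋 : Type} [CommRing 𝕋]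
  {A : Type} [AddCommGroup A]

/-- an element of the `θ`-part killed by `t₀`, `θ t₀ ≠ 0`, is zero. -/
theorem eq_zero_of_eta_eq_zero (η : 𝕋 →+* Module.End ℤ A) (θ : 𝕋 →+* ResidueField 𝒪)
    (t₀ : 𝕋) (ht₀ : θ t₀ ≠ 0) {y : 𝒪 ⊗[ℤ] A} (hy : y ∈ thetaPart η θ)
    (h0 : (η t₀).baseChange 𝒪 y = 0) : y = 0 := by
  obtain ⟨a, ha⟩ := IsLocalRing.residue_surjective (θ t₀)
  have hau : IsUnit a := by
    by_contra hna
    apply ht₀
    rw [← ha]
    exact (IsLocalRing.residue_eq_zero_iff a).mpr ((IsLocalRing.mem_maximalIdeal a).mpr hna)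
  obtain ⟨N, hN⟩ := mem_thetaPart.mp hy t₀ a ha
  have key : ∀ k : ℕ,
      (((η t₀).baseChange 𝒪 - a • (1 : Module.End 𝒪 (𝒪 ⊗[ℤ] A))) ^ k) y = (-a) ^ k • y := by
    intro k
    induction k with
    | zero => rw [pow_zero, pow_zero, one_smul, Module.End.one_apply]
    | succ k ih =>
      rw [pow_succ', Module.End.mul_apply, ih, map_smul, LinearMap.sub_apply, h0,
        LinearMap.smul_apply, Module.End.one_apply, zero_sub, smul_neg, ← neg_smul, smul_smul,
        pow_succ]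
      congr 1
      ring
  rw [key] at hN
  have hu : IsUnit ((-a) ^ N) := (hau.neg).pow N
  obtain ⟨b, hb⟩ := hu.exists_left_inv
  have := congrArg (fun z => b • z) hN
  simp only [smul_smul, hb, one_smul, smul_zero] at this
  exact this

end Inj

/-! ### The comparison `𝒪 ⊗ (G → A) → (G → 𝒪 ⊗ A)` -/

section Pi

variable {𝒪 : Type} [CommRing 𝒪] {A B : Type} [AddCommGroup A] [AddCommGroup B]
  {G : Type} [Finite G]

/-- a family of maps whose base changes all kill `z`: the base change of the product map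
kills `z`. -/
theorem baseChange_pi_eq_zero (f : G → (B →ₗ[ℤ] A)) (z : 𝒪 ⊗[ℤ] B)
    (h : ∀ u, (f u).baseChange 𝒪 z = 0) : (LinearMap.pi f).baseChange 𝒪 z = 0 := by
  classical
  haveI : Fintype G := Fintype.ofFinite G
  have hcomp : ∀ (u : G) (w : 𝒪 ⊗[ℤ] (G → A)),
      TensorProduct.piRightHom ℤ 𝒪 𝒪 (fun _ : G => A) w u
        = (LinearMap.proj u : (G → A) →ₗ[ℤ] A).baseChange 𝒪 w := by
    intro u w
    induction w using TensorProduct.induction_on with
    | zero => rw [map_zero, map_zero]; rfl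
    | tmul x g => rfl
    | add w₁ w₂ h₁ h₂ => rw [map_add, map_add, Pi.add_apply, h₁, h₂]
  apply (TensorProduct.piRight ℤ 𝒪 𝒪 (fun _ : G => A)).injective
  rw [map_zero, TensorProduct.piRight_apply]
  funext u
  rw [hcomp, ← LinearMap.comp_apply, ← LinearMap.baseChange_comp, LinearMap.proj_pi, h u]
  rfl

end Pi

/-! ### W-ES -/

/-- **W-ES**. -/
theorem stmt_W_ES : Stmt_W_ES := by
  intro 𝒪 _ _ _ _ ϖ hϖ p hpF hpm hp0 A _ htors hfin 𝕋 _ η θ G _ _ dia n hdia hz K t₀ ht₀ hfix E hE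
    hEK x hx
  classical
  haveI : CharZero 𝒪 := charZero_of_mem (𝒪 := 𝒪) hpF.out hpm hp0
  haveI : Module.Flat ℤ 𝒪 := flat_int (𝒪 := 𝒪)
  haveI : Fintype G := Fintype.ofFinite G
  by_contra hne
  -- the operators
  let d : G → Module.End 𝒪 (𝒪 ⊗[ℤ] A) := fun u => (dia u).baseChange 𝒪
  have hdcommη : ∀ u t, Commute ((η t).baseChange 𝒪) (d u) := by
    intro u t
    obtain ⟨z, hz'⟩ := hz u
    show Commute ((η t).baseChange 𝒪) ((dia u).baseChange 𝒪)
    rw [← hz']
    exact baseChange_commute 𝒪 ((Commute.all t z).map η)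
  have hdcomm : ∀ u v, Commute (d u) (d v) := by
    intro u v
    obtain ⟨z, hz'⟩ := hz u
    show Commute ((dia u).baseChange 𝒪) (d v)
    rw [← hz']
    exact hdcommη v z
  have hdpow : ∀ u, d u ^ (p ^ n) = 1 := by
    intro u
    show ((dia u).baseChange 𝒪) ^ (p ^ n) = 1
    rw [← baseChange_pow_eq, hdia u, baseChange_one_eq]
  have hEcomm : ∀ t, Commute ((η t).baseChange 𝒪) (E.baseChange 𝒪) :=
    fun t => baseChange_commute 𝒪 (hE t)
  have hEd : ∀ u, Commute (d u) (E.baseChange 𝒪) := by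
    intro u
    obtain ⟨z, hz'⟩ := hz u
    show Commute ((dia u).baseChange 𝒪) (E.baseChange 𝒪)
    rw [← hz']
    exact hEcomm z
  -- `Y = E (W) ∩ X[ϖ]`
  let Y : Submodule 𝒪 (𝒪 ⊗[ℤ] A) :=
    (Submodule.map (E.baseChange 𝒪) (thetaPart η θ)) ⊓ Submodule.torsionBy 𝒪 (𝒪 ⊗[ℤ] A) ϖ
  have hYmem : ∀ y, y ∈ Y ↔ (∃ w ∈ thetaPart η θ, E.baseChange 𝒪 w = y) ∧ ϖ • y = 0 := by
    intro y
    show y ∈ (Submodule.map (E.baseChange 𝒪) (thetaPart η θ)) ⊓
      Submodule.torsionBy 𝒪 (𝒪 ⊗[ℤ] A) ϖ ↔ _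
    rw [Submodule.mem_inf, Submodule.mem_map, Submodule.mem_torsionBy_iff]
  have hYW : ∀ y ∈ Y, y ∈ thetaPart η θ := by
    intro y hy
    obtain ⟨⟨w, hw, rfl⟩, -⟩ := (hYmem y).mp hy
    exact thetaPart_stable hEcomm hw
  have hYstab : ∀ u, ∀ y ∈ Y, d u y ∈ Y := by
    intro u y hy
    obtain ⟨⟨w, hw, rfl⟩, hy2⟩ := (hYmem _).mp hy
    refine (hYmem _).mpr ⟨⟨d u w, thetaPart_stable (fun t => hdcommη u t) hw, ?_⟩, ?_⟩
    · have := congrArg (fun f : Module.End 𝒪 (𝒪 ⊗[ℤ] A) => f w) (hEd u).eq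
      simp only [Module.End.mul_apply] at this
      exact this.symm
    · rw [← map_smul, hy2, map_zero]
  obtain ⟨e, v, he, hv⟩ := exists_eq_unit_mul_pow hϖ hpm hp0
  have hYp : ∀ y ∈ Y, p • y = 0 := by
    intro y hy
    obtain ⟨-, hy2⟩ := (hYmem y).mp hy
    have h1 : (p : 𝒪) • y = 0 := by
      obtain ⟨e', rfl⟩ := Nat.exists_eq_succ_of_ne_zero he.ne'
      rw [hv, pow_succ, ← mul_assoc, mul_smul, hy2, smul_zero]
    rw [← h1]
    exact (Nat.cast_smul_eq_nsmul 𝒪 p y).symm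
  -- `Y ≠ 0`
  have hYne : ∃ y ∈ Y, y ≠ 0 := by
    obtain ⟨k, hk⟩ := tens_tors hϖ hpm hp0 htors (E.baseChange 𝒪 x)
    have hex : ∃ m : ℕ, ϖ ^ m • (E.baseChange 𝒪 x) = 0 := ⟨k, hk⟩
    have hm := Nat.find_spec hex
    have hm0 : Nat.find hex ≠ 0 := by
      intro h0
      rw [h0, pow_zero, one_smul] at hm
      exact hne hm
    obtain ⟨j, hj⟩ := Nat.exists_eq_succ_of_ne_zero hm0
    have hj' : ϖ ^ j • (E.baseChange 𝒪 x) ≠ 0 := Nat.find_min hex (by omega : j < Nat.find hex)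
    refine ⟨ϖ ^ j • (E.baseChange 𝒪 x),
      (hYmem _).mpr ⟨⟨ϖ ^ j • x, (thetaPart η θ).smul_mem _ hx, ?_⟩, ?_⟩, hj'⟩
    · rw [map_smul]
    · rw [smul_smul, ← pow_succ']
      rw [hj] at hm
      exact hm
  -- a nonzero fixed vector
  obtain ⟨y₀, hy₀Y, hy₀ne, hy₀fix⟩ :=
    exists_fixed_ne_zero p n d hdcomm hdpow Y hYstab hYp hYne Finset.univ
  have hy₀W : y₀ ∈ thetaPart η θ := hYW y₀ hy₀Y
  apply hy₀ne
  apply eq_zero_of_eta_eq_zero η θ t₀ ht₀ hy₀W
  -- `y₀` comes from `𝒪 ⊗ K`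
  let KZ : Submodule ℤ A := AddSubgroup.toIntSubmodule K
  let E' : A →ₗ[ℤ] KZ := E.codRestrict KZ (fun a => hEK a)
  have hEE' : E = KZ.subtype ∘ₗ E' := by
    ext a
    rfl
  obtain ⟨⟨w, hw, hwy⟩, -⟩ := (hYmem y₀).mp hy₀Y
  have hy₀K : y₀ = KZ.subtype.baseChange 𝒪 (E'.baseChange 𝒪 w) := by
    rw [← hwy, ← LinearMap.comp_apply, ← LinearMap.baseChange_comp, ← hEE']
  set k₀ : 𝒪 ⊗[ℤ] KZ := E'.baseChange 𝒪 w with hk₀
  -- `k₀` comes from `𝒪 ⊗ K^Δ`
  let F : KZ →ₗ[ℤ] (G → A) := LinearMap.pi fun u => (dia u - 1) ∘ₗ KZ.subtype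
  have hFk₀ : F.baseChange 𝒪 k₀ = 0 := by
    apply baseChange_pi_eq_zero
    intro u
    rw [LinearMap.baseChange_comp, LinearMap.comp_apply, ← hy₀K, LinearMap.baseChange_sub,
      LinearMap.sub_apply, sub_eq_zero]
    have h1 : (1 : Module.End ℤ A).baseChange 𝒪 y₀ = y₀ := by
      rw [baseChange_one_eq, Module.End.one_apply]
    rw [h1]
    exact hy₀fix u (Finset.mem_univ u)
  obtain ⟨k₁, hk₁⟩ := exists_of_baseChange_eq_zero (𝒪 := 𝒪) F hFk₀
  -- `t₀` kills `K^Δ`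
  have hzero : (η t₀) ∘ₗ KZ.subtype ∘ₗ (LinearMap.ker F).subtype = 0 := by
    ext ⟨⟨a, ha⟩, hak⟩
    show η t₀ a = 0
    apply hfix a ha
    intro u
    have h1 : F ⟨a, ha⟩ = 0 := hak
    have h2 := congrFun h1 u
    have h3 : dia u a - a = 0 := h2
    exact sub_eq_zero.mp h3
  have := congrArg (fun f => f k₁) (congrArg (fun f => f.baseChange 𝒪) hzero)
  simp only [LinearMap.baseChange_comp, LinearMap.comp_apply, LinearMap.baseChange_zero,
    LinearMap.zero_apply] at this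
  rw [hk₁, ← hy₀K] at this
  exact this

end Fermat.Agent.NEB.Geom.H12
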