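import Fermat.Agent.NEB.Geom.Defs
import Fermat.Agent.RED.H36_AllRed

/-!
# Item 72 (LG-NEB), package NEB-GEOM, leaf CL-TI (helper70)

`cl_TI`: at a place `P` of `ℚ̄` over a prime `ℓ ∤ M`, the kernel of reduction `K1` of `J₀(M)` for a
prime `p ≠ ℓ` is trivial: `InK1 P p (F₀(M)) x → x = 0`.  (Class form of `RED.H36.stmt_TIcore`.)

The hypothesis `p.Prime` is necessary (`Stmt_CL_TI` of `Geom/Defs.lean` is false for `p = 0`:
`0^k D = div (const)` for every `D`); `stmt_CL_TI` is `Stmt_CL_TI` under `p.Prime`.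
-/

set_option autoImplicit false

noncomputable section

open ModularCurve AlgebraicCurve

namespace Fermat.Agent.NEB.Geom.H70

open Fermat.Agent.NEB Fermat.Agent.S28.H73 Fermat.Agent.RED.H73 Fermat.Agent.RED

/-- **CL-TI**: the kernel of reduction of `J₀(M)` at `P ∣ ℓ ∤ M` has no `p`-power torsion,
`p ≠ ℓ` prime. -/
theorem cl_TI (M p : ℕ) [NeZero M] (hp : p.Prime) (ℓ : ℕ) (hℓ : ℓ.Prime) (hℓM : ¬ ℓ ∣ M)
    (hℓp : ℓ ≠ p) (P : ValuationSubring Kbar) (hP : P.LiesOverPrime ℓ) (x : JZero M)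
    (hx : InK1 P p (modularFunctionFieldBar M) x) : x = 0 := by
  obtain ⟨k, D, f, hf, rfl, hD, c, hc, hred⟩ := hx
  have hsc := hasScale_laurentBaseChange P M
  have hcoe : ((algebraMap Kbar ↥(modularFunctionFieldBar M) c * f :
      ↥(modularFunctionFieldBar M)) : LaurentSeries Kbar)
      = HahnSeries.C c * (f : LaurentSeries Kbar) := by
    show ((algebraMap Kbar ↥(modularFunctionFieldBar M) c :
      ↥(modularFunctionFieldBar M)) : LaurentSeries Kbar) * (f : LaurentSeries Kbar) = _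
    rw [coe_algebraMap_F]
  have hmem : algebraMap Kbar ↥(modularFunctionFieldBar M) c * f
      ∈ gaussValSub P (modularFunctionFieldBar M) hsc := by
    rw [mem_gaussValSub_iff, hcoe]
    exact hred.mem
  have hres : gaussResF' P hsc ⟨_, hmem⟩ = 1 := by
    apply Subtype.ext
    show gaussResF P hsc ⟨_, hmem⟩ = 1
    rw [gaussResF_apply]
    have e : (⟨((⟨algebraMap Kbar ↥(modularFunctionFieldBar M) c * f, hmem⟩ :
          ↥(gaussValSub P (modularFunctionFieldBar M) hsc)) :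
          ↥(modularFunctionFieldBar M)), hmem⟩ : gaussRingV P)
        = ⟨HahnSeries.C c * (f : LaurentSeries Kbar), hred.mem⟩ := Subtype.ext hcoe
    rw [e]
    exact hred.eq _
  have hnd : ¬ ℓ ∣ p ^ k := fun h =>
    hℓp ((Nat.prime_dvd_prime_iff_eq hℓ hp).1 (hℓ.dvd_of_dvd_pow h))
  have hdiv : ∀ Q : Place Kbar ↥(modularFunctionFieldBar M),
      ((p ^ k : ℕ) : ℤ) ∣ Q.ord (algebraMap Kbar ↥(modularFunctionFieldBar M) c * f) := by
    intro Q
    rw [Fermat.Agent.RED.H17.ord_algebraMap_mul Q hc f, ← hD Q]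
    push_cast
    exact dvd_mul_right _ _
  obtain ⟨t, ht⟩ := Fermat.Agent.RED.H36.stmt_TIcore M ℓ hℓ hℓM P hP (p ^ k) hnd ⟨_, hmem⟩ hres
    hdiv
  have ht' : t ^ (p ^ k) = algebraMap Kbar ↥(modularFunctionFieldBar M) c * f := ht
  have ht0 : t ≠ 0 := by
    rintro rfl
    rw [zero_pow (pow_ne_zero k hp.ne_zero)] at ht'
    exact (mul_ne_zero ((map_ne_zero _).2 hc) hf) ht'.symm
  have hpk : ((p : ℤ) ^ k) ≠ 0 := pow_ne_zero k (by exact_mod_cast hp.ne_zero)
  have hDt : ∀ Q : Place Kbar ↥(modularFunctionFieldBar M),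
      (D : Divisor Kbar ↥(modularFunctionFieldBar M)) Q = Q.ord t := by
    intro Q
    have h1 : Q.ord (t ^ (p ^ k)) = ((p ^ k : ℕ) : ℤ) * Q.ord t := by
      rw [← zpow_natCast, Q.ord_zpow]
    rw [ht', Fermat.Agent.RED.H17.ord_algebraMap_mul Q hc f, ← hD Q] at h1
    push_cast at h1
    exact mul_left_cancel₀ hpk h1
  refine (QuotientAddGroup.eq_zero_iff _).2 ?_
  exact ⟨t, ht0, hDt⟩

/-- **CL-TI** as stated in `Geom/Defs.lean`, for `p` prime. -/
theorem stmt_CL_TI (M p : ℕ) (hp : p.Prime) : Stmt_CL_TI M p :=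
  fun ℓ hℓ hℓM hℓp P hP x hx => cl_TI M p hp ℓ hℓ hℓM hℓp P hP x hx

end Fermat.Agent.NEB.Geom.H70
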