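import Fermat.Agent.NEB.Geom.H70_ClRes
import Fermat.Agent.NEB.Geom.H70_ClTI
import Fermat.Agent.NEB.H29_InvJH

/-!
# Item 72 (LG-NEB), package NEB-GEOM, leaf FIX' (helper70)

`fix'`: at a place `P` over a prime `r ∤ M p`, for a `Δ`-fixed `p`-power torsion class `x` of
`J_H`: if `t x` (`t = T_ℓ^H - (ℓ + 1)`) lies in the kernel of reduction then `t x = 0`.

Proof: INV' (helper29): `t x = π^* y₀`, `y₀ ∈ J₀(M)[p^k]`; CL-RES: `y₀ = y₁ + z` with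
`y₁ ∈ K1(F₀(M))` and `π^* z = 0`; CL-TI: `y₁ = 0`.
-/

set_option autoImplicit false

noncomputable section

open ModularCurve AlgebraicCurve

namespace Fermat.Agent.NEB.Geom.H70

open Fermat.Agent.NEB Fermat.Agent.NEB.JH Fermat.Agent.NEB.H14

/-- **FIX'**. -/
theorem fix' (M c : ℕ) (H : Subgroup (ZMod c)ˣ) (p : ℕ) (hp : p.Prime) (hc2 : 2 ≤ c)
    (hc : c ∣ M) (hM : M ≠ 0) (n : ℕ)
    (hexp : ∀ d : (ZMod c)ˣ, d ^ (p ^ n) ∈ H ∨ -(d ^ (p ^ n)) ∈ H)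
    (hunr : ∀ w : Place Kbar ↥(FHbar M c H),
      ∃ x : ↥(modularFunctionFieldBar M), w.ord (inclBar M c H x) = 1)
    (ℓ : ℕ) [NeZero M] [NeZero ℓ] (hℓ : ℓ.Prime) (hℓM : ¬ ℓ ∣ M) (hd : HeckeData M c ℓ H)
    (P : ValuationSubring Kbar) (r : ℕ) (hr : r.Prime) (hrM : ¬ r ∣ M) (hrp : r ≠ p)
    (hP : P.LiesOverPrime r) (x : JH M c H) (hx : IsPTors p x)
    (hfix : ∀ d, hd.dd.ρ d • x = x)
    (hK : InK1 P p (FHbar M c H) (TH hd.hβ x - (ℓ + 1) • x)) :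
    TH hd.hβ x - (ℓ + 1) • x = 0 := by
  obtain ⟨k, hk⟩ := hx
  have hm0 : p ^ k ≠ 0 := pow_ne_zero k hp.ne_zero
  have hxm : ((p ^ k : ℕ) : ℤ) • x = 0 := by
    rw [natCast_zsmul]
    exact hk
  obtain ⟨y₀, hy₀, hup⟩ :=
    Fermat.Agent.NEB.H29.stmt_INV_JH' hd hℓ hℓM hunr (p ^ k) hm0 x hxm hfix
  have hy₀t : IsPTors p y₀ := ⟨k, by
    rw [natCast_zsmul] at hy₀
    exact hy₀⟩
  rw [← hup] at hK ⊢
  obtain ⟨y₁, z, hyz, hy₁, hz⟩ := cl_RES M c H p hp hc2 hc hM hunr n hexp P r hr hrp hP y₀ hy₀t hK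
  have hy₁0 : y₁ = 0 := cl_TI M p hp r hr hrM hrp P hP y₁ hy₁
  rw [hyz, hy₁0, zero_add]
  exact hz

end Fermat.Agent.NEB.Geom.H70
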