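import Mathlib
import Fermat.Agent.NEB.Geom.AsmTop
import Fermat.Agent.NEB.Geom.H12_WES
import Fermat.Agent.NEB.Geom.H70_Fix
import Fermat.Agent.NEB.Geom.H94_AHstep
import Fermat.Agent.NEB.Geom.H29_TowerInst
import Fermat.Agent.NEB.Geom.H29_ZGalCont

/-!
# NEB-GEOM, assembly leaf A-ES (helper29): Eichler–Shimura on `W`

`stmt_A_ES : Stmt_A_ES`: for a good prime `ℓ` and a Frobenius `σ` at a place over `ℓ`,
`gal'(σ)² - T'_ℓ gal'(σ) + ℓ = 0` on `W = Wtw`.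

Route (helper84): the `ℤ`-level operator `gal'(σ)² - T'_ℓ gal'(σ) + ℓ` equals
`E = ⟨ℓ⟩σ² - T_ℓ σ + ℓ` (because `χ_c(σ) = ℓ` and `⟨ℓ⟩^(2j₀+1) = 1`), `E` has values in the kernel
of reduction (`H70.inKU_ES`), and the fixed-point lemma `H12.stmt_W_ES` applies with FIX'
(`H70.fix'`).
-/

set_option autoImplicit false
set_option linter.unusedSectionVars false
set_option linter.unusedVariables false
set_option linter.style.haveILetI false

noncomputable section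

open ModularCurve AlgebraicCurve IsLocalRing TensorProduct Polynomial

namespace Fermat.Agent.NEB.Geom.H29

open Fermat.Agent.NEB Fermat.Agent.NEB.JH Fermat.Agent.S59 Fermat.Agent.S59.Asm
  Fermat.Agent.S59.Lim Fermat.Agent.S59.Lim.H2 Fermat.Agent.NEB.Geom

/-! ## 1. Ring identities -/

section ring

variable {E : Type*} [Ring E]

/-- `(g d^(j+1))² - (T d^j)(g d^(j+1)) + m = d g g - T g + m` if `d^(2j+1) = 1` and `d` commutes
with `g`. -/
theorem es_ring_identity (g d T m : E) (j : ℕ) (hdg : Commute d g) (hd : d ^ (2 * j + 1) = 1) :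
    g * d ^ (j + 1) * (g * d ^ (j + 1)) - T * d ^ j * (g * d ^ (j + 1)) + m
      = d * g * g - T * g + m := by
  have h1 : g * d ^ (j + 1) * (g * d ^ (j + 1)) = d * g * g := by
    have ha : Commute (d ^ (j + 1)) g := hdg.pow_left _
    calc g * d ^ (j + 1) * (g * d ^ (j + 1))
        = g * (d ^ (j + 1) * g) * d ^ (j + 1) := by simp only [mul_assoc]
      _ = g * (g * d ^ (j + 1)) * d ^ (j + 1) := by rw [ha.eq]
      _ = g * g * (d ^ (j + 1) * d ^ (j + 1)) := by simp only [mul_assoc]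
      _ = g * g * (d ^ (2 * j + 1) * d) := by
          rw [← pow_add, ← pow_succ]
          congr 2
          omega
      _ = g * g * d := by rw [hd, one_mul]
      _ = d * g * g := by
          rw [mul_assoc d g g]
          exact ((hdg.mul_right hdg).eq).symm
  have h2 : T * d ^ j * (g * d ^ (j + 1)) = T * g := by
    have hb : Commute (d ^ j) g := hdg.pow_left _
    calc T * d ^ j * (g * d ^ (j + 1))
        = T * (d ^ j * g) * d ^ (j + 1) := by simp only [mul_assoc]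
      _ = T * (g * d ^ j) * d ^ (j + 1) := by rw [hb.eq]
      _ = T * g * (d ^ j * d ^ (j + 1)) := by simp only [mul_assoc]
      _ = T * g * d ^ (2 * j + 1) := by
          rw [← pow_add]
          congr 2
          omega
      _ = T * g := by rw [hd, mul_one]
  rw [h1, h2]

end ring

section thetaES

variable {𝒪 : Type} [CommRing 𝒪] [IsLocalRing 𝒪] {𝕋 : Type} [CommRing 𝕋]
  {A : Type} [AddCommGroup A] {η : 𝕋 →+* Module.End ℤ A} {θ : 𝕋 →+* ResidueField 𝒪}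

/-- Transfer of the Eichler–Shimura relation to the `θ`-part, if the relation holds on the
`θ`-part only. -/
theorem thetaZ_es_of {g T : Module.End ℤ A} (hg : ∀ t, Commute (η t) g)
    (hT : ∀ t, Commute (η t) T) (ℓ : ℕ)
    (h : ∀ x ∈ thetaPart η θ,
      (g * g - T * g + ℓ • (1 : Module.End ℤ A)).baseChange 𝒪 x = 0) :
    thetaZ θ g hg * thetaZ θ g hg - thetaZ θ T hT * thetaZ θ g hg
      + (ℓ : 𝒪) • (1 : Module.End 𝒪 ↥(thetaPart η θ)) = 0 := by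
  have hℓ : ∀ t, Commute (η t) (ℓ • (1 : Module.End ℤ A)) :=
    fun t => (Commute.one_right _).smul_right ℓ
  have hgg : ∀ t, Commute (η t) (g * g) := fun t => (hg t).mul_right (hg t)
  have hTg : ∀ t, Commute (η t) (T * g) := fun t => (hT t).mul_right (hg t)
  have hsub : ∀ t, Commute (η t) (g * g - T * g) := fun t => (hgg t).sub_right (hTg t)
  have hall : ∀ t, Commute (η t) (g * g - T * g + ℓ • (1 : Module.End ℤ A)) :=
    fun t => (hsub t).add_right (hℓ t)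
  have h0 : thetaZ θ (g * g - T * g + ℓ • (1 : Module.End ℤ A)) hall = 0 :=
    LinearMap.ext fun x => Subtype.ext (h x.1 x.2)
  rw [thetaZ_add hsub hℓ, thetaZ_sub hgg hTg, thetaZ_mul hg hg, thetaZ_mul hT hg,
    thetaZ_natCast_smul_one] at h0
  exact h0

end thetaES

/-! ## 2. The Eichler–Shimura operator on `J_H[p^∞]` -/

section gen

variable (M c : ℕ) [NeZero M] (H : Subgroup (ZMod c)ˣ) (h2 : 2 ≤ c) (hc : c ∣ M) (p : ℕ)

/-- `E = ⟨u⟩ σ² - T_ℓ σ + ℓ`. -/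
def esOp (ℓ : ℕ) (u : (ZMod c)ˣ) (σ : GalQ) : Module.End ℤ (AH M c H p) :=
  diaZ M c H h2 hc p u * galZ M c H p σ * galZ M c H p σ
    - Tz M c H h2 hc p ℓ * galZ M c H p σ + ((ℓ : ℕ) : ℤ) • (1 : Module.End ℤ (AH M c H p))

theorem coe_esOp (ℓ : ℕ) [NeZero ℓ] (u : (ZMod c)ˣ) (σ : GalQ) (x : AH M c H p) :
    ((esOp M c H h2 hc p ℓ u σ x : AH M c H p) : JH M c H)
      = (heckeData M c ℓ H h2 hc).dd.ρ u • (σ • σ • (x : JH M c H))
        - TH (heckeData M c ℓ H h2 hc).hβ (σ • (x : JH M c H)) + ℓ • (x : JH M c H) := by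
  have h1 : ((Tz M c H h2 hc p ℓ (galZ M c H p σ x) : AH M c H p) : JH M c H)
      = TH (heckeData M c ℓ H h2 hc).hβ (σ • (x : JH M c H)) := by
    rw [Tz_apply]
    rfl
  rw [← h1, ← natCast_zsmul (x : JH M c H) ℓ]
  rfl

/-- `E` has values in the uniform kernel of reduction. -/
theorem esOp_inKU (ℓ : ℕ) (hℓ : ℓ.Prime) (hℓM : ¬ ℓ ∣ M) (u : (ZMod c)ˣ)
    (hu : (u : ZMod c) = (ℓ : ZMod c)) (P : ValuationSubring Kbar) (hP : P.LiesOverPrime ℓ)
    (σ : GalQ) (hσ : P.IsFrobeniusAt σ ℓ) (x : AH M c H p) :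
    Fermat.Agent.NEB.Geom.H70.InKU P p (diamondData M c H h2 hc)
      ((esOp M c H h2 hc p ℓ u σ x : AH M c H p) : JH M c H) := by
  haveI : NeZero ℓ := ⟨hℓ.ne_zero⟩
  rw [coe_esOp]
  exact Fermat.Agent.NEB.Geom.H70.inKU_ES (heckeData M c ℓ H h2 hc) h2 hc hℓ hℓM u hu hP hσ x.2

include h2 hc in
/-- `J_H[p]` is finite, in the form used by the `W`-leaves. -/
theorem finite_AH_p [NeZero c] [Fact p.Prime] :
    Finite {x : AH M c H p // p • x = 0} := by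
  have hfin := stmt_ZFIN_final (M := M) H h2 hc p 1
  haveI : Finite ↥{y : JH M c H | ((p ^ 1 : ℕ) : ℤ) • y = 0} := hfin.to_subtype
  have hmem : ∀ x : {x : AH M c H p // p • x = 0},
      ((x.1 : AH M c H p) : JH M c H) ∈ {y : JH M c H | ((p ^ 1 : ℕ) : ℤ) • y = 0} := by
    intro x
    show ((p ^ 1 : ℕ) : ℤ) • ((x.1 : AH M c H p) : JH M c H) = 0
    have h1 : ((p ^ 1 : ℕ) : ℤ) = ((p : ℕ) : ℤ) := by rw [pow_one]
    rw [h1, natCast_zsmul]
    exact congrArg Subtype.val x.2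
  refine Finite.of_injective
    (fun x : {x : AH M c H p // p • x = 0} =>
      (⟨((x.1 : AH M c H p) : JH M c H), hmem x⟩ :
        ↥{y : JH M c H | ((p ^ 1 : ℕ) : ℤ) • y = 0}))
    (fun x y h => by
      have h' := congrArg Subtype.val h
      exact Subtype.ext (Subtype.ext h'))

end gen

/-! ## 3. The assembly leaf -/

section Main

variable {𝒪 : Type} [CommRing 𝒪] [IsDomain 𝒪] [IsDiscreteValuationRing 𝒪]
  {ϖ : 𝒪} {p : ℕ} {N : ℕ} [NeZero N] {S : Finset ℕ}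
  {θ : CuspForm.heckeAlgebra N 2 (↑S : Set ℕ) →+* ResidueField 𝒪}
  {ρbar : ResidualGaloisRep (ResidueField 𝒪)} {n : ℕ} {r : ℕ} {qv : Fin r → ℕ}
  [NeZero (N * twC qv)] [NeZero (twC qv)] [NeZero (twLevel N qv)]

/-- The image of `X_ℓ` under `η⁺`, for a good prime. -/
theorem etaTw_X_inl (D : TwSetup 𝒪 ϖ p N S θ ρbar n qv) {ℓ : ℕ} (hg : GoodTw N S qv ℓ) :
    etaTw N S p n qv D.h2 D.hcomm (MvPolynomial.X (Sum.inl ℓ))
      = TzTw (N * twC qv) (twC qv) (twH p n qv) D.h2 (dvd_mul_left _ _) p (jTw p n) ℓ :=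
  (polyHom_X _ _ _).trans (opsTw_inl_good N S p n qv D.h2 hg)

/-- FIX for the kernel of reduction at a place over a good prime `ℓ`. -/
theorem fix_KZ [Fact p.Prime] (D : TwSetup 𝒪 ϖ p N S θ ρbar n qv) {ℓ : ℕ}
    (hg : GoodTw N S qv ℓ) (P : ValuationSubring Kbar) (hP : P.LiesOverPrime ℓ)
    (x : AH (N * twC qv) (twC qv) (twH p n qv) p) (hx : x ∈ KZ N p n qv D.h2 P)
    (hfix : ∀ u, diaZ (N * twC qv) (twC qv) (twH p n qv) D.h2 (dvd_mul_left _ _) p u x = x) :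
    etaTw N S p n qv D.h2 D.hcomm (Fermat.Agent.NEB.Geom.H94.tEisPoly p n qv D.ℓ₀) x = 0 := by
  haveI : NeZero D.ℓ₀ := ⟨D.hℓ₀.1.ne_zero⟩
  have hp : p.Prime := Fact.out
  have hℓ₀M : ¬ D.ℓ₀ ∣ N * twC qv := not_dvd_level_of_good D.hℓ₀
  have hℓM : ¬ ℓ ∣ N * twC qv := not_dvd_level_of_good hg
  have hℓp : ℓ ≠ p := by
    rintro rfl
    apply hg.2.2
    simp only [twSet, Finset.coe_union, Set.mem_union]
    exact Or.inl D.hTW.hpS
  rw [Fermat.Agent.NEB.Geom.H94.etaTw_tEisPoly N S p n qv D.h2 D.hcomm D.ℓ₀ D.hℓ₀]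
  apply Subtype.ext
  rw [coe_tEis, Fermat.Agent.NEB.H29.tEnd_apply, natCast_zsmul]
  have hxK : Fermat.Agent.NEB.Geom.H70.InKU P p
      (heckeData (N * twC qv) (twC qv) D.ℓ₀ (twH p n qv) D.h2 (dvd_mul_left _ _)).dd
      (x : JH (N * twC qv) (twC qv) (twH p n qv)) := hx
  have hK := ((hxK.TH (heckeData (N * twC qv) (twC qv) D.ℓ₀ (twH p n qv) D.h2
    (dvd_mul_left _ _)) D.h2 (dvd_mul_left _ _) D.hℓ₀.1 hℓ₀M).sub
      (hxK.nsmul (D.ℓ₀ + 1))).inK1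
  exact Fermat.Agent.NEB.Geom.H70.fix' (N * twC qv) (twC qv) (twH p n qv) p hp D.h2
    (dvd_mul_left _ _) (NeZero.ne _) n (fun d => Or.inl ⟨d, rfl⟩) (twHyp_unr D.hTW D.h2)
    D.ℓ₀ D.hℓ₀.1 hℓ₀M
    (heckeData (N * twC qv) (twC qv) D.ℓ₀ (twH p n qv) D.h2 (dvd_mul_left _ _))
    P ℓ hg.1 hℓM hℓp hP (x : JH (N * twC qv) (twC qv) (twH p n qv)) x.2
    (fun d => congrArg Subtype.val (hfix d)) hK

set_option maxHeartbeats 1000000 in
/-- **A-ES** for a Taylor–Wiles setup. -/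
theorem a_es [Finite (ResidueField 𝒪)] [Fact p.Prime] (hϖ : Irreducible ϖ)
    (hpm : (p : 𝒪) ∈ maximalIdeal 𝒪) (hp0 : (p : 𝒪) ≠ 0)
    (D : TwSetup 𝒪 ϖ p N S θ ρbar n qv) : Stmt_A_es D := by
  intro ℓ hℓ hℓN hℓS P hP σ hσ
  have hp : p.Prime := Fact.out
  have hg : GoodTw N S qv ℓ := ⟨hℓ, hℓN, hℓS⟩
  have hℓM : ¬ ℓ ∣ N * twC qv := not_dvd_level_of_good hg
  have hc : twC qv ∣ N * twC qv := dvd_mul_left _ _
  have hcop : (twC qv).Coprime ℓ :=
    Nat.Coprime.symm ((Nat.Prime.coprime_iff_not_dvd hℓ).2 fun h => hℓM (h.trans hc))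
  have hχ : Fermat.Agent.NEB.Geom.H6.chiC (twC qv) σ
      = Fermat.Agent.NEB.EIG.H39.unitOf (twC qv) ℓ := by
    rw [Fermat.Agent.NEB.Geom.H6.chiC_frob_unit (twC qv) ℓ hℓ hcop P hP σ hσ]
    unfold Fermat.Agent.NEB.EIG.H39.unitOf
    rw [dif_pos hcop.symm]
  have hucoe : ((Fermat.Agent.NEB.EIG.H39.unitOf (twC qv) ℓ : (ZMod (twC qv))ˣ) : ZMod (twC qv))
      = (ℓ : ZMod (twC qv)) := Fermat.Agent.NEB.EIG.H39.unitOf_coe hcop.symm
  have hd1 : diaZ (N * twC qv) (twC qv) (twH p n qv) D.h2 hc p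
      (Fermat.Agent.NEB.EIG.H39.unitOf (twC qv) ℓ) ^ (2 * jTw p n + 1) = 1 := by
    rw [Fermat.Agent.NEB.Geom.H84.two_jTw hp D.hTW.hp2 n]
    exact tw_diaZ_pow D.h2 D.hTW D.hδ _
  have hdg : Commute
      (diaZ (N * twC qv) (twC qv) (twH p n qv) D.h2 hc p
        (Fermat.Agent.NEB.EIG.H39.unitOf (twC qv) ℓ))
      (galZ (N * twC qv) (twC qv) (twH p n qv) p σ) :=
    commute_diaZ_galZ _ _ _ D.h2 hc p _ σ
  -- the `ℤ`-level identity
  have hEq : D.galHom σ * D.galHom σ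
      - TzTw (N * twC qv) (twC qv) (twH p n qv) D.h2 hc p (jTw p n) ℓ * D.galHom σ
      + ((ℓ : ℕ) : ℤ) • (1 : Module.End ℤ (AH (N * twC qv) (twC qv) (twH p n qv) p))
      = esOp (N * twC qv) (twC qv) (twH p n qv) D.h2 hc p ℓ
          (Fermat.Agent.NEB.EIG.H39.unitOf (twC qv) ℓ) σ := by
    rw [D.galHom_apply, hχ]
    exact es_ring_identity _ _ _ _ (jTw p n) hdg hd1
  -- commutation with `η⁺`
  have hcommE : ∀ t, Commute (etaTw N S p n qv D.h2 D.hcomm t)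
      (esOp (N * twC qv) (twC qv) (twH p n qv) D.h2 hc p ℓ
        (Fermat.Agent.NEB.EIG.H39.unitOf (twC qv) ℓ) σ) := by
    intro t
    rw [← hEq]
    have hT : Commute (etaTw N S p n qv D.h2 D.hcomm t)
        (TzTw (N * twC qv) (twC qv) (twH p n qv) D.h2 hc p (jTw p n) ℓ) := by
      rw [← etaTw_X_inl D hg]
      exact (Commute.all t _).map (etaTw N S p n qv D.h2 D.hcomm)
    have hG := D.comm_galHom σ t
    refine Commute.add_right (Commute.sub_right (hG.mul_right hG) (hT.mul_right hG)) ?_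
    exact (Commute.one_right _).smul_right _
  -- the fixed-point lemma
  have hE0 := Fermat.Agent.NEB.Geom.H12.stmt_W_ES 𝒪 ϖ hϖ p hpm hp0
    (AH (N * twC qv) (twC qv) (twH p n qv) p) (fun x => isPTors_coe x)
    (finite_AH_p (N * twC qv) (twC qv) (twH p n qv) D.h2 hc p)
    (PolyTw r (twC qv)) (etaTw N S p n qv D.h2 D.hcomm) (thetaTw N S qv θ D.α)
    (ZMod (twC qv))ˣ (diaZ (N * twC qv) (twC qv) (twH p n qv) D.h2 hc p) n
    (fun u => tw_diaZ_pow D.h2 D.hTW D.hδ u)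
    (fun u => ⟨MvPolynomial.X (Sum.inr (Sum.inr u)), polyHom_X _ _ _⟩)
    (KZ N p n qv D.h2 P) (Fermat.Agent.NEB.Geom.H94.tEisPoly p n qv D.ℓ₀)
    (Fermat.Agent.NEB.Geom.H94.thetaTw_tEisPoly_ne D)
    (fun x hx hfix => fix_KZ D hg P hP x hx hfix)
    (esOp (N * twC qv) (twC qv) (twH p n qv) D.h2 hc p ℓ
      (Fermat.Agent.NEB.EIG.H39.unitOf (twC qv) ℓ) σ)
    hcommE
    (fun x => esOp_inKU (N * twC qv) (twC qv) (twH p n qv) D.h2 hc p ℓ hℓ hℓM _ hucoe P hP σ hσ x)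
  -- conclusion
  have hT : ∀ t, Commute (etaTw N S p n qv D.h2 D.hcomm t)
      (etaTw N S p n qv D.h2 D.hcomm (MvPolynomial.X (Sum.inl ℓ))) :=
    fun t => (Commute.all t _).map (etaTw N S p n qv D.h2 D.hcomm)
  have hη : D.WD.η (CuspForm.heckeAlgebra.T hℓ hℓN hℓS)
      = thetaZ (thetaTw N S qv θ D.α)
          (etaTw N S p n qv D.h2 D.hcomm (MvPolynomial.X (Sum.inl ℓ))) hT :=
    D.η_T ℓ hℓ hℓN hℓS
  have hgal : D.gal σ = thetaZ (thetaTw N S qv θ D.α) (D.galHom σ) (D.comm_galHom σ) := rfl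
  rw [hη, hgal]
  refine thetaZ_es_of (D.comm_galHom σ) hT ℓ ?_
  have hEq' : D.galHom σ * D.galHom σ
      - etaTw N S p n qv D.h2 D.hcomm (MvPolynomial.X (Sum.inl ℓ)) * D.galHom σ
      + ℓ • (1 : Module.End ℤ (AH (N * twC qv) (twC qv) (twH p n qv) p))
      = esOp (N * twC qv) (twC qv) (twH p n qv) D.h2 hc p ℓ
          (Fermat.Agent.NEB.EIG.H39.unitOf (twC qv) ℓ) σ := by
    rw [etaTw_X_inl D hg, ← hEq, natCast_zsmul]
  rw [hEq']
  exact hE0

end Main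

/-- **A-ES**. -/
theorem stmt_A_ES : Stmt_A_ES := by
  intro 𝒪 _ _ _ _ _ _ ϖ p _ N _ S θ ρbar hstd Dm n r qv _ _ _ D
  exact a_es hstd.hϖ hstd.hpm (Nat.cast_ne_zero.2 (Fact.out : p.Prime).ne_zero) D

end Fermat.Agent.NEB.Geom.H29
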