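import Mathlib
import Fermat.Agent.NEB.Geom.H29_AES

/-!
# NEB-GEOM / PV-GEOM: the Eichler–Shimura relation on a `θ`-part, general form (helper29)

`es_gen`: for `(M, c, H)` with `(ℤ/c)ˣ / H` of exponent `p ^ E` (`2 j + 1 = p ^ E`) and
`F_H(M) / F₀(M)` unramified, a commutative ring `𝕋` acting on `J_H[p^∞]` through `η` (containing
the diamond operators, the twisted operator `T'_ℓ = T_ℓ ⟨ℓ⟩^j` and an Eisenstein element
`t₀ ↦ T_ℓ₀ - (ℓ₀ + 1)` with `θ t₀ ≠ 0`, commuting with Galois): the twisted Frobenius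
`g = σ ⟨χ_c σ⟩^(j+1)` satisfies `g² - T'_ℓ g + ℓ = 0` on the `θ`-part of `𝒪 ⊗ J_H[p^∞]`.

This is the proof of `a_es` (`H29_AES.lean`) with the Taylor–Wiles data abstracted; it is used
for the pivot module `W'` (P-ES).
-/

set_option autoImplicit false
set_option linter.unusedSectionVars false
set_option linter.unusedVariables false
set_option linter.style.haveILetI false

noncomputable section

open ModularCurve AlgebraicCurve IsLocalRing TensorProduct Polynomial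

namespace Fermat.Agent.NEB.Geom.H29

open Fermat.Agent.NEB Fermat.Agent.NEB.JH Fermat.Agent.S59.Asm
  Fermat.Agent.S59.Lim Fermat.Agent.S59.Lim.H2 Fermat.Agent.NEB.Geom

section ESGen

variable (M c : ℕ) [NeZero M] [NeZero c] (H : Subgroup (ZMod c)ˣ) (h2 : 2 ≤ c) (hc : c ∣ M)
  (p : ℕ)

/-- The kernel of reduction `K_P ∩ J_H[p^∞]` at the place `P`. -/
def KZgen (P : ValuationSubring Kbar) : AddSubgroup (AH M c H p) :=
  (Fermat.Agent.NEB.Geom.H70.KU P p (diamondData M c H h2 hc)).comap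
    (ptors p (JH M c H)).subtype

/-- The diamond operators are killed by `p ^ E` if `(ℤ/c)ˣ / H` is. -/
theorem diaZ_pow_of_exp (E : ℕ) (hexp : ∀ d : (ZMod c)ˣ, d ^ (p ^ E) ∈ H) (u : (ZMod c)ˣ) :
    diaZ M c H h2 hc p u ^ (p ^ E) = 1 := by
  rw [← map_pow]
  refine LinearMap.ext fun x => Subtype.ext ?_
  rw [diaZ_apply, ((diamondData M c H h2 hc).ker (u ^ (p ^ E))).2 (Or.inl (hexp u)), one_smul]
  rfl

/-- The Eisenstein operator `T_ℓ₀ - (ℓ₀ + 1)` on the underlying classes. -/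
theorem coe_eis_gen (ℓ₀ : ℕ) [NeZero ℓ₀] (x : AH M c H p) :
    (((Tz M c H h2 hc p ℓ₀ - ((ℓ₀ + 1 : ℕ) : ℤ) • (1 : Module.End ℤ (AH M c H p))) x :
        AH M c H p) : JH M c H)
      = TH (heckeData M c ℓ₀ H h2 hc).hβ (x : JH M c H) - (ℓ₀ + 1) • (x : JH M c H) := by
  rw [← Tz_apply M c H h2 hc p ℓ₀ x, ← natCast_zsmul (x : JH M c H) (ℓ₀ + 1)]
  rfl

/-- FIX for the kernel of reduction at a place over a prime `ℓ ∤ M p`. -/
theorem fix_KZgen [Fact p.Prime] (E : ℕ) (hexp : ∀ d : (ZMod c)ˣ, d ^ (p ^ E) ∈ H)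
    (hunr : ∀ w : Place Kbar ↥(FHbar M c H),
      ∃ x : ↥(modularFunctionFieldBar M), w.ord (inclBar M c H x) = 1)
    (ℓ₀ : ℕ) (hℓ₀ : ℓ₀.Prime) (hℓ₀M : ¬ ℓ₀ ∣ M)
    (ℓ : ℕ) (hℓ : ℓ.Prime) (hℓM : ¬ ℓ ∣ M) (hℓp : ℓ ≠ p)
    (P : ValuationSubring Kbar) (hP : P.LiesOverPrime ℓ)
    (x : AH M c H p) (hx : x ∈ KZgen M c H h2 hc p P)
    (hfix : ∀ u, diaZ M c H h2 hc p u x = x) :
    (Tz M c H h2 hc p ℓ₀ - ((ℓ₀ + 1 : ℕ) : ℤ) • (1 : Module.End ℤ (AH M c H p))) x = 0 := by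
  haveI : NeZero ℓ₀ := ⟨hℓ₀.ne_zero⟩
  have hp : p.Prime := Fact.out
  apply Subtype.ext
  rw [coe_eis_gen]
  have hxK : Fermat.Agent.NEB.Geom.H70.InKU P p (heckeData M c ℓ₀ H h2 hc).dd
      (x : JH M c H) := hx
  have hK := ((hxK.TH (heckeData M c ℓ₀ H h2 hc) h2 hc hℓ₀ hℓ₀M).sub
      (hxK.nsmul (ℓ₀ + 1))).inK1
  exact Fermat.Agent.NEB.Geom.H70.fix' M c H p hp h2 hc (NeZero.ne _) E
    (fun d => Or.inl (hexp d)) hunr ℓ₀ hℓ₀ hℓ₀M (heckeData M c ℓ₀ H h2 hc)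
    P ℓ hℓ hℓM hℓp hP (x : JH M c H) x.2
    (fun d => congrArg Subtype.val (hfix d)) hK

variable {𝒪 : Type} [CommRing 𝒪] [IsDomain 𝒪] [IsDiscreteValuationRing 𝒪]
  {𝕋 : Type} [CommRing 𝕋]

set_option maxHeartbeats 1000000 in
/-- **Eichler–Shimura on the `θ`-part**, `ℤ`-level form. -/
theorem es_gen [Finite (ResidueField 𝒪)] [Fact p.Prime] (ϖ : 𝒪) (hϖ : Irreducible ϖ)
    (hpm : (p : 𝒪) ∈ maximalIdeal 𝒪) (hp0 : (p : 𝒪) ≠ 0)
    (η : 𝕋 →+* Module.End ℤ (AH M c H p)) (θ : 𝕋 →+* ResidueField 𝒪)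
    (E j : ℕ) (hj : 2 * j + 1 = p ^ E) (hexp : ∀ d : (ZMod c)ˣ, d ^ (p ^ E) ∈ H)
    (hunr : ∀ w : Place Kbar ↥(FHbar M c H),
      ∃ x : ↥(modularFunctionFieldBar M), w.ord (inclBar M c H x) = 1)
    (hdia : ∀ u, ∃ z : 𝕋, η z = diaZ M c H h2 hc p u)
    (hgal : ∀ t σ, Commute (η t) (galZ M c H p σ))
    (ℓ₀ : ℕ) (hℓ₀ : ℓ₀.Prime) (hℓ₀M : ¬ ℓ₀ ∣ M) (t₀ : 𝕋)
    (ht₀ : η t₀ = Tz M c H h2 hc p ℓ₀ - ((ℓ₀ + 1 : ℕ) : ℤ) • (1 : Module.End ℤ (AH M c H p)))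
    (hθ₀ : θ t₀ ≠ 0)
    (ℓ : ℕ) (hℓ : ℓ.Prime) (hℓM : ¬ ℓ ∣ M) (hℓp : ℓ ≠ p)
    (tℓ : 𝕋) (htℓ : η tℓ = TzTw M c H h2 hc p j ℓ)
    (P : ValuationSubring Kbar) (hP : P.LiesOverPrime ℓ) (σ : GalQ)
    (hσ : P.IsFrobeniusAt σ ℓ) :
    ∀ x ∈ thetaPart η θ,
      ((galTw M c H h2 hc p j σ * galTw M c H h2 hc p j σ - η tℓ * galTw M c H h2 hc p j σ
        + ℓ • (1 : Module.End ℤ (AH M c H p))).baseChange 𝒪) x = 0 := by
  have hp : p.Prime := Fact.out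
  have hcop : c.Coprime ℓ :=
    Nat.Coprime.symm ((Nat.Prime.coprime_iff_not_dvd hℓ).2 fun h => hℓM (h.trans hc))
  have hχ : Fermat.Agent.NEB.Geom.H6.chiC c σ = Fermat.Agent.NEB.EIG.H39.unitOf c ℓ := by
    rw [Fermat.Agent.NEB.Geom.H6.chiC_frob_unit c ℓ hℓ hcop P hP σ hσ]
    unfold Fermat.Agent.NEB.EIG.H39.unitOf
    rw [dif_pos hcop.symm]
  have hucoe : ((Fermat.Agent.NEB.EIG.H39.unitOf c ℓ : (ZMod c)ˣ) : ZMod c) = (ℓ : ZMod c) :=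
    Fermat.Agent.NEB.EIG.H39.unitOf_coe hcop.symm
  have hd1 : diaZ M c H h2 hc p (Fermat.Agent.NEB.EIG.H39.unitOf c ℓ) ^ (2 * j + 1) = 1 := by
    rw [hj]
    exact diaZ_pow_of_exp M c H h2 hc p E hexp _
  have hdg : Commute (diaZ M c H h2 hc p (Fermat.Agent.NEB.EIG.H39.unitOf c ℓ))
      (galZ M c H p σ) :=
    commute_diaZ_galZ _ _ _ h2 hc p _ σ
  -- the `ℤ`-level identity
  have hEq : galTw M c H h2 hc p j σ * galTw M c H h2 hc p j σ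
      - η tℓ * galTw M c H h2 hc p j σ
      + ℓ • (1 : Module.End ℤ (AH M c H p))
      = esOp M c H h2 hc p ℓ (Fermat.Agent.NEB.EIG.H39.unitOf c ℓ) σ := by
    rw [htℓ, ← natCast_zsmul]
    unfold galTw
    rw [hχ]
    exact es_ring_identity _ _ _ _ j hdg hd1
  -- commutation with `η`
  have hcd : ∀ t u, Commute (η t) (diaZ M c H h2 hc p u) := by
    intro t u
    obtain ⟨z, hz⟩ := hdia u
    rw [← hz]
    exact (Commute.all t z).map η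
  have hG : ∀ t, Commute (η t) (galTw M c H h2 hc p j σ) := by
    intro t
    unfold galTw
    exact (hgal t σ).mul_right ((hcd t _).pow_right _)
  have hcommE : ∀ t, Commute (η t) (esOp M c H h2 hc p ℓ
      (Fermat.Agent.NEB.EIG.H39.unitOf c ℓ) σ) := by
    intro t
    rw [← hEq]
    have hT : Commute (η t) (η tℓ) := (Commute.all t _).map η
    refine Commute.add_right (Commute.sub_right ((hG t).mul_right (hG t))
      (hT.mul_right (hG t))) ?_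
    exact (Commute.one_right _).smul_right _
  -- the fixed-point lemma
  have hE0 := Fermat.Agent.NEB.Geom.H12.stmt_W_ES 𝒪 ϖ hϖ p hpm hp0
    (AH M c H p) (fun x => isPTors_coe x)
    (finite_AH_p M c H h2 hc p)
    𝕋 η θ
    (ZMod c)ˣ (diaZ M c H h2 hc p) E
    (fun u => diaZ_pow_of_exp M c H h2 hc p E hexp u)
    hdia
    (KZgen M c H h2 hc p P) t₀ hθ₀
    (fun x hx hfix => by
      rw [ht₀]
      exact fix_KZgen M c H h2 hc p E hexp hunr ℓ₀ hℓ₀ hℓ₀M ℓ hℓ hℓM hℓp P hP x hx hfix)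
    (esOp M c H h2 hc p ℓ (Fermat.Agent.NEB.EIG.H39.unitOf c ℓ) σ)
    hcommE
    (fun x => esOp_inKU M c H h2 hc p ℓ hℓ hℓM _ hucoe P hP σ hσ x)
  rw [hEq]
  exact hE0

end ESGen

end Fermat.Agent.NEB.Geom.H29
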