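import Fermat.Agent.NEB.OLD.H14_Main
import Fermat.Agent.NEB.OLD.H14_Gen
import Fermat.Agent.NEB.Geom.H94_AHstep
import Fermat.Agent.NEB.Geom.H29_ZCommTw
import Fermat.Agent.NEB.Geom.H29_ZGalCont
import Fermat.Agent.S17.H8_W14
import Fermat.Agent.NEB.EIG.H39_OPLattice

/-!
# Item 72 (LG-NEB), package NEB-GEOM, leaf PI-WIRE (helper14): preliminaries

* `closure_range_X`, `closure_heckeT` : generators of `𝕋⁺` and of the Hecke ring;
* `dvr_nil` : in a DVR with `p ≠ 0`, every `e ∈ 𝔪` has a power divisible by `p`;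
* `tors_ptors` : elements of `𝒪 ⊗ A[p^∞]` are killed by powers of every `e ∈ 𝔪`;
* `polyHom_commute`, `polyHom_intertwine` : from the generators to all of `𝕋⁺`;
* `liftR`, `cFun`, `aFun` : chosen lifts of `θ(T_ℓ)`, `α_j`;
* `finite_A0`, `finite_AH` : finiteness of the `p`-torsion;
* `nmTot_baseChange`.
-/

set_option autoImplicit false
set_option linter.unusedSectionVars false
set_option linter.unusedVariables false
set_option linter.style.haveILetI false

noncomputable section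

open ModularCurve AlgebraicCurve IsLocalRing TensorProduct Polynomial

namespace Fermat.Agent.NEB.Geom.H14

open Fermat.Agent.NEB Fermat.Agent.NEB.JH Fermat.Agent.S59.Asm Fermat.Agent.S59.Lim
  Fermat.Agent.S59.Lim.H2 Fermat.Agent.NEB.Geom Fermat.Agent.NEB.OLD

/-! ## Generators -/

theorem closure_range_X (ι : Type) :
    Subring.closure (Set.range (MvPolynomial.X : ι → MvPolynomial ι ℤ)) = ⊤ := by
  rw [eq_top_iff]
  intro x _
  induction x using MvPolynomial.induction_on with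
  | C a =>
    rw [show (MvPolynomial.C a : MvPolynomial ι ℤ) = ((a : ℤ) : MvPolynomial ι ℤ) from
      (eq_intCast (MvPolynomial.C : ℤ →+* MvPolynomial ι ℤ) a)]
    exact intCast_mem _ a
  | add s t hs ht => exact add_mem (hs trivial) (ht trivial)
  | mul_X s i hs => exact mul_mem (hs trivial) (Subring.subset_closure ⟨i, rfl⟩)

/-- The generators `T_ℓ` of the Hecke ring. -/
def heckeTSet (N : ℕ) [NeZero N] (S : Set ℕ) : Set (CuspForm.heckeAlgebra N 2 S) :=
  {t | ∃ (ℓ : ℕ) (hℓ : ℓ.Prime) (hℓN : ¬ ℓ ∣ N) (hℓS : ℓ ∉ S),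
    t = CuspForm.heckeAlgebra.T hℓ hℓN hℓS}

theorem closure_heckeT {N : ℕ} [NeZero N] {S : Set ℕ}
    (hS : ∀ q : ℕ, q.Prime → q ∣ N → q ∈ S) :
    Subring.closure (heckeTSet N S) = ⊤ := by
  rw [eq_top_iff]
  intro x _
  exact Fermat.Agent.NEB.EIG.H39.hecke_induction hS
    (P := fun x => x ∈ Subring.closure (heckeTSet N S))
    (fun ℓ hℓ hℓN hℓS => Subring.subset_closure ⟨ℓ, hℓ, hℓN, hℓS, rfl⟩)
    (fun n => intCast_mem _ n) (fun x y hx hy => add_mem hx hy)
    (fun x y hx hy => mul_mem hx hy) x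

/-! ## Torsion -/

theorem dvr_nil {𝒪 : Type} [CommRing 𝒪] [IsDomain 𝒪] [IsDiscreteValuationRing 𝒪] {p : ℕ}
    (hp0 : (p : 𝒪) ≠ 0) :
    ∀ e ∈ maximalIdeal 𝒪, ∃ (m : ℕ) (b : 𝒪), e ^ m = (p : 𝒪) * b := by
  intro e he
  obtain ⟨ϖ, hϖ⟩ := IsDiscreteValuationRing.exists_irreducible 𝒪
  obtain ⟨m, u, hu⟩ := IsDiscreteValuationRing.eq_unit_mul_pow_irreducible hp0 hϖ
  rw [hϖ.maximalIdeal_eq, Ideal.mem_span_singleton] at he
  obtain ⟨y, rfl⟩ := he
  refine ⟨m, ↑u⁻¹ * y ^ m, ?_⟩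
  rw [hu, mul_pow]
  have : (u : 𝒪) * ϖ ^ m * (↑u⁻¹ * y ^ m) = ((u : 𝒪) * ↑u⁻¹) * (ϖ ^ m * y ^ m) := by ring
  rw [this, Units.mul_inv, one_mul]

theorem tors_ptors {𝒪 : Type} [CommRing 𝒪] [IsDomain 𝒪] [IsDiscreteValuationRing 𝒪] {p : ℕ}
    (hp0 : (p : 𝒪) ≠ 0) {X : Type} [AddCommGroup X] (x : 𝒪 ⊗[ℤ] ↥(ptors p X)) :
    ∀ e ∈ maximalIdeal 𝒪, ∃ n : ℕ, e ^ n • x = 0 := by
  intro e he
  obtain ⟨m, b, hmb⟩ := dvr_nil hp0 e he
  exact tensor_ptSub_tors 𝒪 p e m b hmb (A := X) x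

/-! ## `polyHom` -/

section Poly

variable {ι : Type} {E : Type} [Ring E]

theorem polyHom_C (f : ι → E) (hf : ∀ i j, Commute (f i) (f j)) (a : ℤ) :
    polyHom f hf (MvPolynomial.C a) = (a : E) := by
  rw [show (MvPolynomial.C a : MvPolynomial ι ℤ) = ((a : ℤ) : MvPolynomial ι ℤ) from
    (eq_intCast (MvPolynomial.C : ℤ →+* MvPolynomial ι ℤ) a), map_intCast]

theorem polyHom_commute (f : ι → E) (hf : ∀ i j, Commute (f i) (f j)) (g : E)
    (h : ∀ i, Commute (f i) g) (t : MvPolynomial ι ℤ) : Commute (polyHom f hf t) g := by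
  induction t using MvPolynomial.induction_on with
  | C a =>
    rw [polyHom_C]
    exact Int.cast_commute a _
  | add s t hs ht =>
    rw [map_add]
    exact hs.add_left ht
  | mul_X s i hs =>
    rw [map_mul, polyHom_X]
    exact hs.mul_left (h i)

end Poly

theorem polyHom_intertwine {ι : Type} {A A' : Type} [AddCommGroup A] [AddCommGroup A']
    (f : ι → Module.End ℤ A) (hf : ∀ i j, Commute (f i) (f j))
    (f' : ι → Module.End ℤ A') (hf' : ∀ i j, Commute (f' i) (f' j))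
    (u : A →ₗ[ℤ] A') (h : ∀ i, u ∘ₗ f i = f' i ∘ₗ u) (t : MvPolynomial ι ℤ) :
    u ∘ₗ polyHom f hf t = polyHom f' hf' t ∘ₗ u := by
  induction t using MvPolynomial.induction_on with
  | C a =>
    rw [polyHom_C, polyHom_C]
    refine LinearMap.ext fun x => ?_
    simp only [LinearMap.comp_apply, Module.End.intCast_apply, map_zsmul]
  | add s t hs ht =>
    rw [map_add, map_add, LinearMap.comp_add, LinearMap.add_comp, hs, ht]
  | mul_X s i hs =>
    rw [map_mul, map_mul, polyHom_X, polyHom_X]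
    show u ∘ₗ (polyHom f hf s ∘ₗ f i) = (polyHom f' hf' s ∘ₗ f' i) ∘ₗ u
    rw [← LinearMap.comp_assoc, hs, LinearMap.comp_assoc, h i, LinearMap.comp_assoc]

/-! ## Lifts -/

section Lifts

variable (𝒪 : Type) [CommRing 𝒪] [IsLocalRing 𝒪]

/-- A chosen lift to `𝒪`. -/
def liftR (x : ResidueField 𝒪) : 𝒪 := Classical.choose (residue_surjective x)

theorem residue_liftR (x : ResidueField 𝒪) : residue 𝒪 (liftR 𝒪 x) = x :=
  Classical.choose_spec (residue_surjective x)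

variable {𝒪}

open Classical in
/-- Lifts of the `θ(T_ℓ)`. -/
def cFun {N : ℕ} [NeZero N] {S : Set ℕ} (θ : CuspForm.heckeAlgebra N 2 S →+* ResidueField 𝒪) :
    ℕ → 𝒪 := fun ℓ =>
  if h : ℓ.Prime ∧ ¬ ℓ ∣ N ∧ ℓ ∉ S then
    liftR 𝒪 (θ (CuspForm.heckeAlgebra.T h.1 h.2.1 h.2.2)) else 0

theorem residue_cFun {N : ℕ} [NeZero N] {S : Set ℕ}
    (θ : CuspForm.heckeAlgebra N 2 S →+* ResidueField 𝒪) {ℓ : ℕ} (hℓ : ℓ.Prime)
    (hℓN : ¬ ℓ ∣ N) (hℓS : ℓ ∉ S) :
    residue 𝒪 (cFun θ ℓ) = θ (CuspForm.heckeAlgebra.T hℓ hℓN hℓS) := by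
  classical
  unfold cFun
  rw [dif_pos ⟨hℓ, hℓN, hℓS⟩]
  exact residue_liftR 𝒪 _

open Classical in
/-- Lifts of the `α_j`, as a function of `q_j`. -/
def aFun {r : ℕ} (qv : Fin r → ℕ) (α : Fin r → ResidueField 𝒪) : ℕ → 𝒪 := fun q =>
  if h : ∃ j, qv j = q then liftR 𝒪 (α (Classical.choose h)) else 0

theorem residue_aFun {r : ℕ} {qv : Fin r → ℕ} (hinj : Function.Injective qv)
    (α : Fin r → ResidueField 𝒪) (j : Fin r) : residue 𝒪 (aFun qv α (qv j)) = α j := by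
  classical
  unfold aFun
  have h : ∃ i, qv i = qv j := ⟨j, rfl⟩
  rw [dif_pos h, residue_liftR]
  exact congrArg α (hinj (Classical.choose_spec h))

end Lifts

/-! ## Finiteness -/

theorem finite_A0 (M : ℕ) [NeZero M] (p : ℕ) (hp : p ≠ 0) :
    Finite {x : A0 M p // p • x = 0} := by
  have h := Fermat.Agent.S17.H8.stmt_torsion_finite M p hp
  have h' : {t : JZero M | p • t = 0}.Finite := h
  haveI := h'.to_subtype
  refine Finite.of_injective
    (fun x : {x : A0 M p // p • x = 0} =>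
      (⟨(x.1 : JZero M), by
        have := congrArg Subtype.val x.2
        exact this⟩ : {t : JZero M | p • t = 0})) ?_
  intro x y hxy
  have := congrArg Subtype.val hxy
  exact Subtype.ext (Subtype.ext this)

theorem finite_AH (M c : ℕ) [NeZero M] [NeZero c] (H : Subgroup (ZMod c)ˣ) (h2 : 2 ≤ c)
    (hc : c ∣ M) (p : ℕ) [Fact p.Prime] :
    Finite {x : AH M c H p // p • x = 0} := by
  have h := Fermat.Agent.NEB.Geom.H29.stmt_ZFIN_final H h2 hc p 1
  haveI := h.to_subtype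
  refine Finite.of_injective
    (fun x : {x : AH M c H p // p • x = 0} =>
      (⟨(x.1 : JH M c H), by
        have h1 := congrArg Subtype.val x.2
        show ((p ^ 1 : ℕ) : ℤ) • (x.1 : JH M c H) = 0
        rw [pow_one, natCast_zsmul]
        exact h1⟩ : {y : JH M c H | ((p ^ 1 : ℕ) : ℤ) • y = 0})) ?_
  intro x y hxy
  have := congrArg Subtype.val hxy
  exact Subtype.ext (Subtype.ext this)

/-! ## `nmTot` and base change -/

theorem nmTot_baseChange (𝒪 : Type) [CommRing 𝒪] {A : Type} [AddCommGroup A] (m : ℕ) {r : ℕ}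
    (d : Fin r → Module.End ℤ A) :
    (Fermat.Agent.S59.TWH.H90.nmTot m d).baseChange 𝒪
      = Fermat.Agent.S59.TWH.H90.nmTot m (fun j => (d j).baseChange 𝒪) := by
  have key : ∀ f : Module.End ℤ A, f.baseChange 𝒪 = Module.End.baseChangeHom ℤ 𝒪 A f :=
    fun f => rfl
  rw [key]
  unfold Fermat.Agent.S59.TWH.H90.nmTot
  rw [map_list_prod, List.map_ofFn]
  refine congrArg List.prod (congrArg List.ofFn (funext fun j => ?_))
  simp only [Function.comp_apply]
  unfold Fermat.Agent.S59.TWH.H90.nm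
  rw [map_sum]
  refine Finset.sum_congr rfl fun e _ => ?_
  rw [map_pow]
  rfl

end Fermat.Agent.NEB.Geom.H14
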