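import Fermat.Agent.NEB.Geom.H14_PiDefs

/-!
# Item 72 (LG-NEB), package NEB-GEOM, leaf PI-UPINJ (helper67)

`stmt_PI_UPINJ : H14.Stmt_PI_UPINJ`: `π^* : Ytw → Wtw` is injective.
The kernel of `π^*` is Eisenstein (last clause of `Stmt_TOWER_INST`); kernels commute with the
flat base change (`H2.exists_of_baseChange_eq_zero`); the Eisenstein operator
`t₀ = X_ℓ₀ - (ℓ₀ + 1)` is bijective on the `θ⁺`-part (`H94.stmt_W_unit`).
-/

set_option autoImplicit false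
set_option linter.unusedSectionVars false
set_option linter.unusedVariables false
set_option linter.style.haveILetI false

noncomputable section

open ModularCurve AlgebraicCurve IsLocalRing TensorProduct Polynomial

namespace Fermat.Agent.NEB.Geom.H67

open Fermat.Agent.NEB Fermat.Agent.NEB.JH Fermat.Agent.S59.Asm Fermat.Agent.S59.Lim
  Fermat.Agent.S59.Lim.H2 Fermat.Agent.NEB.Geom

/-- a good prime at the Taylor–Wiles level does not divide `N c` -/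
theorem goodTw_not_dvd {N : ℕ} {S : Finset ℕ} {r : ℕ} {qv : Fin r → ℕ} {ℓ : ℕ}
    (h : GoodTw N S qv ℓ) : ¬ ℓ ∣ N * twC qv := by
  intro hd
  apply h.2.1
  have h1 : N * twC qv ∣ twLevel N qv := by
    unfold twLevel twC
    refine mul_dvd_mul_left N ?_
    rw [Finset.prod_pow]
    exact Dvd.intro _ (sq _).symm
  exact hd.trans h1

section Gen

variable {𝒪 : Type} [CommRing 𝒪] [Module.Flat ℤ 𝒪] {A : Type} [AddCommGroup A]
  {A' : Type} [AddCommGroup A']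

/-- an operator killing `ker f` has a base change killing `ker f_𝒪` (`𝒪` flat over `ℤ`) -/
theorem baseChange_eq_zero_of_ker (f : A →ₗ[ℤ] A') (g : Module.End ℤ A)
    (h : ∀ x, f x = 0 → g x = 0) (y : 𝒪 ⊗[ℤ] A) (hy : f.baseChange 𝒪 y = 0) :
    g.baseChange 𝒪 y = 0 := by
  obtain ⟨z, rfl⟩ := exists_of_baseChange_eq_zero f hy
  have hz : g ∘ₗ (LinearMap.ker f).subtype = 0 :=
    LinearMap.ext fun x => h x.1 x.2
  have h2 : (g ∘ₗ (LinearMap.ker f).subtype).baseChange 𝒪 = 0 := by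
    rw [hz]
    exact LinearMap.baseChange_zero
  rw [LinearMap.baseChange_comp] at h2
  exact congrArg (fun F => F z) h2

end Gen

section Eis0

variable (N : ℕ) (S : Finset ℕ) (p : ℕ) {r : ℕ} (qv : Fin r → ℕ)

/-- The Eisenstein element `X_ℓ₀ - (ℓ₀ + 1)` of `𝕋⁺` (level `Γ₀(N c)`). -/
def tEisPoly0 (ℓ₀ : ℕ) : PolyTw r (twC qv) :=
  MvPolynomial.X (Sum.inl ℓ₀) - ((ℓ₀ + 1 : ℕ) : PolyTw r (twC qv))

variable [NeZero (N * twC qv)]

theorem etaTw0_tEisPoly0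
    (hcomm0 : ∀ i j, Commute (opsTw0 N S p qv i) (opsTw0 N S p qv j))
    (ℓ₀ : ℕ) (hℓ₀ : GoodTw N S qv ℓ₀) :
    etaTw0 N S p qv hcomm0 (tEisPoly0 qv ℓ₀)
      = Tz0 (N * twC qv) p ℓ₀
        - ((ℓ₀ + 1 : ℕ) : ℤ) • (1 : Module.End ℤ (A0 (N * twC qv) p)) := by
  classical
  have hX : etaTw0 N S p qv hcomm0 (MvPolynomial.X (Sum.inl ℓ₀))
      = Tz0 (N * twC qv) p ℓ₀ := by
    refine (polyHom_X _ _ _).trans ?_
    show (if GoodTw N S qv ℓ₀ then _ else _) = _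
    rw [if_pos hℓ₀]
  unfold tEisPoly0
  rw [map_sub, hX, map_natCast, zsmul_one, Int.cast_natCast]

theorem thetaTw_tEisPoly0 {k : Type} [Field k] [NeZero N]
    (θ : CuspForm.heckeAlgebra N 2 (↑S : Set ℕ) →+* k) (α : Fin r → k)
    (ℓ₀ : ℕ) (hℓ₀ : GoodTw N S qv ℓ₀) :
    thetaTw N S qv θ α (tEisPoly0 qv ℓ₀) =
      θ (CuspForm.heckeAlgebra.T hℓ₀.1 hℓ₀.not_dvd hℓ₀.not_mem) - ((ℓ₀ : k) + 1) := by
  classical
  have h2 : thetaVal N S qv θ α (Sum.inl ℓ₀)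
      = θ (CuspForm.heckeAlgebra.T hℓ₀.1 hℓ₀.not_dvd hℓ₀.not_mem) := by
    show (if h : GoodTw N S qv ℓ₀ then _ else _) = _
    rw [dif_pos hℓ₀]
  unfold tEisPoly0 thetaTw
  rw [map_sub, MvPolynomial.eval₂Hom_X', map_natCast, h2, Nat.cast_add, Nat.cast_one]

end Eis0

/-- **PI-UPINJ**. -/
theorem stmt_PI_UPINJ : H14.Stmt_PI_UPINJ := by
  intro 𝒪 _ _ _ _ _ ϖ hϖ p _ hpm N _ S n r qv hTW _ h2 hT hcomm0 θ α δ hδ ℓ₀ hℓ₀ hne
    y hy hy0
  obtain ⟨-, -, -, -, -, hker⟩ := hT hTW δ hδ ℓ₀ hℓ₀.1 (goodTw_not_dvd hℓ₀)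
  haveI : Module.Flat ℤ 𝒪 := flat_int
  have hη := etaTw0_tEisPoly0 N S p qv hcomm0 ℓ₀ hℓ₀
  have hθ : thetaTw N S qv θ α (tEisPoly0 qv ℓ₀) ≠ 0 := by
    rw [thetaTw_tEisPoly0 N S qv θ α ℓ₀ hℓ₀]
    exact sub_ne_zero.mpr hne
  have h0 : (etaTw0 N S p qv hcomm0 (tEisPoly0 qv ℓ₀)).baseChange 𝒪 y = 0 := by
    refine baseChange_eq_zero_of_ker (upZ (N * twC qv) (twC qv) (twH p n qv) p)
      (etaTw0 N S p qv hcomm0 (tEisPoly0 qv ℓ₀)) (fun x hx => ?_) y hy0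
    rw [hη]
    exact hker x hx
  have hbij := H94.stmt_W_unit 𝒪 (A0 (N * twC qv) p) (PolyTw r (twC qv))
    (etaTw0 N S p qv hcomm0) (thetaTw N S qv θ α) (tEisPoly0 qv ℓ₀) hθ
  have h1 : thetaEta (etaTw0 N S p qv hcomm0) (thetaTw N S qv θ α) (tEisPoly0 qv ℓ₀)
      ⟨y, hy⟩ = 0 := Subtype.ext h0
  have h2 := hbij.1 (h1.trans (map_zero _).symm)
  exact congrArg Subtype.val h2

end Fermat.Agent.NEB.Geom.H67
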