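import Fermat.Agent.NEB.Geom.H14_PiOmega
import Fermat.Agent.NEB.Geom.H14_PiAbs

/-!
# Item 72 (LG-NEB), package NEB-GEOM, leaf PI-WIRE (helper14): the assembly

`stmt_PI_WIRE_of : (∀ …, Stmt_TOWER_INST …) → Stmt_PI_UPINJ → Stmt_PI_UPINV → Stmt_PI_WIRE`.

`π = ω ∘ π_*`, `πup = π^* ∘ ω⁻¹`, `ω` from `exists_omega` (`NEB.OLD.wOld`).
-/

set_option autoImplicit false
set_option linter.unusedSectionVars false
set_option linter.unusedVariables false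
set_option linter.style.haveILetI false

noncomputable section

open ModularCurve AlgebraicCurve IsLocalRing TensorProduct Polynomial

namespace Fermat.Agent.NEB.Geom.H14

open Fermat.Agent.NEB Fermat.Agent.NEB.JH Fermat.Agent.S59.Asm Fermat.Agent.S59.Lim
  Fermat.Agent.S59.Lim.H2 Fermat.Agent.NEB.Geom Fermat.Agent.NEB.OLD

/-- `Stmt_TOWER_INST` for all Taylor–Wiles data. -/
def Stmt_A_TOWER : Prop :=
  ∀ (N : ℕ) (S : Finset ℕ) (p n r : ℕ) (qv : Fin r → ℕ) [NeZero (N * twC qv)]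
    (h2 : 2 ≤ twC qv), Stmt_TOWER_INST N S p n qv h2

section Aux

variable {𝒪 : Type} [CommRing 𝒪] {A B : Type} [AddCommGroup A] [AddCommGroup B]

/-- transport of an intertwining relation to the base change, applied to an element -/
theorem bc_apply_of_comp {f : Module.End ℤ A} {f' : Module.End ℤ B} {g : A →ₗ[ℤ] B}
    (h : g ∘ₗ f = f' ∘ₗ g) (x : 𝒪 ⊗[ℤ] A) :
    g.baseChange 𝒪 (f.baseChange 𝒪 x) = f'.baseChange 𝒪 (g.baseChange 𝒪 x) :=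
  congrArg (fun F => F x) (baseChange_comp_eq 𝒪 h)

end Aux

set_option maxHeartbeats 1600000 in
/-- **PI-WIRE**, from TOWER-INST and the two sub-leaves on `π^*`. -/
theorem stmt_PI_WIRE_of (hT : Stmt_A_TOWER) (hINJ : Stmt_PI_UPINJ) (hINV : Stmt_PI_UPINV) :
    Stmt_PI_WIRE := by
  intro 𝒪 _ _ _ _ _ ϖ hϖ p _ hpm N _ S n r qv hTW _ h2 hcomm θ α β hE ηC hηC hgalC δ hδ ℓ₀
    hℓ₀ hne
  have hp0 : (p : 𝒪) ≠ 0 := Nat.cast_ne_zero.mpr (Fact.out : p.Prime).ne_zero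
  have hZ := H29.stmt_Z_COMMtw N S p n qv h2 hTW
  have hc0 := hZ.2.2.1
  have hc0G := hZ.2.2.2.1
  have hup := hZ.2.2.2.2.1
  have hdown := hZ.2.2.2.2.2.1
  have hupG := hZ.2.2.2.2.2.2
  have hTi := hT N S p n r qv h2
  have hnm := (hTi hTW δ hδ ℓ₀ hℓ₀.1 (H29.not_dvd_level_of_good hℓ₀)).2.2.2.1
  have hom := exists_omega hp0 hTW hc0 θ α β hE ηC hηC
  obtain ⟨Φ, hΦ⟩ := hom
  have hΦ1 := hΦ.1
  have hΦ2 := hΦ.2.1
  have hΦ3 := hΦ.2.2.1
  have hΦ4 := hΦ.2.2.2.1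
  have hΦ5 := hΦ.2.2.2.2
  have hgUp : ∀ t, upZ (N * twC qv) (twC qv) (twH p n qv) p ∘ₗ etaTw0 N S p qv hc0 t
      = etaTw N S p n qv h2 hcomm t ∘ₗ upZ (N * twC qv) (twC qv) (twH p n qv) p :=
    polyHom_intertwine (opsTw0 N S p qv) hc0 (opsTw N S p n qv h2) hcomm _ hup
  have hgDown : ∀ t, downZ (N * twC qv) (twC qv) (twH p n qv) p ∘ₗ etaTw N S p n qv h2 hcomm t
      = etaTw0 N S p qv hc0 t ∘ₗ downZ (N * twC qv) (twC qv) (twH p n qv) p :=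
    polyHom_intertwine (opsTw N S p n qv h2) hcomm (opsTw0 N S p qv) hc0 _ hdown
  have hinj : ∀ y ∈ thetaPart (etaTw0 N S p qv hc0) (thetaTw N S qv θ α),
      (upZ (N * twC qv) (twC qv) (twH p n qv) p).baseChange 𝒪 y = 0 → y = 0 :=
    hINJ 𝒪 ϖ hϖ p hpm N S n r qv hTW h2 hTi hc0 θ α δ hδ ℓ₀ hℓ₀ hne
  have habs := pi_wire_abs (𝒪 := 𝒪) (etaTw N S p n qv h2 hcomm)
    (etaTw0 N S p qv hc0) ηC (thetaTw N S qv θ α) θ
    (upZ (N * twC qv) (twC qv) (twH p n qv) p) hgUp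
    (downZ (N * twC qv) (twC qv) (twH p n qv) p) hgDown (resP p Φ) hΦ3 hΦ4 hΦ5 hinj
  obtain ⟨π, habs⟩ := habs
  obtain ⟨πup, habs⟩ := habs
  have k1 := habs.1
  have k2 := habs.2.1
  have k3 := habs.2.2.1
  have k4 := habs.2.2.2
  -- description of `πup y`
  have hdesc : ∀ y : ↥(thetaPart ηC θ), ∃ v ∈ thetaPart (etaTw0 N S p qv hc0)
      (thetaTw N S qv θ α), (resP p Φ).baseChange 𝒪 v = y.1 ∧
      ((πup y : ↥(thetaPart (etaTw N S p n qv h2 hcomm) (thetaTw N S qv θ α))) :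
        𝒪 ⊗[ℤ] AH (N * twC qv) (twC qv) (twH p n qv) p)
        = (upZ (N * twC qv) (twC qv) (twH p n qv) p).baseChange 𝒪 v := by
    intro y
    obtain ⟨v, hv, hvy⟩ := hΦ4 y.1 y.2
    refine ⟨v, hv, hvy, ?_⟩
    have hy : y = ⟨(resP p Φ).baseChange 𝒪 v, hΦ3 v hv⟩ := Subtype.ext hvy.symm
    rw [hy]
    exact k3 v hv
  refine ⟨π, πup, k1, ?_, ?_, ?_, ?_, ?_⟩
  · -- `πup ∘ π = nmTot`
    intro x
    rw [k2 x, hnm, nmTot_baseChange]
  · -- the diamonds fix `πup y`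
    intro u y
    obtain ⟨v, hv, -, hvy⟩ := hdesc y
    rw [hvy]
    have h1 : diaZ (N * twC qv) (twC qv) (twH p n qv) h2 (dvd_mul_left _ _) p u
        ∘ₗ upZ (N * twC qv) (twC qv) (twH p n qv) p
        = upZ (N * twC qv) (twC qv) (twH p n qv) p := by
      have := hup (Sum.inr (Sum.inr u))
      exact this.symm
    have h3 := congrArg (fun F => F v) (congrArg (LinearMap.baseChange 𝒪) h1)
    simp only [LinearMap.baseChange_comp, LinearMap.comp_apply] at h3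
    exact h3
  · -- INV
    intro v hϖv hfix
    obtain ⟨y, hy, hyv⟩ := hINV 𝒪 ϖ hϖ p hpm N S n r qv hTW h2 hTi hcomm hc0 θ α δ hδ ℓ₀ hℓ₀
      hne v.1 v.2 (congrArg Subtype.val hϖv) hfix
    exact ⟨⟨(resP p Φ).baseChange 𝒪 y, hΦ3 y hy⟩, Subtype.ext ((k3 y hy).trans hyv)⟩
  · -- Hecke equivariance of `π`
    intro ℓ hℓ v
    haveI : NeZero ℓ := ⟨hℓ.1.ne_zero⟩
    refine Subtype.ext ?_
    rw [k4, thetaEta_apply, thetaEta_apply, k4]
    rw [bc_apply_of_comp (hgDown (MvPolynomial.X (Sum.inl ℓ)))]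
    have e1 : etaTw0 N S p qv hc0 (MvPolynomial.X (Sum.inl ℓ))
        = resP p (U0 (N * twC qv) ℓ) :=
      ((polyHom_X _ _ _).trans (H29.opsTw0_inl_good N S p qv hℓ)).trans
        (Tz0_eq_resP p (N * twC qv) ℓ hℓ.1 (H29.not_dvd_level_of_good hℓ))
    have e2 : ηC (CuspForm.heckeAlgebra.T hℓ.1 hℓ.not_dvd hℓ.not_mem) = resP p (U0 N ℓ) :=
      (hηC ℓ hℓ.1 hℓ.not_dvd hℓ.not_mem).trans (Tz0_eq_resP p N ℓ hℓ.1 hℓ.not_dvd)
    have e3 : resP p Φ ∘ₗ etaTw0 N S p qv hc0 (MvPolynomial.X (Sum.inl ℓ))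
        = ηC (CuspForm.heckeAlgebra.T hℓ.1 hℓ.not_dvd hℓ.not_mem) ∘ₗ resP p Φ := by
      rw [e1, e2]
      refine LinearMap.ext fun x => Subtype.ext ?_
      exact hΦ1 ℓ hℓ x.1
    exact bc_apply_of_comp e3 _
  · -- Galois equivariance of `πup`
    intro σ y
    obtain ⟨v, hv, hvy, hπy⟩ := hdesc y
    have hcG : ∀ t, Commute (etaTw0 N S p qv hc0 t) (galZ0 (N * twC qv) p σ) :=
      polyHom_commute _ _ _ (fun i => hc0G i σ)
    have hv' : (galZ0 (N * twC qv) p σ).baseChange 𝒪 v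
        ∈ thetaPart (etaTw0 N S p qv hc0) (thetaTw N S qv θ α) :=
      (thetaZ (thetaTw N S qv θ α) (galZ0 (N * twC qv) p σ) hcG ⟨v, hv⟩).2
    have e3 : resP p Φ ∘ₗ galZ0 (N * twC qv) p σ = galZ0 N p σ ∘ₗ resP p Φ := by
      refine LinearMap.ext fun x => Subtype.ext ?_
      exact hΦ2 σ x.1
    have hy' : thetaZ θ (galZ0 N p σ) (hgalC σ) y
        = ⟨(resP p Φ).baseChange 𝒪 ((galZ0 (N * twC qv) p σ).baseChange 𝒪 v),
            hΦ3 _ hv'⟩ := by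
      refine Subtype.ext ?_
      rw [thetaZ_apply, ← hvy]
      exact (bc_apply_of_comp e3 v).symm
    rw [hy', k3 _ hv', hπy]
    exact bc_apply_of_comp (hupG σ) v

end Fermat.Agent.NEB.Geom.H14
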