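import Fermat.Agent.NEB.Geom.DefsWD
import Fermat.Agent.S59.Asm.H41_RestTW

/-!
# Item 72 (LG-NEB), package NEB-GEOM (helper84): the assembly — setups and field statements

* `MinSetup`  : the level-`N` data (output of `Stmt_W_MD`); `MinSetup.MD : HDiv`.
* `TwSetup`   : all choices at a Taylor–Wiles family (`ℓ₀`, `P_j`, `frob_j`, `σ_j`, `α_j`, lifts,
  commutation, divisibility of `W`, the Hecke action on `W`).
* `TwSetup.WD`, `TwSetup.galHom`, `TwSetup.gal`, `TwSetup.d` : the objects of `TWDiv`.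
* `Stmt_A_*`  : the fields of `TWDiv` for these objects, as `Prop`s (leaves of the assembly).

Definitions and statements only; no `sorry`.
-/

set_option autoImplicit false
set_option linter.unusedSectionVars false

noncomputable section

open ModularCurve AlgebraicCurve IsLocalRing TensorProduct Polynomial

namespace Fermat.Agent.NEB.Geom

open Fermat.Agent.NEB Fermat.Agent.NEB.JH Fermat.Agent.S59.Asm Fermat.Agent.S59.Lim
  Fermat.Agent.S59.Lim.H2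

variable (𝒪 : Type) [CommRing 𝒪] [IsDomain 𝒪] [IsDiscreteValuationRing 𝒪]
  (ϖ : 𝒪) (p : ℕ) (N : ℕ) [NeZero N] (S : Finset ℕ)
  (θ : CuspForm.heckeAlgebra N 2 (↑S : Set ℕ) →+* ResidueField 𝒪)

/-- The level-`N` data: the Hecke action on `J₀(N)[p^∞]` and its properties. -/
structure MinSetup where
  ηC : CuspForm.heckeAlgebra N 2 (↑S : Set ℕ) →+* Module.End ℤ (A0 N p)
  ηC_T : ∀ (ℓ : ℕ) (hℓ : ℓ.Prime) (hℓN : ¬ ℓ ∣ N) (hℓS : ℓ ∉ (↑S : Set ℕ)),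
    ηC (CuspForm.heckeAlgebra.T hℓ hℓN hℓS) = Tz0 N p ℓ
  gal_comm : ∀ (σ : GalQ) (t : CuspForm.heckeAlgebra N 2 (↑S : Set ℕ)),
    Commute (ηC t) (galZ0 N p σ)
  hW : IsDiv ϖ (𝒪 ⊗[ℤ] A0 N p)
  es : ∀ (ℓ : ℕ), ℓ.Prime → ¬ ℓ ∣ N → ℓ ≠ p →
    ∀ P : ValuationSubring Kbar, P.LiesOverPrime ℓ → ∀ σ : GalQ, P.IsFrobeniusAt σ ℓ →
      galZ0 N p σ * galZ0 N p σ - Tz0 N p ℓ * galZ0 N p σ
        + (ℓ : ℤ) • (1 : Module.End ℤ (A0 N p)) = 0
  unr : ∀ (q : ℕ), q.Prime → ¬ q ∣ N → q ≠ p →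
    ∀ P : ValuationSubring Kbar, P.LiesOverPrime q → ∀ σ ∈ P.inertiaSubgroupIn ℚ,
      galZ0 N p σ = 1
  cont : ∀ x : A0 N p, ∃ L : IntermediateField ℚ Kbar, FiniteDimensional ℚ L ∧
    ∀ σ : GalQ, (∀ y ∈ L, σ y = y) → galZ0 N p σ x = x
  nontriv : Nontrivial ↥(thetaPart ηC θ)

variable {𝒪 ϖ p N S θ}

/-- The minimal-level divisible Hecke module. -/
def MinSetup.MD (D : MinSetup 𝒪 ϖ p N S θ) : Fermat.Agent.S59.Lim.HDiv 𝒪 ϖ N (↑S : Set ℕ) θ :=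
  hdivOf θ D.ηC D.hW

/-- The Galois action on `MD.W`. -/
def MinSetup.gal (D : MinSetup 𝒪 ϖ p N S θ) : GalQ →* Module.End 𝒪 D.MD.W :=
  thetaGal θ (galZ0 N p) D.gal_comm

variable (𝒪 ϖ p N S θ)

/-- All choices at a Taylor–Wiles family. -/
structure TwSetup (ρbar : ResidualGaloisRep (ResidueField 𝒪)) (n : ℕ) {r : ℕ} (qv : Fin r → ℕ)
    [NeZero (N * twC qv)] [NeZero (twC qv)] [NeZero (twLevel N qv)] where
  hTW : TwHyp N S p n qv
  h2 : 2 ≤ twC qv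
  hcomm : ∀ i j, Commute (opsTw N S p n qv h2 i) (opsTw N S p n qv h2 j)
  hcommG : ∀ i σ, Commute (opsTw N S p n qv h2 i)
    (galZ (N * twC qv) (twC qv) (twH p n qv) p σ)
  /-- the chosen eigenvalue of `ρbar(frob_j)` and the other one -/
  α : Fin r → ResidueField 𝒪
  β : Fin r → ResidueField 𝒪
  eig : TwEig 𝒪 N S qv θ α β
  a : Fin r → 𝒪
  a' : Fin r → 𝒪
  ha : ∀ j, residue 𝒪 (a j) = α j
  ha' : ∀ j, residue 𝒪 (a' j) = β j
  /-- a non-Eisenstein good prime -/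
  ℓ₀ : ℕ
  hℓ₀ : GoodTw N S qv ℓ₀
  hne : θ (CuspForm.heckeAlgebra.T hℓ₀.1 hℓ₀.not_dvd hℓ₀.not_mem) ≠ ((ℓ₀ : ResidueField 𝒪) + 1)
  P : Fin r → ValuationSubring Kbar
  P_over : ∀ j, (P j).LiesOverPrime (qv j)
  frob : Fin r → GalQ
  frob_spec : ∀ j, (P j).IsFrobeniusAt (frob j) (qv j)
  σ : Fin r → GalQ
  σ_mem : ∀ j, σ j ∈ (P j).inertiaSubgroupIn ℚ
  hδ : IsDeltaGen p n qv
    (fun j => Fermat.Agent.NEB.Geom.H6.chiC (twC qv) (σ j) ^ (jTw p n + 1))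
  charpoly_frob : ∀ j, LinearMap.charpoly (ρbar.ρ (frob j)) =
    (X - C (residue 𝒪 (a j))) * (X - C (residue 𝒪 (a' j)))
  isDiv : IsDiv ϖ ↥(Wtw 𝒪 N S p n qv h2 hcomm θ α)
  η : CuspForm.heckeAlgebra (twLevel N qv) 2 (↑(twSet S qv) : Set ℕ) →+*
    Module.End 𝒪 ↥(Wtw 𝒪 N S p n qv h2 hcomm θ α)
  η_T : ∀ (ℓ : ℕ) (hℓ : ℓ.Prime) (hℓN : ¬ ℓ ∣ twLevel N qv)
    (hℓS : ℓ ∉ (↑(twSet S qv) : Set ℕ)),
    η (CuspForm.heckeAlgebra.T hℓ hℓN hℓS) =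
      thetaEta (etaTw N S p n qv h2 hcomm) (thetaTw N S qv θ α) (MvPolynomial.X (Sum.inl ℓ))
  η_local : ∀ (t : CuspForm.heckeAlgebra (twLevel N qv) 2 (↑(twSet S qv) : Set ℕ)) (a₀ : 𝒪),
    residue 𝒪 a₀ = (θ.comp (Fermat.Agent.S59.Asm.H41.restTW N S qv hTW.prime)) t →
    ∀ x : ↥(Wtw 𝒪 N S p n qv h2 hcomm θ α), ϖ • x = 0 →
      ∃ m : ℕ, ((η t - a₀ • (1 : Module.End 𝒪 ↥(Wtw 𝒪 N S p n qv h2 hcomm θ α))) ^ m) x = 0

variable {𝒪 ϖ p N S θ}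

/-- The twist of a monoid homomorphism `f` by a commuting character: `σ ↦ f σ * g (χ σ) ^ k`. -/
def twistHom {G G' E : Type*} [Monoid G] [CommMonoid G'] [Monoid E] (f : G →* E) (g : G' →* E)
    (χ : G →* G') (k : ℕ) (hc : ∀ u τ, Commute (g u) (f τ)) : G →* E where
  toFun σ := f σ * g (χ σ) ^ k
  map_one' := by
    rw [map_one, map_one, map_one, one_pow, mul_one]
  map_mul' σ τ := by
    have hxy : Commute (g (χ σ)) (g (χ τ)) := (Commute.all _ _).map g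
    have h1 : Commute (g (χ σ) ^ k) (f τ) := (hc _ τ).pow_left k
    rw [map_mul, map_mul, map_mul, hxy.mul_pow, mul_assoc, mul_assoc,
      ← mul_assoc (f τ), ← h1.eq, mul_assoc]

theorem twistHom_apply {G G' E : Type*} [Monoid G] [CommMonoid G'] [Monoid E] (f : G →* E)
    (g : G' →* E) (χ : G →* G') (k : ℕ) (hc : ∀ u τ, Commute (g u) (f τ)) (σ : G) :
    twistHom f g χ k hc σ = f σ * g (χ σ) ^ k := rfl

section Objects

variable {ρbar : ResidualGaloisRep (ResidueField 𝒪)} {n : ℕ} {r : ℕ} {qv : Fin r → ℕ}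
  [NeZero (N * twC qv)] [NeZero (twC qv)] [NeZero (twLevel N qv)]
  (D : TwSetup 𝒪 ϖ p N S θ ρbar n qv)

/-- The generators of `Δ`: `δ_j = χ_c(σ_j)^{j₀+1}`. -/
def TwSetup.δ (j : Fin r) : (ZMod (twC qv))ˣ :=
  Fermat.Agent.NEB.Geom.H6.chiC (twC qv) (D.σ j) ^ (jTw p n + 1)

/-- The divisible Hecke module at the Taylor–Wiles level. -/
def TwSetup.WD : Fermat.Agent.S59.Lim.HDiv 𝒪 ϖ (twLevel N qv) (↑(twSet S qv) : Set ℕ)
    (θ.comp (Fermat.Agent.S59.Asm.H41.restTW N S qv D.hTW.prime)) where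
  W := ↥(Wtw 𝒪 N S p n qv D.h2 D.hcomm θ D.α)
  isDiv := D.isDiv
  η := D.η
  η_local := D.η_local

/-- The diamond operators commute with `η⁺`. -/
theorem TwSetup.comm_dia (u : (ZMod (twC qv))ˣ) (t : PolyTw r (twC qv)) :
    Commute (etaTw N S p n qv D.h2 D.hcomm t)
      (diaZ (N * twC qv) (twC qv) (twH p n qv) D.h2 (dvd_mul_left _ _) p u) := by
  have h : etaTw N S p n qv D.h2 D.hcomm (MvPolynomial.X (Sum.inr (Sum.inr u)))
      = diaZ (N * twC qv) (twC qv) (twH p n qv) D.h2 (dvd_mul_left _ _) p u :=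
    polyHom_X _ _ _
  rw [← h]
  exact (Commute.all t _).map (etaTw N S p n qv D.h2 D.hcomm)

/-- The Galois action commutes with `η⁺`. -/
theorem TwSetup.comm_gal (σ : GalQ) (t : PolyTw r (twC qv)) :
    Commute (etaTw N S p n qv D.h2 D.hcomm t)
      (galZ (N * twC qv) (twC qv) (twH p n qv) p σ) := by
  induction t using MvPolynomial.induction_on with
  | C a =>
    have : etaTw N S p n qv D.h2 D.hcomm (MvPolynomial.C a)
        = (a : Module.End ℤ (AH (N * twC qv) (twC qv) (twH p n qv) p)) := by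
      rw [show (MvPolynomial.C a : PolyTw r (twC qv)) = ((a : ℤ) : PolyTw r (twC qv)) from
        (eq_intCast (MvPolynomial.C : ℤ →+* PolyTw r (twC qv)) a), map_intCast]
    rw [this]
    exact Int.cast_commute a _
  | add f g hf hg =>
    rw [map_add]
    exact hf.add_left hg
  | mul_X f i hf =>
    rw [map_mul]
    refine hf.mul_left ?_
    have h : etaTw N S p n qv D.h2 D.hcomm (MvPolynomial.X i) = opsTw N S p n qv D.h2 i :=
      polyHom_X _ _ _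
    rw [h]
    exact D.hcommG i σ

/-- The twisted Galois action `σ ↦ σ ⟨χ_c σ⟩^{j₀+1}` on `J_H[p^∞]`. -/
def TwSetup.galHom : GalQ →* Module.End ℤ (AH (N * twC qv) (twC qv) (twH p n qv) p) :=
  twistHom (galZ (N * twC qv) (twC qv) (twH p n qv) p)
    (diaZ (N * twC qv) (twC qv) (twH p n qv) D.h2 (dvd_mul_left _ _) p)
    (Fermat.Agent.NEB.Geom.H6.chiC (twC qv)) (jTw p n + 1)
    (fun u τ => D.hcommG (Sum.inr (Sum.inr u)) τ)

theorem TwSetup.galHom_apply (σ : GalQ) :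
    D.galHom σ = galZ (N * twC qv) (twC qv) (twH p n qv) p σ *
      diaZ (N * twC qv) (twC qv) (twH p n qv) D.h2 (dvd_mul_left _ _) p
        (Fermat.Agent.NEB.Geom.H6.chiC (twC qv) σ) ^ (jTw p n + 1) := rfl

theorem TwSetup.comm_galHom (σ : GalQ) (t : PolyTw r (twC qv)) :
    Commute (etaTw N S p n qv D.h2 D.hcomm t) (D.galHom σ) := by
  rw [D.galHom_apply]
  exact (D.comm_gal σ t).mul_right ((D.comm_dia _ t).pow_right _)

/-- The underlying element of `𝒪 ⊗ J_H[p^∞]`. -/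
def TwSetup.val (x : D.WD.W) : 𝒪 ⊗[ℤ] AH (N * twC qv) (twC qv) (twH p n qv) p :=
  Subtype.val (p := fun y => y ∈ Wtw 𝒪 N S p n qv D.h2 D.hcomm θ D.α) x

/-- The twisted Galois action on `W`. -/
def TwSetup.gal : GalQ →* Module.End 𝒪 D.WD.W :=
  thetaGal (thetaTw N S qv θ D.α) D.galHom D.comm_galHom

/-- The diamond operators `d_j = ⟨δ_j⟩` on `W`. -/
def TwSetup.d (j : Fin r) : Module.End 𝒪 D.WD.W :=
  thetaZ (thetaTw N S qv θ D.α)
    (diaZ (N * twC qv) (twC qv) (twH p n qv) D.h2 (dvd_mul_left _ _) p (D.δ j))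
    (fun t => D.comm_dia (D.δ j) t)

end Objects

/-! ## The fields of `TWDiv` as leaves -/

section Fields

variable {ρbar : ResidualGaloisRep (ResidueField 𝒪)} {n : ℕ} {r : ℕ} {qv : Fin r → ℕ}
  [NeZero (N * twC qv)] [NeZero (twC qv)] [NeZero (twLevel N qv)]
  (Dm : MinSetup 𝒪 ϖ p N S θ) (D : TwSetup 𝒪 ϖ p N S θ ρbar n qv)

/-- **A-GAL**: continuity and commutation of the twisted Galois action; the diamond operators. -/
def Stmt_A_gal : Prop :=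
  (∀ x : D.WD.W, ∃ L : IntermediateField ℚ Kbar, FiniteDimensional ℚ L ∧
    ∀ σ : GalQ, (∀ y ∈ L, σ y = y) → D.gal σ x = x) ∧
  (∀ (g : GalQ) (t : CuspForm.heckeAlgebra (twLevel N qv) 2 (↑(twSet S qv) : Set ℕ)),
    Commute (D.gal g) (D.WD.η t)) ∧
  (∀ j, D.d j ^ (p ^ n) = 1) ∧
  (∀ i j, Commute (D.d i) (D.d j)) ∧
  (∀ (j : Fin r) (t : CuspForm.heckeAlgebra (twLevel N qv) 2 (↑(twSet S qv) : Set ℕ)),
    Commute (D.d j) (D.WD.η t)) ∧
  (∀ (j : Fin r) (g : GalQ), Commute (D.d j) (D.gal g))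

/-- **A-ES**: Eichler–Shimura on `W`. -/
def Stmt_A_es : Prop :=
  ∀ (ℓ : ℕ) (hℓ : ℓ.Prime) (hℓN : ¬ ℓ ∣ twLevel N qv)
    (hℓS : ℓ ∉ (↑(twSet S qv) : Set ℕ)),
    ∀ A : ValuationSubring Kbar, A.LiesOverPrime ℓ →
      ∀ σ : GalQ, A.IsFrobeniusAt σ ℓ →
        D.gal σ * D.gal σ - D.WD.η (CuspForm.heckeAlgebra.T hℓ hℓN hℓS) * D.gal σ
          + (ℓ : 𝒪) • (1 : Module.End 𝒪 D.WD.W) = 0

/-- **A-HSTEP**: norm surjectivity along the tower on `W[ϖ]`. -/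
def Stmt_A_hstep : Prop :=
  ∀ (j : Fin r) (v : D.WD.W), ϖ • v = 0 → (∀ i, i ≤ j → D.d i v = v) →
    ∃ w : D.WD.W, ϖ • w = 0 ∧ (∀ i, i < j → D.d i w = w) ∧
      Fermat.Agent.S59.TWH.H90.nm (p ^ n) (D.d j) w = v

/-- **A-PI**: the maps `π`, `πup` with the properties required by `TWDiv`, and the Galois
equivariance of `πup` for the untwisted action (used by A-FROBNIL and A-LG). -/
def Stmt_A_pi : Prop :=
  ∃ (π : D.WD.W →ₗ[𝒪] Dm.MD.W) (πup : Dm.MD.W →ₗ[𝒪] D.WD.W),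
    Function.Injective πup ∧
    (∀ x : D.WD.W, πup (π x) = Fermat.Agent.S59.TWH.H90.nmTot (p ^ n) D.d x) ∧
    (∀ (j : Fin r) (y : Dm.MD.W), D.d j (πup y) = πup y) ∧
    (∀ v : D.WD.W, ϖ • v = 0 → (∀ j, D.d j v = v) → ∃ y : Dm.MD.W, πup y = v) ∧
    (∀ (t : CuspForm.heckeAlgebra (twLevel N qv) 2 (↑(twSet S qv) : Set ℕ)) (v : D.WD.W),
      π (D.WD.η t v) = Dm.MD.η (Fermat.Agent.S59.Asm.H41.restTW N S qv D.hTW.prime t) (π v)) ∧
    (∀ (σ : GalQ) (y : Dm.MD.W),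
      D.val (πup (Dm.gal σ y))
        = (galZ (N * twC qv) (twC qv) (twH p n qv) p σ).baseChange 𝒪 (D.val (πup y)))

/-- **A-FROBNIL**: `(F - a)(F - a')` is nilpotent on `W[ϖ]`, `F = gal (frob j)`. -/
def Stmt_A_frob_nil : Prop :=
  ∀ (j : Fin r) (x : D.WD.W), ϖ • x = 0 → ∃ m : ℕ,
    (((D.gal (D.frob j) - D.a j • (1 : Module.End 𝒪 D.WD.W)) *
      (D.gal (D.frob j) - D.a' j • (1 : Module.End 𝒪 D.WD.W))) ^ m) x = 0

/-- **A-LG**: the inertia element `σ_j` acts on the generalised `a_j`-eigenspace of `frob_j`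
as `d_j`. -/
def Stmt_A_lg : Prop :=
  ∀ (j : Fin r) (x : D.WD.W),
    x ∈ gk (D.gal (D.frob j) - D.a j • (1 : Module.End 𝒪 D.WD.W)) →
    D.gal (D.σ j) x = D.d j x

end Fields

end Fermat.Agent.NEB.Geom
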