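/-
helper9, item 72 (LG-NEB), package NEB-GEOM, assembly leaf **A-GAL** = `Stmt_A_gal D`:
continuity of the twisted Galois action on `W`, commutation of `gal`, `d_j` and `η`, and
`d_j ^ (p ^ n) = 1`.

Wiring of: `H29.stmt_ZGALCONT` (points of `J_H` are fixed by an open subgroup),
`H6.chiC_eq_one_of_fix`, `EIG.H39.commute_of_gen`, helper2's `thetaZ` calculus, `DiamondData.ker`.
-/
import Fermat.Agent.NEB.Geom.AsmDefs
import Fermat.Agent.NEB.Geom.H29_ZGalCont
import Fermat.Agent.NEB.EIG.H39_OPLattice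

set_option autoImplicit false
set_option linter.unusedSectionVars false
set_option linter.style.haveILetI false
set_option synthInstance.maxHeartbeats 400000
set_option maxHeartbeats 1000000

noncomputable section

open ModularCurve AlgebraicCurve IsLocalRing TensorProduct Polynomial

namespace Fermat.Agent.NEB.Geom.H9

open Fermat.Agent.NEB Fermat.Agent.NEB.JH Fermat.Agent.NEB.Geom Fermat.Agent.S59.Asm
  Fermat.Agent.S59.Lim Fermat.Agent.S59.Lim.H2

/-! ## The diamond operators of `H` are trivial -/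

section Dia

variable (M c : ℕ) [NeZero M] (H : Subgroup (ZMod c)ˣ) (h2 : 2 ≤ c) (hc : c ∣ M) (p : ℕ)

theorem diaZ_eq_one_of_mem {u : (ZMod c)ˣ} (hu : u ∈ H) : diaZ M c H h2 hc p u = 1 := by
  refine LinearMap.ext fun x => Subtype.ext ?_
  rw [diaZ_apply, ((diamondData M c H h2 hc).ker u).2 (Or.inl hu), one_smul]
  rfl

theorem diaZ_commute (u v : (ZMod c)ˣ) :
    Commute (diaZ M c H h2 hc p u) (diaZ M c H h2 hc p v) :=
  (Commute.all u v).map (diaZ M c H h2 hc p)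

end Dia

/-! ## The field generated by the `c`-th roots of unity -/

/-- The cyclotomic field `ℚ(ζ_c)` inside `ℚ̄`. -/
def cycF (c : ℕ) : IntermediateField ℚ Kbar :=
  IntermediateField.adjoin ℚ {t : Kbar | t ^ c = 1}

theorem finite_rootsOne (c : ℕ) [NeZero c] : {t : Kbar | t ^ c = 1}.Finite := by
  have h : {t : Kbar | t ^ c = 1} = ↑(nthRootsFinset c (1 : Kbar)) := by
    ext t
    rw [Set.mem_ofPred_eq, Finset.mem_coe,
      mem_nthRootsFinset (Nat.pos_of_ne_zero (NeZero.ne c))]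
  rw [h]
  exact Finset.finite_toSet _

theorem finiteDimensional_cycF (c : ℕ) [NeZero c] : FiniteDimensional ℚ (cycF c) := by
  haveI : Algebra.IsAlgebraic ℚ Kbar := AlgebraicClosure.isAlgebraic ℚ
  haveI : Finite {t : Kbar | t ^ c = 1} := (finite_rootsOne c).to_subtype
  exact IntermediateField.finiteDimensional_adjoin
    (fun x _ => Algebra.IsIntegral.isIntegral x)

theorem chiC_eq_one_of_fix_cycF (c : ℕ) [NeZero c] (σ : GalQ)
    (h : ∀ y ∈ cycF c, σ y = y) : Fermat.Agent.NEB.Geom.H6.chiC c σ = 1 :=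
  Fermat.Agent.NEB.Geom.H6.chiC_eq_one_of_fix c σ fun t ht =>
    h t (IntermediateField.subset_adjoin ℚ _ ht)

/-! ## Continuity on `𝒪 ⊗ J_H[p^∞]` -/

section Cont

variable (𝒪 : Type) [CommRing 𝒪]
variable (M c : ℕ) [NeZero M] [NeZero c] (H : Subgroup (ZMod c)ˣ) (h2 : 2 ≤ c) (hc : c ∣ M)
  (p k : ℕ)

/-- Every element of `𝒪 ⊗ J_H[p^∞]` is fixed by the twisted action of an open subgroup. -/
theorem cont_tensor (y : 𝒪 ⊗[ℤ] AH M c H p) :
    ∃ L : IntermediateField ℚ Kbar, FiniteDimensional ℚ L ∧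
      ∀ σ : GalQ, (∀ z ∈ L, σ z = z) →
        ((galZ M c H p σ *
          diaZ M c H h2 hc p (Fermat.Agent.NEB.Geom.H6.chiC c σ) ^ k).baseChange 𝒪) y = y := by
  induction y using TensorProduct.induction_on with
  | zero => exact ⟨⊥, inferInstance, fun σ _ => map_zero _⟩
  | tmul a x =>
    obtain ⟨L₁, h₁, hL₁⟩ := Fermat.Agent.NEB.Geom.H29.stmt_ZGALCONT M c H h2 hc (x : JH M c H)
    haveI := h₁
    haveI := finiteDimensional_cycF c
    refine ⟨L₁ ⊔ cycF c, IntermediateField.finiteDimensional_sup L₁ (cycF c), fun σ hσ => ?_⟩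
    have hχ : Fermat.Agent.NEB.Geom.H6.chiC c σ = 1 :=
      chiC_eq_one_of_fix_cycF c σ fun z hz =>
        hσ z ((le_sup_right : cycF c ≤ L₁ ⊔ cycF c) hz)
    have hx : σ • (x : JH M c H) = (x : JH M c H) :=
      hL₁ σ fun z hz => hσ z ((le_sup_left : L₁ ≤ L₁ ⊔ cycF c) hz)
    rw [LinearMap.baseChange_tmul, hχ, map_one, one_pow, mul_one]
    congr 1
    exact Subtype.ext hx
  | add y₁ y₂ ih₁ ih₂ =>
    obtain ⟨L₁, h₁, hL₁⟩ := ih₁
    obtain ⟨L₂, h₂, hL₂⟩ := ih₂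
    haveI := h₁
    haveI := h₂
    refine ⟨L₁ ⊔ L₂, IntermediateField.finiteDimensional_sup L₁ L₂, fun σ hσ => ?_⟩
    rw [map_add, hL₁ σ fun z hz => hσ z ((le_sup_left : L₁ ≤ L₁ ⊔ L₂) hz),
      hL₂ σ fun z hz => hσ z ((le_sup_right : L₂ ≤ L₁ ⊔ L₂) hz)]

end Cont

/-! ## A-GAL -/

section Main

variable {𝒪 : Type} [CommRing 𝒪] [IsDomain 𝒪] [IsDiscreteValuationRing 𝒪]
  {ϖ : 𝒪} {p : ℕ} {N : ℕ} [NeZero N] {S : Finset ℕ}
  {θ : CuspForm.heckeAlgebra N 2 (↑S : Set ℕ) →+* ResidueField 𝒪}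
  {ρbar : ResidualGaloisRep (ResidueField 𝒪)} {n : ℕ} {r : ℕ} {qv : Fin r → ℕ}
  [NeZero (N * twC qv)] [NeZero (twC qv)] [NeZero (twLevel N qv)]
  (D : TwSetup 𝒪 ϖ p N S θ ρbar n qv)

/-- The primes dividing the Taylor–Wiles level lie in the Taylor–Wiles set. -/
theorem mem_twSet_of_dvd (hTW : TwHyp N S p n qv) (q : ℕ) (hq : q.Prime)
    (hd : q ∣ twLevel N qv) : q ∈ (↑(twSet S qv) : Set ℕ) := by
  rw [Finset.mem_coe, twSet, Finset.mem_union]
  rw [twLevel] at hd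
  rcases (Nat.Prime.dvd_mul hq).1 hd with h | h
  · exact Or.inl (hTW.hNS q hq h)
  · right
    obtain ⟨j, -, hj⟩ := (Prime.dvd_finsetProd_iff (Nat.Prime.prime hq) _).1 h
    have h1 : q ∣ qv j := hq.dvd_of_dvd_pow hj
    have h2 : q = qv j := (Nat.prime_dvd_prime_iff_eq hq (hTW.prime j)).1 h1
    rw [h2]
    exact Finset.mem_image_of_mem qv (Finset.mem_univ j)

/-- An operator `thetaZ g` commutes with the Hecke action `η` on `W`. -/
theorem commute_thetaZ_eta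
    (g : Module.End ℤ (AH (N * twC qv) (twC qv) (twH p n qv) p))
    (hg : ∀ t, Commute (etaTw N S p n qv D.h2 D.hcomm t) g)
    (t : CuspForm.heckeAlgebra (twLevel N qv) 2 (↑(twSet S qv) : Set ℕ)) :
    Commute (thetaZ (thetaTw N S qv θ D.α) g hg) (D.WD.η t) := by
  refine Fermat.Agent.NEB.EIG.H39.commute_of_gen
    (R := Module.End 𝒪 ↥(Wtw 𝒪 N S p n qv D.h2 D.hcomm θ D.α)) (mem_twSet_of_dvd D.hTW) D.η _
    (fun ℓ hℓ hℓN hℓS => ?_) t
  rw [D.η_T ℓ hℓ hℓN hℓS]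
  exact thetaZ_commute_eta hg _

/-- The diamond operator commutes with the twisted Galois action. -/
theorem commute_dia_galHom (u : (ZMod (twC qv))ˣ) (g : GalQ) :
    Commute (diaZ (N * twC qv) (twC qv) (twH p n qv) D.h2 (dvd_mul_left _ _) p u)
      (D.galHom g) := by
  rw [D.galHom_apply]
  exact (D.hcommG (Sum.inr (Sum.inr u)) g).mul_right ((diaZ_commute _ _ _ _ _ _ u _).pow_right _)

/-- **A-GAL**. -/
theorem a_gal : Stmt_A_gal D := by
  refine ⟨fun x => ?_, fun g t => ?_, fun j => ?_, fun i j => ?_, fun j t => ?_, fun j g => ?_⟩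
  · obtain ⟨L, hL, hfix⟩ := cont_tensor 𝒪 (N * twC qv) (twC qv) (twH p n qv) D.h2
      (dvd_mul_left _ _) p (jTw p n + 1) (D.val x)
    refine ⟨L, hL, fun σ hσ => Subtype.ext ?_⟩
    exact hfix σ hσ
  · exact commute_thetaZ_eta D (D.galHom g) (fun t => D.comm_galHom g t) t
  · have hmem : D.δ j ^ (p ^ n) ∈ twH p n qv := ⟨D.δ j, rfl⟩
    have h1 : diaZ (N * twC qv) (twC qv) (twH p n qv) D.h2 (dvd_mul_left _ _) p (D.δ j) ^ (p ^ n)
        = 1 := by
      rw [← map_pow]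
      exact diaZ_eq_one_of_mem _ _ _ _ _ _ hmem
    have hc1 : ∀ t, Commute (etaTw N S p n qv D.h2 D.hcomm t)
        (diaZ (N * twC qv) (twC qv) (twH p n qv) D.h2 (dvd_mul_left _ _) p (D.δ j) ^ (p ^ n)) :=
      fun t => (D.comm_dia (D.δ j) t).pow_right _
    show thetaZ (thetaTw N S qv θ D.α) _ _ ^ (p ^ n) = 1
    rw [← thetaZ_pow (fun t => D.comm_dia (D.δ j) t) (p ^ n) hc1,
      thetaZ_congr hc1 (fun t => Commute.one_right _) h1]
    exact thetaZ_one _
  · exact thetaZ_commute (fun t => D.comm_dia (D.δ i) t) (fun t => D.comm_dia (D.δ j) t)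
      (diaZ_commute _ _ _ _ _ _ _ _)
  · exact commute_thetaZ_eta D _ (fun t => D.comm_dia (D.δ j) t) t
  · exact thetaZ_commute (fun t => D.comm_dia (D.δ j) t) (fun t => D.comm_galHom g t)
      (commute_dia_galHom D (D.δ j) g)

end Main

end Fermat.Agent.NEB.Geom.H9
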