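import Fermat.Agent.NEB.Geom.H14_PiDefs
import Fermat.Agent.NEB.Geom.H29_TowerInst
import Fermat.Agent.NEB.Geom.H9_AGal

/-!
# Item 72 (LG-NEB), package NEB-GEOM, leaf A-PI-of (helper15): `Stmt_PI_WIRE → Stmt_A_PI`

The wiring of helper14's `Stmt_PI_WIRE` (`DefsWD.lean`) into the assembly statement `Stmt_A_PI`
(`AsmTop.lean`).

* `coe_nmTot_thetaZ` : the total norm of the restrictions `thetaZ θ (d j)` is the restriction of
  the total norm of the base changes;
* `dia_fix_all` : an element of `𝒪 ⊗ J_H[p^∞]` fixed by the `⟨δ_j⟩` is fixed by all the diamond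
  operators (`(ℤ/c)ˣ = H · ⟨δ_j⟩`, `⟨h⟩ = 1` for `h ∈ H`);
* `mem_twSet_of_dvd` : the primes dividing the Taylor–Wiles level are in the Taylor–Wiles set;
* `stmt_A_PI_of : H14.Stmt_A_PI_of`.
-/

set_option autoImplicit false
set_option linter.unusedSectionVars false
set_option linter.unusedVariables false
set_option linter.style.haveILetI false
set_option synthInstance.maxHeartbeats 400000
set_option maxHeartbeats 1000000

noncomputable section

open ModularCurve AlgebraicCurve IsLocalRing TensorProduct Polynomial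

namespace Fermat.Agent.NEB.Geom.H15

open Fermat.Agent.NEB Fermat.Agent.NEB.JH Fermat.Agent.S59.Asm Fermat.Agent.S59.Lim
  Fermat.Agent.S59.Lim.H2 Fermat.Agent.NEB.Geom

/-! ## The total norm on the `θ`-part -/

section GenTheta

variable {𝒪 : Type} [CommRing 𝒪] [IsLocalRing 𝒪] {𝕋 : Type} [CommRing 𝕋]
  {A : Type} [AddCommGroup A]

theorem coe_nmTot_thetaZ (η : 𝕋 →+* Module.End ℤ A) (θ : 𝕋 →+* ResidueField 𝒪) (m : ℕ) :
    ∀ {r : ℕ} (d : Fin r → Module.End ℤ A) (hd : ∀ j t, Commute (η t) (d j))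
      (x : ↥(thetaPart η θ)),
      ((Fermat.Agent.S59.TWH.H90.nmTot m (fun j => thetaZ θ (d j) (hd j)) x :
          ↥(thetaPart η θ)) : 𝒪 ⊗[ℤ] A)
        = Fermat.Agent.S59.TWH.H90.nmTot m (fun j => (d j).baseChange 𝒪) x.1 := by
  intro r
  induction r with
  | zero =>
    intro d hd x
    rw [Fermat.Agent.S59.TWH.H90.nmTot_zero, Fermat.Agent.S59.TWH.H90.nmTot_zero]
    rfl
  | succ r ih =>
    intro d hd x
    rw [Fermat.Agent.S59.TWH.H90.nmTot_succ, Fermat.Agent.S59.TWH.H90.nmTot_succ,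
      Module.End.mul_apply, Module.End.mul_apply,
      Fermat.Agent.NEB.Geom.H94.coe_nm_thetaZ,
      ih (fun j => d j.succ) (fun j => hd j.succ) x,
      Fermat.Agent.S59.TWH.H90.nm_apply]

end GenTheta

/-! ## Elements fixed by the `⟨δ_j⟩` are fixed by all the diamond operators -/

section Dia

variable (𝒪 : Type) [CommRing 𝒪]
variable {N : ℕ} {S : Finset ℕ} {p n : ℕ} {r : ℕ} {qv : Fin r → ℕ}

theorem dia_fix_all (hyp : TwHyp N S p n qv) [NeZero (N * twC qv)] (h2 : 2 ≤ twC qv)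
    {δ : Fin r → (ZMod (twC qv))ˣ} (hδ : IsDeltaGen p n qv δ)
    (v : 𝒪 ⊗[ℤ] AH (N * twC qv) (twC qv) (twH p n qv) p)
    (hv : ∀ j, (diaZ (N * twC qv) (twC qv) (twH p n qv) h2 (dvd_mul_left _ _) p
      (δ j)).baseChange 𝒪 v = v)
    (u : (ZMod (twC qv))ˣ) :
    (diaZ (N * twC qv) (twC qv) (twH p n qv) h2 (dvd_mul_left _ _) p u).baseChange 𝒪 v = v := by
  haveI : ∀ j, Finite (ZMod (qv j))ˣ := fun j =>
    Fermat.Agent.NEB.Geom.H29.finite_units_of_prime (hyp.prime j)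
  haveI : ∀ j, IsCyclic (ZMod (qv j))ˣ := fun j =>
    Fermat.Agent.NEB.Geom.H29.isCyclic_units_of_prime (hyp.prime j)
  obtain ⟨s, y, hu⟩ := (Fermat.Agent.NEB.Geom.H29.twHyp_isGenFam hyp hδ).exists_decomp
    (Fermat.Agent.NEB.Geom.H29.twHyp_dvd_card hyp) u
  -- the stabiliser of `v`
  let F : Submonoid (ZMod (twC qv))ˣ :=
    { carrier := {w | (diaZ (N * twC qv) (twC qv) (twH p n qv) h2 (dvd_mul_left _ _) p
        w).baseChange 𝒪 v = v}
      one_mem' := by
        show (diaZ (N * twC qv) (twC qv) (twH p n qv) h2 (dvd_mul_left _ _) p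
          1).baseChange 𝒪 v = v
        rw [map_one, baseChange_one_eq]
        rfl
      mul_mem' := by
        intro a b ha hb
        show (diaZ (N * twC qv) (twC qv) (twH p n qv) h2 (dvd_mul_left _ _) p
          (a * b)).baseChange 𝒪 v = v
        rw [map_mul, baseChange_mul_eq, Module.End.mul_apply]
        rw [show (diaZ (N * twC qv) (twC qv) (twH p n qv) h2 (dvd_mul_left _ _) p
          b).baseChange 𝒪 v = v from hb]
        exact ha }
  have hF : u ∈ F := by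
    rw [hu]
    refine F.mul_mem ?_ (F.prod_mem fun j _ => F.pow_mem (hv j) _)
    show (diaZ (N * twC qv) (twC qv) (twH p n qv) h2 (dvd_mul_left _ _) p
      (y ^ p ^ n)).baseChange 𝒪 v = v
    rw [Fermat.Agent.NEB.Geom.H9.diaZ_eq_one_of_mem (N * twC qv) (twC qv) (twH p n qv) h2
      (dvd_mul_left _ _) p (u := y ^ p ^ n) ⟨y, rfl⟩, baseChange_one_eq]
    rfl
  exact hF

end Dia

/-! ## The primes of the Taylor–Wiles level -/

theorem mem_twSet_of_dvd {N : ℕ} {S : Finset ℕ} {r : ℕ} {qv : Fin r → ℕ}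
    (hNS : ∀ q : ℕ, q.Prime → q ∣ N → q ∈ S) (hqv : ∀ j, (qv j).Prime)
    (q : ℕ) (hq : q.Prime) (hqN : q ∣ twLevel N qv) : q ∈ (↑(twSet S qv) : Set ℕ) := by
  by_cases h : q ∣ N
  · exact Fermat.Agent.S59.Asm.H41.subset_twSet S qv (Finset.mem_coe.mpr (hNS q hq h))
  · exact Fermat.Agent.S59.Asm.H41.new_prime_mem_twSet N S qv hqv q hq hqN h

/-! ## Intertwining is a subring condition -/

section Inter

variable {𝒪 T T' W W' : Type*} [CommRing 𝒪] [Ring T] [Ring T'] [AddCommGroup W] [Module 𝒪 W]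
  [AddCommGroup W'] [Module 𝒪 W']

/-- The `t` such that `π ∘ η t = η' (rest t) ∘ π`. -/
def interSub (π : W →ₗ[𝒪] W') (η : T →+* Module.End 𝒪 W) (η' : T' →+* Module.End 𝒪 W')
    (rest : T →+* T') : Subring T where
  carrier := {t | ∀ v, π (η t v) = η' (rest t) (π v)}
  one_mem' := fun v => by
    rw [map_one, map_one, map_one]
    rfl
  mul_mem' := fun {x y} hx hy v => by
    rw [map_mul, map_mul, map_mul, Module.End.mul_apply, Module.End.mul_apply, hx, hy]
  zero_mem' := fun v => by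
    rw [map_zero, map_zero, map_zero, LinearMap.zero_apply, LinearMap.zero_apply, map_zero]
  add_mem' := fun {x y} hx hy v => by
    rw [map_add, map_add, map_add, LinearMap.add_apply, LinearMap.add_apply, map_add, hx v,
      hy v]
  neg_mem' := fun {x} hx v => by
    rw [map_neg, map_neg, map_neg, LinearMap.neg_apply, LinearMap.neg_apply, map_neg, hx v]

theorem mem_interSub {π : W →ₗ[𝒪] W'} {η : T →+* Module.End 𝒪 W}
    {η' : T' →+* Module.End 𝒪 W'} {rest : T →+* T'} {t : T} :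
    t ∈ interSub π η η' rest ↔ ∀ v, π (η t v) = η' (rest t) (π v) := Iff.rfl

end Inter

/-! ## The wiring -/

/-- **A-PI-of**: `Stmt_PI_WIRE → Stmt_A_PI`. -/
theorem stmt_A_PI_of : Fermat.Agent.NEB.Geom.H14.Stmt_A_PI_of := by
  intro hW 𝒪 _ _ _ _ _ _ ϖ p _ N _ S θ ρbar hstd Dm n r qv _ _ _ D
  obtain ⟨π, πup, h1, h2, h3, h4, h5, h6⟩ :=
    hW 𝒪 ϖ hstd.hϖ p hstd.hpm N S n r qv D.hTW D.h2 D.hcomm θ D.α D.β D.eig Dm.ηC Dm.ηC_T
      Dm.gal_comm D.δ D.hδ D.ℓ₀ D.hℓ₀ D.hne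
  unfold Stmt_A_pi
  refine ⟨π, πup, h1, fun x => Subtype.ext ?_, fun j y => Subtype.ext ?_, fun v hv hd => ?_,
    ?_, fun σ y => h6 σ y⟩
  · -- `πup ∘ π` is the total norm
    refine (h2 x).trans ?_
    exact (coe_nmTot_thetaZ (etaTw N S p n qv D.h2 D.hcomm) (thetaTw N S qv θ D.α) (p ^ n)
      (fun j => diaZ (N * twC qv) (twC qv) (twH p n qv) D.h2 (dvd_mul_left _ _) p (D.δ j))
      (fun j t => D.comm_dia (D.δ j) t) x).symm
  · -- `πup y` is fixed by the `d_j`
    exact h3 (D.δ j) y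
  · -- INV
    refine h4 v hv fun u => ?_
    exact dia_fix_all 𝒪 D.hTW D.h2 D.hδ _ (fun j => congrArg Subtype.val (hd j)) u
  · -- Hecke equivariance of `π`
    have hS : ∀ q : ℕ, q.Prime → q ∣ twLevel N qv → q ∈ (↑(twSet S qv) : Set ℕ) :=
      mem_twSet_of_dvd D.hTW.hNS D.hTW.prime
    have key : ∀ t, t ∈ interSub (W := ↥(Wtw 𝒪 N S p n qv D.h2 D.hcomm θ D.α))
        (W' := ↥(thetaPart Dm.ηC θ)) π D.η (thetaEta Dm.ηC θ)
        (Fermat.Agent.S59.Asm.H41.restTW N S qv D.hTW.prime) := by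
      refine Fermat.Agent.NEB.EIG.H39.hecke_induction hS ?_ (fun k => intCast_mem _ k)
        (fun x y hx hy => add_mem hx hy) (fun x y hx hy => mul_mem hx hy)
      intro ℓ hℓ hℓN hℓS
      rw [mem_interSub]
      intro v
      have hg : GoodTw N S qv ℓ := ⟨hℓ, hℓN, hℓS⟩
      rw [Fermat.Agent.S59.Asm.H41.restTW_T N S qv D.hTW.prime ℓ hℓ hℓN hℓS hg.not_dvd
        hg.not_mem, D.η_T ℓ hℓ hℓN hℓS]
      exact h5 ℓ hg v
    exact fun t v => key t v

end Fermat.Agent.NEB.Geom.H15
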