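import Fermat.Agent.NEB.Geom.DefsW

/-!
# NEB-GEOM leaf W-FROBNIL (helper6): socle filtration

`stmt_W_FROBNIL : Stmt_W_FROBNIL`: an operator `Q` commuting with commuting operators `d j` of
`p`-power order, which is nilpotent on every `Δ`-fixed element of `W[ϖ]`, is nilpotent on every
element of `W[ϖ]`.

The abstract core `frobNil_core` needs neither the finiteness of `W[ϖ]` nor the commutativity of
the `d j` among themselves: only that `d j - 1` is nilpotent on the elements killed by `p`
(`sub_one_pow_apply_eq_zero`).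
-/

set_option autoImplicit false

noncomputable section

open IsLocalRing Module

namespace Fermat.Agent.NEB.Geom.H6

/-- In any ring, if `d ^ (p ^ n) = 1` then `(d - 1) ^ (p ^ n) ∈ p R`. -/
theorem sub_one_pow_prime_pow {R : Type*} [Ring R] {p : ℕ} (hp : p.Prime) (d : R) (n : ℕ)
    (hd : d ^ (p ^ n) = 1) : ∃ r : R, (d - 1) ^ (p ^ n) = (p : R) * r := by
  obtain ⟨r, hr⟩ := (Commute.one_right (d - 1)).exists_add_pow_prime_pow_eq hp n
  rw [sub_add_cancel, hd, one_pow] at hr
  refine ⟨-((d - 1) * 1 * r), ?_⟩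
  have h1 : (d - 1) ^ (p ^ n) = -((p : R) * (d - 1) * 1 * r) := by
    have h2 : (d - 1) ^ (p ^ n) + (p : R) * (d - 1) * 1 * r = 0 := by
      have h3 : (1 : R) = 1 + ((d - 1) ^ (p ^ n) + (p : R) * (d - 1) * 1 * r) := by
        rw [← add_assoc, add_comm (1 : R)]
        exact hr
      exact (left_eq_add.mp h3)
    exact eq_neg_of_add_eq_zero_left h2
  rw [h1]
  noncomm_ring

/-- An operator of `p`-power order is unipotent on the elements killed by `p`. -/
theorem sub_one_pow_apply_eq_zero {𝒪 : Type*} [CommRing 𝒪] {W : Type*} [AddCommGroup W]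
    [Module 𝒪 W] {p : ℕ} (hp : p.Prime) (d : Module.End 𝒪 W) (n : ℕ) (hd : d ^ (p ^ n) = 1)
    (x : W) (hx : (p : 𝒪) • x = 0) : ((d - 1) ^ (p ^ n)) x = 0 := by
  obtain ⟨r, hr⟩ := sub_one_pow_prime_pow hp d n hd
  rw [hr]
  have h1 : ((p : Module.End 𝒪 W) * r) x = (p : 𝒪) • r x := by
    rw [Module.End.mul_apply]
    have : ((p : Module.End 𝒪 W)) (r x) = (p : 𝒪) • r x := by
      rw [Module.End.natCast_apply, Nat.cast_smul_eq_nsmul]
    exact this
  rw [h1, ← map_smul, hx, map_zero]

/-- **Abstract socle filtration.**  `S` a set of elements stable under `Q` and the `d j`; every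
`d j - 1` is nilpotent on `S`; `Q` commutes with the `d j`.  If `Q` is nilpotent on the elements
of `S` fixed by all `d j`, then `Q` is nilpotent on `S`. -/
theorem frobNil_core {𝒪 : Type*} [CommRing 𝒪] {W : Type*} [AddCommGroup W] [Module 𝒪 W]
    (S : Submodule 𝒪 W) (Q : Module.End 𝒪 W) (hQS : ∀ x ∈ S, Q x ∈ S) :
    ∀ (r : ℕ) (d : Fin r → Module.End 𝒪 W), (∀ j, ∀ x ∈ S, d j x ∈ S) →
      (∀ j, ∀ x ∈ S, ∃ k : ℕ, ((d j - 1) ^ k) x = 0) →
      (∀ i j, Commute (d i) (d j)) → (∀ j, Commute (d j) Q) →
      (∀ x ∈ S, (∀ j, d j x = x) → ∃ m : ℕ, (Q ^ m) x = 0) →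
      ∀ x ∈ S, ∃ m : ℕ, (Q ^ m) x = 0 := by
  intro r
  induction r with
  | zero =>
    intro d _ _ _ _ hfix x hx
    exact hfix x hx (fun j => j.elim0)
  | succ r ih =>
    intro d hdS hnil hcomm hdQ hfix x hx
    -- the last operator
    set e : Module.End 𝒪 W := d (Fin.last r) with he
    have hQpowS : ∀ (m : ℕ), ∀ y ∈ S, (Q ^ m) y ∈ S := by
      intro m
      induction m with
      | zero => intro y hy; simpa using hy
      | succ m ihm =>
        intro y hy
        rw [pow_succ, Module.End.mul_apply]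
        exact ihm _ (hQS y hy)
    have hNS : ∀ y ∈ S, (e - 1) y ∈ S := by
      intro y hy
      rw [LinearMap.sub_apply, Module.End.one_apply]
      exact S.sub_mem (hdS _ y hy) hy
    -- the hypothesis for the first `r` operators
    have hfix' : ∀ y ∈ S, (∀ j : Fin r, d (Fin.castSucc j) y = y) →
        ∃ m : ℕ, (Q ^ m) y = 0 := by
      -- induction on the nilpotency index of `e - 1` at `y`
      have key : ∀ (k : ℕ), ∀ y ∈ S, (∀ j : Fin r, d (Fin.castSucc j) y = y) →
          ((e - 1) ^ k) y = 0 → ∃ m : ℕ, (Q ^ m) y = 0 := by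
        intro k
        induction k with
        | zero =>
          intro y _ _ hy0
          refine ⟨0, ?_⟩
          simpa using hy0
        | succ k ihk =>
          intro y hy hyfix hy0
          have h1 : ((e - 1) ^ k) ((e - 1) y) = 0 := by
            rw [← Module.End.mul_apply, ← pow_succ]
            exact hy0
          have hfixN : ∀ j : Fin r, d (Fin.castSucc j) ((e - 1) y) = (e - 1) y := by
            intro j
            have hc : Commute (d (Fin.castSucc j)) (e - 1) :=
              (hcomm _ _).sub_right (Commute.one_right _)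
            have := congrArg (fun f : Module.End 𝒪 W => f y) hc.eq
            simp only [Module.End.mul_apply] at this
            rw [this, hyfix j]
          obtain ⟨m1, hm1⟩ := ihk ((e - 1) y) (hNS y hy) hfixN h1
          -- `Q ^ m1 y` is fixed by everything
          have hcQ : Commute (e - 1) (Q ^ m1) :=
            ((hdQ _).sub_left (Commute.one_left _)).pow_right m1
          have h2 : (e - 1) ((Q ^ m1) y) = 0 := by
            have := congrArg (fun f : Module.End 𝒪 W => f y) hcQ.eq
            simp only [Module.End.mul_apply] at this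
            rw [this, hm1]
          have h3 : ∀ j : Fin (r + 1), d j ((Q ^ m1) y) = (Q ^ m1) y := by
            intro j
            refine Fin.lastCases ?_ (fun i => ?_) j
            · have h4 := h2
              rw [LinearMap.sub_apply, Module.End.one_apply, sub_eq_zero] at h4
              exact h4
            · have hc : Commute (d (Fin.castSucc i)) (Q ^ m1) := (hdQ _).pow_right m1
              have := congrArg (fun f : Module.End 𝒪 W => f y) hc.eq
              simp only [Module.End.mul_apply] at this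
              rw [this, hyfix i]
          obtain ⟨m2, hm2⟩ := hfix ((Q ^ m1) y) (hQpowS m1 y hy) h3
          refine ⟨m2 + m1, ?_⟩
          rw [pow_add, Module.End.mul_apply]
          exact hm2
      intro y hy hyfix
      obtain ⟨k, hk⟩ := hnil (Fin.last r) y hy
      exact key k y hy hyfix hk
    exact ih (fun j => d (Fin.castSucc j)) (fun j => hdS _) (fun j => hnil _)
      (fun i j => hcomm _ _) (fun j => hdQ _) hfix' x hx

/-- **Leaf W-FROBNIL.** -/
theorem stmt_W_FROBNIL : Stmt_W_FROBNIL := by
  intro 𝒪 _ _ ϖ p hp hpϖ W _ _ _ r n d hd hcomm Q hdQ hfix x hx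
  obtain ⟨a, ha⟩ := Ideal.mem_span_singleton'.mp hpϖ
  -- `S = W[ϖ]`
  let S : Submodule 𝒪 W := Submodule.torsionBy 𝒪 W ϖ
  have hS : ∀ y : W, y ∈ S ↔ ϖ • y = 0 := fun y => Submodule.mem_torsionBy_iff _ _
  have hpS : ∀ y ∈ S, (p : 𝒪) • y = 0 := by
    intro y hy
    rw [← ha, mul_smul, (hS y).1 hy, smul_zero]
  have hstab : ∀ (f : Module.End 𝒪 W), ∀ y ∈ S, f y ∈ S := by
    intro f y hy
    rw [hS] at hy ⊢
    rw [← map_smul, hy, map_zero]
  exact frobNil_core S Q (hstab Q) r d (fun j => hstab (d j))
    (fun j y hy => ⟨p ^ n, sub_one_pow_apply_eq_zero hp.out (d j) n (hd j) y (hpS y hy)⟩)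
    hcomm hdQ (fun y hy hyfix => hfix y ((hS y).1 hy) hyfix) x ((hS x).2 hx)

end Fermat.Agent.NEB.Geom.H6
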