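import Fermat.Agent.NEB.Geom.AsmDefs
import Fermat.Agent.NEB.Geom.H6_WFrobNil

/-!
# NEB-GEOM assembly leaf A-FROBNIL (helper6)

`a_frob_nil : Stmt_A_pi Dm D → Stmt_A_frob_nil D`: for `F = gal (frob_j)` (the twisted Galois
action at a Frobenius element of the Taylor–Wiles prime `q_j`), the operator `(F - a_j)(F - a'_j)`
is nilpotent at every element of `W[ϖ]`.

Proof.  Socle filtration (`frobNil_core`) for the `r + 1` commuting operators
`⟨χ_c(frob_j)⟩, ⟨δ_1⟩, …, ⟨δ_r⟩` of `p`-power order: it suffices to treat the elements `x` of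
`W[ϖ]` fixed by all of them.  Such an `x` is `πup y` (A-PI, `inv`), the twist disappears on it
(`quad_pow_untwist`), `πup` is equivariant for the untwisted Galois action (A-PI, last clause;
`quad_pow_map`), and at level `N` Eichler–Shimura `F² - T_q F + q = 0`, `T_q ≡ a + a'` and
`q ≡ a a'` modulo `ϖ` give the nilpotency (`nil_of_es`).
-/

set_option autoImplicit false
set_option linter.unusedSectionVars false

noncomputable section

open ModularCurve AlgebraicCurve IsLocalRing TensorProduct Polynomial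

namespace Fermat.Agent.NEB.Geom.H6

open Fermat.Agent.NEB Fermat.Agent.NEB.JH Fermat.Agent.S59.Asm Fermat.Agent.S59.Lim
  Fermat.Agent.S59.Lim.H2 Fermat.Agent.NEB.Geom

/-! ## Abstract lemmas -/

section AbsFN

variable {𝒪 : Type*} [CommRing 𝒪] {W₀ : Type*} [AddCommGroup W₀] [Module 𝒪 W₀]

/-- **Level `N`**: if `F² - T F + q = 0`, `T - (a + a')` is nilpotent at `y`, `ϖ ∣ a a' - q` and
`ϖ y = 0`, then `(F - a)(F - a')` is nilpotent at `y`. -/
theorem nil_of_es (F T : Module.End 𝒪 W₀) (hFT : Commute F T) (q a a' ϖ c₁ : 𝒪)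
    (hes : F * F - T * F + q • (1 : Module.End 𝒪 W₀) = 0) (hq : a * a' - q = ϖ * c₁)
    (y : W₀) (hy : ϖ • y = 0)
    (hnil : ∃ m : ℕ, ((T - (a + a') • (1 : Module.End 𝒪 W₀)) ^ m) y = 0) :
    ∃ m : ℕ, (((F - a • (1 : Module.End 𝒪 W₀)) * (F - a' • (1 : Module.End 𝒪 W₀))) ^ m) y = 0 := by
  obtain ⟨m, hm⟩ := hnil
  set N₁ : Module.End 𝒪 W₀ := T - (a + a') • (1 : Module.End 𝒪 W₀) with hN₁
  set Q : Module.End 𝒪 W₀ := (F - a • (1 : Module.End 𝒪 W₀)) * (F - a' • (1 : Module.End 𝒪 W₀))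
    with hQ
  have hcomm : Commute N₁ F := by
    rw [hN₁]
    exact (hFT.symm).sub_left ((Commute.one_left F).smul_left _)
  have hFF : F * F = T * F - q • (1 : Module.End 𝒪 W₀) := by
    have := hes
    rw [sub_add_eq_add_sub, sub_eq_zero] at this
    rw [← this]
    abel
  have hQe : Q = N₁ * F + (a * a' - q) • (1 : Module.End 𝒪 W₀) := by
    rw [hQ, hN₁, sub_mul, mul_sub, mul_sub, hFF]
    simp only [smul_mul_assoc, mul_smul_comm, one_mul, mul_one, add_smul, sub_smul, smul_smul,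
      sub_mul, add_mul]
    rw [mul_comm a' a]
    abel
  have hQz : ∀ z : W₀, ϖ • z = 0 → Q z = (N₁ * F) z := by
    intro z hz
    rw [hQe, LinearMap.add_apply, LinearMap.smul_apply, Module.End.one_apply, hq, mul_comm,
      mul_smul, hz, smul_zero, add_zero]
  have hpow : ∀ (i : ℕ) (z : W₀), ϖ • z = 0 → (Q ^ i) z = ((N₁ * F) ^ i) z := by
    intro i
    induction i with
    | zero => intro z _; rfl
    | succ i ih =>
      intro z hz
      rw [pow_succ, Module.End.mul_apply, hQz z hz, pow_succ, Module.End.mul_apply]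
      apply ih
      rw [← map_smul, ← map_smul, hz, map_zero, map_zero]
  refine ⟨m, ?_⟩
  rw [hpow m y hy, hcomm.mul_pow, (hcomm.pow_pow m m).eq, Module.End.mul_apply, hm, map_zero]

variable {W : Type*} [AddCommGroup W] [Module 𝒪 W]

/-- **Transport** along an equivariant map. -/
theorem quad_pow_map (up : W₀ →ₗ[𝒪] W) (F₀ : Module.End 𝒪 W₀) (Fu : Module.End 𝒪 W)
    (h : ∀ y, Fu (up y) = up (F₀ y)) (a a' : 𝒪) (m : ℕ) (y : W₀) :
    (((Fu - a • (1 : Module.End 𝒪 W)) * (Fu - a' • (1 : Module.End 𝒪 W))) ^ m) (up y)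
      = up ((((F₀ - a • (1 : Module.End 𝒪 W₀)) * (F₀ - a' • (1 : Module.End 𝒪 W₀))) ^ m) y) := by
  have h1 : ∀ (b : 𝒪) (z : W₀), (Fu - b • (1 : Module.End 𝒪 W)) (up z)
      = up ((F₀ - b • (1 : Module.End 𝒪 W₀)) z) := by
    intro b z
    rw [LinearMap.sub_apply, LinearMap.sub_apply, LinearMap.smul_apply, LinearMap.smul_apply,
      Module.End.one_apply, Module.End.one_apply, h, map_sub, map_smul]
  induction m generalizing y with
  | zero => rfl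
  | succ m ih =>
    rw [pow_succ, Module.End.mul_apply, Module.End.mul_apply, h1, h1, ih, pow_succ,
      Module.End.mul_apply, Module.End.mul_apply]

/-- **Untwisting**: if `F = Fu * E ^ k` with `E` commuting with `Fu`, then on the elements fixed
by `E` the powers of `(F - a)(F - a')` and of `(Fu - a)(Fu - a')` agree. -/
theorem quad_pow_untwist (Fu E : Module.End 𝒪 W) (hc : Commute Fu E) (k : ℕ) (a a' : 𝒪)
    (m : ℕ) (x : W) (hx : E x = x) :
    ((((Fu * E ^ k) - a • (1 : Module.End 𝒪 W)) * ((Fu * E ^ k) - a' • (1 : Module.End 𝒪 W))) ^ m) x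
      = (((Fu - a • (1 : Module.End 𝒪 W)) * (Fu - a' • (1 : Module.End 𝒪 W))) ^ m) x := by
  have hEk : ∀ z : W, E z = z → (E ^ k) z = z := by
    intro z hz
    induction k with
    | zero => rfl
    | succ k ih => rw [pow_succ, Module.End.mul_apply, hz, ih]
  have h1 : ∀ (b : 𝒪) (z : W), E z = z →
      ((Fu * E ^ k) - b • (1 : Module.End 𝒪 W)) z = (Fu - b • (1 : Module.End 𝒪 W)) z ∧
      E ((Fu - b • (1 : Module.End 𝒪 W)) z) = (Fu - b • (1 : Module.End 𝒪 W)) z := by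
    intro b z hz
    constructor
    · rw [LinearMap.sub_apply, LinearMap.sub_apply, Module.End.mul_apply, hEk z hz]
    · have hcb : Commute E (Fu - b • (1 : Module.End 𝒪 W)) :=
        hc.symm.sub_right ((Commute.one_right E).smul_right _)
      have := congrArg (fun f : Module.End 𝒪 W => f z) hcb.eq
      simp only [Module.End.mul_apply] at this
      rw [this, hz]
  induction m generalizing x with
  | zero => rfl
  | succ m ih =>
    rw [pow_succ, Module.End.mul_apply, Module.End.mul_apply, pow_succ, Module.End.mul_apply,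
      Module.End.mul_apply, (h1 a' x hx).1, (h1 a _ (h1 a' x hx).2).1]
    exact ih _ (h1 a _ (h1 a' x hx).2).2

/-- **The abstract form of A-FROBNIL.** -/
theorem frobNil_abs (ϖ : 𝒪) (p : ℕ) (hp : p.Prime) (hpϖ : (p : 𝒪) ∈ Ideal.span {ϖ}) (n k : ℕ)
    (E : Module.End 𝒪 W) (r : ℕ) (d : Fin r → Module.End 𝒪 W)
    (hE : E ^ (p ^ n) = 1) (hd : ∀ j, d j ^ (p ^ n) = 1)
    (hEd : ∀ j, Commute E (d j)) (hdd : ∀ i j, Commute (d i) (d j))
    (Fu F : Module.End 𝒪 W) (hF : F = Fu * E ^ k) (hEFu : Commute E Fu)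
    (hdFu : ∀ j, Commute (d j) Fu)
    (up : W₀ →ₗ[𝒪] W) (hinj : Function.Injective up)
    (hinv : ∀ v : W, ϖ • v = 0 → (∀ j, d j v = v) → ∃ y : W₀, up y = v)
    (F₀ : Module.End 𝒪 W₀) (hgal : ∀ y, Fu (up y) = up (F₀ y)) (a a' : 𝒪)
    (h₀ : ∀ y : W₀, ϖ • y = 0 → ∃ m : ℕ,
      (((F₀ - a • (1 : Module.End 𝒪 W₀)) * (F₀ - a' • (1 : Module.End 𝒪 W₀))) ^ m) y = 0)
    (x : W) (hx : ϖ • x = 0) :
    ∃ m : ℕ, (((F - a • (1 : Module.End 𝒪 W)) * (F - a' • (1 : Module.End 𝒪 W))) ^ m) x = 0 := by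
  subst hF
  obtain ⟨c, hc⟩ := Ideal.mem_span_singleton'.mp hpϖ
  -- `S = W[ϖ]`
  let S : Submodule 𝒪 W := Submodule.torsionBy 𝒪 W ϖ
  have hS : ∀ y : W, y ∈ S ↔ ϖ • y = 0 := fun y => Submodule.mem_torsionBy_iff _ _
  have hpS : ∀ y ∈ S, (p : 𝒪) • y = 0 := by
    intro y hy
    rw [← hc, mul_smul, (hS y).1 hy, smul_zero]
  have hstab : ∀ (f : Module.End 𝒪 W), ∀ y ∈ S, f y ∈ S := by
    intro f y hy
    rw [hS] at hy ⊢
    rw [← map_smul, hy, map_zero]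
  set Q : Module.End 𝒪 W := ((Fu * E ^ k) - a • (1 : Module.End 𝒪 W)) *
    ((Fu * E ^ k) - a' • (1 : Module.End 𝒪 W)) with hQ
  -- the family `E, d_1, …, d_r`
  let d' : Fin (r + 1) → Module.End 𝒪 W := Fin.cons E d
  have hd'0 : d' 0 = E := rfl
  have hd's : ∀ i : Fin r, d' i.succ = d i := fun i => rfl
  have hd'pow : ∀ i, d' i ^ (p ^ n) = 1 := by
    intro i
    refine Fin.cases ?_ (fun i => ?_) i
    · exact hE
    · exact hd i
  have hd'comm : ∀ i j, Commute (d' i) (d' j) := by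
    intro i j
    refine Fin.cases ?_ (fun i => ?_) i <;> refine Fin.cases ?_ (fun j => ?_) j
    · exact Commute.refl _
    · exact hEd j
    · exact (hEd i).symm
    · exact hdd i j
  have hd'Fu : ∀ i, Commute (d' i) Fu := by
    intro i
    refine Fin.cases ?_ (fun i => ?_) i
    · exact hEFu
    · exact hdFu i
  have hd'F : ∀ i, Commute (d' i) (Fu * E ^ k) := fun i =>
    (hd'Fu i).mul_right ((hd'comm i 0).pow_right k)
  have hd'Q : ∀ i, Commute (d' i) Q := fun i =>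
    ((hd'F i).sub_right ((Commute.one_right _).smul_right _)).mul_right
      ((hd'F i).sub_right ((Commute.one_right _).smul_right _))
  refine frobNil_core S Q (hstab Q) (r + 1) d' (fun i => hstab (d' i))
    (fun i y hy => ⟨p ^ n, sub_one_pow_apply_eq_zero hp (d' i) n (hd'pow i) y (hpS y hy)⟩)
    hd'comm hd'Q ?_ x ((hS x).2 hx)
  intro v hv hvfix
  have hEv : E v = v := hvfix 0
  obtain ⟨y, rfl⟩ := hinv v ((hS v).1 hv) (fun i => hvfix i.succ)
  have hy : ϖ • y = 0 := by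
    apply hinj
    rw [map_smul, (hS _).1 hv, map_zero]
  obtain ⟨m, hm⟩ := h₀ y hy
  refine ⟨m, ?_⟩
  rw [hQ, quad_pow_untwist Fu E hEFu.symm k a a' m (up y) hEv,
    quad_pow_map up F₀ Fu hgal a a' m y, hm, map_zero]

end AbsFN

/-! ## The diamond operators for `H = twH` have `p`-power order -/

/-- `⟨u⟩ ^ (p ^ n) = 1` on `J_H[p^∞]`, `H` = the `p^n`-th powers. -/
theorem diaZ_twH_pow (M : ℕ) [NeZero M] (p n : ℕ) {r : ℕ} (qv : Fin r → ℕ) (h2 : 2 ≤ twC qv)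
    (hc : twC qv ∣ M) (u : (ZMod (twC qv))ˣ) :
    diaZ M (twC qv) (twH p n qv) h2 hc p u ^ (p ^ n) = 1 := by
  have hmem : u ^ (p ^ n) ∈ twH p n qv := ⟨u, rfl⟩
  rw [← map_pow]
  refine LinearMap.ext fun x => Subtype.ext ?_
  show ((diaZ M (twC qv) (twH p n qv) h2 hc p (u ^ (p ^ n)) x : AH M (twC qv) (twH p n qv) p) :
    JH M (twC qv) (twH p n qv)) = x
  rw [diaZ_apply, ((diamondData M (twC qv) (twH p n qv) h2 hc).ker _).mpr (Or.inl hmem),
    one_smul]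

/-! ## The operators on `W` -/

section Ops

variable {𝒪 : Type} [CommRing 𝒪] [IsDomain 𝒪] [IsDiscreteValuationRing 𝒪]
  {ϖ : 𝒪} {p : ℕ} {N : ℕ} [NeZero N] {S : Finset ℕ}
  {θ : CuspForm.heckeAlgebra N 2 (↑S : Set ℕ) →+* ResidueField 𝒪}
  {ρbar : ResidualGaloisRep (ResidueField 𝒪)} {n : ℕ} {r : ℕ} {qv : Fin r → ℕ}
  [NeZero (N * twC qv)] [NeZero (twC qv)] [NeZero (twLevel N qv)]
  (D : TwSetup 𝒪 ϖ p N S θ ρbar n qv)

/-- The untwisted Galois action on `W`. -/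
def galU (σ : GalQ) : Module.End 𝒪 ↥(Wtw 𝒪 N S p n qv D.h2 D.hcomm θ D.α) :=
  thetaZ (thetaTw N S qv θ D.α) (galZ (N * twC qv) (twC qv) (twH p n qv) p σ)
    (fun t => D.comm_gal σ t)

/-- The diamond operators on `W`. -/
def diaW (u : (ZMod (twC qv))ˣ) : Module.End 𝒪 ↥(Wtw 𝒪 N S p n qv D.h2 D.hcomm θ D.α) :=
  thetaZ (thetaTw N S qv θ D.α)
    (diaZ (N * twC qv) (twC qv) (twH p n qv) D.h2 (dvd_mul_left _ _) p u)
    (fun t => D.comm_dia u t)

/-- The twisted Galois action on `W`, in the explicit type. -/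
def galT (σ : GalQ) : Module.End 𝒪 ↥(Wtw 𝒪 N S p n qv D.h2 D.hcomm θ D.α) :=
  thetaZ (thetaTw N S qv θ D.α) (D.galHom σ) (D.comm_galHom σ)

theorem galT_eq (σ : GalQ) :
    galT D σ = galU D σ * diaW D (chiC (twC qv) σ) ^ (jTw p n + 1) := by
  have h1 : ∀ t, Commute (etaTw N S p n qv D.h2 D.hcomm t)
      (diaZ (N * twC qv) (twC qv) (twH p n qv) D.h2 (dvd_mul_left _ _) p (chiC (twC qv) σ)
        ^ (jTw p n + 1)) := fun t => (D.comm_dia _ t).pow_right _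
  have e1 := thetaZ_pow (θ := thetaTw N S qv θ D.α)
    (fun t => D.comm_dia (chiC (twC qv) σ) t) (jTw p n + 1) h1
  have e2 := thetaZ_mul (θ := thetaTw N S qv θ D.α) (fun t => D.comm_gal σ t) h1
    (fun t => (D.comm_gal σ t).mul_right (h1 t))
  have e3 := thetaZ_congr (θ := thetaTw N S qv θ D.α) (D.comm_galHom σ)
    (fun t => (D.comm_gal σ t).mul_right (h1 t)) (D.galHom_apply σ)
  exact e3.trans (e2.trans (congrArg (fun z => galU D σ * z) e1))

theorem diaW_pow (u : (ZMod (twC qv))ˣ) : diaW D u ^ (p ^ n) = 1 := by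
  have h1 : ∀ t, Commute (etaTw N S p n qv D.h2 D.hcomm t)
      (diaZ (N * twC qv) (twC qv) (twH p n qv) D.h2 (dvd_mul_left _ _) p u ^ (p ^ n)) :=
    fun t => (D.comm_dia _ t).pow_right _
  have e1 := thetaZ_pow (θ := thetaTw N S qv θ D.α) (fun t => D.comm_dia u t) (p ^ n) h1
  have e2 := thetaZ_congr (θ := thetaTw N S qv θ D.α) h1 (fun t => Commute.one_right _)
    (diaZ_twH_pow (N * twC qv) p n qv D.h2 (dvd_mul_left _ _) u)
  exact e1.symm.trans (e2.trans (thetaZ_one _))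

theorem diaW_comm (u v : (ZMod (twC qv))ˣ) : Commute (diaW D u) (diaW D v) :=
  thetaZ_commute _ _ ((Commute.all u v).map _)

theorem diaW_galU (u : (ZMod (twC qv))ˣ) (σ : GalQ) : Commute (diaW D u) (galU D σ) :=
  thetaZ_commute _ _ (D.hcommG (Sum.inr (Sum.inr u)) σ)

theorem diaW_galT (u : (ZMod (twC qv))ˣ) (σ : GalQ) : Commute (diaW D u) (galT D σ) := by
  rw [galT_eq]
  exact (diaW_galU D u σ).mul_right ((diaW_comm D u _).pow_right _)

end Ops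

/-! ## Level `N` -/

theorem commute_congr_left {M : Type*} [Mul M] {a a' b : M} (h : a = a') (hc : Commute a b) :
    Commute a' b := h ▸ hc

theorem commute_congr_right {M : Type*} [Mul M] {a b b' : M} (h : b = b') (hc : Commute a b) :
    Commute a b' := h ▸ hc

/-- `a a' ≡ q` modulo the maximal ideal `(ϖ)`. -/
theorem exists_mul_of_residue {𝒪 : Type} [CommRing 𝒪] [IsDomain 𝒪] [IsDiscreteValuationRing 𝒪]
    {ϖ : 𝒪} (hϖ : Irreducible ϖ) (a a' : 𝒪) (q : ℕ)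
    (hprod : residue 𝒪 (a * a') = ((q : ℕ) : ResidueField 𝒪)) :
    ∃ c₁ : 𝒪, a * a' - (q : 𝒪) = ϖ * c₁ := by
  have h0 : residue 𝒪 (a * a' - (q : 𝒪)) = 0 := by
    rw [map_sub, hprod, map_natCast, sub_self]
  have h1 : a * a' - (q : 𝒪) ∈ maximalIdeal 𝒪 := (residue_eq_zero_iff _).mp h0
  rw [hϖ.maximalIdeal_eq] at h1
  obtain ⟨c₁, hc₁⟩ := Ideal.mem_span_singleton'.mp h1
  exact ⟨c₁, by rw [← hc₁, mul_comm]⟩

section LevelN

variable {𝒪 : Type} [CommRing 𝒪] [IsDomain 𝒪] [IsDiscreteValuationRing 𝒪]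
  {ϖ : 𝒪} {p : ℕ} {N : ℕ} [NeZero N] {S : Finset ℕ}
  {θ : CuspForm.heckeAlgebra N 2 (↑S : Set ℕ) →+* ResidueField 𝒪}

/-- The Galois action on the `θ`-part at level `N`, in the explicit type. -/
def galM (Dm : MinSetup 𝒪 ϖ p N S θ) (σ : GalQ) : Module.End 𝒪 ↥(thetaPart Dm.ηC θ) :=
  thetaZ θ (galZ0 N p σ) (Dm.gal_comm σ)

/-- At level `N`: `(F - a)(F - a')` is nilpotent on `W₀[ϖ]`, for `F` a Frobenius at a good prime
`q` with `a + a' ≡ θ(T_q)` and `a a' ≡ q`. -/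
theorem min_frob_nil (hϖ : Irreducible ϖ) (Dm : MinSetup 𝒪 ϖ p N S θ) (q : ℕ) (hq : q.Prime)
    (hqN : ¬ q ∣ N) (hqS : q ∉ (↑S : Set ℕ)) (hqp : q ≠ p)
    (P : ValuationSubring Kbar) (hP : P.LiesOverPrime q) (σ : GalQ) (hσ : P.IsFrobeniusAt σ q)
    (a a' : 𝒪) (hsum : residue 𝒪 (a + a') = θ (CuspForm.heckeAlgebra.T hq hqN hqS))
    (hprod : residue 𝒪 (a * a') = ((q : ℕ) : ResidueField 𝒪))
    (y : ↥(thetaPart Dm.ηC θ)) (hy : ϖ • y = 0) :
    ∃ m : ℕ, (((galM Dm σ - a • (1 : Module.End 𝒪 ↥(thetaPart Dm.ηC θ))) *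
      (galM Dm σ - a' • (1 : Module.End 𝒪 ↥(thetaPart Dm.ηC θ)))) ^ m) y = 0 := by
  have hηT : Dm.ηC (CuspForm.heckeAlgebra.T hq hqN hqS) = Tz0 N p q := Dm.ηC_T q hq hqN hqS
  have hT : ∀ t, Commute (Dm.ηC t) (Tz0 N p q) := fun t =>
    commute_congr_right hηT ((Commute.all t _).map Dm.ηC)
  have hTg : Commute (Tz0 N p q) (galZ0 N p σ) :=
    commute_congr_left hηT (Dm.gal_comm σ (CuspForm.heckeAlgebra.T hq hqN hqS))
  have hes0 : galZ0 N p σ * galZ0 N p σ - Tz0 N p q * galZ0 N p σ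
      + q • (1 : Module.End ℤ (A0 N p)) = 0 := by
    have h := Dm.es q hq hqN hqp P hP σ hσ
    have e : ((q : ℤ) • (1 : Module.End ℤ (A0 N p))) = q • (1 : Module.End ℤ (A0 N p)) :=
      natCast_zsmul _ _
    exact Eq.mp (congrArg (fun X : Module.End ℤ (A0 N p) =>
      galZ0 N p σ * galZ0 N p σ - Tz0 N p q * galZ0 N p σ + X = 0) e) h
  have hes := thetaZ_es (θ := θ) (Dm.gal_comm σ) hT q hes0
  have hFT : Commute (thetaZ θ (galZ0 N p σ) (Dm.gal_comm σ)) (thetaZ θ (Tz0 N p q) hT) :=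
    thetaZ_commute _ _ hTg.symm
  have hnil : ∃ m : ℕ, ((thetaZ θ (Tz0 N p q) hT
      - (a + a') • (1 : Module.End 𝒪 ↥(thetaPart Dm.ηC θ))) ^ m) y = 0 := by
    have h1 := thetaEta_local (η := Dm.ηC) (θ := θ) (CuspForm.heckeAlgebra.T hq hqN hqS)
      (a + a') hsum y
    have h2 : thetaEta Dm.ηC θ (CuspForm.heckeAlgebra.T hq hqN hqS) = thetaZ θ (Tz0 N p q) hT :=
      (thetaEta_eq _).trans (thetaZ_congr _ _ (Dm.ηC_T q hq hqN hqS))
    exact Eq.mp (congrArg (fun X : Module.End 𝒪 ↥(thetaPart Dm.ηC θ) =>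
      ∃ m : ℕ, ((X - (a + a') • (1 : Module.End 𝒪 ↥(thetaPart Dm.ηC θ))) ^ m) y = 0) h2) h1
  exact Exists.elim (exists_mul_of_residue hϖ a a' q hprod) (fun c₁ hc₂ =>
    nil_of_es (thetaZ θ (galZ0 N p σ) (Dm.gal_comm σ)) (thetaZ θ (Tz0 N p q) hT) hFT
      (q : 𝒪) a a' ϖ c₁ hes hc₂ y hy hnil)

end LevelN

/-! ## The leaf -/

section Main

variable {𝒪 : Type} [CommRing 𝒪] [IsDomain 𝒪] [IsDiscreteValuationRing 𝒪]
  {ϖ : 𝒪} {p : ℕ} {N : ℕ} [NeZero N] {S : Finset ℕ}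
  {θ : CuspForm.heckeAlgebra N 2 (↑S : Set ℕ) →+* ResidueField 𝒪}
  {ρbar : ResidualGaloisRep (ResidueField 𝒪)} {n : ℕ} {r : ℕ} {qv : Fin r → ℕ}
  [NeZero (N * twC qv)] [NeZero (twC qv)] [NeZero (twLevel N qv)]

/-- A-FROBNIL in the explicit types. -/
theorem frob_nil_expl (hϖ : Irreducible ϖ) (hpm : (p : 𝒪) ∈ maximalIdeal 𝒪)
    (Dm : MinSetup 𝒪 ϖ p N S θ) (D : TwSetup 𝒪 ϖ p N S θ ρbar n qv)
    (up : ↥(thetaPart Dm.ηC θ) →ₗ[𝒪] ↥(Wtw 𝒪 N S p n qv D.h2 D.hcomm θ D.α))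
    (hinj : Function.Injective up)
    (hinv : ∀ v : ↥(Wtw 𝒪 N S p n qv D.h2 D.hcomm θ D.α), ϖ • v = 0 →
      (∀ j, diaW D (D.δ j) v = v) → ∃ y, up y = v)
    (hgal : ∀ (σ : GalQ) (y : ↥(thetaPart Dm.ηC θ)), galU D σ (up y) = up (galM Dm σ y))
    (j : Fin r) (x : ↥(Wtw 𝒪 N S p n qv D.h2 D.hcomm θ D.α)) (hx : ϖ • x = 0) :
    ∃ m : ℕ, (((galT D (D.frob j)
        - D.a j • (1 : Module.End 𝒪 ↥(Wtw 𝒪 N S p n qv D.h2 D.hcomm θ D.α))) *
      (galT D (D.frob j)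
        - D.a' j • (1 : Module.End 𝒪 ↥(Wtw 𝒪 N S p n qv D.h2 D.hcomm θ D.α)))) ^ m) x = 0 := by
  have hp : p.Prime := D.hTW.hp
  have hpϖ : (p : 𝒪) ∈ Ideal.span {ϖ} := hϖ.maximalIdeal_eq ▸ hpm
  have hq : (qv j).Prime := D.hTW.prime j
  have hqS' : qv j ∉ S := D.hTW.notS j
  have hqS : qv j ∉ (↑S : Set ℕ) := fun h => hqS' (Finset.mem_coe.mp h)
  have hqN : ¬ qv j ∣ N := fun h => hqS' (D.hTW.hNS (qv j) hq h)
  have hqp : qv j ≠ p := fun h => hqS' (h ▸ D.hTW.hpS)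
  have hsum : residue 𝒪 (D.a j + D.a' j) = θ (CuspForm.heckeAlgebra.T hq hqN hqS) := by
    rw [map_add, D.ha, D.ha', D.eig.add j hq hqN hqS]
  have hprod : residue 𝒪 (D.a j * D.a' j) = ((qv j : ℕ) : ResidueField 𝒪) := by
    rw [map_mul, D.ha, D.ha', D.eig.mul, D.eig.q_one]
  exact frobNil_abs ϖ p hp hpϖ n (jTw p n + 1) (diaW D (chiC (twC qv) (D.frob j))) r
    (fun i => diaW D (D.δ i)) (diaW_pow D _) (fun i => diaW_pow D _)
    (fun i => diaW_comm D _ _) (fun i i' => diaW_comm D _ _)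
    (galU D (D.frob j)) (galT D (D.frob j)) (galT_eq D (D.frob j)) (diaW_galU D _ _)
    (fun i => diaW_galU D _ _) up hinj hinv (galM Dm (D.frob j)) (hgal (D.frob j))
    (D.a j) (D.a' j)
    (fun y hy => min_frob_nil hϖ Dm (qv j) hq hqN hqS hqp (D.P j) (D.P_over j) (D.frob j)
      (D.frob_spec j) (D.a j) (D.a' j) hsum hprod y hy)
    x hx

/-- **Leaf A-FROBNIL**: `(F - a_j)(F - a'_j)` is nilpotent on `W[ϖ]`, `F = gal (frob_j)`. -/
theorem a_frob_nil (hϖ : Irreducible ϖ) (hpm : (p : 𝒪) ∈ maximalIdeal 𝒪)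
    (Dm : MinSetup 𝒪 ϖ p N S θ) (D : TwSetup 𝒪 ϖ p N S θ ρbar n qv)
    (hpi : Stmt_A_pi Dm D) : Stmt_A_frob_nil D := by
  obtain ⟨π, πup, hinj, -, -, hinv, -, hgalπ⟩ := hpi
  intro j x hx
  exact frob_nil_expl hϖ hpm Dm D πup hinj hinv
    (fun σ y => Subtype.ext (hgalπ σ y).symm) j x hx

end Main

end Fermat.Agent.NEB.Geom.H6
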