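import Fermat.Agent.NEB.Geom.H46_WLGAbs

/-!
# NEB-GEOM, leaf W-LG (helper46): the core, over an abstract finite module

`V` is a finite module over the finite commutative ring `R`, killed by `p ^ m`; `Γ` acts on `V` by
`galV`, `G` by `dV` (through elements of `R`).  From `TWH.absLG` for a tame generator `τ₀` and the
tame relations we get: the whole of `I` acts trivially on the generalised eigenspace `φ = u`.
-/

set_option autoImplicit false

namespace Fermat.Agent.NEB.Geom.H46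

open Fermat.Agent.S59.TWH

section Cancel

variable {V : Type*} [AddCommGroup V]

/-- An element killed by two coprime integers is zero. -/
theorem eq_zero_of_coprime_nsmul {Q P : ℕ} (h : Nat.Coprime Q P) {y : V} (h1 : Q • y = 0)
    (h2 : P • y = 0) : y = 0 := by
  have d1 : addOrderOf y ∣ Q := addOrderOf_dvd_of_nsmul_eq_zero h1
  have d2 : addOrderOf y ∣ P := addOrderOf_dvd_of_nsmul_eq_zero h2
  have d3 : addOrderOf y = 1 := Nat.eq_one_of_dvd_coprimes h d1 d2
  exact AddMonoid.addOrderOf_eq_one_iff.mp d3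

end Cancel

section Generic

variable {R : Type*} [CommRing R] {V : Type*} [AddCommGroup V] [Module R V]

theorem isUnit_add_mul_sub {c x y z : R} (hc : IsUnit c) (hx : IsNilpotent x)
    (hz : IsNilpotent z) : IsUnit (c + (x * y - z)) := by
  refine IsNilpotent.isUnit_add_left_of_commute ?_ hc (Commute.all _ _)
  exact (Commute.all _ _).isNilpotent_sub ((Commute.all _ _).isNilpotent_mul_right hx) hz

theorem smul_one_pow_eq_zero (r : R) (M : ℕ) (h : r ^ M = 0) :
    ((r • (1 : Module.End R V)) ^ M) = 0 := by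
  rw [smul_pow, h, zero_smul]

theorem commute_smul_one (E : Module.End R V) (r : R) :
    Commute E (r • (1 : Module.End R V)) :=
  (Commute.one_right E).smul_right r

theorem sub_smul_one_sub (E : Module.End R V) (a u : R) :
    E - a • (1 : Module.End R V) - (u - a) • (1 : Module.End R V)
      = (E - u • LinearMap.id : V →ₗ[R] V) := by
  rw [sub_smul]
  show _ = E - u • (1 : Module.End R V)
  abel

/-- the generalised eigenvectors of `E` for `a` are generalised eigenvectors for `u`, if `u - a`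
is nilpotent -/
theorem gen_eigen_shift (E : Module.End R V) (a u : R) {M N : ℕ} (hM : (u - a) ^ M = 0)
    {v : V} (hv : ((E - a • (1 : Module.End R V)) ^ N) v = 0) :
    (((E - u • LinearMap.id : V →ₗ[R] V)) ^ (N + M)) v = 0 := by
  have h := pow_sub_apply_eq_zero (E - a • (1 : Module.End R V)) ((u - a) • (1 : Module.End R V))
    (commute_smul_one _ _) (smul_one_pow_eq_zero (V := V) (u - a) M hM) hv
  rw [sub_smul_one_sub] at h
  exact h

end Generic

section Core

variable {R : Type*} [CommRing R] [Finite R] {V : Type*} [AddCommGroup V] [Module R V] [Finite V]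

/-- a unipotent operator of order prime to `p` on a `p`-group is trivial -/
theorem end_eq_one_of_unip {p m : ℕ} (hV : ∀ v : V, p ^ m • v = 0) (g : Module.End R V)
    (n Q : ℕ) (hQ : Nat.Coprime Q p) (hE : ∀ v, ((g - 1) ^ n) v = 0) (hg : ∀ v, (g ^ Q) v = v) :
    g = 1 := by
  apply eq_one_of_unip g n Q
  · exact LinearMap.ext hE
  · exact LinearMap.ext hg
  · intro f hf
    ext v
    rw [LinearMap.zero_apply]
    apply eq_zero_of_coprime_nsmul (Nat.Coprime.pow_right m hQ) _ (hV (f v))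
    have := congrArg (fun F : Module.End R V => F v) hf
    simpa [Module.End.mul_apply, Nat.cast_smul_eq_nsmul] using this

/-- **Core of W-LG.** -/
theorem wlg_core {p : ℕ} [Fact p.Prime] {m : ℕ} (hV : ∀ v : V, p ^ m • v = 0)
    {Γ : Type*} [Group Γ] (galV : Γ →* Module.End R V)
    {G : Type*} [Group G] (dV : G →* Module.End R V) (n : ℕ)
    (hdp : ∀ g, dV g ^ (p ^ n) = 1) (hd : ∀ g, ∃ z : R, ∀ v, dV g v = z • v)
    (KV : Submodule R V) (hKgal : ∀ g, ∀ x ∈ KV, galV g x ∈ KV)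
    (I : Subgroup Γ) (frob : Γ) (hnorm : ∀ σ ∈ I, frob * σ * frob⁻¹ ∈ I)
    (hinert : ∀ σ ∈ I, ∀ v, galV σ v - v ∈ KV)
    (u₀ : G) (u : R) (q : ℕ)
    (h5 : IsUnit (u ^ 2 - (q : R))) (h6a : IsNilpotent ((q : R) - 1))
    (hkey : ∀ x ∈ KV, (∀ g, dV g x = x) → u • galV frob x = (q : R) • x)
    (htriv : ∀ σ ∈ I, ∀ v : V, (∀ r : R, IsNilpotent r → r • v = 0) → galV σ v = v)
    (τ₀ : Γ) (hτ₀ : τ₀ ∈ I)
    (htame1 : ∀ σ ∈ I, ∃ j Q : ℕ, Nat.Coprime Q p ∧
      ∀ v, galV (((τ₀ ^ j)⁻¹ * σ) ^ Q) v = v)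
    (htame2 : ∃ Q : ℕ, Nat.Coprime Q p ∧
      ∀ v, galV (((τ₀ ^ q)⁻¹ * (frob * τ₀ * frob⁻¹)) ^ Q) v = v)
    (σ : Γ) (hσ : σ ∈ I) (v : V) (N : ℕ)
    (hv : (((galV frob * dV u₀ - u • LinearMap.id : V →ₗ[R] V)) ^ N) v = 0) :
    galV σ v = v := by
  classical
  -- the nilradical is nilpotent
  haveI : IsArtinianRing R := inferInstance
  obtain ⟨n𝔪, hn𝔪⟩ := IsArtinianRing.isNilpotent_nilradical (R := R)
  have h𝔪 : ∀ r ∈ (nilradical R) ^ n𝔪, ∀ v : V, r • v = 0 := by
    intro r hr v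
    rw [hn𝔪] at hr
    have : r = 0 := hr
    rw [this, zero_smul]
  have h6b : ∀ τ ∈ I, ∀ v : V, (∀ r ∈ nilradical R, r • v = 0) → galV τ v = v := by
    intro τ hτ v hv
    exact htriv τ hτ v (fun r hr => hv r (mem_nilradical.mpr hr))
  -- every element of inertia of order prime to `p` on `V` is trivial on `V`
  have hone : ∀ τ ∈ I, ∀ Q : ℕ, Nat.Coprime Q p → (∀ v, galV (τ ^ Q) v = v) → galV τ = 1 := by
    intro τ hτ Q hQ hτQ
    apply end_eq_one_of_unip hV (galV τ) n𝔪 Q hQ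
    · intro v
      exact pow_sub_one_apply_eq_zero (𝔪 := nilradical R) (galV τ) (h6b τ hτ) n𝔪 h𝔪 v
    · intro v
      rw [← map_pow]
      exact hτQ v
  -- the tame relation
  have hg : galV ((τ₀ ^ q)⁻¹ * (frob * τ₀ * frob⁻¹)) = 1 := by
    obtain ⟨Q, hQ, hQv⟩ := htame2
    exact hone _ (I.mul_mem (I.inv_mem (I.pow_mem hτ₀ q)) (hnorm τ₀ hτ₀)) Q hQ hQv
  have hrel : galV frob * galV τ₀ = galV τ₀ ^ q * galV frob := by
    have e : frob * τ₀ = τ₀ ^ q * ((τ₀ ^ q)⁻¹ * (frob * τ₀ * frob⁻¹)) * frob := by group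
    rw [← map_mul, e, map_mul, map_mul, hg, mul_one, map_pow]
  -- `dV` commutes with `R`-linear maps
  have hdcomm : ∀ (g : G) (F : Module.End R V), Commute (dV g) F := by
    intro g F
    obtain ⟨z, hz⟩ := hd g
    ext w
    rw [Module.End.mul_apply, Module.End.mul_apply, hz, hz, map_smul]
  -- the `p`-group `Δ`
  set Δ : Subgroup (Module.End R V)ˣ := (MonoidHom.toHomUnits dV).range with hΔdef
  have hΔ : IsPGroup p Δ := by
    rintro ⟨δ, g, rfl⟩
    refine ⟨n, ?_⟩
    apply Subtype.ext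
    apply Units.ext
    simp only [SubmonoidClass.mk_pow, Subgroup.coe_one, Units.val_pow_eq_pow_val,
      MonoidHom.coe_toHomUnits, Units.val_one]
    exact hdp g
  have hΔsmul : ∀ (δ : Δ) (w : V), ∃ g : G, δ • w = dV g w := by
    rintro ⟨δ, g, rfl⟩ w
    exact ⟨g, rfl⟩
  have hΔfix : ∀ w : V, (∀ δ : Δ, δ • w = w) → ∀ g, dV g w = w := by
    intro w hw g
    exact hw ⟨MonoidHom.toHomUnits dV g, ⟨g, rfl⟩⟩
  have hVp : ∀ w : V, ∃ k : ℕ, (p ^ k) • w = 0 := fun w => ⟨m, hV w⟩
  set φ : V →ₗ[R] V := galV frob * dV u₀ with hφ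
  have key := absLG hΔ hVp φ (galV τ₀) u q (nilradical R) n𝔪 h𝔪 KV
    (by
      intro δ x hx
      obtain ⟨g, hg⟩ := hΔsmul δ x
      obtain ⟨z, hz⟩ := hd g
      rw [hg, hz]
      exact KV.smul_mem z hx)
    (by
      intro x hx
      rw [hφ, Module.End.mul_apply]
      apply hKgal
      obtain ⟨z, hz⟩ := hd u₀
      rw [hz]
      exact KV.smul_mem z hx)
    (by
      intro δ w
      obtain ⟨δ, g, rfl⟩ := δ
      show φ (dV g w) = dV g (φ w)
      exact (congrArg (fun F : Module.End R V => F w) (hdcomm g φ).eq).symm)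
    (by
      intro δ w
      obtain ⟨δ, g, rfl⟩ := δ
      show dV g (u • w) = u • dV g w
      rw [map_smul])
    (hinert τ₀ hτ₀)
    (by
      intro x hx hfix
      have hfix' := hΔfix x hfix
      rw [hφ, Module.End.mul_apply, hfix' u₀]
      exact hkey x hx hfix')
    h5 (mem_nilradical.mpr h6a) (h6b τ₀ hτ₀)
    (by
      intro w
      rw [hφ]
      have h1 : (galV frob * dV u₀) ((galV τ₀) w) = (galV frob * galV τ₀) (dV u₀ w) := by
        rw [Module.End.mul_apply, Module.End.mul_apply]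
        congr 1
        exact congrArg (fun F : Module.End R V => F w) (hdcomm u₀ (galV τ₀)).eq
      rw [h1, hrel]
      rfl)
    v N hv
  -- general `σ`
  obtain ⟨j, Q, hQ, hQv⟩ := htame1 σ hσ
  have hh : galV ((τ₀ ^ j)⁻¹ * σ) = 1 :=
    hone _ (I.mul_mem (I.inv_mem (I.pow_mem hτ₀ j)) hσ) Q hQ hQv
  have e : σ = τ₀ ^ j * ((τ₀ ^ j)⁻¹ * σ) := by group
  rw [e, map_mul, hh, mul_one, map_pow]
  have : ∀ i : ℕ, (galV τ₀ ^ i) v = v := by
    intro i
    induction i with
    | zero => rfl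
    | succ i ih => rw [pow_succ, Module.End.mul_apply, key.1, ih]
  exact this j

end Core

end Fermat.Agent.NEB.Geom.H46
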