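import Fermat.Agent.NEB.Geom.DefsW
import Fermat.Agent.NEB.Geom.H46_WLGCore

/-!
# NEB-GEOM, leaf W-LG (helper46): `stmt_W_LG : Stmt_W_LG`

Instantiation of `wlg_core` (`H46_WLGCore.lean`, built on `TWH.absLG`):
`V = W[ϖ^m]` (`W` the `θ`-part of `𝒪 ⊗ A`), `R = (𝒪 ⊗ 𝕋) / Ann V`, a finite local ring.
-/

set_option autoImplicit false
set_option linter.unusedSectionVars false

noncomputable section

open IsLocalRing TensorProduct Module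

namespace Fermat.Agent.NEB.Geom.H46

open Fermat.Agent.S59.Lim Fermat.Agent.S59.Lim.H2 Fermat.Agent.S59.TWH Fermat.Agent.NEB.Geom

/-! ### The module `V = W[c]` over `R = (𝒪 ⊗ 𝕋) / Ann` -/

section Setup

variable {𝒪 : Type} [CommRing 𝒪] [IsLocalRing 𝒪] {𝕋 : Type} [CommRing 𝕋]
  {A : Type} [AddCommGroup A]
variable (η : 𝕋 →+* Module.End ℤ A) (θ : 𝕋 →+* ResidueField 𝒪) (c : 𝒪)

/-- `V = W[c]`. -/
def VS : Submodule 𝒪 (𝒪 ⊗[ℤ] A) :=
  thetaPart η θ ⊓ Submodule.torsionBy 𝒪 (𝒪 ⊗[ℤ] A) c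

variable {η θ c} in
theorem mem_VS {x : 𝒪 ⊗[ℤ] A} : x ∈ VS η θ c ↔ x ∈ thetaPart η θ ∧ c • x = 0 := by
  rw [VS, Submodule.mem_inf, Submodule.mem_torsionBy_iff]

theorem eta_eq_opHom (t : 𝕋) : (η t).baseChange 𝒪 = opHom 𝒪 η ((1 : 𝒪) ⊗ₜ[ℤ] t) := by
  rw [opHom_tmul, one_smul]

variable {η} in
theorem commute_opHom {f : Module.End 𝒪 (𝒪 ⊗[ℤ] A)}
    (hf : ∀ t, Commute ((η t).baseChange 𝒪) f) (r : opRing 𝒪 𝕋) :
    Commute f (opHom 𝒪 η r) := by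
  induction r using TensorProduct.induction_on with
  | zero =>
    rw [map_zero]
    exact Commute.zero_right f
  | tmul a t =>
    rw [opHom_tmul]
    exact ((hf t).symm).smul_right a
  | add x y hx hy =>
    rw [map_add]
    exact hx.add_right hy

theorem opHom_commute_eta (r : opRing 𝒪 𝕋) (t : 𝕋) :
    Commute ((η t).baseChange 𝒪) (opHom 𝒪 η r) := by
  rw [eta_eq_opHom]
  exact (Commute.all _ _).map (opHom 𝒪 η)

variable {η θ c} in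
theorem map_mem_VS {f : Module.End 𝒪 (𝒪 ⊗[ℤ] A)}
    (hf : ∀ t, Commute ((η t).baseChange 𝒪) f) {x : 𝒪 ⊗[ℤ] A} (hx : x ∈ VS η θ c) :
    f x ∈ VS η θ c := by
  rw [mem_VS] at hx ⊢
  exact ⟨thetaPart_stable hf hx.1, by rw [← map_smul, hx.2, map_zero]⟩

/-- Restriction to `V` of an endomorphism commuting with the Hecke operators. -/
def resV (f : Module.End 𝒪 (𝒪 ⊗[ℤ] A)) (hf : ∀ t, Commute ((η t).baseChange 𝒪) f) :
    Module.End 𝒪 ↥(VS η θ c) :=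
  f.restrict (fun _ hx => map_mem_VS hf hx)

/-- The action of `𝒪 ⊗ 𝕋` on `V`. -/
def rho : opRing 𝒪 𝕋 →+* Module.End 𝒪 ↥(VS η θ c) where
  toFun r := resV η θ c (opHom 𝒪 η r) (fun t => opHom_commute_eta η r t)
  map_one' := by
    ext v
    simp [resV]
  map_mul' r s := by
    ext v
    simp [resV]
  map_zero' := by
    ext v
    simp [resV]
  map_add' r s := by
    ext v
    simp [resV]

theorem rho_apply_coe (r : opRing 𝒪 𝕋) (v : ↥(VS η θ c)) :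
    ((rho η θ c r v : ↥(VS η θ c)) : 𝒪 ⊗[ℤ] A) = opHom 𝒪 η r (v : 𝒪 ⊗[ℤ] A) := rfl

/-- The ring `R = (𝒪 ⊗ 𝕋) / Ann V`. -/
abbrev RR : Type := opRing 𝒪 𝕋 ⧸ RingHom.ker (rho η θ c)

instance modRR : Module (RR η θ c) ↥(VS η θ c) :=
  Module.compHom _ (RingHom.kerLift (rho η θ c))

theorem mk_smul (r : opRing 𝒪 𝕋) (v : ↥(VS η θ c)) :
    (Ideal.Quotient.mk (RingHom.ker (rho η θ c)) r : RR η θ c) • v = rho η θ c r v := rfl

theorem mk_smul_coe (r : opRing 𝒪 𝕋) (v : ↥(VS η θ c)) :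
    (((Ideal.Quotient.mk (RingHom.ker (rho η θ c)) r : RR η θ c) • v : ↥(VS η θ c)) :
      𝒪 ⊗[ℤ] A) = opHom 𝒪 η r (v : 𝒪 ⊗[ℤ] A) := rfl

theorem mk_eq_zero_iff (r : opRing 𝒪 𝕋) :
    (Ideal.Quotient.mk (RingHom.ker (rho η θ c)) r : RR η θ c) = 0 ↔
      ∀ v : ↥(VS η θ c), opHom 𝒪 η r (v : 𝒪 ⊗[ℤ] A) = 0 := by
  rw [Ideal.Quotient.eq_zero_iff_mem, RingHom.mem_ker]
  constructor
  · intro h v
    rw [← rho_apply_coe, h]
    rfl
  · intro h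
    ext v
    rw [rho_apply_coe, h]
    rfl

/-- An `R`-linear endomorphism of `V` from an endomorphism commuting with the Hecke operators. -/
def linV (f : Module.End 𝒪 (𝒪 ⊗[ℤ] A)) (hf : ∀ t, Commute ((η t).baseChange 𝒪) f) :
    ↥(VS η θ c) →ₗ[RR η θ c] ↥(VS η θ c) where
  toFun v := resV η θ c f hf v
  map_add' := map_add _
  map_smul' := by
    intro r v
    obtain ⟨r, rfl⟩ := Ideal.Quotient.mk_surjective r
    apply Subtype.ext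
    show f (opHom 𝒪 η r v) = opHom 𝒪 η r (f v)
    exact congrArg (fun g : Module.End 𝒪 (𝒪 ⊗[ℤ] A) => g (v : 𝒪 ⊗[ℤ] A)) (commute_opHom hf r).eq

theorem linV_coe (f : Module.End 𝒪 (𝒪 ⊗[ℤ] A)) (hf : ∀ t, Commute ((η t).baseChange 𝒪) f)
    (v : ↥(VS η θ c)) : ((linV η θ c f hf v : ↥(VS η θ c)) : 𝒪 ⊗[ℤ] A) = f v := rfl

theorem linV_pow_coe (f : Module.End 𝒪 (𝒪 ⊗[ℤ] A))
    (hf : ∀ t, Commute ((η t).baseChange 𝒪) f) (N : ℕ) (v : ↥(VS η θ c)) :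
    ((((linV η θ c f hf) ^ N) v : ↥(VS η θ c)) : 𝒪 ⊗[ℤ] A) = (f ^ N) v := by
  induction N generalizing v with
  | zero => rfl
  | succ N ih =>
    rw [pow_succ, Module.End.mul_apply, ih, linV_coe, pow_succ, Module.End.mul_apply]

theorem rho_pow_coe (r : opRing 𝒪 𝕋) (N : ℕ) (v : ↥(VS η θ c)) :
    ((((rho η θ c r) ^ N) v : ↥(VS η θ c)) : 𝒪 ⊗[ℤ] A) = ((opHom 𝒪 η r) ^ N) v := by
  rw [← map_pow, rho_apply_coe, map_pow]

/-- The action of a monoid commuting with the Hecke operators, on `V`. -/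
def homV {M : Type*} [Monoid M] (ρ₀ : M →* Module.End ℤ A) (h : ∀ g t, Commute (η t) (ρ₀ g)) :
    M →* Module.End (RR η θ c) ↥(VS η θ c) where
  toFun g := linV η θ c ((ρ₀ g).baseChange 𝒪) (fun t => baseChange_commute 𝒪 (h g t))
  map_one' := by
    apply LinearMap.ext
    intro v
    apply Subtype.ext
    rw [linV_coe, map_one, baseChange_one_eq]
    rfl
  map_mul' g g' := by
    apply LinearMap.ext
    intro v
    apply Subtype.ext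
    rw [linV_coe, map_mul, baseChange_mul_eq]
    rfl

theorem homV_coe {M : Type*} [Monoid M] (ρ₀ : M →* Module.End ℤ A)
    (h : ∀ g t, Commute (η t) (ρ₀ g)) (g : M) (v : ↥(VS η θ c)) :
    ((homV η θ c ρ₀ h g v : ↥(VS η θ c)) : 𝒪 ⊗[ℤ] A) = (ρ₀ g).baseChange 𝒪 v := rfl

/-! ### `𝒪 ⊗ K` -/

theorem KO_stable (K : AddSubgroup A) (f : Module.End ℤ A) (hf : ∀ x ∈ K, f x ∈ K)
    {x : 𝒪 ⊗[ℤ] A} (hx : x ∈ KO 𝒪 K) : f.baseChange 𝒪 x ∈ KO 𝒪 K := by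
  obtain ⟨y, rfl⟩ := hx
  have hf' : ∀ x ∈ AddSubgroup.toIntSubmodule K, f x ∈ AddSubgroup.toIntSubmodule K := hf
  refine ⟨(f.restrict hf').baseChange 𝒪 y, ?_⟩
  rw [← LinearMap.comp_apply, ← LinearMap.baseChange_comp, ← LinearMap.comp_apply,
    ← LinearMap.baseChange_comp]
  rfl

theorem KO_of_forall_mem (K : AddSubgroup A) (f : Module.End ℤ A) (hf : ∀ x, f x ∈ K)
    (x : 𝒪 ⊗[ℤ] A) : f.baseChange 𝒪 x ∈ KO 𝒪 K := by
  have hf' : ∀ x, f x ∈ AddSubgroup.toIntSubmodule K := hf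
  refine ⟨(f.codRestrict _ hf').baseChange 𝒪 x, ?_⟩
  rw [← LinearMap.comp_apply, ← LinearMap.baseChange_comp]
  rfl

theorem opHom_mem_KO (K : AddSubgroup A) (hK : ∀ (t : 𝕋) (x : A), x ∈ K → η t x ∈ K)
    (r : opRing 𝒪 𝕋) {x : 𝒪 ⊗[ℤ] A} (hx : x ∈ KO 𝒪 K) : opHom 𝒪 η r x ∈ KO 𝒪 K := by
  induction r using TensorProduct.induction_on with
  | zero =>
    rw [map_zero]
    exact (KO 𝒪 K).zero_mem
  | tmul a t =>
    rw [opHom_tmul, LinearMap.smul_apply]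
    exact (KO 𝒪 K).smul_mem a (KO_stable K (η t) (hK t) hx)
  | add y z hy hz =>
    rw [map_add, LinearMap.add_apply]
    exact (KO 𝒪 K).add_mem hy hz

/-- `K_V = (𝒪 ⊗ K) ∩ V`. -/
def KV (K : AddSubgroup A) (hK : ∀ (t : 𝕋) (x : A), x ∈ K → η t x ∈ K) :
    Submodule (RR η θ c) ↥(VS η θ c) where
  carrier := {v | (v : 𝒪 ⊗[ℤ] A) ∈ KO 𝒪 K}
  add_mem' := fun ha hb => (KO 𝒪 K).add_mem ha hb
  zero_mem' := (KO 𝒪 K).zero_mem
  smul_mem' := by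
    intro r v hv
    obtain ⟨r, rfl⟩ := Ideal.Quotient.mk_surjective r
    exact opHom_mem_KO η K hK r hv

theorem mem_KV (K : AddSubgroup A) (hK : ∀ (t : 𝕋) (x : A), x ∈ K → η t x ∈ K)
    (v : ↥(VS η θ c)) : v ∈ KV η θ c K hK ↔ (v : 𝒪 ⊗[ℤ] A) ∈ KO 𝒪 K := Iff.rfl

/-! ### Nilpotent elements and units of `R` -/

theorem isNilpotent_mk_of_loc [Finite ↥(VS η θ c)] (r : opRing 𝒪 𝕋)
    (h : ∀ v : ↥(VS η θ c), ∃ N : ℕ, ((opHom 𝒪 η r) ^ N) (v : 𝒪 ⊗[ℤ] A) = 0) :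
    IsNilpotent (Ideal.Quotient.mk (RingHom.ker (rho η θ c)) r : RR η θ c) := by
  haveI : Module.Finite 𝒪 ↥(VS η θ c) := Module.Finite.of_finite
  have h1 : IsNilpotent (rho η θ c r) := by
    rw [Module.End.isNilpotent_iff_of_finite]
    intro v
    obtain ⟨N, hN⟩ := h v
    refine ⟨N, Subtype.ext ?_⟩
    rw [rho_pow_coe, hN]
    rfl
  obtain ⟨N, hN⟩ := h1
  refine ⟨N, ?_⟩
  rw [← map_pow, Ideal.Quotient.eq_zero_iff_mem, RingHom.mem_ker, map_pow, hN]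

theorem finite_RR [Finite ↥(VS η θ c)] : Finite (RR η θ c) := by
  have h1 : Function.Injective
      (fun (r : RR η θ c) (v : ↥(VS η θ c)) => RingHom.kerLift (rho η θ c) r v) := by
    intro r r' h
    apply RingHom.kerLift_injective (rho η θ c)
    apply LinearMap.ext
    intro v
    exact congrFun h v
  exact Finite.of_injective _ h1

/-- The ring homomorphism `𝒪 → R`. -/
def iota : 𝒪 →+* RR η θ c :=
  (Ideal.Quotient.mk (RingHom.ker (rho η θ c))).comp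
    (Algebra.TensorProduct.includeLeftRingHom : 𝒪 →+* opRing 𝒪 𝕋)

theorem iota_smul_coe (b : 𝒪) (v : ↥(VS η θ c)) :
    ((iota η θ c b • v : ↥(VS η θ c)) : 𝒪 ⊗[ℤ] A) = b • (v : 𝒪 ⊗[ℤ] A) := by
  show opHom 𝒪 η (b ⊗ₜ[ℤ] (1 : 𝕋)) (v : 𝒪 ⊗[ℤ] A) = _
  rw [opHom_pi]

/-- The image of `t ∈ 𝕋` in `R`. -/
def tee : 𝕋 →+* RR η θ c :=
  (Ideal.Quotient.mk (RingHom.ker (rho η θ c))).comp
    (Algebra.TensorProduct.includeRight.toRingHom : 𝕋 →+* opRing 𝒪 𝕋)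

theorem tee_smul_coe (t : 𝕋) (v : ↥(VS η θ c)) :
    ((tee η θ c t • v : ↥(VS η θ c)) : 𝒪 ⊗[ℤ] A) = (η t).baseChange 𝒪 (v : 𝒪 ⊗[ℤ] A) := by
  show opHom 𝒪 η ((1 : 𝒪) ⊗ₜ[ℤ] t) (v : 𝒪 ⊗[ℤ] A) = _
  rw [← eta_eq_opHom]

theorem isNilpotent_iota [Finite ↥(VS η θ c)] (b : 𝒪) (N : ℕ)
    (h : ∀ v : ↥(VS η θ c), b ^ N • (v : 𝒪 ⊗[ℤ] A) = 0) : IsNilpotent (iota η θ c b) := by
  refine ⟨N, ?_⟩
  rw [← map_pow]
  show (Ideal.Quotient.mk (RingHom.ker (rho η θ c))) ((b ^ N) ⊗ₜ[ℤ] (1 : 𝕋)) = 0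
  rw [mk_eq_zero_iff]
  intro v
  rw [opHom_pi, h]

theorem isNilpotent_tee_sub [Finite ↥(VS η θ c)] (t : 𝕋) (a : 𝒪) (ha : residue 𝒪 a = θ t) :
    IsNilpotent (tee η θ c t - iota η θ c a) := by
  have e : tee η θ c t - iota η θ c a
      = Ideal.Quotient.mk (RingHom.ker (rho η θ c)) ((1 : 𝒪) ⊗ₜ[ℤ] t - a ⊗ₜ[ℤ] (1 : 𝕋)) := by
    rw [map_sub]
    rfl
  rw [e]
  apply isNilpotent_mk_of_loc
  intro v
  have hv := (mem_VS.mp v.2).1
  rw [mem_thetaPart] at hv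
  obtain ⟨N, hN⟩ := hv t a ha
  exact ⟨N, by rw [opHom_gen, hN]⟩

theorem tee_eq_one (t : 𝕋) (h : η t = 1) : tee η θ c t = 1 := by
  rw [← sub_eq_zero]
  have e : tee η θ c t - 1
      = Ideal.Quotient.mk (RingHom.ker (rho η θ c))
          ((1 : 𝒪) ⊗ₜ[ℤ] t - (1 : 𝒪) ⊗ₜ[ℤ] (1 : 𝕋)) := by
    rw [map_sub]
    rfl
  rw [e, mk_eq_zero_iff]
  intro v
  rw [opHom_gen, h, baseChange_one_eq, one_smul, LinearMap.sub_apply]
  exact sub_self _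

end Setup

/-! ### Transfer from `A[P]` to `(𝒪 ⊗ A)[P]` -/

section Transfer

variable {𝒪 : Type} [CommRing 𝒪] [Module.Flat ℤ 𝒪] {A : Type} [AddCommGroup A]

theorem baseChange_eq_self_of_tors (f : Module.End ℤ A) (P : ℕ)
    (hf : ∀ x : A, P • x = 0 → f x = x) (x : 𝒪 ⊗[ℤ] A) (hx : P • x = 0) :
    f.baseChange 𝒪 x = x := by
  obtain ⟨g, hg⟩ : ∃ g : A →ₗ[ℤ] A, g = (P : ℤ) • LinearMap.id := ⟨_, rfl⟩
  have key : ∀ w : A, g w = P • w := by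
    intro w
    rw [hg, LinearMap.smul_apply, LinearMap.id_apply, natCast_zsmul]
  have hgx : g.baseChange 𝒪 x = 0 := by
    rw [hg, LinearMap.baseChange_smul, LinearMap.baseChange_id, LinearMap.smul_apply,
      LinearMap.id_apply, natCast_zsmul]
    exact hx
  obtain ⟨y, rfl⟩ := exists_of_baseChange_eq_zero g hgx
  have e : f ∘ₗ (LinearMap.ker g).subtype = (LinearMap.ker g).subtype := by
    apply LinearMap.ext
    intro z
    rw [LinearMap.comp_apply, Submodule.subtype_apply]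
    apply hf
    rw [← key]
    exact z.2
  rw [← LinearMap.comp_apply, ← LinearMap.baseChange_comp, e]

end Transfer

/-! ### The statement -/

/-- **W-LG**: local–global compatibility at a Taylor–Wiles prime on the `θ`-part. -/
theorem stmt_W_LG : Stmt_W_LG := by
  intro 𝒪 _ _ _ _ ϖ hϖ p _ hpm hp0 A _ htors hfinA 𝕋 _ η θ G _ _ dia n hdia hdiaη K hKη Γ _ gal
    hgalη hgalK I frob hnorm hinert u₀ U q a ha hq hU hkey htriv htame σ hσ x hxW hxN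
  obtain ⟨N, hxN⟩ := hxN
  have hp : p.Prime := Fact.out
  haveI : CharZero 𝒪 := charZero_of_mem hp hpm hp0
  haveI : Module.Flat ℤ 𝒪 := flat_int
  obtain ⟨m, hm⟩ := tens_tors hϖ hpm hp0 htors x
  have hfinX := tens_fin hϖ hp hpm hp0 hfinA
  haveI : Finite ↥(VS η θ (ϖ ^ m)) := by
    haveI := finite_torsionBy_pow ϖ hfinX m
    exact Finite.of_injective
      (Submodule.inclusion (inf_le_right : VS η θ (ϖ ^ m) ≤ Submodule.torsionBy 𝒪 _ (ϖ ^ m)))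
      (Submodule.inclusion_injective _)
  haveI : Finite (RR η θ (ϖ ^ m)) := finite_RR η θ (ϖ ^ m)
  -- elements of the maximal ideal are nilpotent on `V`
  have hmax : ∀ b ∈ maximalIdeal 𝒪, ∀ v : ↥(VS η θ (ϖ ^ m)),
      b ^ m • (v : 𝒪 ⊗[ℤ] A) = 0 := by
    intro b hb v
    rw [hϖ.maximalIdeal_eq, Ideal.mem_span_singleton] at hb
    obtain ⟨c', rfl⟩ := hb
    rw [mul_pow, mul_comm, mul_smul, (mem_VS.mp v.2).2, smul_zero]
  have hVpX : ∀ v : ↥(VS η θ (ϖ ^ m)), (p ^ m) • (v : 𝒪 ⊗[ℤ] A) = 0 := by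
    intro v
    have := hmax (p : 𝒪) hpm v
    rw [← Nat.cast_pow, Nat.cast_smul_eq_nsmul] at this
    exact this
  have hVp : ∀ v : ↥(VS η θ (ϖ ^ m)), p ^ m • v = 0 := by
    intro v
    apply Subtype.ext
    rw [Submodule.coe_smul_of_tower]
    exact hVpX v
  -- `dia` commutes with `η`
  have hdiacomm : ∀ g t, Commute (η t) (dia g) := by
    intro g t
    obtain ⟨z, hz⟩ := hdiaη g
    rw [← hz]
    exact (Commute.all t z).map η
  have hqp : Nat.Coprime q p := by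
    rw [Nat.coprime_comm, Nat.Prime.coprime_iff_not_dvd hp]
    intro hdvd
    obtain ⟨c', rfl⟩ := hdvd
    have hpk : (p : ResidueField 𝒪) = 0 := by
      have : residue 𝒪 (p : 𝒪) = 0 := (residue_eq_zero_iff _).mpr hpm
      rwa [map_natCast] at this
    rw [Nat.cast_mul, hpk, zero_mul] at hq
    exact zero_ne_one hq
  obtain ⟨τ₀, hτ₀, ht1, ht2⟩ := htame m
  have hxV : x ∈ VS η θ (ϖ ^ m) := mem_VS.mpr ⟨hxW, hm⟩
  have transfer : ∀ (h : Γ) (Q : ℕ), (∀ y : A, p ^ m • y = 0 → gal (h ^ Q) y = y) →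
      ∀ v : ↥(VS η θ (ϖ ^ m)), homV η θ (ϖ ^ m) gal hgalη (h ^ Q) v = v := by
    intro h Q hh v
    apply Subtype.ext
    rw [homV_coe]
    exact baseChange_eq_self_of_tors (gal (h ^ Q)) (p ^ m) hh _ (hVpX v)
  -- the hypotheses of the core
  have hdp : ∀ g, homV η θ (ϖ ^ m) dia hdiacomm g ^ (p ^ n) = 1 := by
    intro g
    rw [← map_pow]
    apply LinearMap.ext
    intro v
    apply Subtype.ext
    rw [homV_coe, map_pow, hdia g, baseChange_one_eq]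
    rfl
  have hd : ∀ g, ∃ z : RR η θ (ϖ ^ m), ∀ v, homV η θ (ϖ ^ m) dia hdiacomm g v = z • v := by
    intro g
    obtain ⟨z, hz⟩ := hdiaη g
    refine ⟨tee η θ (ϖ ^ m) z, fun v => Subtype.ext ?_⟩
    rw [homV_coe, tee_smul_coe, hz]
  have hKgal : ∀ g, ∀ y ∈ KV η θ (ϖ ^ m) K hKη,
      homV η θ (ϖ ^ m) gal hgalη g y ∈ KV η θ (ϖ ^ m) K hKη := by
    intro g y hy
    exact KO_stable K (gal g) (hgalK g) hy
  have hinert' : ∀ τ ∈ I, ∀ v, homV η θ (ϖ ^ m) gal hgalη τ v - v ∈ KV η θ (ϖ ^ m) K hKη := by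
    intro τ hτ v
    have h1 := KO_of_forall_mem (𝒪 := 𝒪) K (gal τ - 1)
      (fun y => by
        rw [LinearMap.sub_apply, Module.End.one_apply]
        exact hinert τ hτ y) (v : 𝒪 ⊗[ℤ] A)
    rw [LinearMap.baseChange_sub, baseChange_one_eq, LinearMap.sub_apply,
      Module.End.one_apply] at h1
    exact h1
  -- nilpotents and units
  have nil1 : IsNilpotent (tee η θ (ϖ ^ m) U - iota η θ (ϖ ^ m) a) :=
    isNilpotent_tee_sub η θ (ϖ ^ m) U a ha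
  have hq1 : (q : 𝒪) - 1 ∈ maximalIdeal 𝒪 := by
    rw [← residue_eq_zero_iff, map_sub, map_natCast, map_one, hq, sub_self]
  have nil2 : IsNilpotent ((q : RR η θ (ϖ ^ m)) - 1) := by
    have e : (q : RR η θ (ϖ ^ m)) - 1 = iota η θ (ϖ ^ m) ((q : 𝒪) - 1) := by
      rw [map_sub, map_natCast, map_one]
    rw [e]
    exact isNilpotent_iota η θ (ϖ ^ m) _ m (hmax _ hq1)
  have nilp : IsNilpotent ((p : RR η θ (ϖ ^ m))) := by
    have e : (p : RR η θ (ϖ ^ m)) = iota η θ (ϖ ^ m) (p : 𝒪) := by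
      rw [map_natCast]
    rw [e]
    exact isNilpotent_iota η θ (ϖ ^ m) _ m (hmax _ hpm)
  have nilϖ : IsNilpotent (iota η θ (ϖ ^ m) ϖ) :=
    isNilpotent_iota η θ (ϖ ^ m) _ m (fun v => (mem_VS.mp v.2).2)
  have hunit : IsUnit (iota η θ (ϖ ^ m) (a ^ 2 - 1)) := by
    apply IsUnit.map
    rw [← IsLocalRing.notMem_maximalIdeal, ← residue_eq_zero_iff, map_sub, map_pow, map_one, ha,
      sub_eq_zero]
    exact hU
  have h5 : IsUnit (tee η θ (ϖ ^ m) U ^ 2 - (q : RR η θ (ϖ ^ m))) := by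
    have e : tee η θ (ϖ ^ m) U ^ 2 - (q : RR η θ (ϖ ^ m))
        = iota η θ (ϖ ^ m) (a ^ 2 - 1)
          + ((tee η θ (ϖ ^ m) U - iota η θ (ϖ ^ m) a)
              * (tee η θ (ϖ ^ m) U + iota η θ (ϖ ^ m) a) - ((q : RR η θ (ϖ ^ m)) - 1)) := by
      rw [map_sub, map_pow, map_one]
      ring
    rw [e]
    exact isUnit_add_mul_sub (R := RR η θ (ϖ ^ m)) hunit nil1 nil2
  have hkey' : ∀ y ∈ KV η θ (ϖ ^ m) K hKη,
      (∀ g, homV η θ (ϖ ^ m) dia hdiacomm g y = y) →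
      tee η θ (ϖ ^ m) U • homV η θ (ϖ ^ m) gal hgalη frob y = (q : RR η θ (ϖ ^ m)) • y := by
    intro y hy hfix
    apply Subtype.ext
    have e : (q : RR η θ (ϖ ^ m)) = iota η θ (ϖ ^ m) (q : 𝒪) := by
      rw [map_natCast]
    rw [tee_smul_coe, homV_coe, e, iota_smul_coe]
    exact hkey (y : 𝒪 ⊗[ℤ] A) (mem_VS.mp y.2).1 hy
      (fun g => congrArg Subtype.val (hfix g))
  have htriv' : ∀ τ ∈ I, ∀ v : ↥(VS η θ (ϖ ^ m)),
      (∀ r : RR η θ (ϖ ^ m), IsNilpotent r → r • v = 0) →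
      homV η θ (ϖ ^ m) gal hgalη τ v = v := by
    intro τ hτ v hv
    apply Subtype.ext
    rw [homV_coe]
    apply htriv τ hτ (v : 𝒪 ⊗[ℤ] A) (mem_VS.mp v.2).1
    · have h1 := congrArg Subtype.val (hv _ nilϖ)
      rw [iota_smul_coe] at h1
      exact h1
    · intro g
      obtain ⟨z, hz⟩ := hdiaη g
      have hz1 : tee η θ (ϖ ^ m) z ^ (p ^ n) = 1 := by
        rw [← map_pow]
        apply tee_eq_one
        rw [map_pow, hz, hdia g]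
      have h1 := isNilpotent_sub_one_of_pow hp n (tee η θ (ϖ ^ m) z) nilp hz1
      have h2 := congrArg Subtype.val (hv _ h1)
      rw [sub_smul, one_smul] at h2
      have h3 : ((tee η θ (ϖ ^ m) z • v - v : ↥(VS η θ (ϖ ^ m))) : 𝒪 ⊗[ℤ] A)
          = (dia g).baseChange 𝒪 (v : 𝒪 ⊗[ℤ] A) - (v : 𝒪 ⊗[ℤ] A) := by
        rw [Submodule.coe_sub, tee_smul_coe, hz]
      rw [h3] at h2
      exact sub_eq_zero.mp h2
  have htame1 : ∀ τ ∈ I, ∃ j Q : ℕ, Nat.Coprime Q p ∧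
      ∀ v, homV η θ (ϖ ^ m) gal hgalη (((τ₀ ^ j)⁻¹ * τ) ^ Q) v = v := by
    intro τ hτ
    obtain ⟨j, e, h⟩ := ht1 τ hτ
    exact ⟨j, q ^ e, Nat.Coprime.pow_left e hqp, transfer _ _ h⟩
  have htame2 : ∃ Q : ℕ, Nat.Coprime Q p ∧
      ∀ v, homV η θ (ϖ ^ m) gal hgalη (((τ₀ ^ q)⁻¹ * (frob * τ₀ * frob⁻¹)) ^ Q) v = v := by
    obtain ⟨e, h⟩ := ht2
    exact ⟨q ^ e, Nat.Coprime.pow_left e hqp, transfer _ _ h⟩
  -- the generalised eigenvector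
  obtain ⟨M, hM⟩ := nil1
  have hcommφ : ∀ t, Commute ((η t).baseChange 𝒪)
      ((gal frob * dia u₀).baseChange 𝒪 - a • (1 : Module.End 𝒪 (𝒪 ⊗[ℤ] A))) := by
    intro t
    have h1 : Commute ((η t).baseChange 𝒪) ((gal frob * dia u₀).baseChange 𝒪) :=
      baseChange_commute 𝒪 ((hgalη frob t).mul_right (hdiacomm u₀ t))
    have h2 : Commute ((η t).baseChange 𝒪) (a • (1 : Module.End 𝒪 (𝒪 ⊗[ℤ] A))) :=
      (Commute.one_right _).smul_right a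
    exact Commute.sub_right (R := Module.End 𝒪 (𝒪 ⊗[ℤ] A)) h1 h2
  have hEeq : (homV η θ (ϖ ^ m) gal hgalη frob * homV η θ (ϖ ^ m) dia hdiacomm u₀
      - iota η θ (ϖ ^ m) a • (1 : Module.End (RR η θ (ϖ ^ m)) ↥(VS η θ (ϖ ^ m))))
      = linV η θ (ϖ ^ m) _ hcommφ := by
    apply LinearMap.ext
    intro v
    apply Subtype.ext
    rw [linV_coe, LinearMap.sub_apply, LinearMap.sub_apply, Submodule.coe_sub,
      LinearMap.smul_apply, Module.End.one_apply, iota_smul_coe, Module.End.mul_apply, homV_coe,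
      homV_coe, baseChange_mul_eq, Module.End.mul_apply, LinearMap.smul_apply,
      Module.End.one_apply]
  have hE : ((homV η θ (ϖ ^ m) gal hgalη frob * homV η θ (ϖ ^ m) dia hdiacomm u₀
      - iota η θ (ϖ ^ m) a • (1 : Module.End (RR η θ (ϖ ^ m)) ↥(VS η θ (ϖ ^ m)))) ^ N)
      (⟨x, hxV⟩ : ↥(VS η θ (ϖ ^ m))) = 0 := by
    rw [hEeq]
    apply Subtype.ext
    rw [linV_pow_coe]
    exact hxN
  have hv := gen_eigen_shift (R := RR η θ (ϖ ^ m)) (V := ↥(VS η θ (ϖ ^ m)))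
    (homV η θ (ϖ ^ m) gal hgalη frob * homV η θ (ϖ ^ m) dia hdiacomm u₀)
    (iota η θ (ϖ ^ m) a) (tee η θ (ϖ ^ m) U) hM hE
  have main := wlg_core (R := RR η θ (ϖ ^ m)) (V := ↥(VS η θ (ϖ ^ m))) (p := p) (m := m) hVp
    (homV η θ (ϖ ^ m) gal hgalη) (homV η θ (ϖ ^ m) dia hdiacomm) n hdp hd
    (KV η θ (ϖ ^ m) K hKη) hKgal I frob hnorm hinert' u₀ (tee η θ (ϖ ^ m) U) q h5 nil2 hkey'
    htriv' τ₀ hτ₀ htame1 htame2 σ hσ ⟨x, hxV⟩ (N + M) hv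
  exact congrArg Subtype.val main

end Fermat.Agent.NEB.Geom.H46
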