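import Fermat.Agent.NEB.Geom.H6_AFrobNil

/-!
# NEB-GEOM assembly leaf A-LG, two parts (helper6)

* `lg_socle` (E): the hypothesis "inertia is trivial on `W[ϖ]^Δ`" of `Stmt_W_LG`, from A-PI
  (`inv` + Galois equivariance of `πup`) and `Dm.unr` (level `N` is unramified at `q_j`);
* `a_lg_of_wlg` (G): `Stmt_A_lg D` from the conclusion of `Stmt_W_LG` at every `j`
  (`gal'(σ_j) x = σ_j (d_j x)`, and `d_j x` is again in the generalised eigenspace).
-/

set_option autoImplicit false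
set_option linter.unusedSectionVars false

noncomputable section

open ModularCurve AlgebraicCurve IsLocalRing TensorProduct Polynomial

namespace Fermat.Agent.NEB.Geom.H6

open Fermat.Agent.NEB Fermat.Agent.NEB.JH Fermat.Agent.S59.Asm Fermat.Agent.S59.Lim
  Fermat.Agent.S59.Lim.H2 Fermat.Agent.NEB.Geom

/-! ## Abstract lemmas on the `θ`-part -/

section AbsTheta

variable {𝒪 : Type} [CommRing 𝒪] [IsLocalRing 𝒪] {𝕋 : Type} [CommRing 𝕋]
  {A : Type} [AddCommGroup A] {η : 𝕋 →+* Module.End ℤ A} {θ : 𝕋 →+* ResidueField 𝒪}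

/-- Powers of `g - a` on the `θ`-part and on the ambient module. -/
theorem thetaZ_sub_smul_pow_coe (g : Module.End ℤ A) (hg : ∀ t, Commute (η t) g) (a : 𝒪)
    (k : ℕ) (y : ↥(thetaPart η θ)) :
    ((((thetaZ θ g hg - a • (1 : Module.End 𝒪 ↥(thetaPart η θ))) ^ k) y :
      ↥(thetaPart η θ)) : 𝒪 ⊗[ℤ] A) =
    ((g.baseChange 𝒪 - a • (1 : Module.End 𝒪 (𝒪 ⊗[ℤ] A))) ^ k) y.1 := by
  induction k generalizing y with
  | zero => rfl
  | succ k ih =>
    rw [pow_succ, Module.End.mul_apply, ih, pow_succ, Module.End.mul_apply]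
    rfl

/-- If `d` commutes with `F`, then `d` preserves the generalised eigenspaces of `F`. -/
theorem pow_sub_smul_apply_comm {W : Type*} [AddCommGroup W] [Module 𝒪 W]
    (F d : Module.End 𝒪 W) (hc : Commute d F) (a : 𝒪) (k : ℕ) (x : W)
    (hx : ((F - a • (1 : Module.End 𝒪 W)) ^ k) x = 0) :
    ((F - a • (1 : Module.End 𝒪 W)) ^ k) (d x) = 0 := by
  have h1 : Commute d ((F - a • (1 : Module.End 𝒪 W)) ^ k) :=
    (hc.sub_right ((Commute.one_right d).smul_right a)).pow_right k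
  have h2 := congrArg (fun f : Module.End 𝒪 W => f x) h1.eq
  simp only [Module.End.mul_apply] at h2
  rw [← h2, hx, map_zero]

end AbsTheta

/-! ## The two parts -/

section Parts

variable {𝒪 : Type} [CommRing 𝒪] [IsDomain 𝒪] [IsDiscreteValuationRing 𝒪]
  {ϖ : 𝒪} {p : ℕ} {N : ℕ} [NeZero N] {S : Finset ℕ}
  {θ : CuspForm.heckeAlgebra N 2 (↑S : Set ℕ) →+* ResidueField 𝒪}
  {ρbar : ResidualGaloisRep (ResidueField 𝒪)} {n : ℕ} {r : ℕ} {qv : Fin r → ℕ}
  [NeZero (N * twC qv)] [NeZero (twC qv)] [NeZero (twLevel N qv)]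

theorem diaW_pow_eq (D : TwSetup 𝒪 ϖ p N S θ ρbar n qv) (u : (ZMod (twC qv))ˣ) (k : ℕ) :
    diaW D (u ^ k) = diaW D u ^ k := by
  have h1 : ∀ t, Commute (etaTw N S p n qv D.h2 D.hcomm t)
      (diaZ (N * twC qv) (twC qv) (twH p n qv) D.h2 (dvd_mul_left _ _) p u ^ k) :=
    fun t => (D.comm_dia u t).pow_right k
  have e1 := thetaZ_pow (θ := thetaTw N S qv θ D.α) (fun t => D.comm_dia u t) k h1
  have e2 := thetaZ_congr (θ := thetaTw N S qv θ D.α) (fun t => D.comm_dia (u ^ k) t) h1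
    (map_pow (diaZ (N * twC qv) (twC qv) (twH p n qv) D.h2 (dvd_mul_left _ _) p) u k)
  exact e2.trans e1

/-- The twisted Galois operator, with the power inside the diamond operator. -/
theorem galHom_eq_mul_dia_pow (D : TwSetup 𝒪 ϖ p N S θ ρbar n qv) (σ : GalQ) :
    D.galHom σ = galZ (N * twC qv) (twC qv) (twH p n qv) p σ *
      diaZ (N * twC qv) (twC qv) (twH p n qv) D.h2 (dvd_mul_left _ _) p
        (chiC (twC qv) σ ^ (jTw p n + 1)) := by
  rw [D.galHom_apply, map_pow]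

/-- Powers of `gal'(σ) - a` on `W` and on the ambient module. -/
theorem galT_sub_smul_pow_coe (D : TwSetup 𝒪 ϖ p N S θ ρbar n qv) (σ : GalQ) (a : 𝒪) (k : ℕ)
    (y : ↥(Wtw 𝒪 N S p n qv D.h2 D.hcomm θ D.α)) :
    ((((galT D σ - a • (1 : Module.End 𝒪 ↥(Wtw 𝒪 N S p n qv D.h2 D.hcomm θ D.α))) ^ k) y :
      ↥(Wtw 𝒪 N S p n qv D.h2 D.hcomm θ D.α)) :
        𝒪 ⊗[ℤ] AH (N * twC qv) (twC qv) (twH p n qv) p) =
    (((galZ (N * twC qv) (twC qv) (twH p n qv) p σ *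
      diaZ (N * twC qv) (twC qv) (twH p n qv) D.h2 (dvd_mul_left _ _) p
        (chiC (twC qv) σ ^ (jTw p n + 1))).baseChange 𝒪
      - a • (1 : Module.End 𝒪 (𝒪 ⊗[ℤ] AH (N * twC qv) (twC qv) (twH p n qv) p))) ^ k) y.1 := by
  have h1 := thetaZ_sub_smul_pow_coe (θ := thetaTw N S qv θ D.α) (D.galHom σ)
    (D.comm_galHom σ) a k y
  have h2 := congrArg (fun g : Module.End ℤ (AH (N * twC qv) (twC qv) (twH p n qv) p) =>
    ((g.baseChange 𝒪
      - a • (1 : Module.End 𝒪 (𝒪 ⊗[ℤ] AH (N * twC qv) (twC qv) (twH p n qv) p))) ^ k) y.1)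
    (galHom_eq_mul_dia_pow D σ)
  exact h1.trans h2

/-- **(G)**: `Stmt_A_lg D` from the conclusion of `Stmt_W_LG` at every `j`. -/
theorem a_lg_of_wlg (D : TwSetup 𝒪 ϖ p N S θ ρbar n qv)
    (hW : ∀ j, ∀ σ ∈ (D.P j).inertiaSubgroupIn ℚ,
      ∀ x ∈ Wtw 𝒪 N S p n qv D.h2 D.hcomm θ D.α,
      (∃ k : ℕ, ((((galZ (N * twC qv) (twC qv) (twH p n qv) p (D.frob j) *
          diaZ (N * twC qv) (twC qv) (twH p n qv) D.h2 (dvd_mul_left _ _) p
            (chiC (twC qv) (D.frob j) ^ (jTw p n + 1))).baseChange 𝒪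
          - D.a j • (1 : Module.End 𝒪 (𝒪 ⊗[ℤ] AH (N * twC qv) (twC qv) (twH p n qv) p))) ^ k)
            x = 0)) →
      (galZ (N * twC qv) (twC qv) (twH p n qv) p σ).baseChange 𝒪 x = x) :
    Stmt_A_lg D := by
  intro j x hx
  have hx' : ∃ k : ℕ, ((galT D (D.frob j)
      - D.a j • (1 : Module.End 𝒪 ↥(Wtw 𝒪 N S p n qv D.h2 D.hcomm θ D.α))) ^ k) x = 0 := hx
  exact Exists.elim hx' (fun k hk => by
    have hy : ((galT D (D.frob j)
        - D.a j • (1 : Module.End 𝒪 ↥(Wtw 𝒪 N S p n qv D.h2 D.hcomm θ D.α))) ^ k)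
          (diaW D (D.δ j) x) = 0 :=
      pow_sub_smul_apply_comm _ _ (diaW_galT D (D.δ j) (D.frob j)) (D.a j) k x hk
    have hy' := (galT_sub_smul_pow_coe D (D.frob j) (D.a j) k (diaW D (D.δ j) x)).symm.trans
      (congrArg Subtype.val hy)
    have hfix := hW j (D.σ j) (D.σ_mem j) (diaW D (D.δ j) x).1 (diaW D (D.δ j) x).2 ⟨k, hy'⟩
    have e : galT D (D.σ j) x = galU D (D.σ j) (diaW D (D.δ j) x) :=
      congrArg (fun f : Module.End 𝒪 ↥(Wtw 𝒪 N S p n qv D.h2 D.hcomm θ D.α) => f x)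
        ((galT_eq D (D.σ j)).trans
          (congrArg (fun z => galU D (D.σ j) * z) (diaW_pow_eq D _ _).symm))
    exact e.trans (Subtype.ext hfix))

/-- **(E)**: inertia at `q_j` is trivial on `W[ϖ]^Δ` (the socle hypothesis of `Stmt_W_LG`). -/
theorem lg_socle (Dm : MinSetup 𝒪 ϖ p N S θ) (D : TwSetup 𝒪 ϖ p N S θ ρbar n qv)
    (hpi : Stmt_A_pi Dm D) (j : Fin r) (σ : GalQ) (hσ : σ ∈ (D.P j).inertiaSubgroupIn ℚ)
    (x : 𝒪 ⊗[ℤ] AH (N * twC qv) (twC qv) (twH p n qv) p)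
    (hx : x ∈ Wtw 𝒪 N S p n qv D.h2 D.hcomm θ D.α) (hϖx : ϖ • x = 0)
    (hfix : ∀ u, (diaZ (N * twC qv) (twC qv) (twH p n qv) D.h2 (dvd_mul_left _ _) p
      u).baseChange 𝒪 x = x) :
    (galZ (N * twC qv) (twC qv) (twH p n qv) p σ).baseChange 𝒪 x = x := by
  have hq : (qv j).Prime := D.hTW.prime j
  have hqS' : qv j ∉ S := D.hTW.notS j
  have hqN : ¬ qv j ∣ N := fun h => hqS' (D.hTW.hNS (qv j) hq h)
  have hqp : qv j ≠ p := fun h => hqS' (h ▸ D.hTW.hpS)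
  have hunr : galZ0 N p σ = 1 := Dm.unr (qv j) hq hqN hqp (D.P j) (D.P_over j) σ hσ
  have hgalM : ∀ y : ↥(thetaPart Dm.ηC θ), galM Dm σ y = y := by
    intro y
    have e1 := thetaZ_congr (θ := θ) (Dm.gal_comm σ) (fun t => Commute.one_right _) hunr
    have e2 := e1.trans (thetaZ_one _)
    exact congrArg (fun f : Module.End 𝒪 ↥(thetaPart Dm.ηC θ) => f y) e2
  exact Exists.elim hpi (fun π h1 => Exists.elim h1 (fun πup h2 => by
    have hinv := h2.2.2.2.1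
    have hgalπ := h2.2.2.2.2.2
    have hv : ϖ • (⟨x, hx⟩ : ↥(Wtw 𝒪 N S p n qv D.h2 D.hcomm θ D.α)) = 0 := Subtype.ext hϖx
    have hdv : ∀ i, D.d i (⟨x, hx⟩ : ↥(Wtw 𝒪 N S p n qv D.h2 D.hcomm θ D.α)) = ⟨x, hx⟩ :=
      fun i => Subtype.ext (hfix (D.δ i))
    exact Exists.elim (hinv ⟨x, hx⟩ hv hdv) (fun y hy => by
      have h3 : D.val (πup (galM Dm σ y))
          = (galZ (N * twC qv) (twC qv) (twH p n qv) p σ).baseChange 𝒪 (D.val (πup y)) :=
        hgalπ σ y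
      have h4 : D.val (πup (galM Dm σ y)) = x :=
        congrArg D.val ((congrArg πup (hgalM y)).trans hy)
      have h5 : D.val (πup y) = x := congrArg D.val hy
      exact (h4.symm.trans (h3.trans (congrArg _ h5))).symm)))

end Parts

end Fermat.Agent.NEB.Geom.H6
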