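import Fermat.Agent.NEB.Geom.H70_WKeyq

/-!
# Item 72 / 66, leaf W-KEYq in GENERAL form (helper70): any `(L, c, H)`, any Hecke ring

`wkeyq_gen`: the statement of `Stmt_W_KEYq` for an arbitrary level `L = M q` (`q ∤ M` prime),
an arbitrary `2 ≤ c ∣ L`, `H ≤ (ℤ/c)ˣ` with `(ℤ/c)ˣ/±H` of exponent `p^n` and `F_H / F₀`
unramified, and an ARBITRARY commutative ring `𝕋` acting on `J_H[p^∞]` through `η`, commuting with
the Frobenius `φ`, containing `U_q` (`η tU = U_q^H`) and an operator `tT` acting as `T_ℓ₀^H` on the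
`Δ`-fixed classes (e.g. any twist `T_ℓ₀^H ⟨ℓ₀⟩^j`), with `θ(tU)² ≠ 1`, `θ(tT) ≠ ℓ₀ + 1`:

  `U_q φ x = q x` for every `Δ`-fixed `x ∈ K^𝒪(P) ∩ W`,  `W` the `θ`-part of `𝒪 ⊗ J_H[p^∞]`.

No condition at the other primes of `c` (PIVOT: `c = c_Σ c_Q`, `q` a Taylor–Wiles prime).
-/

set_option autoImplicit false
set_option linter.style.haveILetI false
set_option linter.unusedSectionVars false
set_option linter.unusedVariables false

noncomputable section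

open ModularCurve AlgebraicCurve IsLocalRing TensorProduct

namespace Fermat.Agent.NEB.Geom.H70

open Fermat.Agent.NEB Fermat.Agent.NEB.JH Fermat.Agent.S59.Asm Fermat.Agent.S59.Lim
  Fermat.Agent.S59.Lim.H2 Fermat.Agent.NEB.Geom

section Gen

variable (L c : ℕ) [NeZero L] (H : Subgroup (ZMod c)ˣ) (h2 : 2 ≤ c) (hc : c ∣ L) (p : ℕ)

/-- The kernel of reduction `K_A ∩ J_H[p^∞]` at `P` (general level). -/
def KZgen (P : ValuationSubring Kbar) : AddSubgroup (AH L c H p) :=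
  (KU P p (diamondData L c H h2 hc)).comap (ptors p (JH L c H)).subtype

theorem mem_KZgen {P : ValuationSubring Kbar} {x : AH L c H p} :
    x ∈ KZgen L c H h2 hc p P ↔ InKU P p (diamondData L c H h2 hc) (x : JH L c H) := Iff.rfl

set_option maxHeartbeats 1000000 in
/-- **KEYq on `J_H[p^∞]`**, general level `L = M q`. -/
theorem keyq_AH_gen (hp : p.Prime) (n : ℕ)
    (hexp : ∀ d : (ZMod c)ˣ, d ^ (p ^ n) ∈ H ∨ -(d ^ (p ^ n)) ∈ H)
    (hunr : ∀ w : Place Kbar ↥(FHbar L c H),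
      ∃ x : ↥(modularFunctionFieldBar L), w.ord (inclBar L c H x) = 1)
    (q M : ℕ) (hq : q.Prime) (hL : L = M * q) (hqM : ¬ q ∣ M) (hqp : q ≠ p)
    (ℓ₀ : ℕ) (hℓ₀ : ℓ₀.Prime) (hℓ₀L : ¬ ℓ₀ ∣ L)
    (P : ValuationSubring Kbar) (hP : P.LiesOverPrime q) (φ : GalQ)
    (hφ : P.IsFrobeniusAt φ q)
    (x : AH L c H p) (hxK : x ∈ KZgen L c H h2 hc p P)
    (hfix : ∀ u, diaZ L c H h2 hc p u x = x) :
    (Uz L c H h2 hc p q * galZ L c H p φ - ((q : ℕ) : Module.End ℤ (AH L c H p)))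
      ((Uz L c H h2 hc p q * Uz L c H h2 hc p q - 1)
        ((Tz L c H h2 hc p ℓ₀ - ((ℓ₀ + 1 : ℕ) : Module.End ℤ (AH L c H p))) x)) = 0 := by
  haveI : NeZero ℓ₀ := ⟨hℓ₀.ne_zero⟩
  haveI : NeZero q := ⟨hq.ne_zero⟩
  haveI : NeZero M := ⟨fun h0 => NeZero.ne L (by rw [hL, h0, zero_mul])⟩
  have hx : IsPTors p (x : JH L c H) := x.2
  have hfix' : ∀ d, (diamondData L c H h2 hc).ρ d • (x : JH L c H) = x := fun d =>
    congrArg Subtype.val (hfix d)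
  have hK : InKU P p (diamondData L c H h2 hc) (x : JH L c H) := hxK
  have key := keyq_JH M q c H p L hL hp h2 hc hq hqM hqp n hexp hunr ℓ₀ hℓ₀ hℓ₀L P hP φ hφ
    (heckeData L c ℓ₀ H h2 hc).hβ (heckeData L c q H h2 hc).hβ (x : JH L c H) hx hfix' hK
  apply Subtype.ext
  rw [coe_sub_apply, coe_mul_apply, coe_natCast_apply, Uz_apply, galZ_apply,
    coe_sub_apply, coe_mul_apply, Uz_apply, Uz_apply, Module.End.one_apply,
    coe_sub_apply, Tz_apply, coe_natCast_apply]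
  exact key

/-- **W-KEYq, general form.** -/
theorem wkeyq_gen (𝒪 : Type) [CommRing 𝒪] [IsLocalRing 𝒪] [Module.Flat ℤ 𝒪]
    (hp : p.Prime) (n : ℕ)
    (hexp : ∀ d : (ZMod c)ˣ, d ^ (p ^ n) ∈ H ∨ -(d ^ (p ^ n)) ∈ H)
    (hunr : ∀ w : Place Kbar ↥(FHbar L c H),
      ∃ x : ↥(modularFunctionFieldBar L), w.ord (inclBar L c H x) = 1)
    (q M : ℕ) (hq : q.Prime) (hL : L = M * q) (hqM : ¬ q ∣ M) (hqp : q ≠ p)
    (ℓ₀ : ℕ) (hℓ₀ : ℓ₀.Prime) (hℓ₀L : ¬ ℓ₀ ∣ L)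
    (P : ValuationSubring Kbar) (hP : P.LiesOverPrime q) (φ : GalQ)
    (hφ : P.IsFrobeniusAt φ q)
    {𝕋 : Type} [CommRing 𝕋] (η : 𝕋 →+* Module.End ℤ (AH L c H p))
    (θ : 𝕋 →+* ResidueField 𝒪)
    (hηG : ∀ t, Commute (η t) (galZ L c H p φ))
    (tU tT : 𝕋) (hU : η tU = Uz L c H h2 hc p q)
    (hT : ∀ y : AH L c H p, (∀ u, diaZ L c H h2 hc p u y = y) →
      η tT y = Tz L c H h2 hc p ℓ₀ y)
    (hθU : θ tU * θ tU ≠ 1) (hθT : θ tT ≠ ((ℓ₀ : ResidueField 𝒪) + 1))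
    (x : 𝒪 ⊗[ℤ] AH L c H p) (hx : x ∈ thetaPart η θ)
    (hxK : x ∈ KO 𝒪 (KZgen L c H h2 hc p P))
    (hfix : ∀ u, (diaZ L c H h2 hc p u).baseChange 𝒪 x = x) :
    (Uz L c H h2 hc p q).baseChange 𝒪 ((galZ L c H p φ).baseChange 𝒪 x)
      = ((q : ℕ) : 𝒪) • x := by
  haveI : Finite (ZMod c)ˣ := finite_units_zmod c
  -- `E` and `s`
  have hcommU : ∀ t, Commute (η t) (Uz L c H h2 hc p q) := fun t => by
    rw [← hU]
    exact (Commute.all t tU).map η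
  have hE : ∀ t, Commute (η t)
      (Uz L c H h2 hc p q * galZ L c H p φ - ((q : ℕ) : Module.End ℤ (AH L c H p))) :=
    fun t => ((hcommU t).mul_right (hηG t)).sub_right (Nat.commute_cast _ _)
  have hηs := map_keyq_elt η tU tT (ℓ₀ + 1)
  rw [hU] at hηs
  have hθs := map_keyq_elt θ tU tT (ℓ₀ + 1)
  have hs : θ ((tU * tU - 1) * (tT - ((ℓ₀ + 1 : ℕ) : 𝕋))) ≠ 0 := by
    rw [hθs]
    refine mul_ne_zero (sub_ne_zero.mpr hθU) ?_
    rw [sub_ne_zero]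
    intro h0
    apply hθT
    rw [h0]
    push_cast
    rfl
  have hkey : ∀ y ∈ KZgen L c H h2 hc p P, (∀ u, diaZ L c H h2 hc p u y = y) →
      η ((tU * tU - 1) * (tT - ((ℓ₀ + 1 : ℕ) : 𝕋)))
        ((Uz L c H h2 hc p q * galZ L c H p φ - ((q : ℕ) : Module.End ℤ (AH L c H p))) y)
        = 0 := by
    intro y hy hfy
    have h1 := congrArg (fun f : Module.End ℤ (AH L c H p) => f y)
      (hE ((tU * tU - 1) * (tT - ((ℓ₀ + 1 : ℕ) : 𝕋)))).eq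
    have h1' : η ((tU * tU - 1) * (tT - ((ℓ₀ + 1 : ℕ) : 𝕋)))
        ((Uz L c H h2 hc p q * galZ L c H p φ - ((q : ℕ) : Module.End ℤ (AH L c H p))) y)
        = (Uz L c H h2 hc p q * galZ L c H p φ - ((q : ℕ) : Module.End ℤ (AH L c H p)))
          (η ((tU * tU - 1) * (tT - ((ℓ₀ + 1 : ℕ) : 𝕋))) y) := h1
    have h2' : (η tT - ((ℓ₀ + 1 : ℕ) : Module.End ℤ (AH L c H p))) y
        = (Tz L c H h2 hc p ℓ₀ - ((ℓ₀ + 1 : ℕ) : Module.End ℤ (AH L c H p))) y := by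
      rw [LinearMap.sub_apply, LinearMap.sub_apply, hT y hfy]
    rw [h1', hηs, Module.End.mul_apply, h2']
    exact keyq_AH_gen L c H h2 hc p hp n hexp hunr q M hq hL hqM hqp ℓ₀ hℓ₀ hℓ₀L P hP φ hφ
      y hy hfy
  have hfin := wkey_abs η θ (fun u => diaZ L c H h2 hc p u) (KZgen L c H h2 hc p P)
    (Uz L c H h2 hc p q * galZ L c H p φ - ((q : ℕ) : Module.End ℤ (AH L c H p)))
    hE _ hs hkey x hx hxK hfix
  rw [baseChange_mul_sub_natCast] at hfin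
  exact sub_eq_zero.mp hfin

end Gen

end Fermat.Agent.NEB.Geom.H70
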