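/-
helper9, items 66/72 (PV-GEOM / NEB-GEOM): the inputs of `Stmt_W_LG` and of the continuity
statement for GENERAL data `(M, c, H)` (so that the Taylor–Wiles leaves A-GAL, A-LG can be cloned
for the pivot module `Wpv`).

* `KUp P M c H h2 hc p` : the kernel of reduction at `P` inside `J_H[p^∞]`
  (`KZ N p n qv h2 P` is the case `M = N c`, `c = twC qv`, `H = twH p n qv`);
* `KUp_dia`, `KUp_Tz`, `KUp_Uz`, `KUp_gal`, `KUp_inertia` : stability / inertia;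
* `tame_gen` : the tame relations on `J_H[p^m]` at a place `P ∣ q` with a Frobenius `φ`;
* `finite_AH_tors` : `J_H[p]` is finite (subtype form);
* `diaZ_pow_eq_one` : `⟨u⟩ ^ k = 1` when `u ^ k ∈ H`.
-/
import Fermat.Agent.NEB.Geom.DefsC
import Fermat.Agent.NEB.Geom.H29_ZGalCont
import Fermat.Agent.NEB.Geom.H70_KU2
import Fermat.Agent.S59.TWGal.H59_Tame

set_option autoImplicit false
set_option linter.unusedSectionVars false
set_option linter.style.haveILetI false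
set_option linter.unusedVariables false
set_option synthInstance.maxHeartbeats 400000
set_option maxHeartbeats 1000000

noncomputable section

open ModularCurve AlgebraicCurve

namespace Fermat.Agent.NEB.Geom.H9

open Fermat.Agent.NEB Fermat.Agent.NEB.JH Fermat.Agent.NEB.Geom

section Gen

variable (P : ValuationSubring Kbar) (M c : ℕ) [NeZero M] (H : Subgroup (ZMod c)ˣ)
  (h2 : 2 ≤ c) (hc : c ∣ M) (p : ℕ)

/-- The kernel of reduction at `P` inside `J_H[p^∞]`. -/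
def KUp : AddSubgroup (AH M c H p) :=
  (Fermat.Agent.NEB.Geom.H70.KU P p (diamondData M c H h2 hc)).comap
    (ptors p (JH M c H)).subtype

variable {P M c H h2 hc p}

theorem mem_KUp {x : AH M c H p} :
    x ∈ KUp P M c H h2 hc p ↔
      Fermat.Agent.NEB.Geom.H70.InKU P p (diamondData M c H h2 hc) (x : JH M c H) := Iff.rfl

theorem KUp_dia {x : AH M c H p} (hx : x ∈ KUp P M c H h2 hc p) (u : (ZMod c)ˣ) :
    diaZ M c H h2 hc p u x ∈ KUp P M c H h2 hc p := by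
  rw [mem_KUp] at hx ⊢
  exact hx.diamond u

theorem KUp_Tz {ℓ : ℕ} (hℓ : ℓ.Prime) (hℓM : ¬ ℓ ∣ M) {x : AH M c H p}
    (hx : x ∈ KUp P M c H h2 hc p) : Tz M c H h2 hc p ℓ x ∈ KUp P M c H h2 hc p := by
  haveI : NeZero ℓ := ⟨hℓ.ne_zero⟩
  rw [mem_KUp] at hx ⊢
  rw [Tz_apply]
  exact Fermat.Agent.NEB.Geom.H70.InKU.TH (heckeData M c ℓ H h2 hc) h2 hc hℓ hℓM hx

theorem KUp_Uz {q : ℕ} (hq : q.Prime) (hqM : q ∣ M) {x : AH M c H p}
    (hx : x ∈ KUp P M c H h2 hc p) : Uz M c H h2 hc p q x ∈ KUp P M c H h2 hc p := by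
  haveI : NeZero q := ⟨hq.ne_zero⟩
  rw [mem_KUp] at hx ⊢
  rw [Uz_apply]
  exact Fermat.Agent.NEB.Geom.H70.InKU.UH (heckeData M c q H h2 hc) hq hqM hx

theorem KUp_TzTw {ℓ : ℕ} (hℓ : ℓ.Prime) (hℓM : ¬ ℓ ∣ M) (k : ℕ) {x : AH M c H p}
    (hx : x ∈ KUp P M c H h2 hc p) : TzTw M c H h2 hc p k ℓ x ∈ KUp P M c H h2 hc p := by
  rw [TzTw, Module.End.mul_apply, ← map_pow]
  exact KUp_Tz hℓ hℓM (KUp_dia hx _)

theorem KUp_gal {σ : GalQ} (hσ : σ ∈ P.decompositionSubgroup ℚ) {x : AH M c H p}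
    (hx : x ∈ KUp P M c H h2 hc p) : galZ M c H p σ x ∈ KUp P M c H h2 hc p := by
  rw [mem_KUp] at hx ⊢
  exact Fermat.Agent.NEB.Geom.H70.InKU.galois hx hσ

theorem KUp_inertia {σ : GalQ} (hσ : σ ∈ P.inertiaSubgroupIn ℚ) (x : AH M c H p) :
    galZ M c H p σ x - x ∈ KUp P M c H h2 hc p := by
  rw [mem_KUp]
  exact Fermat.Agent.NEB.Geom.H70.inKU_inertia _ hσ x.2

/-- `⟨u⟩ ^ k = 1` when `u ^ k ∈ H`. -/
theorem diaZ_pow_eq_one {u : (ZMod c)ˣ} {k : ℕ} (hu : u ^ k ∈ H) :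
    diaZ M c H h2 hc p u ^ k = 1 := by
  rw [← map_pow]
  refine LinearMap.ext fun x => Subtype.ext ?_
  rw [diaZ_apply, ((diamondData M c H h2 hc).ker (u ^ k)).2 (Or.inl hu), one_smul]
  rfl

end Gen

section Fin

variable (M c : ℕ) [NeZero M] [NeZero c] (H : Subgroup (ZMod c)ˣ) (h2 : 2 ≤ c) (hc : c ∣ M)
  (p : ℕ) [Fact p.Prime]

include h2 hc

/-- `J_H[p]` is finite. -/
theorem finite_AH_tors : Finite {x : AH M c H p // p • x = 0} := by
  have hfin := Fermat.Agent.NEB.Geom.H29.stmt_ZFIN_final H h2 hc p 1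
  haveI : Finite ↥{y : JH M c H | ((p ^ 1 : ℕ) : ℤ) • y = 0} := hfin.to_subtype
  have hmem : ∀ x : {x : AH M c H p // p • x = 0},
      ((x.1 : AH M c H p) : JH M c H) ∈ {y : JH M c H | ((p ^ 1 : ℕ) : ℤ) • y = 0} := by
    intro x
    have h1 : ((p • x.1 : AH M c H p) : JH M c H) = 0 := by rw [x.2]; rfl
    show ((p ^ 1 : ℕ) : ℤ) • ((x.1 : AH M c H p) : JH M c H) = 0
    rw [pow_one, natCast_zsmul]
    exact h1
  refine Finite.of_injective (fun x : {x : AH M c H p // p • x = 0} =>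
    (⟨((x.1 : AH M c H p) : JH M c H), hmem x⟩ :
      ↥{y : JH M c H | ((p ^ 1 : ℕ) : ℤ) • y = 0})) ?_
  intro x y hxy
  exact Subtype.ext (Subtype.ext (Subtype.mk.inj hxy))

/-- Elements of `Gal(ℚ̄/L)` act trivially on `J_H[p^m]`, `L` the field of `stmt_ZGALCONT_tors`;
the tame relations of `S59.TWGal.H59.stmt_TAME` on `J_H[p^m]`. -/
theorem tame_gen (q : ℕ) (hq : q.Prime) (P : ValuationSubring Kbar) (hP : P.LiesOverPrime q)
    (φ : GalQ) (hφ : P.IsFrobeniusAt φ q) (m : ℕ) :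
    ∃ τ₀ ∈ P.inertiaSubgroup ℚ,
      (∀ σ ∈ P.inertiaSubgroup ℚ, ∃ i e : ℕ,
        ∀ y : AH M c H p, p ^ m • y = 0 →
          galZ M c H p
            ((((τ₀ ^ i)⁻¹ * σ) ^ (q ^ e) : ↥(P.decompositionSubgroup ℚ)) : GalQ) y = y) ∧
      (∃ e : ℕ, ∀ y : AH M c H p, p ^ m • y = 0 →
        galZ M c H p
          ((((τ₀ ^ q)⁻¹ * ((⟨φ, hφ.mem_decompositionSubgroup⟩ :
            ↥(P.decompositionSubgroup ℚ)) * τ₀ *
            (⟨φ, hφ.mem_decompositionSubgroup⟩ : ↥(P.decompositionSubgroup ℚ))⁻¹)) ^ (q ^ e) :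
            ↥(P.decompositionSubgroup ℚ)) : GalQ) y = y) := by
  obtain ⟨L, hL, hfix⟩ := Fermat.Agent.NEB.Geom.H29.stmt_ZGALCONT_tors H h2 hc p m
  obtain ⟨τ₀, hτ₀, ht1, ht2, -⟩ := Fermat.Agent.S59.TWGal.H59.stmt_TAME q hq P hP φ hφ L hL
  rw [ValuationSubring.inertiaSubgroupIn, Subgroup.mem_map] at hτ₀
  obtain ⟨τ, hτ, rfl⟩ := hτ₀
  have htriv : ∀ g : GalQ, g ∈ L.fixingSubgroup →
      ∀ y : AH M c H p, p ^ m • y = 0 → galZ M c H p g y = y := by
    intro g hg y hy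
    apply Subtype.ext
    rw [galZ_apply]
    refine hfix g (fun z hz => (IntermediateField.mem_fixingSubgroup_iff L g).1 hg z hz)
      (y : JH M c H) ?_
    have h1 : ((p ^ m • y : AH M c H p) : JH M c H) = 0 := by
      rw [hy]; rfl
    rw [natCast_zsmul]
    exact h1
  refine ⟨τ, hτ, fun σ hσ => ?_, ?_⟩
  · obtain ⟨i, e, hie⟩ := ht1 (σ : GalQ) (Subgroup.mem_map_of_mem _ hσ)
    exact ⟨i, e, fun y hy => htriv _ hie y hy⟩
  · obtain ⟨e, he⟩ := ht2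
    exact ⟨e, fun y hy => htriv _ he y hy⟩

end Fin

/-- The inertia subgroup is normal in the decomposition group. -/
theorem normal_inertiaSubgroup (P : ValuationSubring Kbar) : (P.inertiaSubgroup ℚ).Normal :=
  MonoidHom.normal_ker _

end Fermat.Agent.NEB.Geom.H9
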