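import Fermat.Agent.NEB.Geom.AsmTop
import Fermat.Agent.S59.Lim.H2_Tens

/-!
# NEB-GEOM assembly leaf A-MIN, wiring (helper6)

`stmt_A_MIN_of : Stmt_W_MD → Stmt_A_MIN`: the level-`N` setup `MinSetup` from the leaf W-MD
(Hecke action on `J₀(N)[p^∞]`) and LIM-TENS (`𝒪 ⊗ A` is `IsDiv`).
-/

set_option autoImplicit false
set_option linter.unusedSectionVars false
set_option linter.unusedVariables false

noncomputable section

open ModularCurve AlgebraicCurve IsLocalRing TensorProduct Polynomial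

namespace Fermat.Agent.NEB.Geom.H6

open Fermat.Agent.NEB Fermat.Agent.NEB.JH Fermat.Agent.S59 Fermat.Agent.S59.Asm
  Fermat.Agent.S59.Lim Fermat.Agent.S59.Lim.H2 Fermat.Agent.NEB.Geom

/-- **Leaf A-MIN** from W-MD. -/
theorem stmt_A_MIN_of (hMD : Stmt_W_MD) : Stmt_A_MIN := by
  intro 𝒪 _ _ _ _ _ _ ϖ p _ N _ S θ ρbar hstd
  obtain ⟨ηC, hT, hcomm, hdiv, hfin, hes, hunr, hcont, hnt⟩ := hMD p N S hstd.hNS
  have hp0 : (p : 𝒪) ≠ 0 := Nat.cast_ne_zero.mpr (Fact.out : p.Prime).ne_zero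
  have htors : ∀ x : A0 N p, ∃ k : ℕ, p ^ k • x = 0 := fun x => isPTors_coe x
  exact ⟨{
    ηC := ηC
    ηC_T := hT
    gal_comm := fun σ t => hcomm t σ
    hW := stmt_TENS 𝒪 ϖ hstd.hϖ p hstd.hpm hp0 (A0 N p) htors hdiv hfin
    es := hes
    unr := hunr
    cont := hcont
    nontriv := hnt 𝒪 hstd.hpm θ }⟩

end Fermat.Agent.NEB.Geom.H6
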