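import Fermat.Agent.S59.Lim.H2_Theta

/-!
# NEB-GEOM, leaf W-MD, abstract part N2 (helper6, for helper26)

`nontrivial_thetaPart_of_functional`: the `θ`-part of `𝒪 ⊗ B` is nontrivial if the finite group
`B` (killed by `p`) carries a nonzero Hecke-eigen functional `μ : B → k` with eigensystem `θ`.

Proof: `λ(a ⊗ x) = ā μ(x)` kills `I • (𝒪 ⊗ B)`, `I` the ideal generated by the `1 ⊗ t - a ⊗ 1`
(`ā = θ t`); in the primary decomposition `w₀ = y + z` of `w₀ = 1 ⊗ x₀` (LOC, helper61) the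
stable part `z` lies in `I • L`, so `λ y = μ x₀ ≠ 0` and `y ≠ 0` lies in the `θ`-part.
-/

set_option autoImplicit false
set_option linter.style.haveILetI false

noncomputable section

open IsLocalRing TensorProduct

namespace Fermat.Agent.NEB.Geom.H6

open Fermat.Agent.S59.Lim Fermat.Agent.S59.Lim.H2

section N2

variable {𝒪 : Type} [CommRing 𝒪] [IsDomain 𝒪] [IsDiscreteValuationRing 𝒪]
  {𝕋 : Type} [CommRing 𝕋] {B : Type} [AddCommGroup B]

/-- The bilinear map `(a, x) ↦ ā μ(x)`. -/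
def tensBilin (μ : B →+ ResidueField 𝒪) : 𝒪 →ₗ[ℤ] B →ₗ[ℤ] ResidueField 𝒪 :=
  LinearMap.mk₂ ℤ (fun (a : 𝒪) (x : B) => residue 𝒪 a * μ x)
    (fun a a' x => by rw [map_add, add_mul])
    (fun c a x => by rw [map_zsmul, smul_mul_assoc])
    (fun a x x' => by rw [map_add, mul_add])
    (fun c a x => by rw [map_zsmul, mul_smul_comm])

/-- The functional `a ⊗ x ↦ ā μ(x)` on `𝒪 ⊗ B`. -/
def tensFunctional (μ : B →+ ResidueField 𝒪) : 𝒪 ⊗[ℤ] B →+ ResidueField 𝒪 :=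
  (TensorProduct.lift (tensBilin μ)).toAddMonoidHom

theorem tensFunctional_tmul (μ : B →+ ResidueField 𝒪) (a : 𝒪) (x : B) :
    tensFunctional μ (a ⊗ₜ[ℤ] x) = residue 𝒪 a * μ x :=
  TensorProduct.lift.tmul (f' := tensBilin μ) a x

/-- `λ` kills the image of `η t - a` when `ā = θ t`. -/
theorem tensFunctional_gen (η : 𝕋 →+* Module.End ℤ B) (θ : 𝕋 →+* ResidueField 𝒪)
    (μ : B →+ ResidueField 𝒪) (hμ : ∀ t x, μ (η t x) = θ t * μ x)
    (t : 𝕋) (a : 𝒪) (ha : residue 𝒪 a = θ t) (w : 𝒪 ⊗[ℤ] B) :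
    tensFunctional μ (((η t).baseChange 𝒪 - a • (1 : Module.End 𝒪 (𝒪 ⊗[ℤ] B))) w) = 0 := by
  induction w using TensorProduct.induction_on with
  | zero => rw [map_zero, map_zero]
  | tmul b x =>
    rw [LinearMap.sub_apply, LinearMap.smul_apply, Module.End.one_apply,
      LinearMap.baseChange_tmul, TensorProduct.smul_tmul', smul_eq_mul, map_sub,
      tensFunctional_tmul, tensFunctional_tmul, hμ, map_mul, ha]
    ring
  | add w w' hw hw' =>
    rw [map_add, map_add, hw, hw', add_zero]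

/-- **N2**: the `θ`-part of `𝒪 ⊗ B` is nontrivial if the finite group `B` (killed by `p`)
carries a Hecke-eigen functional. -/
theorem nontrivial_thetaPart_of_functional [Finite (ResidueField 𝒪)]
    {p : ℕ} (hpm : (p : 𝒪) ∈ maximalIdeal 𝒪) (hp0 : (p : 𝒪) ≠ 0)
    [Finite B] (hB : ∀ b : B, p • b = 0)
    (η : 𝕋 →+* Module.End ℤ B) (θ : 𝕋 →+* ResidueField 𝒪)
    (μ : B →+ ResidueField 𝒪) (hμ : ∀ t x, μ (η t x) = θ t * μ x)
    (x₀ : B) (hx₀ : μ x₀ ≠ 0) :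
    Nontrivial ↥(thetaPart η θ) := by
  obtain ⟨ϖ, hϖ⟩ := IsDiscreteValuationRing.exists_irreducible 𝒪
  haveI hfinX : Finite (𝒪 ⊗[ℤ] B) := finite_tens_of_finite hϖ hpm hp0 B hB
  letI := opModule 𝒪 η
  have hlf : ∀ x : 𝒪 ⊗[ℤ] B, Finite (Submodule.span (opRing 𝒪 𝕋) {x}) :=
    fun x => inferInstance
  set I : Ideal (opRing 𝒪 𝕋) := Ideal.span (thetaGens 𝒪 θ) with hI
  -- `λ` kills `I • X`
  have hgen : ∀ g ∈ thetaGens 𝒪 θ, ∀ w : 𝒪 ⊗[ℤ] B,
      tensFunctional μ (opHom 𝒪 η g w) = 0 := by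
    rintro g ⟨t, a, ha, rfl⟩ w
    rw [opHom_gen]
    exact tensFunctional_gen η θ μ hμ t a ha w
  have hI0' : ∀ r ∈ I, ∀ w : 𝒪 ⊗[ℤ] B, tensFunctional μ (opHom 𝒪 η r w) = 0 := by
    intro r hr
    induction hr using Submodule.span_induction with
    | mem g hg => exact hgen g hg
    | zero => intro w; rw [map_zero, LinearMap.zero_apply, map_zero]
    | add r r' _ _ h h' => intro w; rw [map_add, LinearMap.add_apply, map_add, h w, h' w, add_zero]
    | smul s r _ h =>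
      intro w
      rw [smul_eq_mul, mul_comm, map_mul, Module.End.mul_apply]
      exact h _
  have hI0 : ∀ r ∈ I, ∀ w : 𝒪 ⊗[ℤ] B, tensFunctional μ (r • w) = 0 := hI0'
  -- the decomposition of `w₀`
  have hcod := H61.codisjoint_prim_stab I hlf
  have hmem : ((1 : 𝒪) ⊗ₜ[ℤ] x₀ : 𝒪 ⊗[ℤ] B) ∈
      primPart I (𝒪 ⊗[ℤ] B) ⊔ stabPart I (𝒪 ⊗[ℤ] B) := by
    rw [codisjoint_iff.mp hcod]
    exact Submodule.mem_top
  obtain ⟨y, hy, z, hz, hyz⟩ := Submodule.mem_sup.mp hmem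
  obtain ⟨L, _, hzL⟩ := (H61.mem_stabPart_iff I z).mp hz
  have hz1 : z ∈ (I • L : Submodule (opRing 𝒪 𝕋) (𝒪 ⊗[ℤ] B)) := by
    have h1 : H61.sInf' I L ≤ (I ^ 1 • L : Submodule (opRing 𝒪 𝕋) (𝒪 ⊗[ℤ] B)) := iInf_le _ 1
    have h2 := h1 hzL
    rwa [pow_one] at h2
  have hz0 : tensFunctional μ z = 0 := by
    refine Submodule.smul_induction_on hz1 (fun r hr l _ => hI0 r hr l) (fun a b ha hb => ?_)
    rw [map_add, ha, hb, add_zero]
  have hy0 : tensFunctional μ y ≠ 0 := by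
    have h1 : tensFunctional μ y = μ x₀ := by
      have h2 := congrArg (tensFunctional μ) hyz
      rw [map_add, hz0, add_zero, tensFunctional_tmul, map_one, one_mul] at h2
      exact h2
    rw [h1]
    exact hx₀
  have hyne : y ≠ 0 := by
    intro h
    apply hy0
    rw [h, map_zero]
  have hyθ : y ∈ thetaPart η θ := (mem_thetaPart_iff_primPart' η θ hlf y).mpr hy
  exact ⟨⟨⟨y, hyθ⟩, 0, fun h => hyne (congrArg Subtype.val h)⟩⟩

end N2

end Fermat.Agent.NEB.Geom.H6
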