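import Fermat.Agent.NEB.Geom.H26_WMD
import Fermat.Agent.NEB.Geom.H6_ThetaNontriv
import Fermat.Agent.NEB.Geom.H6_AMin

/-!
# NEB-GEOM: W-MD and A-MIN, unconditional (helper6, with helper26's `H26.stmt_W_MD_of`)

* `stmt_N2 : H26.Stmt_N2` (from `nontrivial_thetaPart_of_functional`);
* `stmt_W_MD : Stmt_W_MD`;
* `stmt_A_MIN : Stmt_A_MIN`.
-/

set_option autoImplicit false

noncomputable section

open IsLocalRing TensorProduct

namespace Fermat.Agent.NEB.Geom.H6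

open Fermat.Agent.S59.Lim Fermat.Agent.S59.Lim.H2 Fermat.Agent.NEB.Geom

/-- **N2**, in helper26's form. -/
theorem stmt_N2 : Fermat.Agent.NEB.Geom.H26.Stmt_N2 :=
  fun _ _ _ _ _ _ hpm hp0 _ _ _ _ _ hB η θ μ hμ x₀ hx₀ =>
    nontrivial_thetaPart_of_functional hpm hp0 hB η θ μ hμ x₀ hx₀

/-- **Leaf W-MD**, unconditional. -/
theorem stmt_W_MD : Stmt_W_MD := Fermat.Agent.NEB.Geom.H26.stmt_W_MD_of stmt_N2

/-- **Leaf A-MIN**, unconditional. -/
theorem stmt_A_MIN : Stmt_A_MIN := stmt_A_MIN_of stmt_W_MD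

end Fermat.Agent.NEB.Geom.H6
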