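import Fermat.Agent.NEB.Geom.H84_Eta
import Fermat.Agent.NEB.Geom.H39_WEig2
import Fermat.Agent.NEB.EIG.H98_Asm

/-!
# Item 72 (LG-NEB), package NEB-GEOM, leaf **W-EIG with locality** (helper39)

`stmt_W_EIGL : Stmt_W_EIGL` : the Hecke ring of level `N ∏ q_j²` acts on the divisible module
`W = (𝒪 ⊗ J_H[p^∞])_{θ⁺}` through the twisted operators `T'_ℓ`, locally at `θ ∘ rest`.

Inputs: `H39.stmt_EIG_W` (EIG-A + W-EIG abstract), `H98.stmt_EIG_ASM` (EIG-ASM),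
`H84.finite_AH_p` (Z-FIN).  Consequently `stmt_A_ETA : Stmt_A_ETA` (via `stmt_A_ETA_of`).
-/

set_option autoImplicit false

namespace Fermat.Agent.NEB.Geom.H39

open ModularCurve AlgebraicCurve IsLocalRing TensorProduct
open Fermat.Agent.NEB Fermat.Agent.NEB.JH Fermat.Agent.S59 Fermat.Agent.S59.Asm
  Fermat.Agent.S59.Lim Fermat.Agent.S59.Lim.H2
open Fermat.Agent.NEB.EIG.H39

section Div

/-- A `ϖ`-divisible module over a discrete valuation ring is `p`-divisible (`p ≠ 0`). -/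
theorem pdiv_of_div {𝒪 : Type*} [CommRing 𝒪] [IsDomain 𝒪] [IsDiscreteValuationRing 𝒪] {ϖ : 𝒪}
    (hϖ : Irreducible ϖ) {p : ℕ} (hp0 : (p : 𝒪) ≠ 0) {W : Type*} [AddCommGroup W] [Module 𝒪 W]
    (hdiv : ∀ x : W, ∃ y : W, ϖ • y = x) (w : W) : ∃ w' : W, (p : 𝒪) • w' = w := by
  obtain ⟨n, u, hu⟩ := IsDiscreteValuationRing.eq_unit_mul_pow_irreducible hp0 hϖ
  have hpow : ∀ (n : ℕ) (w : W), ∃ w' : W, ϖ ^ n • w' = w := by
    intro n
    induction n with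
    | zero =>
      intro w
      exact ⟨w, by rw [pow_zero, one_smul]⟩
    | succ n ih =>
      intro w
      obtain ⟨w₁, hw₁⟩ := hdiv w
      obtain ⟨w₂, hw₂⟩ := ih w₁
      exact ⟨w₂, by rw [pow_succ, mul_comm, mul_smul, hw₂, hw₁]⟩
  obtain ⟨w', hw'⟩ := hpow n w
  refine ⟨((u⁻¹ : 𝒪ˣ) : 𝒪) • w', ?_⟩
  rw [hu, smul_smul, mul_comm (↑u * ϖ ^ n), ← mul_assoc, Units.inv_mul, one_mul, hw']

end Div

section Level

theorem twLevel_eq_mul (N : ℕ) {r : ℕ} (qv : Fin r → ℕ) :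
    twLevel N qv = N * twC qv * twC qv := by
  unfold twLevel twC
  rw [Finset.prod_pow, pow_two, mul_assoc]

theorem twC_eq_list_prod {r : ℕ} (qv : Fin r → ℕ) : twC qv = (List.ofFn qv).prod := by
  unfold twC
  rw [List.prod_ofFn]

end Level

section Main

/-- **W-EIG with locality**. -/
theorem stmt_W_EIGL : Stmt_W_EIGL := by
  intro 𝒪 _ _ _ _ _ ϖ hϖ p _ hpm N _ S n r qv hTW _ _ h2 hcomm θ α hdiv
  classical
  have hp0 : (p : 𝒪) ≠ 0 := Nat.cast_ne_zero.mpr hTW.hp.ne_zero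
  haveI : NeZero (twC qv) := ⟨by omega⟩
  have hfin := H84.finite_AH_p (twH p n qv) h2 (dvd_mul_left (twC qv) N) p
  have hodd : Odd p := hTW.hp.odd_of_ne_two hTW.hp2
  obtain ⟨ms, -, h1, h2', h3, h4⟩ := Fermat.Agent.NEB.EIG.H98.stmt_EIG_ASM p N (twC qv)
    (twH p n qv) h2 Fermat.Agent.NEB.H70.iotaC (jTw p n)
    (Fermat.Agent.NEB.EIG.H98.twH_pow_mem p n hodd qv)
  have hqN : ∀ j, ¬ qv j ∣ N := fun j hd => hTW.notS j (hTW.hNS (qv j) (hTW.prime j) hd)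
  have hS : ∀ q : ℕ, q.Prime → q ∣ twLevel N qv → q ∈ (↑(twSet S qv) : Set ℕ) := by
    intro q hq hqd
    by_cases hqN' : q ∣ N
    · exact H41.subset_twSet S qv (hTW.hNS q hq hqN')
    · exact H41.new_prime_mem_twSet N S qv hTW.prime q hq hqd hqN'
  obtain ⟨etaW, e1, -, e3⟩ := stmt_EIG_W p N hTW.hN (List.ofFn qv)
    (List.nodup_ofFn.mpr hTW.inj)
    (fun q hq => by
      obtain ⟨j, rfl⟩ := (List.mem_ofFn' qv q).mp hq
      exact hTW.prime j)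
    (fun q hq => by
      obtain ⟨j, rfl⟩ := (List.mem_ofFn' qv q).mp hq
      exact hqN j)
    (twC qv) (twLevel N qv) (twC_eq_list_prod qv) (twLevel_eq_mul N qv)
    (↑(twSet S qv) : Set ℕ) hS
    (AH (N * twC qv) (twC qv) (twH p n qv) p) (fun x => isPTors_coe x) hfin ms
    (Tz (N * twC qv) (twC qv) (twH p n qv) h2 (dvd_mul_left _ _) p) h1
    (diaZ (N * twC qv) (twC qv) (twH p n qv) h2 (dvd_mul_left _ _) p) h2' h3 (jTw p n) h4
    (etaTw N S p n qv h2 hcomm) (thetaTw N S qv θ α)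
    (fun w => pdiv_of_div hϖ hp0 hdiv.div w)
    (fun ℓ => MvPolynomial.X (Sum.inl ℓ))
    (fun ℓ hℓ hℓN hℓS => by
      show polyHom (opsTw N S p n qv h2) hcomm (MvPolynomial.X (Sum.inl ℓ)) = _
      rw [polyHom_X]
      show (if GoodTw N S qv ℓ then _ else 0) = _
      rw [if_pos ⟨hℓ, hℓN, hℓS⟩]
      rfl)
    (θ.comp (H41.restTW N S qv hTW.prime))
    (fun ℓ hℓ hℓN hℓS => by
      have hg : GoodTw N S qv ℓ := ⟨hℓ, hℓN, hℓS⟩
      rw [RingHom.comp_apply, H41.restTW_T N S qv hTW.prime ℓ hℓ hℓN hℓS hg.not_dvd hg.not_mem]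
      show _ = MvPolynomial.eval₂Hom (Int.castRingHom _) (thetaVal N S qv θ α)
        (MvPolynomial.X (Sum.inl ℓ))
      rw [MvPolynomial.eval₂Hom_X']
      show _ = dite (GoodTw N S qv ℓ) _ _
      rw [dif_pos hg])
  exact ⟨etaW, e1, fun t a₀ ha x _ => e3 t a₀ ha x⟩

/-- **A-ETA** (unconditional). -/
theorem stmt_A_ETA : Stmt_A_ETA := stmt_A_ETA_of stmt_W_EIGL

end Main

end Fermat.Agent.NEB.Geom.H39
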