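import Fermat.Agent.NEB.Geom.AsmTop

/-!
# Item 72 (LG-NEB), package NEB-GEOM, leaf A-SETUP (helper84)

* `Stmt_A_ETA`   : divisibility of `W` and the Hecke action on `W` (leaf; helper39 / helper98);
* `Stmt_A_COMM`  : `Stmt_Z_COMMtw`, universally quantified (leaf; helper29);
* `stmt_A_SETUP_of : Stmt_A_COMM → Stmt_W_NONEIS → Stmt_A_ETA → Stmt_A_SETUP`.
-/

set_option autoImplicit false
set_option linter.unusedSectionVars false
set_option linter.style.haveILetI false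
set_option linter.unusedVariables false

noncomputable section

open ModularCurve AlgebraicCurve IsLocalRing TensorProduct Polynomial

namespace Fermat.Agent.NEB.Geom

open Fermat.Agent.NEB Fermat.Agent.NEB.JH Fermat.Agent.S59 Fermat.Agent.S59.Asm
  Fermat.Agent.S59.Lim Fermat.Agent.S59.Lim.H2

/-- **A-COMM**: `Stmt_Z_COMMtw` for all Taylor–Wiles data. -/
def Stmt_A_COMM : Prop :=
  ∀ (N : ℕ) (S : Finset ℕ) (p n r : ℕ) (qv : Fin r → ℕ) [NeZero (N * twC qv)]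
    (h2 : 2 ≤ twC qv), Stmt_Z_COMMtw N S p n qv h2

/-- **A-ETA**: `W` is `IsDiv`, and the Hecke ring of level `N ∏ q_j²` acts on it through the
twisted operators, locally at `θ ∘ rest`. -/
def Stmt_A_ETA : Prop :=
  ∀ (𝒪 : Type) [CommRing 𝒪] [IsDomain 𝒪] [IsDiscreteValuationRing 𝒪]
    [IsAdicComplete (maximalIdeal 𝒪) 𝒪] [Finite (ResidueField 𝒪)] [CharZero 𝒪]
    (ϖ : 𝒪) (p : ℕ) [Fact p.Prime] (N : ℕ) [NeZero N] (S : Finset ℕ)
    (θ : CuspForm.heckeAlgebra N 2 (↑S : Set ℕ) →+* ResidueField 𝒪)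
    (ρbar : ResidualGaloisRep (ResidueField 𝒪)), StdHyp 𝒪 ϖ p N S θ ρbar →
    ∀ (n r : ℕ) (qv : Fin r → ℕ)
      [NeZero (N * twC qv)] [NeZero (twC qv)] [NeZero (twLevel N qv)]
      (hTW : TwHyp N S p n qv) (h2 : 2 ≤ twC qv)
      (hcomm : ∀ i j, Commute (opsTw N S p n qv h2 i) (opsTw N S p n qv h2 j))
      (α : Fin r → ResidueField 𝒪) (ℓ₀ : ℕ) (hℓ₀ : GoodTw N S qv ℓ₀),
      θ (CuspForm.heckeAlgebra.T hℓ₀.1 hℓ₀.not_dvd hℓ₀.not_mem) ≠ ((ℓ₀ : ResidueField 𝒪) + 1) →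
    IsDiv ϖ ↥(Wtw 𝒪 N S p n qv h2 hcomm θ α) ∧
    ∃ η : CuspForm.heckeAlgebra (twLevel N qv) 2 (↑(twSet S qv) : Set ℕ) →+*
        Module.End 𝒪 ↥(Wtw 𝒪 N S p n qv h2 hcomm θ α),
      (∀ (ℓ : ℕ) (hℓ : ℓ.Prime) (hℓN : ¬ ℓ ∣ twLevel N qv)
        (hℓS : ℓ ∉ (↑(twSet S qv) : Set ℕ)),
        η (CuspForm.heckeAlgebra.T hℓ hℓN hℓS) =
          thetaEta (etaTw N S p n qv h2 hcomm) (thetaTw N S qv θ α)
            (MvPolynomial.X (Sum.inl ℓ))) ∧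
      (∀ (t : CuspForm.heckeAlgebra (twLevel N qv) 2 (↑(twSet S qv) : Set ℕ)) (a₀ : 𝒪),
        residue 𝒪 a₀ = (θ.comp (Fermat.Agent.S59.Asm.H41.restTW N S qv hTW.prime)) t →
        ∀ x : ↥(Wtw 𝒪 N S p n qv h2 hcomm θ α), ϖ • x = 0 →
          ∃ m : ℕ, ((η t - a₀ • (1 : Module.End 𝒪 ↥(Wtw 𝒪 N S p n qv h2 hcomm θ α))) ^ m) x
            = 0)

/-- `TwHyp` from the hypotheses of `Stmt_TWGEOM`. -/
theorem twHyp_of {𝒪 : Type} [CommRing 𝒪] [IsLocalRing 𝒪] {ϖ : 𝒪} {p : ℕ} [Fact p.Prime]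
    {N : ℕ} [NeZero N] {S : Finset ℕ}
    {θ : CuspForm.heckeAlgebra N 2 (↑S : Set ℕ) →+* ResidueField 𝒪}
    {ρbar : ResidualGaloisRep (ResidueField 𝒪)} (hstd : StdHyp 𝒪 ϖ p N S θ ρbar)
    {n r : ℕ} {qv : Fin r → ℕ} (hr : 0 < r)
    (hfam : Fermat.Agent.S56.IsTWFamily ρbar p n S qv) : TwHyp N S p n qv where
  hp := Fact.out
  hp2 := hstd.hp2
  hN := NeZero.ne N
  hr := hr
  inj := hfam.1
  prime := fun j => (hfam.2.1 j).1
  cong := fun j => (hfam.2.1 j).2.2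
  notS := fun j => (hfam.2.1 j).2.1
  hNS := hstd.hNS
  hpS := hstd.hres.hpSmin

/-- A prime outside `S ∪ {q_j}` not dividing `N` is good at the Taylor–Wiles level. -/
theorem goodTw_of {N : ℕ} {S : Finset ℕ} {p n r : ℕ} {qv : Fin r → ℕ}
    (hTW : TwHyp N S p n qv) {ℓ : ℕ} (hℓ : ℓ.Prime) (hℓN : ¬ ℓ ∣ N)
    (hℓS : ℓ ∉ (↑S : Set ℕ)) (hℓT : ℓ ∉ Finset.univ.image qv) : GoodTw N S qv ℓ := by
  refine ⟨hℓ, ?_, ?_⟩
  · intro hd
    rw [twLevel] at hd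
    rcases (Nat.Prime.dvd_mul hℓ).mp hd with h | h
    · exact hℓN h
    · obtain ⟨j, -, hj⟩ := (Prime.dvd_finset_prod_iff hℓ.prime _).mp h
      have h1 : ℓ ∣ qv j := hℓ.dvd_of_dvd_pow hj
      have h2 : ℓ = qv j := (Nat.prime_dvd_prime_iff_eq hℓ (hTW.prime j)).mp h1
      exact hℓT (Finset.mem_image.mpr ⟨j, Finset.mem_univ j, h2.symm⟩)
  · intro h
    simp only [twSet, Finset.coe_union, Set.mem_union] at h
    rcases h with h | h
    · exact hℓS h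
    · exact hℓT (by exact_mod_cast h)

/-- **A-SETUP** from A-COMM, W-NONEIS and A-ETA (and A-CHOICE). -/
theorem stmt_A_SETUP_of (hCOMM : Stmt_A_COMM) (hNE : Stmt_W_NONEIS) (hETA : Stmt_A_ETA) :
    Stmt_A_SETUP := by
  intro 𝒪 _ _ _ _ _ _ ϖ p _ N _ S θ ρbar hstd n r qv hr hfam _ _ _ hint
  have hTW : TwHyp N S p n qv := twHyp_of hstd hr hfam
  have h2 : 2 ≤ twC qv := H84.two_le_twC hTW
  obtain ⟨hc1, hc2, -⟩ := hCOMM N S p n r qv h2 hTW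
  -- places and Frobenius elements
  have hex : ∀ j : Fin r, ∃ (A : ValuationSubring Kbar) (σ : GalQ),
      A.LiesOverPrime (qv j) ∧ A.IsFrobeniusAt σ (qv j) :=
    fun j => Fermat.Agent.Lib.FrobExists.exists_place_and_frobenius (qv j) (hTW.prime j)
  choose P frob hP hfr using hex
  obtain ⟨σ, hσ, hδ⟩ := H84.exists_sigma hTW P hP
  obtain ⟨α, β, a, a', heig, ha, ha', hcp⟩ :=
    H84.exists_eig ρbar θ hstd.hpm hTW hfam hstd.hfrob P hP frob hfr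
  -- a non-Eisenstein prime
  have hpk : ((p : ℕ) : ResidueField 𝒪) = 0 := by
    have : residue 𝒪 (p : 𝒪) = 0 := (residue_eq_zero_iff _).mpr hstd.hpm
    rwa [map_natCast] at this
  obtain ⟨ℓ₀, hℓ, hℓN, hℓS, hℓT, hne⟩ :=
    hNE (ResidueField 𝒪) p hstd.hp2 hpk ρbar hstd.hres.habs N S hstd.hres.hpSmin θ hstd.hfrob
      (Finset.univ.image qv)
  have hgood : GoodTw N S qv ℓ₀ := goodTw_of hTW hℓ hℓN hℓS hℓT
  obtain ⟨hdiv, η, hηT, hηloc⟩ :=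
    hETA 𝒪 ϖ p N S θ ρbar hstd n r qv hTW h2 hc1 α ℓ₀ hgood hne
  exact ⟨{
    hTW := hTW
    h2 := h2
    hcomm := hc1
    hcommG := hc2
    α := α
    β := β
    eig := heig
    a := a
    a' := a'
    ha := ha
    ha' := ha'
    ℓ₀ := ℓ₀
    hℓ₀ := hgood
    hne := hne
    P := P
    P_over := hP
    frob := frob
    frob_spec := hfr
    σ := σ
    σ_mem := hσ
    hδ := hδ
    charpoly_frob := hcp
    isDiv := hdiv
    η := η
    η_T := hηT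
    η_local := hηloc }⟩

end Fermat.Agent.NEB.Geom
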