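import Fermat.Agent.NEB.H14_JHData
import Fermat.Agent.NEB.H70_RedQ

/-!
# Item 72 (LG-NEB), package NEB-GEOM (helper84): class-level interface

Plan: `NOTES/plan/NEB_GEOM.md`.  This file: the kernel of reduction on `J_H = Pic⁰(F_H)` and the
CLASS-LEVEL statements (leaves `CL-*`) which translate the series-level theorems
(`NEB/H70_RedQ.lean`, `NEB/H84_Res.lean`, `RED.stmt_TIcore`) to divisor classes.

* `IsPTors p x`        : `x` is `p`-power torsion.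
* `InK1 P p F x`       : `x = [D]`, `p^k D = div f` with `f ∈ ℚ̄ˣ · (1 + 𝔪_Gauss)` at the place `P` of `ℚ̄`
  (the kernel of the reduction map of the Gauss valuation of `F`, `p`-primary part).
* `InKA P p dd x`      : all diamond conjugates of `x` lie in `K1` (`K_A` of `S59_TWH.md`).

Definitions and `Prop`-valued statements only; no `sorry`.
-/

set_option autoImplicit false

noncomputable section

open ModularCurve AlgebraicCurve

namespace Fermat.Agent.NEB.Geom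

open Fermat.Agent.NEB Fermat.Agent.NEB.JH

/-- `Gal(ℚ̄/ℚ)`. -/
abbrev GalQ : Type := Kbar ≃ₐ[ℚ] Kbar

/-- `x` is `p`-power torsion. -/
def IsPTors (p : ℕ) {A : Type*} [AddCommGroup A] (x : A) : Prop := ∃ k : ℕ, (p ^ k : ℕ) • x = 0

/-- **The kernel of reduction** (`p`-primary part) at the Gauss valuation attached to the
valuation ring `P` of `ℚ̄`: the class `x` has a Kummer function (for some power of `p`) which is a
constant times a Gauss unit reducing to `1`. -/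
def InK1 (P : ValuationSubring Kbar) (p : ℕ) (F : IntermediateField Kbar (LaurentSeries Kbar))
    (x : Pic0 Kbar ↥F) : Prop :=
  ∃ (k : ℕ) (D : Divisor.degZero (K := Kbar) (F := ↥F)) (f : ↥F), f ≠ 0 ∧ x = Pic0.mk D ∧
    (∀ v : Place Kbar ↥F, ((p : ℤ) ^ k) * (D : Divisor Kbar ↥F) v = v.ord f) ∧
    Fermat.Agent.NEB.H70.IsRedOneC P (f : LaurentSeries Kbar)

/-- `K_A`: all diamond conjugates lie in the kernel of reduction. -/
def InKA (P : ValuationSubring Kbar) (p : ℕ) {M c : ℕ} {H : Subgroup (ZMod c)ˣ}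
    (dd : DiamondData M c H) (x : JH M c H) : Prop :=
  ∀ d : (ZMod c)ˣ, InK1 P p (FHbar M c H) (dd.ρ d • x)

/-! ## Leaves CL-* (class level) -/

section Statements

variable (M c : ℕ) (H : Subgroup (ZMod c)ˣ) (p : ℕ)

/-- **CL-SUB**: `K1` is a subgroup. -/
def Stmt_CL_sub (F : IntermediateField Kbar (LaurentSeries Kbar)) : Prop :=
  ∀ P : ValuationSubring Kbar, InK1 P p F 0 ∧
    (∀ x y, InK1 P p F x → InK1 P p F y → InK1 P p F (x + y)) ∧
    (∀ x, InK1 P p F x → InK1 P p F (-x))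

/-- **CL-GAL**: `K1` is stable under the decomposition group of `P` (coefficientwise action). -/
def Stmt_CL_gal (F₀ : IntermediateField ℚ (LaurentSeries ℚ)) : Prop :=
  ∀ (P : ValuationSubring Kbar) (σ : GalQ), σ ∈ P.decompositionSubgroup ℚ →
    ∀ x : Pic0 Kbar (laurentBaseChange Kbar F₀), InK1 P p (laurentBaseChange Kbar F₀) x →
      InK1 P p (laurentBaseChange Kbar F₀) (σ • x)

/-- **CL-T**: `K_A` is stable under `T_ℓ^H` (`ℓ ∤ M` prime). -/
def Stmt_CL_T : Prop :=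
  ∀ (ℓ : ℕ) [NeZero M] [NeZero ℓ], ℓ.Prime → ¬ ℓ ∣ M → ∀ hd : HeckeData M c ℓ H,
  ∀ (P : ValuationSubring Kbar) (x : JH M c H), InKA P p hd.dd x → InKA P p hd.dd (TH hd.hβ x)

/-- **CL-U**: `K_A` is stable under `U_q^H` (`q ∣ M` prime). -/
def Stmt_CL_U : Prop :=
  ∀ (q : ℕ) [NeZero M] [NeZero q], q.Prime → q ∣ M → ∀ hd : HeckeData M c q H,
  ∀ (P : ValuationSubring Kbar) (x : JH M c H), InKA P p hd.dd x → InKA P p hd.dd (UH hd.hβ x)

/-- **CL-INERTIA**: `(σ - 1) J_H[p^∞] ⊆ K_A` for `σ` in the inertia group of `P`. -/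
def Stmt_CL_inertia : Prop :=
  ∀ (dd : DiamondData M c H) (P : ValuationSubring Kbar) (r : ℕ), r.Prime → P.LiesOverPrime r →
  ∀ σ ∈ P.inertiaSubgroupIn ℚ, ∀ x : JH M c H, IsPTors p x → InKA P p dd (σ • x - x)

/-- **CL-ES** (Eichler–Shimura, class level): for a Frobenius `φ` at `P ∣ ℓ`, `ℓ ∤ M p`, and
`u ∈ (ℤ/c)ˣ` the class of `ℓ`:  `(⟨ℓ⟩ φ² - T_ℓ^H φ + ℓ) J_H[p^∞] ⊆ K_A`.
(Convention of `H70.coe_THfn`: `THfn f = twNorm ℓ f (ρ(u) f)`, and `H70.isRedOneC_ES` with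
`x₁ = f`, `x₂ = ρ(u) f`.) -/
def Stmt_CL_ES : Prop :=
  ∀ (ℓ : ℕ) [NeZero M] [NeZero ℓ], ℓ.Prime → ¬ ℓ ∣ M → ℓ ≠ p →
  ∀ u : (ZMod c)ˣ, (u : ZMod c) = (ℓ : ZMod c) → ∀ hd : HeckeData M c ℓ H,
  ∀ (P : ValuationSubring Kbar), P.LiesOverPrime ℓ → ∀ φ : GalQ, P.IsFrobeniusAt φ ℓ →
  ∀ x : JH M c H, IsPTors p x →
    InKA P p hd.dd (hd.dd.ρ u • (φ • φ • x) - TH hd.hβ (φ • x) + ℓ • x)

/-- **CL-UF**: for a Frobenius `φ` at `P ∣ q`, `q ∣ M`, `q ≠ p`: `(U_q^H - φ) J_H[p^∞] ⊆ K_A`. -/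
def Stmt_CL_UF : Prop :=
  ∀ (q : ℕ) [NeZero M] [NeZero q], q.Prime → q ∣ M → q ≠ p → ∀ hd : HeckeData M c q H,
  ∀ (P : ValuationSubring Kbar), P.LiesOverPrime q → ∀ φ : GalQ, P.IsFrobeniusAt φ q →
  ∀ x : JH M c H, IsPTors p x → InKA P p hd.dd (UH hd.hβ x - φ • x)

/-- **CL-RES** (class form of `H84.stmt_RES`): a `p`-power torsion class of `J₀(M)` whose pull-back
to `J_H` lies in the kernel of reduction is the sum of a class in the kernel of reduction of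
`J₀(M)` and a class killed by `π^*`.  (`P` over a prime `r ≠ p`; the exponent of `(ℤ/c)ˣ/±H` is a
power of `p`.) -/
def Stmt_CL_RES : Prop :=
  2 ≤ c → c ∣ M → M ≠ 0 →
  ∀ (n : ℕ), (∀ d : (ZMod c)ˣ, d ^ (p ^ n) ∈ H ∨ -(d ^ (p ^ n)) ∈ H) →
  ∀ (P : ValuationSubring Kbar) (r : ℕ), r.Prime → r ≠ p → P.LiesOverPrime r →
  ∀ x₀ : JZero M, IsPTors p x₀ → InK1 P p (FHbar M c H) (piUp M c H x₀) →
    ∃ y z : JZero M, x₀ = y + z ∧ InK1 P p (modularFunctionFieldBar M) y ∧ piUp M c H z = 0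

/-- **CL-TI** (class form of `RED.stmt_TIcore`): at a place over `ℓ ∤ M p` the kernel of reduction
of `J₀(M)` has no `p`-power torsion. -/
def Stmt_CL_TI : Prop :=
  ∀ [NeZero M] (ℓ : ℕ), ℓ.Prime → ¬ ℓ ∣ M → ℓ ≠ p →
  ∀ (P : ValuationSubring Kbar), P.LiesOverPrime ℓ →
  ∀ x : JZero M, InK1 P p (modularFunctionFieldBar M) x → x = 0

/-- **OLD-RED** (level `Γ₀`, bad prime `q ∥ Mq`): if `α^* u + β^* v` lies in the kernel of
reduction of `J₀(Mq)` at `P ∣ q`, then `φ u + q v` lies in the kernel of reduction of `J₀(M)`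
(hence is `0` by CL-TI).  Uses: the residue field of the Gauss valuation of `F₀(Mq)` is that of
`F₀(M)` (`BAD`, redField), and `res (f (t^q)) = (Frob⁻¹ res f)^q`. -/
def Stmt_OLD_RED : Prop :=
  ∀ [NeZero M] (q : ℕ) [NeZero q], q.Prime → ¬ q ∣ M → q ≠ p →
  ∀ (P : ValuationSubring Kbar), P.LiesOverPrime q → ∀ φ : GalQ, P.IsFrobeniusAt φ q →
  ∀ u v : JZero M, IsPTors p u → IsPTors p v →
    InK1 P p (modularFunctionFieldBar (M * q))
      (Fermat.Agent.NEB.H14.pullP (heckeAlphaBar Kbar M q) u +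
        Fermat.Agent.NEB.H14.pullP (heckeBetaBar Kbar M q) v) →
    InK1 P p (modularFunctionFieldBar M) (φ • u + q • v)

/-- **FIX** (derived from INV, CL-RES, CL-TI, CL-T): at a place over a prime `r ∤ M p`, a
`Δ`-fixed `p`-power torsion class in `K_A` is killed by the Eisenstein operator
`T_ℓ^H - (ℓ + 1)`. -/
def Stmt_FIX : Prop :=
  ∀ (ℓ : ℕ) [NeZero M] [NeZero ℓ], ℓ.Prime → ¬ ℓ ∣ M → ∀ hd : HeckeData M c ℓ H,
  ∀ (P : ValuationSubring Kbar) (r : ℕ), r.Prime → ¬ r ∣ M → r ≠ p → P.LiesOverPrime r →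
  ∀ x : JH M c H, IsPTors p x → InKA P p hd.dd x → (∀ d, hd.dd.ρ d • x = x) →
    TH hd.hβ x - (ℓ + 1) • x = 0

end Statements

end Fermat.Agent.NEB.Geom
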