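import Fermat.Agent.NEB.Geom.Defs
import Fermat.Agent.NEB.H70_NormQ

/-!
# Item 72 (LG-NEB), package NEB-GEOM: the uniform kernel of reduction `K_A` (helper70)

`KumRep n x f` : the class `x` is `[D]` with `n D = div f` (a Kummer representation).
`InKU P p dd x` : `x` has a Kummer representation `(p^k, f)` such that ALL diamond conjugates
`ρ(d) f` are constants times Gauss units reducing to `1` (one representative for all `d`).

* `InKU` is a subgroup, stable under the diamond operators, contained in `InKA` and `InK1`.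
* CL-T, CL-U (`InKU.TH`, `InKU.UH`): `InKU` is stable under `T_ℓ^H`, `U_q^H`.
* CL-INERTIA, CL-ES, CL-UF with conclusion `InKU`.
-/

set_option autoImplicit false

noncomputable section

open ModularCurve AlgebraicCurve

namespace Fermat.Agent.NEB.Geom.H70

open Fermat.Agent.NEB Fermat.Agent.NEB.JH Fermat.Agent.NEB.H14

/-! ## 1. Kummer representations -/

section KumRep

variable {K F F' : Type*} [Field K] [Field F] [Field F'] [Algebra K F] [Algebra K F']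

/-- `x = [D]` with `n D = div f`, `f ≠ 0`. -/
def KumRep (n : ℤ) (x : Pic0 K F) (f : F) : Prop :=
  f ≠ 0 ∧ ∃ D : Divisor.degZero (K := K) (F := F), x = Pic0.mk D ∧
    ∀ v : Place K F, n * (D : Divisor K F) v = v.ord f

theorem KumRep.ne_zero {n : ℤ} {x : Pic0 K F} {f : F} (h : KumRep n x f) : f ≠ 0 := h.1

theorem kumRep_zero (n : ℤ) : KumRep n (0 : Pic0 K F) (1 : F) :=
  ⟨one_ne_zero, 0, rfl, fun v => by
    rw [Place.ord_one]
    show n * (0 : Divisor K F) v = 0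
    rw [Finsupp.zero_apply, mul_zero]⟩

theorem KumRep.add {n : ℤ} {x y : Pic0 K F} {f g : F} (hx : KumRep n x f) (hy : KumRep n y g) :
    KumRep n (x + y) (f * g) := by
  obtain ⟨hf, D, rfl, hD⟩ := hx
  obtain ⟨hg, E, rfl, hE⟩ := hy
  refine ⟨mul_ne_zero hf hg, D + E, rfl, fun v => ?_⟩
  rw [v.ord_mul hf hg, ← hD v, ← hE v]
  show n * ((D : Divisor K F) + (E : Divisor K F)) v = _
  rw [Finsupp.add_apply, mul_add]

theorem KumRep.neg {n : ℤ} {x : Pic0 K F} {f : F} (hx : KumRep n x f) :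
    KumRep n (-x) f⁻¹ := by
  obtain ⟨hf, D, rfl, hD⟩ := hx
  refine ⟨inv_ne_zero hf, -D, rfl, fun v => ?_⟩
  rw [v.ord_inv, ← hD v]
  show n * (-(D : Divisor K F)) v = _
  rw [Finsupp.neg_apply, mul_neg]

theorem KumRep.sub {n : ℤ} {x y : Pic0 K F} {f g : F} (hx : KumRep n x f) (hy : KumRep n y g) :
    KumRep n (x - y) (f * g⁻¹) := by
  rw [sub_eq_add_neg]
  exact hx.add hy.neg

theorem KumRep.nsmul {n : ℤ} {x : Pic0 K F} {f : F} (hx : KumRep n x f) (m : ℕ) :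
    KumRep n (m • x) (f ^ m) := by
  induction m with
  | zero =>
    rw [zero_nsmul, pow_zero]
    exact kumRep_zero n
  | succ m ih =>
    rw [succ_nsmul, pow_succ]
    exact ih.add hx

/-- Change of level: `n D = div f ⟹ (n m) D = div (f ^ m)`. -/
theorem KumRep.level {n : ℤ} {x : Pic0 K F} {f : F} (hx : KumRep n x f) (m : ℕ) :
    KumRep (n * m) x (f ^ m) := by
  obtain ⟨hf, D, rfl, hD⟩ := hx
  refine ⟨pow_ne_zero m hf, D, rfl, fun v => ?_⟩
  rw [← zpow_natCast, v.ord_zpow, ← hD v]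
  ring

theorem KumRep.congr {n : ℤ} {x y : Pic0 K F} {f g : F} (hx : KumRep n x f) (hxy : x = y)
    (hfg : f = g) : KumRep n y g := by
  subst hxy; subst hfg; exact hx

/-- Image under a correspondence. -/
theorem KumRep.picMap {n : ℤ} {x : Pic0 K F} {f : F} (hx : KumRep n x f)
    {Φ : Divisor K F →+ Divisor K F'} {N : F → F'} {d : ℤ} (h : IsCorr Φ N d) :
    KumRep n (H14.picMap Φ x) (N f) := by
  obtain ⟨hf, D, rfl, hD⟩ := hx
  refine ⟨(h.hasFn f hf).1, degZeroMap Φ h.isGood D, picMap_mk h.isGood D, fun v => ?_⟩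
  exact h.hasFn.kummer n _ hf hD v

/-- Every class killed by `n` has a Kummer representation. -/
theorem exists_kumRep {n : ℤ} {x : Pic0 K F} (hx : n • x = 0) : ∃ f : F, KumRep n x f := by
  obtain ⟨D, rfl⟩ := Pic0.mk_surjective x
  have h1 : (Pic0.mk (n • D) : Pic0 K F) = 0 := hx
  have h2 : ((n • D : Divisor.degZero (K := K) (F := F)) : Divisor K F)
      ∈ Divisor.principal (K := K) (F := F) := by
    have := (QuotientAddGroup.eq_zero_iff (n • D)).1 h1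
    exact this
  obtain ⟨f, hf, hDf⟩ := h2
  refine ⟨f, hf, D, rfl, fun v => ?_⟩
  rw [← hDf v]
  show _ = (n • (D : Divisor K F)) v
  rw [Finsupp.smul_apply, smul_eq_mul]

end KumRep

/-! ## 2. Kummer representations: Galois action, diamonds, Hecke operators -/

section Semilinear

variable {K F : Type*} [Field K] [Field F] [Algebra K F]

theorem KumRep.semilinear {n : ℤ} {x : Pic0 K F} {f : F} (hx : KumRep n x f)
    (g : SemilinearAut K F) : KumRep n (g • x) (g • f) := by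
  obtain ⟨hf, D, rfl, hD⟩ := hx
  refine ⟨by simpa using hf, SemilinearAut.degZeroSMulHom g D, SemilinearAut.pic0_smul_mk g D,
    fun w => ?_⟩
  rw [SemilinearAut.coe_degZeroSMulHom, SemilinearAut.divisor_smul_apply, hD (g⁻¹ • w)]
  have h := SemilinearAut.ord_smul g (g⁻¹ • w) f
  rw [smul_inv_smul] at h
  exact h.symm

end Semilinear

section JHops

variable {M c ℓ : ℕ} [NeZero M] [NeZero ℓ] {H : Subgroup (ZMod c)ˣ}

theorem KumRep.galois {M c : ℕ} {H : Subgroup (ZMod c)ˣ} {n : ℤ} {x : JH M c H}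
    {f : ↥(FHbar M c H)} (hx : KumRep n x f) (σ : GalQ) :
    KumRep n (σ • x) (arithmeticRingAut (FHQ M c H) σ f) :=
  hx.semilinear (arithmeticGalois (FHQ M c H) σ)

theorem KumRep.diamond {M c : ℕ} {H : Subgroup (ZMod c)ˣ} (dd : DiamondData M c H) {n : ℤ}
    {x : JH M c H} {f : ↥(FHbar M c H)} (hx : KumRep n x f) (d : (ZMod c)ˣ) :
    KumRep n (dd.ρ d • x) (dd.ρ d f) := by
  have := hx.picMap (isCorr_smulD (dd.ρ d))
  rwa [picMap_smulD] at this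

theorem KumRep.TH (hd : HeckeData M c ℓ H) {n : ℤ} {x : JH M c H} {f : ↥(FHbar M c H)}
    (hx : KumRep n x f) : KumRep n (TH hd.hβ x) (THfn hd.hβ f) := by
  have := hx.picMap (isCorr_THdiv hd.isFF hd.isFF' hd.hβ)
  rwa [← TH_eq_picMap hd.isFF hd.isFF'] at this

theorem KumRep.UH (hd : HeckeData M c ℓ H) {n : ℤ} {x : JH M c H} {f : ↥(FHbar M c H)}
    (hx : KumRep n x f) : KumRep n (UH hd.hβ x) (UHfn hd.hβ f) := by
  have := hx.picMap (isCorr_UHdiv hd.isFF hd.isFF' hd.hβ)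
  rwa [← UH_eq_picMap hd.isFF hd.isFF'] at this

/-- `ρ(d)` commutes with the Kummer function of `T^H`. -/
theorem rho_THfn (hd : HeckeData M c ℓ H) (d : (ZMod c)ˣ) (f : ↥(FHbar M c H)) :
    hd.dd.ρ d (THfn hd.hβ f) = THfn hd.hβ (hd.dd.ρ d f) := by
  show hd.dd.ρ d (normFn (alphaH M c ℓ H) (betaBar hd.hβ f))
    = normFn (alphaH M c ℓ H) (betaBar hd.hβ (hd.dd.ρ d f))
  rw [← hd.betaGal d f]
  exact Fermat.Agent.NEB.H29.normFn_algEquiv (alphaH M c ℓ H) (hd.dd.ρ d) (hd.dd'.ρ d)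
    (hd.alphaGal d) _

/-- `ρ(d)` commutes with the Kummer function of `U^H`. -/
theorem rho_UHfn (hd : HeckeData M c ℓ H) (d : (ZMod c)ˣ) (f : ↥(FHbar M c H)) :
    hd.dd.ρ d (UHfn hd.hβ f) = UHfn hd.hβ (hd.dd.ρ d f) := by
  show hd.dd.ρ d (normFn (betaBar hd.hβ) (alphaH M c ℓ H f))
    = normFn (betaBar hd.hβ) (alphaH M c ℓ H (hd.dd.ρ d f))
  rw [← hd.alphaGal d f]
  exact Fermat.Agent.NEB.H29.normFn_algEquiv (betaBar hd.hβ) (hd.dd.ρ d) (hd.dd'.ρ d)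
    (hd.betaGal d) _

end JHops

/-! ## 3. The uniform kernel of reduction -/

section KU

variable {M c : ℕ} {H : Subgroup (ZMod c)ˣ}

/-- **`K_A`, uniform form**: `x` has a Kummer representation `(p^k, f)` all of whose diamond
conjugates `ρ(d) f` are constants times Gauss units reducing to `1`. -/
def InKU (P : ValuationSubring Kbar) (p : ℕ) (dd : DiamondData M c H) (x : JH M c H) : Prop :=
  ∃ (k : ℕ) (f : ↥(FHbar M c H)), KumRep ((p : ℤ) ^ k) x f ∧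
    ∀ d : (ZMod c)ˣ,
      Fermat.Agent.NEB.H70.IsRedOneC P ((dd.ρ d f : ↥(FHbar M c H)) : LaurentSeries Kbar)

variable {P : ValuationSubring Kbar} {p : ℕ} {dd : DiamondData M c H}

theorem inKU_zero : InKU P p dd (0 : JH M c H) :=
  ⟨0, 1, kumRep_zero _, fun d => by
    rw [map_one]
    exact Fermat.Agent.NEB.H70.isRedOneC_one⟩

theorem InKU.add {x y : JH M c H} (hx : InKU P p dd x) (hy : InKU P p dd y) :
    InKU P p dd (x + y) := by
  obtain ⟨k, f, hf, hfr⟩ := hx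
  obtain ⟨k', g, hg, hgr⟩ := hy
  refine ⟨k + k', f ^ (p ^ k') * g ^ (p ^ k), ?_, fun d => ?_⟩
  · have h1 := hf.level (p ^ k')
    have h2 := hg.level (p ^ k)
    have e1 : ((p : ℤ) ^ k) * ((p ^ k' : ℕ) : ℤ) = (p : ℤ) ^ (k + k') := by
      push_cast
      rw [pow_add]
    have e2 : ((p : ℤ) ^ k') * ((p ^ k : ℕ) : ℤ) = (p : ℤ) ^ (k + k') := by
      push_cast
      rw [pow_add, mul_comm]
    rw [e1] at h1
    rw [e2] at h2
    exact h1.add h2
  · rw [map_mul, map_pow, map_pow]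
    exact ((hfr d).pow _).mul ((hgr d).pow _)

theorem InKU.neg {x : JH M c H} (hx : InKU P p dd x) : InKU P p dd (-x) := by
  obtain ⟨k, f, hf, hfr⟩ := hx
  refine ⟨k, f⁻¹, hf.neg, fun d => ?_⟩
  rw [map_inv₀]
  exact (hfr d).inv

theorem InKU.sub {x y : JH M c H} (hx : InKU P p dd x) (hy : InKU P p dd y) :
    InKU P p dd (x - y) := by
  rw [sub_eq_add_neg]
  exact hx.add hy.neg

theorem InKU.nsmul {x : JH M c H} (hx : InKU P p dd x) (m : ℕ) : InKU P p dd (m • x) := by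
  induction m with
  | zero => rw [zero_nsmul]; exact inKU_zero
  | succ m ih => rw [succ_nsmul]; exact ih.add hx

/-- `InKU` is stable under the diamond operators. -/
theorem InKU.diamond {x : JH M c H} (hx : InKU P p dd x) (e : (ZMod c)ˣ) :
    InKU P p dd (dd.ρ e • x) := by
  obtain ⟨k, f, hf, hfr⟩ := hx
  refine ⟨k, dd.ρ e f, hf.diamond dd e, fun d => ?_⟩
  have : dd.ρ d (dd.ρ e f) = dd.ρ (d * e) f := by rw [map_mul]; rfl
  rw [this]
  exact hfr (d * e)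

/-- The uniform kernel is contained in the kernel of reduction. -/
theorem InKU.inK1 {x : JH M c H} (hx : InKU P p dd x) : InK1 P p (FHbar M c H) x := by
  obtain ⟨k, f, ⟨hf, D, hxD, hD⟩, hfr⟩ := hx
  refine ⟨k, D, f, hf, hxD, hD, ?_⟩
  have := hfr 1
  rwa [map_one] at this

/-- The uniform kernel is contained in `K_A` of `Geom/Defs.lean`. -/
theorem InKU.inKA {x : JH M c H} (hx : InKU P p dd x) : InKA P p dd x :=
  fun d => (hx.diamond d).inK1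

/-- The uniform kernel of reduction, as a subgroup. -/
def KU (P : ValuationSubring Kbar) (p : ℕ) (dd : DiamondData M c H) : AddSubgroup (JH M c H) where
  carrier := {x | InKU P p dd x}
  zero_mem' := inKU_zero
  add_mem' := fun hx hy => hx.add hy
  neg_mem' := fun hx => hx.neg

@[simp]
theorem mem_KU {x : JH M c H} : x ∈ KU P p dd ↔ InKU P p dd x := Iff.rfl

end KU

/-! ## 4. Auxiliary facts -/

section Aux

/-- `ℚ̄` contains a primitive `ℓ`-th root of unity. -/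
theorem exists_primRoot_Kbar (ℓ : ℕ) [NeZero ℓ] : ∃ ζ : Kbarˣ, IsPrimitiveRoot ζ ℓ := by
  obtain ⟨z, hz⟩ := HasEnoughRootsOfUnity.exists_primitiveRoot Kbar ℓ
  have hz0 : z ≠ 0 := hz.ne_zero (NeZero.ne ℓ)
  exact ⟨Units.mk0 z hz0, IsPrimitiveRoot.coe_units_iff.mp (by simpa using hz)⟩

/-- The residue field of a valuation subring over `ℓ` has characteristic `ℓ`. -/
theorem charP_kV_of_liesOverPrime {L : Type} [Field L] (A : ValuationSubring L) {ℓ : ℕ}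
    (hℓ : ℓ.Prime) (hA : A.LiesOverPrime ℓ) : CharP (Fermat.Agent.S28.H73.kV A) ℓ := by
  apply (CharP.charP_iff_prime_eq_zero hℓ).2
  have h1 : (((ℓ : ℕ) : A) : L) ∈ A.nonunits := by
    rw [show (((ℓ : ℕ) : A) : L) = (ℓ : L) by simp]
    exact hA
  obtain ⟨ha, hmem⟩ := (A.mem_nonunits_iff_exists_mem_maximalIdeal).1 h1
  rw [← map_natCast (IsLocalRing.residue A)]
  exact (IsLocalRing.residue_eq_zero_iff _).2 hmem

/-- The class of a prime `ℓ ∤ M` in `(ℤ/c)ˣ`, `c ∣ M`. -/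
theorem exists_unit_eq_prime {M c ℓ : ℕ} (hc : c ∣ M) (hℓ : ℓ.Prime) (hℓM : ¬ ℓ ∣ M) :
    ∃ u : (ZMod c)ˣ, (u : ZMod c) = (ℓ : ZMod c) := by
  have hcop : Nat.Coprime ℓ c :=
    (Nat.Prime.coprime_iff_not_dvd hℓ).2 fun h => hℓM (h.trans hc)
  exact ⟨ZMod.unitOfCoprime ℓ hcop, ZMod.coe_unitOfCoprime ℓ hcop⟩

variable {C : Type} [Field C] {O : ValuationSubring C}

/-- `IsRedOneC` is stable under automorphisms of the coefficients preserving `O`. -/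
theorem isRedOneC_cMap (s : C ≃+* C) (hs : ∀ a : C, s a ∈ O ↔ a ∈ O) {x : LaurentSeries C}
    (hx : Fermat.Agent.NEB.H70.IsRedOneC O x) :
    Fermat.Agent.NEB.H70.IsRedOneC O (coeffMap (s : C →+* C) x) := by
  obtain ⟨c, hc, h⟩ := hx
  have h1 := h.cMap s hs
  rw [map_mul, Fermat.Agent.NEB.H70.coeffMap_C', map_one] at h1
  exact ⟨(s : C →+* C) c, (map_ne_zero (s : C →+* C)).2 hc, h1⟩

end Aux

/-! ## 5. Stability of the uniform kernel (CL-GAL, CL-T, CL-U) -/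

section Stab

variable {M c ℓ : ℕ} [NeZero M] [NeZero ℓ] {H : Subgroup (ZMod c)ˣ}
variable {P : ValuationSubring Kbar} {p : ℕ}

/-- Every nonzero element of `F_H` is scalable. -/
theorem scalable_FHbar (P : ValuationSubring Kbar) {M c : ℕ} {H : Subgroup (ZMod c)ˣ}
    {f : ↥(FHbar M c H)} (hf : f ≠ 0) :
    Fermat.Agent.NEB.H70.Scalable P (f : LaurentSeries Kbar) :=
  Fermat.Agent.NEB.H94.hasScale_FHbar P M c H (f : LaurentSeries Kbar) f.2
    (fun h0 => hf (Subtype.ext h0))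

/-- **CL-GAL** (uniform): `InKU` is stable under the decomposition group of `P`. -/
theorem InKU.galois {M c : ℕ} {H : Subgroup (ZMod c)ˣ} {dd : DiamondData M c H} {x : JH M c H}
    (hx : InKU P p dd x) {σ : GalQ} (hσ : σ ∈ P.decompositionSubgroup ℚ) :
    InKU P p dd (σ • x) := by
  obtain ⟨k, f, hf, hfr⟩ := hx
  refine ⟨k, arithmeticRingAut (FHQ M c H) σ f, hf.galois σ, fun d => ?_⟩
  rw [dd.gal d σ f, coe_arithmeticRingAut_apply]
  exact isRedOneC_cMap σ.toRingEquiv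
    (Fermat.Agent.RED.H33.mem_iff_of_mem_decompositionSubgroup P hσ) (hfr d)

/-- **CL-T** (uniform): `InKU` is stable under `T_ℓ^H`, `ℓ ∤ M` prime. -/
theorem InKU.TH (hd : HeckeData M c ℓ H) (hc2 : 2 ≤ c) (hc : c ∣ M) (hℓ : ℓ.Prime)
    (hℓM : ¬ ℓ ∣ M) {x : JH M c H} (hx : InKU P p hd.dd x) :
    InKU P p hd.dd (JH.TH hd.hβ x) := by
  obtain ⟨k, f, hf, hfr⟩ := hx
  obtain ⟨u, hu⟩ := exists_unit_eq_prime hc hℓ hℓM
  obtain ⟨ζ, hζ⟩ := exists_primRoot_Kbar ℓ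
  refine ⟨k, THfn hd.hβ f, hf.TH hd, fun d => ?_⟩
  rw [rho_THfn, Fermat.Agent.NEB.H70.coe_THfn hd hc2 hc hℓ hℓM u hu]
  have e : hd.dd.ρ u (hd.dd.ρ d f) = hd.dd.ρ (u * d) f := by rw [map_mul]; rfl
  rw [e]
  exact Fermat.Agent.NEB.H70.IsRedOneC.twNorm hζ (hfr d) (hfr (u * d))

/-- **CL-U** (uniform), `ℓ ∤ M`: `InKU` is stable under `U_ℓ^H = ⟨ℓ⟩⁻¹ T_ℓ^H`. -/
theorem InKU.UH_of_not_dvd (hd : HeckeData M c ℓ H) (hc2 : 2 ≤ c) (hc : c ∣ M) (hℓ : ℓ.Prime)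
    (hℓM : ¬ ℓ ∣ M) {x : JH M c H} (hx : InKU P p hd.dd x) :
    InKU P p hd.dd (JH.UH hd.hβ x) := by
  obtain ⟨k, f, hf, hfr⟩ := hx
  obtain ⟨u, hu⟩ := exists_unit_eq_prime hc hℓ hℓM
  obtain ⟨ζ, hζ⟩ := exists_primRoot_Kbar ℓ
  refine ⟨k, UHfn hd.hβ f, hf.UH hd, fun d => ?_⟩
  rw [rho_UHfn, Fermat.Agent.NEB.H70.coe_UHfn hd hc2 hc hℓ hℓM u hu]
  have e : hd.dd.ρ u⁻¹ (hd.dd.ρ d f) = hd.dd.ρ (u⁻¹ * d) f := by rw [map_mul]; rfl
  rw [e]
  exact Fermat.Agent.NEB.H70.IsRedOneC.twNorm hζ (hfr (u⁻¹ * d)) (hfr d)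

/-- **CL-U** (uniform), degree form: if `[F_H(Mℓ) : β F_H(M)] = ℓ` (true for `ℓ ∣ M`), then
`InKU` is stable under `U_ℓ^H`. -/
theorem InKU.UH_of_finrank (hd : HeckeData M c ℓ H)
    (hdeg : finrankAlong Kbar (betaBar hd.hβ) = ℓ) {x : JH M c H} (hx : InKU P p hd.dd x) :
    InKU P p hd.dd (JH.UH hd.hβ x) := by
  obtain ⟨k, f, hf, hfr⟩ := hx
  obtain ⟨ζ, hζ⟩ := exists_primRoot_Kbar ℓ
  refine ⟨k, UHfn hd.hβ f, hf.UH hd, fun d => ?_⟩
  rw [rho_UHfn, Fermat.Agent.NEB.H70.coe_UHfn_of_finrank hd hdeg]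
  exact Fermat.Agent.NEB.H70.IsRedOneC.uSeries hζ (hfr d)

end Stab

/-! ## 6. The producers: CL-INERTIA, CL-ES, CL-UF -/

section Prod

variable {M c ℓ : ℕ} [NeZero M] [NeZero ℓ] {H : Subgroup (ZMod c)ˣ}
variable {P : ValuationSubring Kbar} {p : ℕ}

/-- A `p`-power torsion class has a Kummer representation of level `p^k`. -/
theorem exists_kumRep_of_isPTors {M c : ℕ} {H : Subgroup (ZMod c)ˣ} {x : JH M c H}
    (hx : IsPTors p x) : ∃ (k : ℕ) (f : ↥(FHbar M c H)), KumRep ((p : ℤ) ^ k) x f := by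
  obtain ⟨k, hk⟩ := hx
  have h : ((p : ℤ) ^ k) • x = 0 := by
    have e : ((p : ℤ) ^ k) = ((p ^ k : ℕ) : ℤ) := by push_cast; rfl
    rw [e, natCast_zsmul]
    exact hk
  obtain ⟨f, hf⟩ := exists_kumRep h
  exact ⟨k, f, hf⟩

/-- **CL-INERTIA** (uniform): `(σ - 1) J_H[p^∞] ⊆ K_A` for `σ` in the inertia group of `P`. -/
theorem inKU_inertia {M c : ℕ} {H : Subgroup (ZMod c)ˣ} (dd : DiamondData M c H) {σ : GalQ}
    (hσ : σ ∈ P.inertiaSubgroupIn ℚ) {x : JH M c H} (hx : IsPTors p x) :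
    InKU P p dd (σ • x - x) := by
  obtain ⟨k, f, hf⟩ := exists_kumRep_of_isPTors hx
  refine ⟨k, arithmeticRingAut (FHQ M c H) σ f * f⁻¹, (hf.galois σ).sub hf, fun d => ?_⟩
  rw [map_mul, map_inv₀, dd.gal d σ f]
  have hne : dd.ρ d f ≠ 0 := (map_ne_zero _).2 hf.ne_zero
  exact Fermat.Agent.NEB.H70.isRedOneC_inertia
    (Fermat.Agent.BAD.H91.inertialOn_of_mem_inertia P hσ) (scalable_FHbar P hne)

/-- **CL-ES** (uniform; Eichler–Shimura): for a Frobenius `φ` at `P ∣ ℓ`, `ℓ ∤ M`, and `u` the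
class of `ℓ`:  `(⟨ℓ⟩ φ² - T_ℓ^H φ + ℓ) J_H[p^∞] ⊆ K_A`. -/
theorem inKU_ES (hd : HeckeData M c ℓ H) (hc2 : 2 ≤ c) (hc : c ∣ M) (hℓ : ℓ.Prime)
    (hℓM : ¬ ℓ ∣ M) (u : (ZMod c)ˣ) (hu : (u : ZMod c) = (ℓ : ZMod c))
    (hP : P.LiesOverPrime ℓ) {φ : GalQ} (hφ : P.IsFrobeniusAt φ ℓ) {x : JH M c H}
    (hx : IsPTors p x) :
    InKU P p hd.dd (hd.dd.ρ u • (φ • φ • x) - JH.TH hd.hβ (φ • x) + ℓ • x) := by
  obtain ⟨k, f, hf⟩ := exists_kumRep_of_isPTors hx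
  obtain ⟨ζ, hζ⟩ := exists_primRoot_Kbar ℓ
  have : Fact ℓ.Prime := ⟨hℓ⟩
  have : CharP (Fermat.Agent.S28.H73.kV P) ℓ := charP_kV_of_liesOverPrime P hℓ hP
  set F₀ := FHQ M c H with hF₀
  refine ⟨k, hd.dd.ρ u (arithmeticRingAut F₀ φ (arithmeticRingAut F₀ φ f))
      * (THfn hd.hβ (arithmeticRingAut F₀ φ f))⁻¹ * f ^ ℓ,
    ((((hf.galois φ).galois φ).diamond hd.dd u).sub ((hf.galois φ).TH hd)).add (hf.nsmul ℓ),
    fun d => ?_⟩
  have hne : ∀ e : (ZMod c)ˣ, hd.dd.ρ e f ≠ 0 := fun e => (map_ne_zero _).2 hf.ne_zero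
  have key := Fermat.Agent.NEB.H70.isRedOneC_ES hζ φ.toRingEquiv
    (Fermat.Agent.RED.H33.mem_iff_of_mem_decompositionSubgroup P hφ.mem_decompositionSubgroup)
    (fun a => Fermat.Agent.RED.H33.autkHom_frobenius P hφ a)
    (scalable_FHbar P (hne d)) (scalable_FHbar P (hne (u * d)))
  have e1 : hd.dd.ρ d (hd.dd.ρ u (arithmeticRingAut F₀ φ (arithmeticRingAut F₀ φ f)))
      = arithmeticRingAut F₀ φ (arithmeticRingAut F₀ φ (hd.dd.ρ (u * d) f)) := by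
    rw [hd.dd.gal u φ, hd.dd.gal u φ, hd.dd.gal d φ, hd.dd.gal d φ]
    have : hd.dd.ρ d (hd.dd.ρ u f) = hd.dd.ρ (u * d) f := by
      rw [mul_comm, map_mul]; rfl
    rw [this]
  have e2 : hd.dd.ρ u (arithmeticRingAut F₀ φ (hd.dd.ρ d f))
      = arithmeticRingAut F₀ φ (hd.dd.ρ (u * d) f) := by
    rw [hd.dd.gal u φ]
    have : hd.dd.ρ u (hd.dd.ρ d f) = hd.dd.ρ (u * d) f := by rw [map_mul]; rfl
    rw [this]
  rw [map_mul, map_mul, map_inv₀, map_pow, e1, rho_THfn, hd.dd.gal d φ f]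
  show Fermat.Agent.NEB.H70.IsRedOneC P
    (((arithmeticRingAut F₀ φ (arithmeticRingAut F₀ φ (hd.dd.ρ (u * d) f)) : ↥(FHbar M c H)) :
        LaurentSeries Kbar)
      * ((THfn hd.hβ (arithmeticRingAut F₀ φ (hd.dd.ρ d f)) : ↥(FHbar M c H)) :
        LaurentSeries Kbar)⁻¹
      * ((hd.dd.ρ d f : ↥(FHbar M c H)) : LaurentSeries Kbar) ^ ℓ)
  rw [Fermat.Agent.NEB.H70.coe_THfn hd hc2 hc hℓ hℓM u hu, e2]
  exact key

/-- **CL-UF** (uniform), degree form: for a Frobenius `φ` at `P ∣ q`, if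
`[F_H(Mq) : β F_H(M)] = q` (true for `q ∣ M`): `(U_q^H - φ) J_H[p^∞] ⊆ K_A`. -/
theorem inKU_UF_of_finrank (hd : HeckeData M c ℓ H)
    (hdeg : finrankAlong Kbar (betaBar hd.hβ) = ℓ) (hℓ : ℓ.Prime)
    (hP : P.LiesOverPrime ℓ) {φ : GalQ} (hφ : P.IsFrobeniusAt φ ℓ) {x : JH M c H}
    (hx : IsPTors p x) :
    InKU P p hd.dd (JH.UH hd.hβ x - φ • x) := by
  obtain ⟨k, f, hf⟩ := exists_kumRep_of_isPTors hx
  obtain ⟨ζ, hζ⟩ := exists_primRoot_Kbar ℓ
  have : Fact ℓ.Prime := ⟨hℓ⟩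
  have : CharP (Fermat.Agent.S28.H73.kV P) ℓ := charP_kV_of_liesOverPrime P hℓ hP
  set F₀ := FHQ M c H with hF₀
  refine ⟨k, UHfn hd.hβ f * (arithmeticRingAut F₀ φ f)⁻¹, (hf.UH hd).sub (hf.galois φ),
    fun d => ?_⟩
  have hne : hd.dd.ρ d f ≠ 0 := (map_ne_zero _).2 hf.ne_zero
  have key := Fermat.Agent.NEB.H70.isRedOneC_U hζ φ.toRingEquiv
    (Fermat.Agent.RED.H33.mem_iff_of_mem_decompositionSubgroup P hφ.mem_decompositionSubgroup)
    (fun a => Fermat.Agent.RED.H33.autkHom_frobenius P hφ a)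
    (scalable_FHbar P hne)
  rw [map_mul, map_inv₀, rho_UHfn, hd.dd.gal d φ f]
  show Fermat.Agent.NEB.H70.IsRedOneC P
    (((UHfn hd.hβ (hd.dd.ρ d f) : ↥(FHbar M c H)) : LaurentSeries Kbar)
      * ((arithmeticRingAut F₀ φ (hd.dd.ρ d f) : ↥(FHbar M c H)) : LaurentSeries Kbar)⁻¹)
  rw [Fermat.Agent.NEB.H70.coe_UHfn_of_finrank hd hdeg]
  exact key

end Prod

/-! ## 7. The statements of `Geom/Defs.lean` -/

section Stmts

variable (M c : ℕ) (H : Subgroup (ZMod c)ˣ) (p : ℕ)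

/-- **CL-INERTIA** as stated in `Geom/Defs.lean`. -/
theorem stmt_CL_inertia : Stmt_CL_inertia M c H p :=
  fun dd _ _ _ _ _ hσ _ hx => (inKU_inertia dd hσ hx).inKA

/-- **CL-ES** as stated in `Geom/Defs.lean` (for `2 ≤ c ∣ M`). -/
theorem stmt_CL_ES (hc2 : 2 ≤ c) (hc : c ∣ M) : Stmt_CL_ES M c H p :=
  fun _ _ _ hℓ hℓM _ u hu hd _ hP _ hφ _ hx =>
    (inKU_ES hd hc2 hc hℓ hℓM u hu hP hφ hx).inKA

end Stmts

end Fermat.Agent.NEB.Geom.H70
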