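import Fermat.Agent.NEB.Geom.DefsL
import Fermat.Agent.NEB.Geom.H70_KU

/-!
# Item 72 (LG-NEB), package NEB-GEOM (helper84): the modules `Wtw`, `Ytw` and the last leaves

* `etaTw`, `Wtw`   : `η⁺ : 𝕋⁺ → End_ℤ J_H[p^∞]` and the `θ⁺`-part `W ⊆ 𝒪 ⊗ J_H[p^∞]` (`= WD.W`);
* `etaTw0`, `Ytw`  : the same at level `Γ₀(N c)`;
* `KZ P`           : the kernel of reduction `K_A ∩ J_H[p^∞]` (helper70's uniform `KU`);
* `Stmt_W_EIG`     : the Hecke ring at level `N ∏ q_j²` acts on `Wtw` through `T'_ℓ`;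
* `Stmt_PI_WIRE`   : `π`, `πup` between `Wtw` and the `θ`-part at level `N`;
* `Stmt_W_KEYq`    : `U_j φ x = q_j x` on `K^𝒪 ∩ W^Δ` at a place over `q_j`.

Statements only; no `sorry`.
-/

set_option autoImplicit false
set_option linter.unusedSectionVars false

noncomputable section

open ModularCurve AlgebraicCurve IsLocalRing TensorProduct Polynomial

namespace Fermat.Agent.NEB.Geom

open Fermat.Agent.NEB Fermat.Agent.NEB.JH Fermat.Agent.S59.Asm Fermat.Agent.S59.Lim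
  Fermat.Agent.S59.Lim.H2

section TW

variable (𝒪 : Type) [CommRing 𝒪] [IsLocalRing 𝒪]
variable (N : ℕ) [NeZero N] (S : Finset ℕ) (p n : ℕ) {r : ℕ} (qv : Fin r → ℕ)
variable [NeZero (N * twC qv)] (h2 : 2 ≤ twC qv)

/-- `η⁺ : 𝕋⁺ → End_ℤ J_H[p^∞]`. -/
abbrev etaTw (hcomm : ∀ i j, Commute (opsTw N S p n qv h2 i) (opsTw N S p n qv h2 j)) :
    PolyTw r (twC qv) →+* Module.End ℤ (AH (N * twC qv) (twC qv) (twH p n qv) p) :=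
  polyHom (opsTw N S p n qv h2) hcomm

/-- `η⁺₀ : 𝕋⁺ → End_ℤ J₀(N c)[p^∞]`. -/
abbrev etaTw0 (hcomm0 : ∀ i j, Commute (opsTw0 N S p qv i) (opsTw0 N S p qv j)) :
    PolyTw r (twC qv) →+* Module.End ℤ (A0 (N * twC qv) p) :=
  polyHom (opsTw0 N S p qv) hcomm0

/-- `W`: the `θ⁺`-part of `𝒪 ⊗ J_H[p^∞]`. -/
abbrev Wtw (hcomm : ∀ i j, Commute (opsTw N S p n qv h2 i) (opsTw N S p n qv h2 j))
    (θ : CuspForm.heckeAlgebra N 2 (↑S : Set ℕ) →+* ResidueField 𝒪)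
    (α : Fin r → ResidueField 𝒪) :
    Submodule 𝒪 (𝒪 ⊗[ℤ] AH (N * twC qv) (twC qv) (twH p n qv) p) :=
  thetaPart (etaTw N S p n qv h2 hcomm) (thetaTw N S qv θ α)

/-- `Y`: the `θ⁺`-part of `𝒪 ⊗ J₀(N c)[p^∞]`. -/
abbrev Ytw (hcomm0 : ∀ i j, Commute (opsTw0 N S p qv i) (opsTw0 N S p qv j))
    (θ : CuspForm.heckeAlgebra N 2 (↑S : Set ℕ) →+* ResidueField 𝒪)
    (α : Fin r → ResidueField 𝒪) :
    Submodule 𝒪 (𝒪 ⊗[ℤ] A0 (N * twC qv) p) :=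
  thetaPart (etaTw0 N S p qv hcomm0) (thetaTw N S qv θ α)

/-- The kernel of reduction `K_A ∩ J_H[p^∞]` at the place `P` (helper70's uniform kernel). -/
def KZ (P : ValuationSubring Kbar) :
    AddSubgroup (AH (N * twC qv) (twC qv) (twH p n qv) p) :=
  (Fermat.Agent.NEB.Geom.H70.KU P p
    (diamondData (N * twC qv) (twC qv) (twH p n qv) h2 (dvd_mul_left _ _))).comap
    (ptors p (JH (N * twC qv) (twC qv) (twH p n qv))).subtype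

/-- The data on the residual side at the Taylor–Wiles primes: `α_j ≠ β_j` the eigenvalues of
`ρbar(Frob_{q_j})`, `α_j β_j = q_j = 1`, `α_j + β_j = θ(T_{q_j})`. -/
structure TwEig (θ : CuspForm.heckeAlgebra N 2 (↑S : Set ℕ) →+* ResidueField 𝒪)
    (α β : Fin r → ResidueField 𝒪) : Prop where
  ne : ∀ j, α j ≠ β j
  mul : ∀ j, α j * β j = 1
  q_one : ∀ j, ((qv j : ℕ) : ResidueField 𝒪) = 1
  add : ∀ (j : Fin r) (hq : (qv j).Prime) (hqN : ¬ qv j ∣ N) (hqS : qv j ∉ (↑S : Set ℕ)),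
    θ (CuspForm.heckeAlgebra.T hq hqN hqS) = α j + β j

/-- **W-EIG**: the Hecke ring of level `N ∏ q_j²` (away from `S ∪ {q_j}`) acts on `W` through the
twisted operators `T'_ℓ`.  (`H39.stmt_EIG_A` + EIG-ASM; `W` is divisible.) -/
def Stmt_W_EIG : Prop :=
  ∀ (𝒪 : Type) [CommRing 𝒪] [IsDomain 𝒪] [IsDiscreteValuationRing 𝒪] [Finite (ResidueField 𝒪)]
    [CharZero 𝒪] (ϖ : 𝒪), Irreducible ϖ → ∀ (p : ℕ) [Fact p.Prime], (p : 𝒪) ∈ maximalIdeal 𝒪 →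
    ∀ (N : ℕ) [NeZero N] (S : Finset ℕ) (n r : ℕ) (qv : Fin r → ℕ), TwHyp N S p n qv →
    ∀ [NeZero (N * twC qv)] [NeZero (twLevel N qv)] (h2 : 2 ≤ twC qv)
      (hcomm : ∀ i j, Commute (opsTw N S p n qv h2 i) (opsTw N S p n qv h2 j))
      (θ : CuspForm.heckeAlgebra N 2 (↑S : Set ℕ) →+* ResidueField 𝒪)
      (α : Fin r → ResidueField 𝒪),
    IsDiv ϖ ↥(Wtw 𝒪 N S p n qv h2 hcomm θ α) →
    ∃ η : CuspForm.heckeAlgebra (twLevel N qv) 2 (↑(twSet S qv) : Set ℕ) →+*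
        Module.End 𝒪 ↥(Wtw 𝒪 N S p n qv h2 hcomm θ α),
      ∀ (ℓ : ℕ) (hℓ : ℓ.Prime) (hℓN : ¬ ℓ ∣ twLevel N qv)
        (hℓS : ℓ ∉ (↑(twSet S qv) : Set ℕ)),
        η (CuspForm.heckeAlgebra.T hℓ hℓN hℓS) =
          thetaEta (etaTw N S p n qv h2 hcomm) (thetaTw N S qv θ α)
            (MvPolynomial.X (Sum.inl ℓ))

/-- **PI-WIRE**: the maps `π = ω ∘ π_*` and `πup = π^* ∘ ω⁻¹` between `W` and the `θ`-part at
level `N` (`ω` = helper14's `NEB.OLD.wOld`), with all the properties needed by `TWDiv`. -/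
def Stmt_PI_WIRE : Prop :=
  ∀ (𝒪 : Type) [CommRing 𝒪] [IsDomain 𝒪] [IsDiscreteValuationRing 𝒪] [Finite (ResidueField 𝒪)]
    [CharZero 𝒪] (ϖ : 𝒪), Irreducible ϖ → ∀ (p : ℕ) [Fact p.Prime], (p : 𝒪) ∈ maximalIdeal 𝒪 →
    ∀ (N : ℕ) [NeZero N] (S : Finset ℕ) (n r : ℕ) (qv : Fin r → ℕ), TwHyp N S p n qv →
    ∀ [NeZero (N * twC qv)] (h2 : 2 ≤ twC qv)
      (hcomm : ∀ i j, Commute (opsTw N S p n qv h2 i) (opsTw N S p n qv h2 j))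
      (θ : CuspForm.heckeAlgebra N 2 (↑S : Set ℕ) →+* ResidueField 𝒪)
      (α β : Fin r → ResidueField 𝒪), TwEig 𝒪 N S qv θ α β →
    -- the level `N` Hecke action (W-MD)
    ∀ (ηC : CuspForm.heckeAlgebra N 2 (↑S : Set ℕ) →+* Module.End ℤ (A0 N p)),
      (∀ (ℓ : ℕ) (hℓ : ℓ.Prime) (hℓN : ¬ ℓ ∣ N) (hℓS : ℓ ∉ (↑S : Set ℕ)),
        ηC (CuspForm.heckeAlgebra.T hℓ hℓN hℓS) = Tz0 N p ℓ) →
    ∀ (hgalC : ∀ σ t, Commute (ηC t) (galZ0 N p σ)),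
    -- generators of `Δ` and a non-Eisenstein prime
    ∀ δ : Fin r → (ZMod (twC qv))ˣ, IsDeltaGen p n qv δ →
    ∀ (ℓ₀ : ℕ) (hℓ₀ : GoodTw N S qv ℓ₀),
      θ (CuspForm.heckeAlgebra.T hℓ₀.1 hℓ₀.not_dvd hℓ₀.not_mem) ≠ ((ℓ₀ : ResidueField 𝒪) + 1) →
    ∃ (π : ↥(Wtw 𝒪 N S p n qv h2 hcomm θ α) →ₗ[𝒪] ↥(thetaPart ηC θ))
      (πup : ↥(thetaPart ηC θ) →ₗ[𝒪] ↥(Wtw 𝒪 N S p n qv h2 hcomm θ α)),
      Function.Injective πup ∧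
      (∀ x : ↥(Wtw 𝒪 N S p n qv h2 hcomm θ α),
        ((πup (π x) : ↥(Wtw 𝒪 N S p n qv h2 hcomm θ α)) :
            𝒪 ⊗[ℤ] AH (N * twC qv) (twC qv) (twH p n qv) p)
          = Fermat.Agent.S59.TWH.H90.nmTot (p ^ n)
              (fun j => (diaZ (N * twC qv) (twC qv) (twH p n qv) h2 (dvd_mul_left _ _) p
                (δ j)).baseChange 𝒪) (x : 𝒪 ⊗[ℤ] AH (N * twC qv) (twC qv) (twH p n qv) p)) ∧
      (∀ (u : (ZMod (twC qv))ˣ) (y : ↥(thetaPart ηC θ)),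
        (diaZ (N * twC qv) (twC qv) (twH p n qv) h2 (dvd_mul_left _ _) p u).baseChange 𝒪
          ((πup y : ↥(Wtw 𝒪 N S p n qv h2 hcomm θ α)) :
            𝒪 ⊗[ℤ] AH (N * twC qv) (twC qv) (twH p n qv) p) = (πup y : _)) ∧
      (∀ v : ↥(Wtw 𝒪 N S p n qv h2 hcomm θ α), ϖ • v = 0 →
        (∀ u : (ZMod (twC qv))ˣ,
          (diaZ (N * twC qv) (twC qv) (twH p n qv) h2 (dvd_mul_left _ _) p u).baseChange 𝒪
            (v : 𝒪 ⊗[ℤ] AH (N * twC qv) (twC qv) (twH p n qv) p) = (v : _)) →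
        ∃ y : ↥(thetaPart ηC θ), πup y = v) ∧
      (∀ (ℓ : ℕ) (hℓ : GoodTw N S qv ℓ) (v : ↥(Wtw 𝒪 N S p n qv h2 hcomm θ α)),
        π (thetaEta (etaTw N S p n qv h2 hcomm) (thetaTw N S qv θ α)
            (MvPolynomial.X (Sum.inl ℓ)) v)
          = thetaEta ηC θ (CuspForm.heckeAlgebra.T hℓ.1 hℓ.not_dvd hℓ.not_mem) (π v)) ∧
      (∀ (σ : GalQ) (y : ↥(thetaPart ηC θ)),
        ((πup (thetaZ θ (galZ0 N p σ) (hgalC σ) y) : ↥(Wtw 𝒪 N S p n qv h2 hcomm θ α)) :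
            𝒪 ⊗[ℤ] AH (N * twC qv) (twC qv) (twH p n qv) p)
          = (galZ (N * twC qv) (twC qv) (twH p n qv) p σ).baseChange 𝒪
              ((πup y : ↥(Wtw 𝒪 N S p n qv h2 hcomm θ α)) :
                𝒪 ⊗[ℤ] AH (N * twC qv) (twC qv) (twH p n qv) p))

/-- **W-KEYq**: at a place `P` over `q_j`, with Frobenius `φ`: `U_j φ x = q_j x` for every
`Δ`-fixed `x ∈ K^𝒪(P) ∩ W`. -/
def Stmt_W_KEYq : Prop :=
  ∀ (𝒪 : Type) [CommRing 𝒪] [IsDomain 𝒪] [IsDiscreteValuationRing 𝒪] [Finite (ResidueField 𝒪)]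
    [CharZero 𝒪] (ϖ : 𝒪), Irreducible ϖ → ∀ (p : ℕ) [Fact p.Prime], (p : 𝒪) ∈ maximalIdeal 𝒪 →
    ∀ (N : ℕ) [NeZero N] (S : Finset ℕ) (n r : ℕ) (qv : Fin r → ℕ), TwHyp N S p n qv →
    Squarefree N →
    ∀ [NeZero (N * twC qv)] (h2 : 2 ≤ twC qv)
      (hcomm : ∀ i j, Commute (opsTw N S p n qv h2 i) (opsTw N S p n qv h2 j))
      (θ : CuspForm.heckeAlgebra N 2 (↑S : Set ℕ) →+* ResidueField 𝒪)
      (α β : Fin r → ResidueField 𝒪), TwEig 𝒪 N S qv θ α β →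
    ∀ (ℓ₀ : ℕ) (hℓ₀ : GoodTw N S qv ℓ₀),
      θ (CuspForm.heckeAlgebra.T hℓ₀.1 hℓ₀.not_dvd hℓ₀.not_mem) ≠ ((ℓ₀ : ResidueField 𝒪) + 1) →
    ∀ (j : Fin r) (P : ValuationSubring Kbar), P.LiesOverPrime (qv j) →
    ∀ φ : GalQ, P.IsFrobeniusAt φ (qv j) →
    ∀ x ∈ Wtw 𝒪 N S p n qv h2 hcomm θ α, x ∈ KO 𝒪 (KZ N p n qv h2 P) →
      (∀ u : (ZMod (twC qv))ˣ,
        (diaZ (N * twC qv) (twC qv) (twH p n qv) h2 (dvd_mul_left _ _) p u).baseChange 𝒪 x = x) →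
      (Uz (N * twC qv) (twC qv) (twH p n qv) h2 (dvd_mul_left _ _) p (qv j)).baseChange 𝒪
        ((galZ (N * twC qv) (twC qv) (twH p n qv) p φ).baseChange 𝒪 x) = ((qv j : ℕ) : 𝒪) • x

end TW

end Fermat.Agent.NEB.Geom
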