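import Fermat.Agent.NEB.Geom.H14_PiFinal
import Fermat.Agent.NEB.Geom.H15_APIof

/-!
# Item 72 (LG-NEB), package NEB-GEOM, leaf A-PI: UNCONDITIONAL

`stmt_A_PI : Stmt_A_PI`, from `H15.stmt_A_PI_of` (helper15) and `H14.stmt_PI_WIRE`.
-/

set_option autoImplicit false

noncomputable section

namespace Fermat.Agent.NEB.Geom.H14

open Fermat.Agent.NEB.Geom

/-- **A-PI**, unconditional. -/
theorem stmt_A_PI : Stmt_A_PI := H15.stmt_A_PI_of stmt_PI_WIRE

end Fermat.Agent.NEB.Geom.H14
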