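import Fermat.Agent.NEB.Geom.H14_PiOmega

/-!
# Item 72 / 66 (helper14): the isomorphism `ω`, generic form

The same as `H14.exists_omega`, for an arbitrary commuting family `ops : ι → End_ℤ J₀(N c)[p^∞]`
with values `vals : ι → k`, such that every index is of one of the four kinds
`(T_ℓ, θ(T_ℓ))` (`ℓ` good), `(U_{q_j}, α_j)`, `(0, 0)`, `(1, 1)`, and all `T_ℓ`, `U_{q_j}` occur;
the hypotheses on the Taylor–Wiles primes are the four fields `inj`, `prime`, `notS`, `hNS` of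
`TwHyp` (no `0 < r`, no congruence condition).

* `IsOmegaFam`, `mem_thetaPoly_iff`, `mem_thetaN_iff'`, `exists_omega_gen`.
-/

set_option autoImplicit false
set_option linter.unusedSectionVars false
set_option linter.unusedVariables false
set_option linter.style.haveILetI false

noncomputable section

open ModularCurve AlgebraicCurve IsLocalRing TensorProduct Polynomial

namespace Fermat.Agent.NEB.Geom.H14

open Fermat.Agent.NEB Fermat.Agent.NEB.JH Fermat.Agent.S59.Asm Fermat.Agent.S59.Lim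
  Fermat.Agent.S59.Lim.H2 Fermat.Agent.NEB.Geom Fermat.Agent.NEB.OLD

section Arith

variable {N : ℕ} {S : Finset ℕ} {r : ℕ} {qv : Fin r → ℕ}

theorem goodTw_iff' (hprime : ∀ j, (qv j).Prime) (ℓ : ℕ) :
    GoodTw N S qv ℓ ↔ ℓ.Prime ∧ ¬ ℓ ∣ N ∧ ℓ ∉ (↑S : Set ℕ) ∧ ∀ j, qv j ≠ ℓ := by
  constructor
  · intro hg
    refine ⟨hg.1, hg.not_dvd, hg.not_mem, fun j hj => hg.2.2 ?_⟩
    simp only [twSet, Finset.coe_union, Set.mem_union, Finset.coe_image, Finset.coe_univ,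
      Set.image_univ, Set.mem_range]
    exact Or.inr ⟨j, hj⟩
  · rintro ⟨hℓ, hℓN, hℓS, hne⟩
    refine ⟨hℓ, ?_, ?_⟩
    · intro hd
      unfold twLevel at hd
      rcases (Nat.Prime.dvd_mul hℓ).mp hd with h1 | h1
      · exact hℓN h1
      · obtain ⟨j, -, hj⟩ := (Prime.dvd_finsetProd_iff hℓ.prime _).mp h1
        have h2 : ℓ ∣ qv j := hℓ.dvd_of_dvd_pow hj
        exact hne j ((Nat.prime_dvd_prime_iff_eq hℓ (hprime j)).mp h2).symm
    · simp only [twSet, Finset.coe_union, Set.mem_union, Finset.coe_image, Finset.coe_univ,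
        Set.image_univ, Set.mem_range, not_or, not_exists]
      exact ⟨hℓS, hne⟩

end Arith

section Ident

variable {𝒪 : Type} [CommRing 𝒪] [IsDomain 𝒪] [IsDiscreteValuationRing 𝒪]
  {p : ℕ} {N : ℕ} [NeZero N] {S : Finset ℕ} {r : ℕ} {qv : Fin r → ℕ}
  [NeZero (N * twC qv)]

/-- A family of operators on `J₀(N c)[p^∞]` with values in `k`, all of whose members are
`(T_ℓ, θ(T_ℓ))` for a good `ℓ`, `(U_{q_j}, α_j)`, `(0, 0)` or `(1, 1)`, and containing all the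
`T_ℓ` and `U_{q_j}`. -/
structure IsOmegaFam (θ : CuspForm.heckeAlgebra N 2 (↑S : Set ℕ) →+* ResidueField 𝒪)
    (α : Fin r → ResidueField 𝒪) {ι : Type}
    (ops : ι → Module.End ℤ (A0 (N * twC qv) p)) (vals : ι → ResidueField 𝒪) : Prop where
  kind : ∀ i, (∃ (ℓ : ℕ) (hg : GoodTw N S qv ℓ), ops i = Tz0 (N * twC qv) p ℓ ∧
        vals i = θ (CuspForm.heckeAlgebra.T hg.1 hg.not_dvd hg.not_mem)) ∨
      (∃ j, ops i = Uz0 (N * twC qv) p (qv j) ∧ vals i = α j) ∨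
      (ops i = 0 ∧ vals i = 0) ∨ (ops i = 1 ∧ vals i = 1)
  hasT : ∀ (ℓ : ℕ) (hg : GoodTw N S qv ℓ), ∃ i, ops i = Tz0 (N * twC qv) p ℓ ∧
      vals i = θ (CuspForm.heckeAlgebra.T hg.1 hg.not_dvd hg.not_mem)
  hasU : ∀ j, ∃ i, ops i = Uz0 (N * twC qv) p (qv j) ∧ vals i = α j

set_option maxHeartbeats 1000000 in
/-- The `θ⁺`-part for a family `IsOmegaFam`, in terms of `InE`. -/
theorem mem_thetaPoly_iff (hp0 : (p : 𝒪) ≠ 0) (hinj : Function.Injective qv)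
    (hprime : ∀ j, (qv j).Prime)
    (θ : CuspForm.heckeAlgebra N 2 (↑S : Set ℕ) →+* ResidueField 𝒪)
    (α : Fin r → ResidueField 𝒪) {ι : Type}
    (ops : ι → Module.End ℤ (A0 (N * twC qv) p)) (vals : ι → ResidueField 𝒪)
    (hfam : IsOmegaFam θ α ops vals)
    (hcomm0 : ∀ i j, Commute (ops i) (ops j)) (x : 𝒪 ⊗[ℤ] A0 (N * twC qv) p) :
    x ∈ thetaPart (polyHom ops hcomm0)
        (MvPolynomial.eval₂Hom (Int.castRingHom (ResidueField 𝒪)) vals) ↔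
      InE (realT 𝒪 p) (N * twC qv) {ℓ | GoodTw N S qv ℓ} (cFun θ) x ∧
        InE (realT 𝒪 p) (N * twC qv) {q | q ∈ List.ofFn qv} (aFun qv α) x := by
  classical
  have hX : ∀ i, polyHom ops hcomm0 (MvPolynomial.X i) = ops i := fun i => polyHom_X _ _ _
  have hθ : ∀ i, MvPolynomial.eval₂Hom (Int.castRingHom (ResidueField 𝒪)) vals
      (MvPolynomial.X i) = vals i := fun i => MvPolynomial.eval₂Hom_X' _ _ _
  constructor
  · intro hx
    rw [mem_thetaPart] at hx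
    constructor
    · intro ℓ hℓ hg
      haveI : NeZero ℓ := ⟨hℓ.ne_zero⟩
      have hg' : GoodTw N S qv ℓ := hg
      obtain ⟨i, hi1, hi2⟩ := hfam.hasT ℓ hg'
      have hres : residue 𝒪 (cFun θ ℓ)
          = MvPolynomial.eval₂Hom (Int.castRingHom (ResidueField 𝒪)) vals
            (MvPolynomial.X i) := by
        rw [hθ, hi2]
        exact residue_cFun θ hg'.1 hg'.not_dvd hg'.not_mem
      obtain ⟨m, hm⟩ := hx (MvPolynomial.X i) (cFun θ ℓ) hres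
      have e : polyHom ops hcomm0 (MvPolynomial.X i) = resP p (U0 (N * twC qv) ℓ) :=
        ((hX _).trans hi1).trans
          (Tz0_eq_resP p (N * twC qv) ℓ hℓ (H29.not_dvd_level_of_good hg'))
      rw [e] at hm
      have key := (isGk_Uop_iff p 𝒪 (N * twC qv) ℓ hℓ (cFun θ ℓ) x).mpr ⟨m, hm⟩
      exact key
    · intro q hq hmem
      haveI : NeZero q := ⟨hq.ne_zero⟩
      obtain ⟨j, rfl⟩ := (List.mem_ofFn' qv q).mp hmem
      obtain ⟨i, hi1, hi2⟩ := hfam.hasU j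
      have hres : residue 𝒪 (aFun qv α (qv j))
          = MvPolynomial.eval₂Hom (Int.castRingHom (ResidueField 𝒪)) vals
            (MvPolynomial.X i) := by
        rw [hθ, hi2]
        exact residue_aFun hinj α j
      obtain ⟨m, hm⟩ := hx (MvPolynomial.X i) (aFun qv α (qv j)) hres
      have e : polyHom ops hcomm0 (MvPolynomial.X i) = resP p (U0 (N * twC qv) (qv j)) :=
        ((hX _).trans hi1).trans (Uz0_eq_resP p (N * twC qv) (qv j))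
      rw [e] at hm
      have key := (isGk_Uop_iff p 𝒪 (N * twC qv) (qv j) hq (aFun qv α (qv j)) x).mpr ⟨m, hm⟩
      exact key
  · rintro ⟨h1, h2⟩
    refine (mem_thetaPart_iff_gens _ _ (Set.range MvPolynomial.X) (closure_range_X _) x
      (tors_ptors hp0 x)).mpr ?_
    rintro _ ⟨i, rfl⟩
    rcases hfam.kind i with ⟨ℓ, hg, hi1, hi2⟩ | ⟨j, hi1, hi2⟩ | ⟨hi1, hi2⟩ | ⟨hi1, hi2⟩
    · haveI : NeZero ℓ := ⟨hg.1.ne_zero⟩
      refine ⟨cFun θ ℓ, ?_, ?_⟩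
      · rw [hθ, hi2]
        exact residue_cFun θ hg.1 hg.not_dvd hg.not_mem
      · have key := h1 ℓ hg.1 hg
        obtain ⟨m, hm⟩ := (isGk_Uop_iff p 𝒪 (N * twC qv) ℓ hg.1 (cFun θ ℓ) x).mp key
        refine ⟨m, ?_⟩
        have e : polyHom ops hcomm0 (MvPolynomial.X i) = resP p (U0 (N * twC qv) ℓ) :=
          ((hX _).trans hi1).trans
            (Tz0_eq_resP p (N * twC qv) ℓ hg.1 (H29.not_dvd_level_of_good hg))
        rw [e]
        exact hm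
    · have hq : (qv j).Prime := hprime j
      haveI : NeZero (qv j) := ⟨hq.ne_zero⟩
      refine ⟨aFun qv α (qv j), ?_, ?_⟩
      · rw [hθ, hi2]
        exact residue_aFun hinj α j
      · have key := h2 (qv j) hq ((List.mem_ofFn' qv _).mpr ⟨j, rfl⟩)
        obtain ⟨m, hm⟩ := (isGk_Uop_iff p 𝒪 (N * twC qv) (qv j) hq (aFun qv α (qv j)) x).mp key
        refine ⟨m, ?_⟩
        have e : polyHom ops hcomm0 (MvPolynomial.X i) = resP p (U0 (N * twC qv) (qv j)) :=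
          ((hX _).trans hi1).trans (Uz0_eq_resP p (N * twC qv) (qv j))
        rw [e]
        exact hm
    · refine ⟨0, ?_, 1, ?_⟩
      · rw [hθ, hi2, map_zero]
      · have e : polyHom ops hcomm0 (MvPolynomial.X i) = 0 := (hX _).trans hi1
        rw [e, LinearMap.baseChange_zero, zero_smul, pow_one]
        simp only [LinearMap.sub_apply, LinearMap.zero_apply, sub_self]
    · refine ⟨1, ?_, 1, ?_⟩
      · rw [hθ, hi2, map_one]
      · have e : polyHom ops hcomm0 (MvPolynomial.X i) = 1 := (hX _).trans hi1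
        rw [e, baseChange_one_eq, one_smul, pow_one]
        simp only [LinearMap.sub_apply, sub_self]

set_option maxHeartbeats 1000000 in
/-- The `θ`-part at level `N` in terms of `InE` (hypotheses: fields of `TwHyp`). -/
theorem mem_thetaN_iff' (hp0 : (p : 𝒪) ≠ 0) (hprime : ∀ j, (qv j).Prime)
    (hnotS : ∀ j, qv j ∉ S) (hNS : ∀ q : ℕ, q.Prime → q ∣ N → q ∈ S)
    (θ : CuspForm.heckeAlgebra N 2 (↑S : Set ℕ) →+* ResidueField 𝒪)
    (ηC : CuspForm.heckeAlgebra N 2 (↑S : Set ℕ) →+* Module.End ℤ (A0 N p))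
    (hηC : ∀ (ℓ : ℕ) (hℓ : ℓ.Prime) (hℓN : ¬ ℓ ∣ N) (hℓS : ℓ ∉ (↑S : Set ℕ)),
      ηC (CuspForm.heckeAlgebra.T hℓ hℓN hℓS) = Tz0 N p ℓ)
    (x : 𝒪 ⊗[ℤ] A0 N p) :
    x ∈ thetaPart ηC θ ↔
      InE (realT 𝒪 p) N ({ℓ | GoodTw N S qv ℓ} ∪ {q | q ∈ List.ofFn qv}) (cFun θ) x := by
  classical
  constructor
  · intro hx ℓ hℓ hmem
    haveI : NeZero ℓ := ⟨hℓ.ne_zero⟩
    have hN : ¬ ℓ ∣ N ∧ ℓ ∉ (↑S : Set ℕ) := by
      rcases hmem with hg | hq
      · exact ⟨GoodTw.not_dvd hg, GoodTw.not_mem hg⟩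
      · obtain ⟨j, rfl⟩ := (List.mem_ofFn' qv ℓ).mp hq
        exact ⟨fun hd => hnotS j (hNS _ (hprime j) hd), fun hS => hnotS j (Finset.mem_coe.mp hS)⟩
    obtain ⟨m, hm⟩ := mem_thetaPart.mp hx (CuspForm.heckeAlgebra.T hℓ hN.1 hN.2) (cFun θ ℓ)
      (residue_cFun θ hℓ hN.1 hN.2)
    rw [hηC, Tz0_eq_resP p N ℓ hℓ hN.1] at hm
    have key := (isGk_Uop_iff p 𝒪 N ℓ hℓ (cFun θ ℓ) x).mpr ⟨m, hm⟩
    exact key
  · intro hx
    refine (mem_thetaPart_iff_gens _ _ (heckeTSet N (↑S : Set ℕ))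
      (closure_heckeT (fun q hq hqN => Finset.mem_coe.mpr (hNS q hq hqN))) x
      (tors_ptors hp0 x)).mpr ?_
    rintro _ ⟨ℓ, hℓ, hℓN, hℓS, rfl⟩
    haveI : NeZero ℓ := ⟨hℓ.ne_zero⟩
    have hmem : ℓ ∈ ({ℓ | GoodTw N S qv ℓ} ∪ {q | q ∈ List.ofFn qv} : Set ℕ) := by
      by_cases hq : ∃ j, qv j = ℓ
      · exact Or.inr ((List.mem_ofFn' qv ℓ).mpr hq)
      · exact Or.inl ((goodTw_iff' hprime ℓ).mpr ⟨hℓ, hℓN, hℓS, fun j hj => hq ⟨j, hj⟩⟩)
    have key := hx ℓ hℓ hmem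
    obtain ⟨m, hm⟩ := (isGk_Uop_iff p 𝒪 N ℓ hℓ (cFun θ ℓ) x).mp key
    refine ⟨cFun θ ℓ, residue_cFun θ hℓ hℓN hℓS, m, ?_⟩
    rw [hηC, Tz0_eq_resP p N ℓ hℓ hℓN]
    exact hm

set_option maxHeartbeats 1000000 in
/-- **The isomorphism `ω`, generic form.** -/
theorem exists_omega_gen (hp0 : (p : 𝒪) ≠ 0) (hinj : Function.Injective qv)
    (hprime : ∀ j, (qv j).Prime) (hnotS : ∀ j, qv j ∉ S)
    (hNS : ∀ q : ℕ, q.Prime → q ∣ N → q ∈ S)
    (θ : CuspForm.heckeAlgebra N 2 (↑S : Set ℕ) →+* ResidueField 𝒪)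
    (α β : Fin r → ResidueField 𝒪) (hE : TwEig 𝒪 N S qv θ α β) {ι : Type}
    (ops : ι → Module.End ℤ (A0 (N * twC qv) p)) (vals : ι → ResidueField 𝒪)
    (hfam : IsOmegaFam θ α ops vals) (hcomm0 : ∀ i j, Commute (ops i) (ops j))
    (ηC : CuspForm.heckeAlgebra N 2 (↑S : Set ℕ) →+* Module.End ℤ (A0 N p))
    (hηC : ∀ (ℓ : ℕ) (hℓ : ℓ.Prime) (hℓN : ¬ ℓ ∣ N) (hℓS : ℓ ∉ (↑S : Set ℕ)),
      ηC (CuspForm.heckeAlgebra.T hℓ hℓN hℓS) = Tz0 N p ℓ) :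
    ∃ Φ : JZero (N * twC qv) →+ JZero N,
      (∀ (ℓ : ℕ) [NeZero ℓ], GoodTw N S qv ℓ →
        ∀ y, Φ (U0 (N * twC qv) ℓ y) = U0 N ℓ (Φ y)) ∧
      (∀ (σ : GalQ) (y : JZero (N * twC qv)), Φ (σ • y) = σ • Φ y) ∧
      (∀ v ∈ thetaPart (polyHom ops hcomm0)
          (MvPolynomial.eval₂Hom (Int.castRingHom (ResidueField 𝒪)) vals),
        (resP p Φ).baseChange 𝒪 v ∈ thetaPart ηC θ) ∧
      (∀ x ∈ thetaPart ηC θ, ∃ v ∈ thetaPart (polyHom ops hcomm0)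
          (MvPolynomial.eval₂Hom (Int.castRingHom (ResidueField 𝒪)) vals),
        (resP p Φ).baseChange 𝒪 v = x) ∧
      (∀ v ∈ thetaPart (polyHom ops hcomm0)
          (MvPolynomial.eval₂Hom (Int.castRingHom (ResidueField 𝒪)) vals),
        (resP p Φ).baseChange 𝒪 v = 0 → v = 0) := by
  classical
  have hqN : ∀ j, ¬ qv j ∣ N := fun j hd => hnotS j (hNS _ (hprime j) hd)
  have hqS : ∀ j, qv j ∉ (↑S : Set ℕ) := fun j hS => hnotS j (Finset.mem_coe.mp hS)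
  have hnd : (List.ofFn qv).Nodup := List.nodup_ofFn.mpr hinj
  have hqs : ∀ q ∈ List.ofFn qv, q.Prime ∧ ¬ q ∣ N := by
    intro q hq
    obtain ⟨j, rfl⟩ := (List.mem_ofFn' qv q).mp hq
    exact ⟨hprime j, hqN j⟩
  have hS : ∀ ℓ ∈ ({ℓ | GoodTw N S qv ℓ} : Set ℕ),
      ℓ.Prime ∧ ℓ ∉ List.ofFn qv ∧ ¬ ℓ ^ 2 ∣ N := by
    intro ℓ hℓ
    have hg : GoodTw N S qv ℓ := hℓ
    refine ⟨hg.1, fun hmem => ?_, fun hd => hg.not_dvd (dvd_trans (dvd_pow_self ℓ two_ne_zero) hd)⟩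
    obtain ⟨j, hj⟩ := (List.mem_ofFn' qv ℓ).mp hmem
    exact ((goodTw_iff' hprime ℓ).mp hg).2.2.2 j hj
  have ha : ∀ q ∈ List.ofFn qv,
      residue 𝒪 (aFun qv α q) ≠ residue 𝒪 (aFun qv β q) ∧
      residue 𝒪 (aFun qv α q) * residue 𝒪 (aFun qv β q) = 1 ∧ residue 𝒪 (q : 𝒪) = 1 ∧
      residue 𝒪 (cFun θ q) = residue 𝒪 (aFun qv α q) + residue 𝒪 (aFun qv β q) := by
    intro q hq
    obtain ⟨j, rfl⟩ := (List.mem_ofFn' qv q).mp hq
    rw [residue_aFun hinj α j, residue_aFun hinj β j,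
      residue_cFun θ (hprime j) (hqN j) (hqS j), map_natCast]
    exact ⟨hE.ne j, hE.mul j, hE.q_one j, hE.add j (hprime j) (hqN j) (hqS j)⟩
  have hQ : N * twC qv = N * (List.ofFn qv).prod := by
    rw [List.prod_ofFn]
    rfl
  have hw := wOld (𝒪 := 𝒪) p (dvr_nil hp0) N (List.ofFn qv) hnd hqs
    {ℓ | GoodTw N S qv ℓ} hS (cFun θ) (aFun qv α) (aFun qv β) ha (N * twC qv) hQ
  obtain ⟨Φ, hw⟩ := hw
  have h1 := hw.1
  have h2 := hw.2.1
  have h3 := hw.2.2.1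
  have h4 := hw.2.2.2.1
  have h5 := hw.2.2.2.2
  refine ⟨Φ, ?_, h2, ?_, ?_, ?_⟩
  · intro ℓ _ hg y
    exact h1 ℓ hg.1 (hS ℓ hg).2.1 (hS ℓ hg).2.2 y
  · intro v hv
    have hv' := (mem_thetaPoly_iff hp0 hinj hprime θ α ops vals hfam hcomm0 v).mp hv
    have key := h3 v hv'.1 hv'.2
    exact (mem_thetaN_iff' hp0 hprime hnotS hNS θ ηC hηC _).mpr key
  · intro x hx
    have key := (mem_thetaN_iff' (qv := qv) hp0 hprime hnotS hNS θ ηC hηC x).mp hx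
    obtain ⟨v, hv1, hv2, hvx⟩ := h4 x key
    exact ⟨v, (mem_thetaPoly_iff hp0 hinj hprime θ α ops vals hfam hcomm0 v).mpr ⟨hv1, hv2⟩,
      hvx⟩
  · intro v hv hv0
    have hv' := (mem_thetaPoly_iff hp0 hinj hprime θ α ops vals hfam hcomm0 v).mp hv
    exact h5 v hv'.1 hv'.2 hv0

end Ident

end Fermat.Agent.NEB.Geom.H14
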