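import Fermat.Agent.NEB.Geom.H14_PiPrelim
import Fermat.Agent.NEB.Geom.AsmTop

/-!
# Item 72 (LG-NEB), package NEB-GEOM, leaf PI-WIRE (helper14): the sub-leaves

`π = ω ∘ π_*`, `πup = π^* ∘ ω⁻¹` with `ω : Ytw ≃ thetaPart ηC θ` (from `NEB.OLD.wOld`).

* `Stmt_PI_UPINJ` : `π^* : Ytw → Wtw` is injective (the kernel of `π^*` is Eisenstein:
  last clause of `Stmt_TOWER_INST`; `H94.stmt_W_unit` for `t₀ = X_ℓ₀ - (ℓ₀ + 1)`;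
  `H2.ker_baseChange_eq`).
* `Stmt_PI_UPINV` : every `Δ`-fixed `v ∈ Wtw[ϖ]` is `π^* y`, `y ∈ Ytw`
  (`H94.stmt_W_INV` + third clause of `Stmt_TOWER_INST` + `H94.etaTw_tEisPoly`,
  `H14.finite_AH`, `H14.finite_A0`, `H14.polyHom_intertwine`, `H29.stmt_Z_COMMtw`).
* `Stmt_A_PI_of`  : `Stmt_PI_WIRE → Stmt_A_PI` (the wiring into the assembly).

Statements only; no `sorry`.
-/

set_option autoImplicit false
set_option linter.unusedSectionVars false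

noncomputable section

open ModularCurve AlgebraicCurve IsLocalRing TensorProduct Polynomial

namespace Fermat.Agent.NEB.Geom.H14

open Fermat.Agent.NEB Fermat.Agent.NEB.JH Fermat.Agent.S59.Asm Fermat.Agent.S59.Lim
  Fermat.Agent.S59.Lim.H2 Fermat.Agent.NEB.Geom

/-- **PI-UPINJ**: `π^*` is injective on the `θ⁺`-part of `𝒪 ⊗ J₀(N c)[p^∞]`. -/
def Stmt_PI_UPINJ : Prop :=
  ∀ (𝒪 : Type) [CommRing 𝒪] [IsDomain 𝒪] [IsDiscreteValuationRing 𝒪] [Finite (ResidueField 𝒪)]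
    [CharZero 𝒪] (ϖ : 𝒪), Irreducible ϖ → ∀ (p : ℕ) [Fact p.Prime], (p : 𝒪) ∈ maximalIdeal 𝒪 →
    ∀ (N : ℕ) [NeZero N] (S : Finset ℕ) (n r : ℕ) (qv : Fin r → ℕ), TwHyp N S p n qv →
    ∀ [NeZero (N * twC qv)] (h2 : 2 ≤ twC qv), Stmt_TOWER_INST N S p n qv h2 →
    ∀ (hcomm0 : ∀ i j, Commute (opsTw0 N S p qv i) (opsTw0 N S p qv j))
      (θ : CuspForm.heckeAlgebra N 2 (↑S : Set ℕ) →+* ResidueField 𝒪)
      (α : Fin r → ResidueField 𝒪),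
    ∀ δ : Fin r → (ZMod (twC qv))ˣ, IsDeltaGen p n qv δ →
    ∀ (ℓ₀ : ℕ) (hℓ₀ : GoodTw N S qv ℓ₀),
      θ (CuspForm.heckeAlgebra.T hℓ₀.1 hℓ₀.not_dvd hℓ₀.not_mem) ≠ ((ℓ₀ : ResidueField 𝒪) + 1) →
    ∀ y ∈ Ytw 𝒪 N S p qv hcomm0 θ α,
      (upZ (N * twC qv) (twC qv) (twH p n qv) p).baseChange 𝒪 y = 0 → y = 0

/-- **PI-UPINV**: every `Δ`-fixed element of `Wtw[ϖ]` is `π^* y` with `y ∈ Ytw`. -/
def Stmt_PI_UPINV : Prop :=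
  ∀ (𝒪 : Type) [CommRing 𝒪] [IsDomain 𝒪] [IsDiscreteValuationRing 𝒪] [Finite (ResidueField 𝒪)]
    [CharZero 𝒪] (ϖ : 𝒪), Irreducible ϖ → ∀ (p : ℕ) [Fact p.Prime], (p : 𝒪) ∈ maximalIdeal 𝒪 →
    ∀ (N : ℕ) [NeZero N] (S : Finset ℕ) (n r : ℕ) (qv : Fin r → ℕ), TwHyp N S p n qv →
    ∀ [NeZero (N * twC qv)] (h2 : 2 ≤ twC qv), Stmt_TOWER_INST N S p n qv h2 →
    ∀ (hcomm : ∀ i j, Commute (opsTw N S p n qv h2 i) (opsTw N S p n qv h2 j))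
      (hcomm0 : ∀ i j, Commute (opsTw0 N S p qv i) (opsTw0 N S p qv j))
      (θ : CuspForm.heckeAlgebra N 2 (↑S : Set ℕ) →+* ResidueField 𝒪)
      (α : Fin r → ResidueField 𝒪),
    ∀ δ : Fin r → (ZMod (twC qv))ˣ, IsDeltaGen p n qv δ →
    ∀ (ℓ₀ : ℕ) (hℓ₀ : GoodTw N S qv ℓ₀),
      θ (CuspForm.heckeAlgebra.T hℓ₀.1 hℓ₀.not_dvd hℓ₀.not_mem) ≠ ((ℓ₀ : ResidueField 𝒪) + 1) →
    ∀ v ∈ Wtw 𝒪 N S p n qv h2 hcomm θ α, ϖ • v = 0 →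
      (∀ u : (ZMod (twC qv))ˣ,
        (diaZ (N * twC qv) (twC qv) (twH p n qv) h2 (dvd_mul_left _ _) p u).baseChange 𝒪 v = v) →
      ∃ y ∈ Ytw 𝒪 N S p qv hcomm0 θ α,
        (upZ (N * twC qv) (twC qv) (twH p n qv) p).baseChange 𝒪 y = v

/-- **A-PI from PI-WIRE**: the wiring of `Stmt_PI_WIRE` into the assembly statement. -/
def Stmt_A_PI_of : Prop := Stmt_PI_WIRE → Stmt_A_PI

end Fermat.Agent.NEB.Geom.H14
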