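import Fermat.Agent.NEB.Geom.H14_PiDefs
import Fermat.Agent.NEB.Geom.H67_PiUpInj

/-!
# Item 72 (LG-NEB), package NEB-GEOM, leaf PI-UPINV (helper67)

`stmt_PI_UPINV : H14.Stmt_PI_UPINV`: every `Δ`-fixed element of `Wtw[ϖ]` is `π^* y`, `y ∈ Ytw`.
From `H94.stmt_W_INV`, the third clause of `Stmt_TOWER_INST`, `H94.etaTw_tEisPoly`,
`H14.finite_AH`, `H14.finite_A0`, `H14.polyHom_intertwine` and `H29.stmt_Z_COMMtw`.
-/

set_option autoImplicit false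
set_option linter.unusedSectionVars false
set_option linter.unusedVariables false
set_option linter.style.haveILetI false

noncomputable section

open ModularCurve AlgebraicCurve IsLocalRing TensorProduct Polynomial

namespace Fermat.Agent.NEB.Geom.H67

open Fermat.Agent.NEB Fermat.Agent.NEB.JH Fermat.Agent.S59.Asm Fermat.Agent.S59.Lim
  Fermat.Agent.S59.Lim.H2 Fermat.Agent.NEB.Geom

/-- **PI-UPINV**. -/
theorem stmt_PI_UPINV : H14.Stmt_PI_UPINV := by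
  intro 𝒪 _ _ _ _ _ ϖ hϖ p _ hpm N _ S n r qv hTW _ h2 hT hcomm hcomm0 θ α δ hδ ℓ₀ hℓ₀ hne
    v hv hϖv hdv
  obtain ⟨-, -, hinv, -, -, -⟩ := hT hTW δ hδ ℓ₀ hℓ₀.1 (goodTw_not_dvd hℓ₀)
  have hp0 : (p : 𝒪) ≠ 0 := Nat.cast_ne_zero.mpr hTW.hp.ne_zero
  haveI : NeZero (twC qv) := ⟨by omega⟩
  have hE := H94.etaTw_tEisPoly N S p n qv h2 hcomm ℓ₀ hℓ₀
  have hθ : thetaTw N S qv θ α (H94.tEisPoly p n qv ℓ₀) ≠ 0 := by
    rw [H94.thetaTw_tEisPoly N S p n qv θ α ℓ₀ hℓ₀]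
    exact sub_ne_zero.mpr hne
  obtain ⟨-, -, -, -, hup, -, -⟩ := H29.stmt_Z_COMMtw N S p n qv h2 hTW
  obtain ⟨y, hy, -, hy2⟩ := H94.stmt_W_INV 𝒪 ϖ hϖ p hpm hp0
    (AH (N * twC qv) (twC qv) (twH p n qv) p) (fun x => isPTors_coe x)
    (H14.finite_AH (N * twC qv) (twC qv) (twH p n qv) h2 (dvd_mul_left _ _) p)
    (A0 (N * twC qv) p) (fun x => isPTors_coe x)
    (H14.finite_A0 (N * twC qv) p hTW.hp.ne_zero)
    (PolyTw r (twC qv)) (etaTw N S p n qv h2 hcomm) (etaTw0 N S p qv hcomm0)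
    (thetaTw N S qv θ α) (H94.tEisPoly p n qv ℓ₀) hθ
    (upZ (N * twC qv) (twC qv) (twH p n qv) p)
    (fun t => H14.polyHom_intertwine (opsTw0 N S p qv) hcomm0 (opsTw N S p n qv h2) hcomm
      (upZ (N * twC qv) (twC qv) (twH p n qv) p) hup t)
    (ZMod (twC qv))ˣ
    (diaZ (N * twC qv) (twC qv) (twH p n qv) h2 (dvd_mul_left _ _) p)
    (fun u => ⟨MvPolynomial.X (Sum.inr (Sum.inr u)), polyHom_X _ _ _⟩)
    (fun y hy hdy => by
      obtain ⟨y₀, m, h1, h3⟩ := hinv y hy hdy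
      exact ⟨y₀, m, h1, by rw [hE]; exact h3⟩)
    v hv hϖv hdv
  exact ⟨y, hy, hy2⟩

end Fermat.Agent.NEB.Geom.H67
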