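import Fermat.Agent.NEB.Geom.H14_PiWire
import Fermat.Agent.NEB.Geom.H29_TowerInst
import Fermat.Agent.NEB.Geom.H67_PiUpInj
import Fermat.Agent.NEB.Geom.H67_PiUpInv

/-!
# Item 72 (LG-NEB), package NEB-GEOM, leaf PI-WIRE (helper14): UNCONDITIONAL

`stmt_PI_WIRE : Stmt_PI_WIRE`, from `H14.stmt_PI_WIRE_of`, `H29.stmt_TOWER_INST` (helper29),
`H67.stmt_PI_UPINJ`, `H67.stmt_PI_UPINV` (helper67).
-/

set_option autoImplicit false

noncomputable section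

namespace Fermat.Agent.NEB.Geom.H14

open Fermat.Agent.NEB.Geom

theorem stmt_A_TOWER : Stmt_A_TOWER :=
  fun N S p n _ qv _ h2 => H29.stmt_TOWER_INST N S p n qv h2

/-- **PI-WIRE**, unconditional. -/
theorem stmt_PI_WIRE : Stmt_PI_WIRE :=
  stmt_PI_WIRE_of stmt_A_TOWER H67.stmt_PI_UPINJ H67.stmt_PI_UPINV

end Fermat.Agent.NEB.Geom.H14
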