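import Fermat.Agent.NEB.Geom.H14_PiDefs

/-!
# Item 72 (LG-NEB), package NEB-GEOM, leaf PI-WIRE (helper14): the isomorphism `ω`

* `Tz0_eq_resP`, `Uz0_eq_resP` : the operators as restrictions of `U0`;
* `mem_Ytw_iff`     : `Ytw` is cut out by the conditions `InE` of `NEB.OLD` at level `N c`;
* `mem_thetaN_iff`  : the `θ`-part at level `N` is cut out by `InE` at level `N`;
* `exists_omega`    : `NEB.OLD.wOld` in the present setting: an additive map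
  `Φ : J₀(N c) → J₀(N)`, Hecke- and Galois-equivariant, inducing a bijection
  `Ytw → thetaPart ηC θ`.
-/

set_option autoImplicit false
set_option linter.unusedSectionVars false
set_option linter.unusedVariables false
set_option linter.style.haveILetI false

noncomputable section

open ModularCurve AlgebraicCurve IsLocalRing TensorProduct Polynomial

namespace Fermat.Agent.NEB.Geom.H14

open Fermat.Agent.NEB Fermat.Agent.NEB.JH Fermat.Agent.S59.Asm Fermat.Agent.S59.Lim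
  Fermat.Agent.S59.Lim.H2 Fermat.Agent.NEB.Geom Fermat.Agent.NEB.OLD

/-! ## The operators as restrictions of `U0` -/

section Ops

variable (p : ℕ)

theorem Tz0_eq_resP (M ℓ : ℕ) [NeZero M] [NeZero ℓ] (hℓ : ℓ.Prime) (hℓM : ¬ ℓ ∣ M) :
    Tz0 M p ℓ = resP p (U0 M ℓ) := by
  refine LinearMap.ext fun x => Subtype.ext ?_
  rw [Tz0_apply, coe_resP]
  exact (U0_eq_T0_of_not_dvd M ℓ hℓ hℓM _).symm

theorem Uz0_eq_resP (M q : ℕ) [NeZero M] [NeZero q] : Uz0 M p q = resP p (U0 M q) := by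
  refine LinearMap.ext fun x => Subtype.ext ?_
  rw [Uz0_apply, coe_resP]

/-- `IsGk` for the realization `realT`, in terms of `resP`. -/
theorem isGk_Uop_iff (𝒪 : Type) [CommRing 𝒪] (M ℓ : ℕ) [NeZero M] [NeZero ℓ] (hℓ : ℓ.Prime)
    (a : 𝒪) (x : 𝒪 ⊗[ℤ] A0 M p) :
    IsGk (Uop (realT 𝒪 p) M ℓ hℓ) a x ↔
      ∃ n : ℕ, (((resP p (U0 M ℓ)).baseChange 𝒪
        - a • (1 : Module.End 𝒪 (𝒪 ⊗[ℤ] A0 M p))) ^ n) x = 0 := Iff.rfl

end Ops

/-! ## Arithmetic of the Taylor–Wiles primes -/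

section Arith

variable {N : ℕ} {S : Finset ℕ} {p n : ℕ} {r : ℕ} {qv : Fin r → ℕ}

theorem qv_not_dvd (h : TwHyp N S p n qv) (j : Fin r) : ¬ qv j ∣ N :=
  fun hd => h.notS j (h.hNS (qv j) (h.prime j) hd)

theorem qv_not_mem (h : TwHyp N S p n qv) (j : Fin r) : qv j ∉ (↑S : Set ℕ) :=
  fun hS => h.notS j (Finset.mem_coe.mp hS)

theorem goodTw_iff (h : TwHyp N S p n qv) (ℓ : ℕ) :
    GoodTw N S qv ℓ ↔ ℓ.Prime ∧ ¬ ℓ ∣ N ∧ ℓ ∉ (↑S : Set ℕ) ∧ ∀ j, qv j ≠ ℓ := by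
  constructor
  · intro hg
    refine ⟨hg.1, hg.not_dvd, hg.not_mem, fun j hj => hg.2.2 ?_⟩
    simp only [twSet, Finset.coe_union, Set.mem_union, Finset.coe_image, Finset.coe_univ,
      Set.image_univ, Set.mem_range]
    exact Or.inr ⟨j, hj⟩
  · rintro ⟨hℓ, hℓN, hℓS, hne⟩
    refine ⟨hℓ, ?_, ?_⟩
    · intro hd
      unfold twLevel at hd
      rcases (Nat.Prime.dvd_mul hℓ).mp hd with h1 | h1
      · exact hℓN h1
      · obtain ⟨j, -, hj⟩ := (Prime.dvd_finsetProd_iff hℓ.prime _).mp h1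
        have h2 : ℓ ∣ qv j := hℓ.dvd_of_dvd_pow hj
        exact hne j ((Nat.prime_dvd_prime_iff_eq hℓ (h.prime j)).mp h2).symm
    · simp only [twSet, Finset.coe_union, Set.mem_union, Finset.coe_image, Finset.coe_univ,
        Set.image_univ, Set.mem_range, not_or, not_exists]
      exact ⟨hℓS, hne⟩

end Arith

/-! ## The two `θ`-parts as `InE`-sets -/

section Ident

variable {𝒪 : Type} [CommRing 𝒪] [IsDomain 𝒪] [IsDiscreteValuationRing 𝒪]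
  {p : ℕ} {N : ℕ} [NeZero N] {S : Finset ℕ} {n : ℕ} {r : ℕ} {qv : Fin r → ℕ}
  [NeZero (N * twC qv)]

set_option maxHeartbeats 1000000 in
/-- `Ytw` in terms of `InE`. -/
theorem mem_Ytw_iff (hp0 : (p : 𝒪) ≠ 0) (hTW : TwHyp N S p n qv)
    (hcomm0 : ∀ i j, Commute (opsTw0 N S p qv i) (opsTw0 N S p qv j))
    (θ : CuspForm.heckeAlgebra N 2 (↑S : Set ℕ) →+* ResidueField 𝒪)
    (α : Fin r → ResidueField 𝒪) (x : 𝒪 ⊗[ℤ] A0 (N * twC qv) p) :
    x ∈ Ytw 𝒪 N S p qv hcomm0 θ α ↔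
      InE (realT 𝒪 p) (N * twC qv) {ℓ | GoodTw N S qv ℓ} (cFun θ) x ∧
        InE (realT 𝒪 p) (N * twC qv) {q | q ∈ List.ofFn qv} (aFun qv α) x := by
  classical
  have hX : ∀ i, etaTw0 N S p qv hcomm0 (MvPolynomial.X i) = opsTw0 N S p qv i :=
    fun i => polyHom_X _ _ _
  have hθ : ∀ i, thetaTw N S qv θ α (MvPolynomial.X i) = thetaVal N S qv θ α i :=
    fun i => MvPolynomial.eval₂Hom_X' _ _ _
  constructor
  · intro hx
    rw [Ytw, mem_thetaPart] at hx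
    constructor
    · intro ℓ hℓ hg
      haveI : NeZero ℓ := ⟨hℓ.ne_zero⟩
      have hg' : GoodTw N S qv ℓ := hg
      have hres : residue 𝒪 (cFun θ ℓ) = thetaTw N S qv θ α (MvPolynomial.X (Sum.inl ℓ)) := by
        rw [hθ]
        show _ = (if h : GoodTw N S qv ℓ then _ else _)
        rw [dif_pos hg']
        exact residue_cFun θ hg'.1 hg'.not_dvd hg'.not_mem
      obtain ⟨m, hm⟩ := hx (MvPolynomial.X (Sum.inl ℓ)) (cFun θ ℓ) hres
      have e : etaTw0 N S p qv hcomm0 (MvPolynomial.X (Sum.inl ℓ))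
          = resP p (U0 (N * twC qv) ℓ) :=
        ((hX _).trans (H29.opsTw0_inl_good N S p qv hg')).trans
          (Tz0_eq_resP p (N * twC qv) ℓ hℓ (H29.not_dvd_level_of_good hg'))
      rw [e] at hm
      have key := (isGk_Uop_iff p 𝒪 (N * twC qv) ℓ hℓ (cFun θ ℓ) x).mpr ⟨m, hm⟩
      exact key
    · intro q hq hmem
      haveI : NeZero q := ⟨hq.ne_zero⟩
      obtain ⟨j, rfl⟩ := (List.mem_ofFn' qv q).mp hmem
      have hres : residue 𝒪 (aFun qv α (qv j))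
          = thetaTw N S qv θ α (MvPolynomial.X (Sum.inr (Sum.inl j))) := by
        rw [hθ]
        exact residue_aFun hTW.inj α j
      obtain ⟨m, hm⟩ := hx (MvPolynomial.X (Sum.inr (Sum.inl j))) (aFun qv α (qv j)) hres
      have e : etaTw0 N S p qv hcomm0 (MvPolynomial.X (Sum.inr (Sum.inl j)))
          = resP p (U0 (N * twC qv) (qv j)) :=
        (hX _).trans (Uz0_eq_resP p (N * twC qv) (qv j))
      rw [e] at hm
      have key := (isGk_Uop_iff p 𝒪 (N * twC qv) (qv j) hq (aFun qv α (qv j)) x).mpr ⟨m, hm⟩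
      exact key
  · rintro ⟨h1, h2⟩
    rw [Ytw]
    refine (mem_thetaPart_iff_gens _ _ (Set.range MvPolynomial.X) (closure_range_X _) x
      (tors_ptors hp0 x)).mpr ?_
    rintro _ ⟨i, rfl⟩
    rcases i with ℓ | j | u
    · by_cases hg : GoodTw N S qv ℓ
      · haveI : NeZero ℓ := ⟨hg.1.ne_zero⟩
        refine ⟨cFun θ ℓ, ?_, ?_⟩
        · rw [hθ]
          show _ = (if h : GoodTw N S qv ℓ then _ else _)
          rw [dif_pos hg]
          exact residue_cFun θ hg.1 hg.not_dvd hg.not_mem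
        · have key := h1 ℓ hg.1 hg
          obtain ⟨m, hm⟩ := (isGk_Uop_iff p 𝒪 (N * twC qv) ℓ hg.1 (cFun θ ℓ) x).mp key
          refine ⟨m, ?_⟩
          have e : etaTw0 N S p qv hcomm0 (MvPolynomial.X (Sum.inl ℓ))
              = resP p (U0 (N * twC qv) ℓ) :=
            ((hX _).trans (H29.opsTw0_inl_good N S p qv hg)).trans
              (Tz0_eq_resP p (N * twC qv) ℓ hg.1 (H29.not_dvd_level_of_good hg))
          rw [e]
          exact hm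
      · refine ⟨0, ?_, 1, ?_⟩
        · rw [hθ, map_zero]
          show _ = (if h : GoodTw N S qv ℓ then _ else _)
          rw [dif_neg hg]
        · have e : etaTw0 N S p qv hcomm0 (MvPolynomial.X (Sum.inl ℓ)) = 0 :=
            (hX _).trans (H29.opsTw0_inl_bad N S p qv hg)
          rw [e, LinearMap.baseChange_zero, zero_smul, pow_one]
          simp only [LinearMap.sub_apply, LinearMap.zero_apply, sub_self]
    · have hq : (qv j).Prime := hTW.prime j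
      haveI : NeZero (qv j) := ⟨hq.ne_zero⟩
      refine ⟨aFun qv α (qv j), ?_, ?_⟩
      · rw [hθ]
        exact residue_aFun hTW.inj α j
      · have key := h2 (qv j) hq ((List.mem_ofFn' qv _).mpr ⟨j, rfl⟩)
        obtain ⟨m, hm⟩ := (isGk_Uop_iff p 𝒪 (N * twC qv) (qv j) hq (aFun qv α (qv j)) x).mp key
        refine ⟨m, ?_⟩
        have e : etaTw0 N S p qv hcomm0 (MvPolynomial.X (Sum.inr (Sum.inl j)))
            = resP p (U0 (N * twC qv) (qv j)) :=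
          (hX _).trans (Uz0_eq_resP p (N * twC qv) (qv j))
        rw [e]
        exact hm
    · refine ⟨1, ?_, 1, ?_⟩
      · rw [hθ, map_one]
        rfl
      · have e : etaTw0 N S p qv hcomm0 (MvPolynomial.X (Sum.inr (Sum.inr u))) = 1 := hX _
        rw [e, baseChange_one_eq, one_smul, pow_one]
        simp only [LinearMap.sub_apply, sub_self]

set_option maxHeartbeats 1000000 in
/-- The `θ`-part at level `N` in terms of `InE`. -/
theorem mem_thetaN_iff (hp0 : (p : 𝒪) ≠ 0) (hTW : TwHyp N S p n qv)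
    (θ : CuspForm.heckeAlgebra N 2 (↑S : Set ℕ) →+* ResidueField 𝒪)
    (ηC : CuspForm.heckeAlgebra N 2 (↑S : Set ℕ) →+* Module.End ℤ (A0 N p))
    (hηC : ∀ (ℓ : ℕ) (hℓ : ℓ.Prime) (hℓN : ¬ ℓ ∣ N) (hℓS : ℓ ∉ (↑S : Set ℕ)),
      ηC (CuspForm.heckeAlgebra.T hℓ hℓN hℓS) = Tz0 N p ℓ)
    (x : 𝒪 ⊗[ℤ] A0 N p) :
    x ∈ thetaPart ηC θ ↔
      InE (realT 𝒪 p) N ({ℓ | GoodTw N S qv ℓ} ∪ {q | q ∈ List.ofFn qv}) (cFun θ) x := by
  classical
  constructor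
  · intro hx ℓ hℓ hmem
    haveI : NeZero ℓ := ⟨hℓ.ne_zero⟩
    have hN : ¬ ℓ ∣ N ∧ ℓ ∉ (↑S : Set ℕ) := by
      rcases hmem with hg | hq
      · exact ⟨GoodTw.not_dvd hg, GoodTw.not_mem hg⟩
      · obtain ⟨j, rfl⟩ := (List.mem_ofFn' qv ℓ).mp hq
        exact ⟨qv_not_dvd hTW j, qv_not_mem hTW j⟩
    obtain ⟨m, hm⟩ := mem_thetaPart.mp hx (CuspForm.heckeAlgebra.T hℓ hN.1 hN.2) (cFun θ ℓ)
      (residue_cFun θ hℓ hN.1 hN.2)
    rw [hηC, Tz0_eq_resP p N ℓ hℓ hN.1] at hm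
    have key := (isGk_Uop_iff p 𝒪 N ℓ hℓ (cFun θ ℓ) x).mpr ⟨m, hm⟩
    exact key
  · intro hx
    refine (mem_thetaPart_iff_gens _ _ (heckeTSet N (↑S : Set ℕ))
      (closure_heckeT (fun q hq hqN => Finset.mem_coe.mpr (hTW.hNS q hq hqN))) x (tors_ptors hp0 x)).mpr ?_
    rintro _ ⟨ℓ, hℓ, hℓN, hℓS, rfl⟩
    haveI : NeZero ℓ := ⟨hℓ.ne_zero⟩
    have hmem : ℓ ∈ ({ℓ | GoodTw N S qv ℓ} ∪ {q | q ∈ List.ofFn qv} : Set ℕ) := by
      by_cases hq : ∃ j, qv j = ℓ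
      · exact Or.inr ((List.mem_ofFn' qv ℓ).mpr hq)
      · exact Or.inl ((goodTw_iff hTW ℓ).mpr ⟨hℓ, hℓN, hℓS, fun j hj => hq ⟨j, hj⟩⟩)
    have key := hx ℓ hℓ hmem
    obtain ⟨m, hm⟩ := (isGk_Uop_iff p 𝒪 N ℓ hℓ (cFun θ ℓ) x).mp key
    refine ⟨cFun θ ℓ, residue_cFun θ hℓ hℓN hℓS, m, ?_⟩
    rw [hηC, Tz0_eq_resP p N ℓ hℓ hℓN]
    exact hm

set_option maxHeartbeats 1000000 in
/-- **The isomorphism `ω`** (`NEB.OLD.wOld` in the present setting). -/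
theorem exists_omega (hp0 : (p : 𝒪) ≠ 0) (hTW : TwHyp N S p n qv)
    (hcomm0 : ∀ i j, Commute (opsTw0 N S p qv i) (opsTw0 N S p qv j))
    (θ : CuspForm.heckeAlgebra N 2 (↑S : Set ℕ) →+* ResidueField 𝒪)
    (α β : Fin r → ResidueField 𝒪) (hE : TwEig 𝒪 N S qv θ α β)
    (ηC : CuspForm.heckeAlgebra N 2 (↑S : Set ℕ) →+* Module.End ℤ (A0 N p))
    (hηC : ∀ (ℓ : ℕ) (hℓ : ℓ.Prime) (hℓN : ¬ ℓ ∣ N) (hℓS : ℓ ∉ (↑S : Set ℕ)),
      ηC (CuspForm.heckeAlgebra.T hℓ hℓN hℓS) = Tz0 N p ℓ) :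
    ∃ Φ : JZero (N * twC qv) →+ JZero N,
      (∀ (ℓ : ℕ) [NeZero ℓ], GoodTw N S qv ℓ →
        ∀ y, Φ (U0 (N * twC qv) ℓ y) = U0 N ℓ (Φ y)) ∧
      (∀ (σ : GalQ) (y : JZero (N * twC qv)), Φ (σ • y) = σ • Φ y) ∧
      (∀ v ∈ Ytw 𝒪 N S p qv hcomm0 θ α, (resP p Φ).baseChange 𝒪 v ∈ thetaPart ηC θ) ∧
      (∀ x ∈ thetaPart ηC θ, ∃ v ∈ Ytw 𝒪 N S p qv hcomm0 θ α,
        (resP p Φ).baseChange 𝒪 v = x) ∧
      (∀ v ∈ Ytw 𝒪 N S p qv hcomm0 θ α, (resP p Φ).baseChange 𝒪 v = 0 → v = 0) := by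
  classical
  have hnd : (List.ofFn qv).Nodup := List.nodup_ofFn.mpr hTW.inj
  have hqs : ∀ q ∈ List.ofFn qv, q.Prime ∧ ¬ q ∣ N := by
    intro q hq
    obtain ⟨j, rfl⟩ := (List.mem_ofFn' qv q).mp hq
    exact ⟨hTW.prime j, qv_not_dvd hTW j⟩
  have hS : ∀ ℓ ∈ ({ℓ | GoodTw N S qv ℓ} : Set ℕ),
      ℓ.Prime ∧ ℓ ∉ List.ofFn qv ∧ ¬ ℓ ^ 2 ∣ N := by
    intro ℓ hℓ
    have hg : GoodTw N S qv ℓ := hℓ
    refine ⟨hg.1, fun hmem => ?_, fun hd => hg.not_dvd (dvd_trans (dvd_pow_self ℓ two_ne_zero) hd)⟩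
    obtain ⟨j, hj⟩ := (List.mem_ofFn' qv ℓ).mp hmem
    exact ((goodTw_iff hTW ℓ).mp hg).2.2.2 j hj
  have ha : ∀ q ∈ List.ofFn qv,
      residue 𝒪 (aFun qv α q) ≠ residue 𝒪 (aFun qv β q) ∧
      residue 𝒪 (aFun qv α q) * residue 𝒪 (aFun qv β q) = 1 ∧ residue 𝒪 (q : 𝒪) = 1 ∧
      residue 𝒪 (cFun θ q) = residue 𝒪 (aFun qv α q) + residue 𝒪 (aFun qv β q) := by
    intro q hq
    obtain ⟨j, rfl⟩ := (List.mem_ofFn' qv q).mp hq
    rw [residue_aFun hTW.inj α j, residue_aFun hTW.inj β j,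
      residue_cFun θ (hTW.prime j) (qv_not_dvd hTW j) (qv_not_mem hTW j), map_natCast]
    exact ⟨hE.ne j, hE.mul j, hE.q_one j,
      hE.add j (hTW.prime j) (qv_not_dvd hTW j) (qv_not_mem hTW j)⟩
  have hQ : N * twC qv = N * (List.ofFn qv).prod := by
    rw [List.prod_ofFn]
    rfl
  obtain ⟨Φ, h1, h2, h3, h4, h5⟩ := wOld (𝒪 := 𝒪) p (dvr_nil hp0) N (List.ofFn qv) hnd hqs
    {ℓ | GoodTw N S qv ℓ} hS (cFun θ) (aFun qv α) (aFun qv β) ha (N * twC qv) hQ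
  refine ⟨Φ, ?_, h2, ?_, ?_, ?_⟩
  · intro ℓ _ hg y
    exact h1 ℓ hg.1 (hS ℓ hg).2.1 (hS ℓ hg).2.2 y
  · intro v hv
    obtain ⟨hv1, hv2⟩ := (mem_Ytw_iff hp0 hTW hcomm0 θ α v).mp hv
    have key := h3 v hv1 hv2
    exact (mem_thetaN_iff hp0 hTW θ ηC hηC _).mpr key
  · intro x hx
    have key := (mem_thetaN_iff (qv := qv) hp0 hTW θ ηC hηC x).mp hx
    obtain ⟨v, hv1, hv2, hvx⟩ := h4 x key
    exact ⟨v, (mem_Ytw_iff hp0 hTW hcomm0 θ α v).mpr ⟨hv1, hv2⟩, hvx⟩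
  · intro v hv hv0
    obtain ⟨hv1, hv2⟩ := (mem_Ytw_iff hp0 hTW hcomm0 θ α v).mp hv
    exact h5 v hv1 hv2 hv0

end Ident

end Fermat.Agent.NEB.Geom.H14
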