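import Fermat.Agent.NEB.Geom.H15_APIof
import Fermat.Agent.NEB.Geom.H14_PiFinal

/-!
# Item 72 (LG-NEB), package NEB-GEOM, leaf A-PI (helper15 + helper14): `Stmt_A_PI`

`stmt_A_PI : Stmt_A_PI`, from helper14's unconditional `H14.stmt_PI_WIRE` and the wiring
`H15.stmt_A_PI_of`.
-/

set_option autoImplicit false

namespace Fermat.Agent.NEB.Geom.H15

/-- **A-PI**, unconditional. -/
theorem stmt_A_PI : Fermat.Agent.NEB.Geom.Stmt_A_PI :=
  stmt_A_PI_of Fermat.Agent.NEB.Geom.H14.stmt_PI_WIRE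

end Fermat.Agent.NEB.Geom.H15
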