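import Fermat.Agent.NEB.Geom.H26_WMD2

/-!
# Item 72 (LG-NEB), package NEB-GEOM, leaf W-MD (helper26): `Stmt_W_MD`

* `stmt_W_MD_of : Stmt_N2 → Stmt_W_MD` : the level-`N` data: the Hecke ring homomorphism on
  `J₀(N)[p^∞]`, commutation with Galois, divisibility, finiteness of the `p`-torsion,
  Eichler–Shimura, unramifiedness, continuity and nontriviality of every `θ`-part.
-/

set_option autoImplicit false
set_option linter.unusedSectionVars false
set_option linter.style.haveILetI false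
set_option maxHeartbeats 1000000

noncomputable section

open ModularCurve AlgebraicCurve IsLocalRing TensorProduct

namespace Fermat.Agent.NEB.Geom.H26

open Fermat.Agent.NEB Fermat.Agent.NEB.JH Fermat.Agent.GTor Fermat.Agent.GTor.H81
  Fermat.Agent.S59.Lim Fermat.Agent.S59.Lim.H2

/-- **W-MD** from the abstract step N2. -/
theorem stmt_W_MD_of (hN2 : Stmt_N2) : Stmt_W_MD := by
  intro p _ N _ S hNS
  have hp : p.Prime := Fact.out
  obtain ⟨C, ηC, hC, hη, hT⟩ := exists_etaC N p (↑S : Set ℕ) hp hNS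
  refine ⟨ηC, hT, fun t σ => etaC_comm_gal C ηC hη t σ, a0_div C hp hC, a0_fin C hp,
    fun ℓ hℓ hℓN hℓp P hP σ hσ => a0_es N p hp ℓ hℓ hℓN hℓp P hP σ hσ,
    fun q hq hqN hqp P hP σ hσ => a0_unr N p hp q hq hqN hqp P hP σ hσ,
    fun x => a0_cont N p x, ?_⟩
  intro 𝒪 _ _ _ _ _ hpm θ
  exact nontrivial_thetaPart_a0 hN2 hp C ηC hη 𝒪 hpm θ

end Fermat.Agent.NEB.Geom.H26
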