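import Fermat.Agent.NEB.Geom.DefsL
import Fermat.Agent.GTor.H81_Uncond
import Fermat.Agent.GTor.H81_TateLimit
import Fermat.Agent.R.H33_TatePiece
import Fermat.Agent.NEB.EIG.H39_EigA3
import Fermat.Agent.NEB.H14_JHRules

/-!
# Item 72 (LG-NEB), package NEB-GEOM, leaf W-MD, part 1 (helper26): the `ℤ`-level

`A0 N p = J₀(N)[p^∞]`.

* `exists_tateCoords_compat` : the coordinatised Tate system of G-TOR (helper81) together with
  the compatibility of the coordinates in the level;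
* `resK k : End_ℤ (A0 N p) →+* End (J₀(N)[p^k])`, `resK_injective`;
* `exists_etaC` : the ring homomorphism `ηC : 𝕋 → End_ℤ (A0 N p)` with `ηC (T_ℓ) = Tz0 N p ℓ` and
  matrices `M t` in the coordinates;
* `a0_div`, `a0_fin`, `a0_es`, `a0_unr`, `a0_cont` : divisibility, finiteness of the `p`-torsion,
  Eichler–Shimura, unramifiedness, continuity.
-/

set_option autoImplicit false
set_option linter.unusedSectionVars false
set_option linter.style.haveILetI false
set_option maxHeartbeats 1000000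

noncomputable section

open ModularCurve AlgebraicCurve

namespace Fermat.Agent.NEB.Geom.H26

open Fermat.Agent.NEB Fermat.Agent.NEB.JH Fermat.Agent.GTor Fermat.Agent.GTor.H81
  Fermat.Agent.Betti Fermat.Agent.GTor.H58T1

/-! ## Coordinates with compatibility in the level -/

section Coords

variable (N p : ℕ) [NeZero N] (S : Set ℕ)

/-- **The coordinatised Tate system of `J₀(N)`** with the compatibility of the coordinates:
`θ_k (p y) = θ_{k+1} (y) mod p^k`. -/
theorem exists_tateCoords_compat (hp : p.Prime) (hNS : ∀ q : ℕ, q.Prime → q ∣ N → q ∈ S) :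
    ∃ C : TateCoords N p S, ∀ (k : ℕ) (x : Jtor N (p ^ (k + 1))),
      C.θ k (mulTor (pow_dvd_pow p (Nat.le_succ k)) x)
        = fun i => ZMod.castHom (pow_dvd_pow p (Nat.le_succ k)) (ZMod (p ^ k))
            (C.θ (k + 1) x i) := by
  have hTOR : ∀ k : ℕ, Stmt_TORc N (p ^ k) :=
    fun k => stmt_TORc_uncond N (p ^ k) (pow_ne_zero k hp.ne_zero)
  have hHK : ∀ k : ℕ, Stmt_HK N (p ^ k) := fun k => H44.stmt_HK N (p ^ k)
  have hLift : Stmt_torsLift N := H77.stmt_torsLift N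
  have hGH : Stmt_GalHecke N := H2.stmt_GalHecke N
  have hGAL : Stmt_GAL N := stmt_GAL N
  obtain ⟨r, b, hb⟩ := Betti.stmt_basis N
  obtain ⟨M, hMinj, hMT, -⟩ := Betti.H76.stmt_matrixRep N S r b hb
  have halg : Algebra.IsAlgebraic ℚ (AlgebraicClosure ℚ) := AlgebraicClosure.isAlgebraic ℚ
  obtain ⟨ι⟩ : Nonempty (AlgebraicClosure ℚ →+* ℂ) :=
    ⟨((IsAlgClosed.lift : AlgebraicClosure ℚ →ₐ[ℚ] ℂ) : AlgebraicClosure ℚ →+* ℂ)⟩
  have hE : ∀ k : ℕ, Nonempty (TorIso N (p ^ k) ι) := fun k => nonempty_torIso (hTOR k) ι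
  have hn : ∀ k : ℕ, p ^ k ≠ 0 := fun k => pow_ne_zero k hp.ne_zero
  let E : ∀ k : ℕ, TorIso N (p ^ k) ι := fun k => Classical.choice (hE k)
  refine ⟨{ r := r
            ρ := fun k => rhoMat hb hLift (hn k) (E k)
            M := M
            θ := fun k => theta hb hLift (hn k) (E k)
            tate := ⟨?_, ?_, ?_, hMinj⟩
            gal := ?_
            hecke := ?_ }, ?_⟩
  · intro k σ i j
    have h := rhoMat_compat hb hLift (hn (k + 1)) (hn k) (pow_dvd_pow p (Nat.le_succ k))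
      (E (k + 1)) (E k) σ
    have h2 := congrFun (congrFun h i) j
    rw [Matrix.map_apply] at h2
    exact h2
  · intro k
    exact rhoMat_cont hb hLift (hn k) (E k) hGAL
  · intro k σ t
    refine comm_of_generators S M _ hNS (fun ℓ hℓ hℓN hℓS => ?_) t
    exact rhoMat_comm_T hb hLift (hn k) (E k) hℓ hℓN (hHK k) hGH _ (hMT ℓ hℓ hℓN hℓS) σ
  · intro k σ x
    exact (rhoMat_mulVec hb hLift (hn k) (E k) σ x).symm
  · intro k ℓ hℓ hℓN hℓS x
    exact theta_heckeTor hb hLift (hn k) (E k) hℓ hℓN (hHK k) _ (hMT ℓ hℓ hℓN hℓS) x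
  · intro k x
    exact theta_mulTor hb hLift (hn (k + 1)) (hn k) (pow_dvd_pow p (Nat.le_succ k))
      (E (k + 1)) (E k) x

end Coords

/-! ## Restriction to `J₀(N)[p^k]` -/

section Res

variable (N p : ℕ) [NeZero N]

/-- `J₀(N)[p^k] → J₀(N)[p^∞]`. -/
def incK (k : ℕ) : Jtor N (p ^ k) →+ A0 N p where
  toFun x := ⟨(x : JZero N), ⟨k, pow_nsmul_coe x⟩⟩
  map_zero' := rfl
  map_add' _ _ := rfl

@[simp] theorem coe_incK (k : ℕ) (x : Jtor N (p ^ k)) :
    ((incK N p k x : A0 N p) : JZero N) = (x : JZero N) := rfl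

theorem incK_injective (k : ℕ) : Function.Injective (incK N p k) := fun x y h =>
  Subtype.ext (congrArg (fun z : A0 N p => (z : JZero N)) h)

theorem mem_Jtor_of_pow_smul {k : ℕ} {y : JZero N} (h : p ^ k • y = 0) :
    y ∈ Jtor N (p ^ k) := by
  rw [Pic0.mem_torsion, ← h, ← natCast_zsmul]

theorem exists_incK (x : A0 N p) : ∃ (k : ℕ) (y : Jtor N (p ^ k)), incK N p k y = x := by
  obtain ⟨k, hk⟩ := x.2
  exact ⟨k, ⟨(x : JZero N), mem_Jtor_of_pow_smul N p hk⟩, Subtype.ext rfl⟩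

theorem pow_smul_incK (k : ℕ) (x : Jtor N (p ^ k)) : p ^ k • incK N p k x = 0 :=
  Subtype.ext (pow_nsmul_coe x)

/-- Restriction of an endomorphism of `J₀(N)[p^∞]` to `J₀(N)[p^k]`, as a function. -/
def resKfun (k : ℕ) (f : Module.End ℤ (A0 N p)) : AddMonoid.End (Jtor N (p ^ k)) :=
  (((ptors p (JZero N)).subtype.comp (f.toAddMonoidHom.comp (incK N p k))).codRestrict
    (Jtor N (p ^ k)) (fun x => mem_Jtor_of_pow_smul N p (by
      have h : p ^ k • f (incK N p k x) = 0 := by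
        rw [← map_nsmul, pow_smul_incK, map_zero]
      exact congrArg (fun z : A0 N p => (z : JZero N)) h)) : Jtor N (p ^ k) →+ Jtor N (p ^ k))

theorem coe_resKfun (k : ℕ) (f : Module.End ℤ (A0 N p)) (x : Jtor N (p ^ k)) :
    ((resKfun N p k f x : Jtor N (p ^ k)) : JZero N) = ((f (incK N p k x) : A0 N p) : JZero N) :=
  rfl

theorem incK_resKfun (k : ℕ) (f : Module.End ℤ (A0 N p)) (x : Jtor N (p ^ k)) :
    incK N p k (resKfun N p k f x) = f (incK N p k x) :=
  Subtype.ext (coe_resKfun N p k f x)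

theorem addEnd_zero_apply {X : Type*} [AddCommGroup X] (x : X) :
    (0 : AddMonoid.End X) x = 0 := rfl

theorem addEnd_add_apply {X : Type*} [AddCommGroup X] (f g : AddMonoid.End X) (x : X) :
    (f + g) x = f x + g x := rfl

/-- Restriction of an endomorphism of `J₀(N)[p^∞]` to `J₀(N)[p^k]`. -/
def resK (k : ℕ) : Module.End ℤ (A0 N p) →+* AddMonoid.End (Jtor N (p ^ k)) where
  toFun f := resKfun N p k f
  map_one' := by
    refine DFunLike.ext _ _ fun x => incK_injective N p k ?_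
    rw [incK_resKfun, Module.End.one_apply, AddMonoid.End.coe_one, id]
  map_mul' f g := by
    refine DFunLike.ext _ _ fun x => incK_injective N p k ?_
    rw [incK_resKfun, Module.End.mul_apply, AddMonoid.End.coe_mul, Function.comp_apply,
      incK_resKfun, incK_resKfun]
  map_zero' := by
    refine DFunLike.ext _ _ fun x => incK_injective N p k ?_
    rw [incK_resKfun, LinearMap.zero_apply, addEnd_zero_apply, map_zero]
  map_add' f g := by
    refine DFunLike.ext _ _ fun x => incK_injective N p k ?_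
    rw [incK_resKfun, LinearMap.add_apply, addEnd_add_apply, map_add, incK_resKfun,
      incK_resKfun]

theorem incK_resK (k : ℕ) (f : Module.End ℤ (A0 N p)) (x : Jtor N (p ^ k)) :
    incK N p k (resK N p k f x) = f (incK N p k x) := incK_resKfun N p k f x

theorem coe_resK (k : ℕ) (f : Module.End ℤ (A0 N p)) (x : Jtor N (p ^ k)) :
    ((resK N p k f x : Jtor N (p ^ k)) : JZero N) = ((f (incK N p k x) : A0 N p) : JZero N) :=
  coe_resKfun N p k f x

/-- An endomorphism of `J₀(N)[p^∞]` is determined by its restrictions. -/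
theorem resK_ext {f g : Module.End ℤ (A0 N p)} (h : ∀ k, resK N p k f = resK N p k g) :
    f = g := by
  ext x
  obtain ⟨k, y, rfl⟩ := exists_incK N p x
  rw [← incK_resK, ← incK_resK, h k]

end Res

/-! ## The operators in coordinates -/

section Mat

variable {N p : ℕ} [NeZero N] {S : Set ℕ} (C : TateCoords N p S)

/-- The matrix of the restriction to `J₀(N)[p^k]` of an endomorphism of `J₀(N)[p^∞]`. -/
def matK (k : ℕ) : Module.End ℤ (A0 N p) →+* Matrix (Fin C.r) (Fin C.r) (ZMod (p ^ k)) :=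
  (C.mat k).comp (resK N p k)

theorem matK_mulVec (k : ℕ) (f : Module.End ℤ (A0 N p)) (x : Jtor N (p ^ k)) :
    (matK C k f).mulVec (C.θ k x) = C.θ k (resK N p k f x) :=
  C.mat_mulVec k (resK N p k f) x

/-- All matrices. -/
def matAll : Module.End ℤ (A0 N p) →+* (∀ k : ℕ, Matrix (Fin C.r) (Fin C.r) (ZMod (p ^ k))) :=
  Pi.ringHom (matK C)

theorem matAll_apply (f : Module.End ℤ (A0 N p)) (k : ℕ) : matAll C f k = matK C k f := rfl

theorem matAll_injective : Function.Injective (matAll C) := by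
  intro f g h
  apply resK_ext
  intro k
  refine DFunLike.ext _ _ fun x => (C.θ k).injective ?_
  rw [← matK_mulVec, ← matK_mulVec, ← matAll_apply, ← matAll_apply, h]

/-- The integral Hecke matrices modulo all `p ^ k`. -/
def McAll : CuspForm.heckeAlgebra N 2 S →+*
    (∀ k : ℕ, Matrix (Fin C.r) (Fin C.r) (ZMod (p ^ k))) :=
  Pi.ringHom (fun k => (Int.castRingHom (ZMod (p ^ k))).mapMatrix.comp C.M)

theorem McAll_apply (t : CuspForm.heckeAlgebra N 2 S) (k : ℕ) :
    McAll C t k = Mc (ZMod (p ^ k)) C.M t := rfl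

/-- `Tz0` restricts to the Hecke operator of `J₀(N)[p^k]`. -/
theorem resK_Tz0 (k : ℕ) {ℓ : ℕ} (hℓ : ℓ.Prime) :
    resK N p k (Tz0 N p ℓ) = TateCoords.heckeEnd k (⟨ℓ, hℓ⟩ : Nat.Primes) := by
  haveI : NeZero ℓ := ⟨hℓ.ne_zero⟩
  refine DFunLike.ext _ _ fun x => Subtype.ext ?_
  rw [coe_resK, Tz0_apply, coe_incK, ← T0_eq]
  exact (heckeOperatorBar_apply N (⟨ℓ, hℓ⟩ : Nat.Primes) (x : JZero N)).symm

/-- `galZ0` restricts to the Galois action of `J₀(N)[p^k]`. -/
theorem resK_galZ0 (k : ℕ) (σ : GalQ) :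
    resK N p k (galZ0 N p σ) = TateCoords.galEnd k σ := by
  refine DFunLike.ext _ _ fun x => Subtype.ext ?_
  rw [coe_resK, TateCoords.coe_galEnd]
  rfl

theorem matK_Tz0 (k : ℕ) {ℓ : ℕ} (hℓ : ℓ.Prime) (hℓN : ¬ ℓ ∣ N) (hℓS : ℓ ∉ S) :
    matK C k (Tz0 N p ℓ) = Mc (ZMod (p ^ k)) C.M (CuspForm.heckeAlgebra.T hℓ hℓN hℓS) := by
  rw [matK, RingHom.comp_apply, resK_Tz0 k hℓ, C.mat_hecke k hℓ hℓN hℓS]

theorem matK_galZ0 (k : ℕ) (σ : GalQ) : matK C k (galZ0 N p σ) = C.ρ k σ := by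
  rw [matK, RingHom.comp_apply, resK_galZ0, C.mat_gal]

end Mat

/-! ## The Hecke ring homomorphism -/

section Eta

variable (N p : ℕ) [NeZero N] (S : Set ℕ)

/-- **The Hecke algebra acts on `J₀(N)[p^∞]`**, with matrices `M t` in the coordinates. -/
theorem exists_etaC (hp : p.Prime) (hNS : ∀ q : ℕ, q.Prime → q ∣ N → q ∈ S) :
    ∃ (C : TateCoords N p S) (ηC : CuspForm.heckeAlgebra N 2 S →+* Module.End ℤ (A0 N p)),
      (∀ (k : ℕ) (x : Jtor N (p ^ (k + 1))),
        C.θ k (mulTor (pow_dvd_pow p (Nat.le_succ k)) x)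
          = fun i => ZMod.castHom (pow_dvd_pow p (Nat.le_succ k)) (ZMod (p ^ k))
              (C.θ (k + 1) x i)) ∧
      (∀ t k, matK C k (ηC t) = Mc (ZMod (p ^ k)) C.M t) ∧
      (∀ (ℓ : ℕ) (hℓ : ℓ.Prime) (hℓN : ¬ ℓ ∣ N) (hℓS : ℓ ∉ S),
        ηC (CuspForm.heckeAlgebra.T hℓ hℓN hℓS) = Tz0 N p ℓ) := by
  obtain ⟨C, hC⟩ := exists_tateCoords_compat N p S hp hNS
  have hrange : ∀ t, ∃ b, matAll C b = McAll C t := by
    refine Fermat.Agent.NEB.EIG.H39.hecke_induction hNS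
      (fun ℓ hℓ hℓN hℓS => ⟨Tz0 N p ℓ, ?_⟩) (fun n => ⟨(n : Module.End ℤ (A0 N p)), ?_⟩)
      (fun x y hx hy => ?_) (fun x y hx hy => ?_)
    · funext k
      rw [matAll_apply, McAll_apply, matK_Tz0 C k hℓ hℓN hℓS]
    · rw [map_intCast, map_intCast]
    · obtain ⟨b, hb⟩ := hx
      obtain ⟨b', hb'⟩ := hy
      exact ⟨b + b', by rw [map_add, hb, hb', map_add]⟩
    · obtain ⟨b, hb⟩ := hx
      obtain ⟨b', hb'⟩ := hy
      exact ⟨b * b', by rw [map_mul, hb, hb', map_mul]⟩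
  obtain ⟨ηC, hηC⟩ := Fermat.Agent.NEB.EIG.H39.exists_ringHom_of_injective (McAll C) (matAll C)
    (matAll_injective C) hrange
  refine ⟨C, ηC, hC, fun t k => ?_, fun ℓ hℓ hℓN hℓS => ?_⟩
  · rw [← matAll_apply, hηC, McAll_apply]
  · apply matAll_injective C
    rw [hηC]
    funext k
    rw [matAll_apply, McAll_apply, matK_Tz0 C k hℓ hℓN hℓS]

end Eta

/-! ## The clauses of `Stmt_W_MD` at the `ℤ`-level -/

section Clauses

variable {N p : ℕ} [NeZero N] {S : Set ℕ} (C : TateCoords N p S)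

/-- The Hecke operators commute with the Galois action. -/
theorem etaC_comm_gal (ηC : CuspForm.heckeAlgebra N 2 S →+* Module.End ℤ (A0 N p))
    (hη : ∀ t k, matK C k (ηC t) = Mc (ZMod (p ^ k)) C.M t)
    (t : CuspForm.heckeAlgebra N 2 S) (σ : GalQ) : Commute (ηC t) (galZ0 N p σ) := by
  apply matAll_injective C
  funext k
  rw [matAll_apply, matAll_apply, map_mul, map_mul, hη, matK_galZ0]
  exact (C.tate.comm k σ t).symm

/-- `J₀(N)[p^∞]` is `p`-divisible. -/
theorem a0_div (hp : p.Prime)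
    (hC : ∀ (k : ℕ) (x : Jtor N (p ^ (k + 1))),
      C.θ k (mulTor (pow_dvd_pow p (Nat.le_succ k)) x)
        = fun i => ZMod.castHom (pow_dvd_pow p (Nat.le_succ k)) (ZMod (p ^ k))
            (C.θ (k + 1) x i)) (x : A0 N p) : ∃ y : A0 N p, p • y = x := by
  obtain ⟨k, y, rfl⟩ := exists_incK N p x
  have hsurj : Function.Surjective
      (ZMod.castHom (pow_dvd_pow p (Nat.le_succ k)) (ZMod (p ^ k))) :=
    ZMod.castHom_surjective _
  choose w hw using fun i => hsurj (C.θ k y i)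
  set z : Jtor N (p ^ (k + 1)) := (C.θ (k + 1)).symm w with hz
  have h1 : mulTor (pow_dvd_pow p (Nat.le_succ k)) z = y := by
    apply (C.θ k).injective
    rw [hC k z, hz, AddEquiv.apply_symm_apply]
    funext i
    exact hw i
  refine ⟨incK N p (k + 1) z, Subtype.ext ?_⟩
  have h2 := congrArg (fun u : Jtor N (p ^ k) => (u : JZero N)) h1
  simp only [coe_mulTor] at h2
  have h3 : p ^ (k + 1) / p ^ k = p := by
    rw [pow_succ, Nat.mul_div_cancel_left _ (pow_pos hp.pos k)]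
  rw [h3] at h2
  exact h2

include C in
/-- `J₀(N)[p]` is finite. -/
theorem a0_fin (hp : p.Prime) : Finite {x : A0 N p // p • x = 0} := by
  haveI : NeZero (p ^ 1) := ⟨pow_ne_zero 1 hp.ne_zero⟩
  haveI : Finite (Jtor N (p ^ 1)) := Finite.of_equiv _ (C.θ 1).symm.toEquiv
  let j : {x : A0 N p // p • x = 0} → Jtor N (p ^ 1) := fun x =>
    ⟨((x : A0 N p) : JZero N), mem_Jtor_of_pow_smul N p (by
      rw [pow_one]
      exact congrArg (fun u : A0 N p => (u : JZero N)) x.2)⟩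
  refine Finite.of_injective j ?_
  intro x y h
  have h1 : ((x : A0 N p) : JZero N) = ((y : A0 N p) : JZero N) :=
    congrArg (fun u : Jtor N (p ^ 1) => (u : JZero N)) h
  exact Subtype.ext (Subtype.ext h1)

end Clauses

section Clauses2

variable (N p : ℕ) [NeZero N]

/-- Eichler–Shimura on `J₀(N)[p^∞]`. -/
theorem a0_es (hp : p.Prime) (ℓ : ℕ) (hℓ : ℓ.Prime) (hℓN : ¬ ℓ ∣ N) (hℓp : ℓ ≠ p)
    (P : ValuationSubring Kbar) (hP : P.LiesOverPrime ℓ) (σ : GalQ)
    (hσ : P.IsFrobeniusAt σ ℓ) :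
    galZ0 N p σ * galZ0 N p σ - Tz0 N p ℓ * galZ0 N p σ
      + (ℓ : ℤ) • (1 : Module.End ℤ (A0 N p)) = 0 := by
  haveI : NeZero ℓ := ⟨hℓ.ne_zero⟩
  have hES : Stmt_TorsES N p := torsES_of_red hp (Fermat.Agent.R.H33.allRed N p)
  ext x
  have h := hES ℓ hℓ hℓN hℓp P hP σ hσ (x : JZero N) x.2
  have hT : heckeOperatorBar N (⟨ℓ, hℓ⟩ : Nat.Primes) (σ • (x : JZero N))
      = T0 N ℓ (σ • (x : JZero N)) := by
    rw [← T0_eq]
    exact heckeOperatorBar_apply N (⟨ℓ, hℓ⟩ : Nat.Primes) _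
  have h' : σ • σ • (x : JZero N) - T0 N ℓ (σ • (x : JZero N)) + ℓ • (x : JZero N) = 0 :=
    hT ▸ h
  simp only [LinearMap.add_apply, LinearMap.sub_apply, Module.End.mul_apply,
    LinearMap.smul_apply, Module.End.one_apply, LinearMap.zero_apply]
  rw [AddSubgroup.coe_add, AddSubgroup.coe_sub, Tz0_apply, AddSubgroup.coe_zsmul,
    natCast_zsmul]
  exact h'

/-- Inertia at `q ∤ N p` acts trivially on `J₀(N)[p^∞]`. -/
theorem a0_unr (hp : p.Prime) (q : ℕ) (hq : q.Prime) (hqN : ¬ q ∣ N) (hqp : q ≠ p)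
    (P : ValuationSubring Kbar) (hP : P.LiesOverPrime q) (σ : GalQ)
    (hσ : σ ∈ P.inertiaSubgroupIn ℚ) : galZ0 N p σ = 1 := by
  have hU : Stmt_TorsUnram N p := torsUnram_of_red hp (Fermat.Agent.R.H33.allRed N p)
  ext x
  exact hU q hq hqN hqp P hP σ hσ (x : JZero N) x.2

/-- Every point of `J₀(N)[p^∞]` is fixed by an open subgroup. -/
theorem a0_cont (x : A0 N p) : ∃ L : IntermediateField ℚ Kbar, FiniteDimensional ℚ L ∧
    ∀ σ : GalQ, (∀ y ∈ L, σ y = y) → galZ0 N p σ x = x := by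
  obtain ⟨L, hL, h⟩ := stmt_GAL N (x : JZero N)
  exact ⟨L, hL, fun σ hσ => Subtype.ext (h σ hσ)⟩

end Clauses2

end Fermat.Agent.NEB.Geom.H26
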