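import Mathlib

/-!
# NEB-GEOM, leaf W-MD, abstract part N1 (helper6, for helper26)

`exists_left_eigenvector`: for a faithful integral representation `M : 𝕋 →+* M_r(ℤ)` of a
commutative ring and a ring homomorphism `θ : 𝕋 →+* k` to a finite field, there is a nonzero
`c ∈ k^r` with `c · (M t mod p) = θ t • c` for all `t`.

Proof: Nakayama on the faithful finite `𝕋`-module `ℤ^r` at the maximal ideal `ker θ`, then a
nonzero linear functional on the quotient.
-/

set_option autoImplicit false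
set_option linter.style.haveILetI false

namespace Fermat.Agent.NEB.Geom.H6

open Matrix

/-- An additive map `ℤ^r → k` is given by its values on the standard basis. -/
theorem addMonoidHom_pi_int_apply {r : ℕ} {k : Type} [Field k] (φ : (Fin r → ℤ) →+ k)
    (w : Fin r → ℤ) : φ w = ∑ i, (w i : k) * φ (Pi.single i 1) := by
  classical
  conv_lhs => rw [← Finset.univ_sum_single w]
  rw [map_sum]
  refine Finset.sum_congr rfl (fun i _ => ?_)
  have h : (Pi.single i (w i) : Fin r → ℤ) = (w i) • (Pi.single i 1 : Fin r → ℤ) := by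
    rw [← Pi.single_smul, smul_eq_mul, mul_one]
  rw [h, map_zsmul, zsmul_eq_mul]

/-- **N1**: left eigenvector mod `p` of a faithful integral Hecke representation. -/
theorem exists_left_eigenvector {𝕋 : Type} [CommRing 𝕋] {r : ℕ}
    (M : 𝕋 →+* Matrix (Fin r) (Fin r) ℤ) (hM : Function.Injective M)
    {k : Type} [Field k] [Finite k] (θ : 𝕋 →+* k) :
    ∃ c : Fin r → k, c ≠ 0 ∧
      ∀ t : 𝕋, Matrix.vecMul c ((M t).map (Int.cast : ℤ → k)) = θ t • c := by
  classical
  -- the module structure on `Λ = ℤ^r`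
  let ρ : 𝕋 →+* Module.End ℤ (Fin r → ℤ) :=
    ((Matrix.toLinAlgEquiv' : Matrix (Fin r) (Fin r) ℤ ≃ₐ[ℤ] Module.End ℤ (Fin r → ℤ)) :
      Matrix (Fin r) (Fin r) ℤ →+* Module.End ℤ (Fin r → ℤ)).comp M
  letI inst : Module 𝕋 (Fin r → ℤ) := Module.compHom (Fin r → ℤ) ρ
  have hsmul : ∀ (t : 𝕋) (w : Fin r → ℤ), t • w = (M t).mulVec w := fun t w => rfl
  haveI : Module.Finite 𝕋 (Fin r → ℤ) := Module.Finite.of_restrictScalars_finite ℤ 𝕋 (Fin r → ℤ)
  -- the maximal ideal
  let 𝔪 : Ideal 𝕋 := RingHom.ker θ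
  haveI hprime : 𝔪.IsPrime := RingHom.ker_isPrime θ
  haveI : Finite (𝕋 ⧸ 𝔪) := Finite.of_injective (RingHom.kerLift θ) (RingHom.kerLift_injective θ)
  haveI hmax : 𝔪.IsMaximal :=
    Ideal.Quotient.maximal_of_isField 𝔪 (Finite.isField_of_domain (𝕋 ⧸ 𝔪))
  letI : Field (𝕋 ⧸ 𝔪) := Ideal.Quotient.field 𝔪
  -- Nakayama
  have hne : (𝔪 • (⊤ : Submodule 𝕋 (Fin r → ℤ))) ≠ ⊤ := by
    intro htop
    obtain ⟨s, hs1, hs0⟩ := Submodule.exists_sub_one_mem_and_smul_eq_zero_of_fg_of_le_smul 𝔪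
      (⊤ : Submodule 𝕋 (Fin r → ℤ)) Module.Finite.fg_top (le_of_eq htop.symm)
    have hMs : M s = 0 := by
      have h1 : Matrix.toLin' (M s) = 0 := by
        refine LinearMap.ext fun w => ?_
        rw [Matrix.toLin'_apply, ← hsmul, hs0 w Submodule.mem_top]
        rfl
      exact (Matrix.toLin' : Matrix (Fin r) (Fin r) ℤ ≃ₗ[ℤ] _).injective (by rw [h1, map_zero])
    have hs : s = 0 := hM (by rw [hMs, map_zero])
    rw [hs, zero_sub] at hs1
    have h1 : (1 : 𝕋) ∈ 𝔪 := by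
      have := 𝔪.neg_mem hs1
      rwa [neg_neg] at this
    exact hmax.ne_top ((Ideal.eq_top_iff_one 𝔪).mpr h1)
  -- a vector outside `𝔪 Λ`
  obtain ⟨v, hv⟩ : ∃ v : Fin r → ℤ, v ∉ 𝔪 • (⊤ : Submodule 𝕋 (Fin r → ℤ)) := by
    by_contra h
    push Not at h
    exact hne (eq_top_iff.mpr fun w _ => h w)
  -- the quotient, a vector space over `𝕋 ⧸ 𝔪`
  have hv' : (Submodule.Quotient.mk v :
      (Fin r → ℤ) ⧸ (𝔪 • (⊤ : Submodule 𝕋 (Fin r → ℤ)))) ≠ 0 := by
    rwa [Ne, Submodule.Quotient.mk_eq_zero]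
  obtain ⟨f, hf⟩ : ∃ f : Module.Dual (𝕋 ⧸ 𝔪)
      ((Fin r → ℤ) ⧸ (𝔪 • (⊤ : Submodule 𝕋 (Fin r → ℤ)))),
      f (Submodule.Quotient.mk v) ≠ 0 := by
    by_contra h
    push Not at h
    exact hv' ((Module.forall_dual_apply_eq_zero_iff (𝕋 ⧸ 𝔪) _).mp h)
  -- the eigen-functional
  let φ : (Fin r → ℤ) →+ k :=
    { toFun := fun w => RingHom.kerLift θ (f (Submodule.Quotient.mk w))
      map_zero' := by
        rw [Submodule.Quotient.mk_zero, map_zero, map_zero]
      map_add' := fun w w' => by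
        rw [Submodule.Quotient.mk_add, map_add, map_add] }
  have hφ : ∀ (t : 𝕋) (w : Fin r → ℤ), φ (t • w) = θ t * φ w := by
    intro t w
    show RingHom.kerLift θ (f (Submodule.Quotient.mk (t • w)))
      = θ t * RingHom.kerLift θ (f (Submodule.Quotient.mk w))
    have h1 : (Submodule.Quotient.mk (t • w) :
        (Fin r → ℤ) ⧸ (𝔪 • (⊤ : Submodule 𝕋 (Fin r → ℤ))))
        = (Ideal.Quotient.mk 𝔪 t : 𝕋 ⧸ 𝔪) • Submodule.Quotient.mk w := rfl
    rw [h1, map_smul, smul_eq_mul, map_mul, RingHom.kerLift_mk]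
  have hφv : φ v ≠ 0 := by
    show RingHom.kerLift θ (f (Submodule.Quotient.mk v)) ≠ 0
    intro h0
    exact hf ((RingHom.kerLift_injective θ) (by rw [h0, map_zero]))
  refine ⟨fun i => φ (Pi.single i 1), ?_, ?_⟩
  · intro hc
    apply hφv
    rw [addMonoidHom_pi_int_apply φ v]
    refine Finset.sum_eq_zero (fun i _ => ?_)
    have := congrFun hc i
    simp only [Pi.zero_apply] at this
    rw [this, mul_zero]
  · intro t
    funext j
    have h1 : (M t).mulVec (Pi.single j 1) = fun i => M t i j := by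
      funext i
      simp [Matrix.mulVec, dotProduct, Pi.single_apply]
    have h2 : θ t * φ (Pi.single j 1) = φ (fun i => M t i j) := by
      rw [← hφ, hsmul, h1]
    show Matrix.vecMul (fun i => φ (Pi.single i 1)) ((M t).map (Int.cast : ℤ → k)) j
      = (θ t • fun i => φ (Pi.single i 1)) j
    rw [Pi.smul_apply, smul_eq_mul, h2, addMonoidHom_pi_int_apply φ (fun i => M t i j)]
    simp only [Matrix.vecMul, dotProduct, Matrix.map_apply]
    exact Finset.sum_congr rfl (fun i _ => mul_comm _ _)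

end Fermat.Agent.NEB.Geom.H6
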