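import Fermat.Agent.NEB.Geom.H26_WMD1
import Fermat.Agent.NEB.Geom.H6_EigVec
import Fermat.Agent.S59.Lim.H2_Theta

/-!
# Item 72 (LG-NEB), package NEB-GEOM, leaf W-MD, part 2 (helper26): the `θ`-part is nontrivial

`B = J₀(N)[p]` with the Hecke action `etaB` (restriction of `ηC`) and the coordinates `θ₁` of
helper81.  A left eigenvector `c` of the Hecke matrices modulo `p` (helper6, N1) gives a
Hecke-eigen functional `μ : B → k`; by N2 (helper6, `Stmt_N2`) the `θ`-part of `𝒪 ⊗ B` is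
nontrivial, and it embeds into the `θ`-part of `𝒪 ⊗ J₀(N)[p^∞]` (flatness, helper2).

* `Stmt_N2` : the abstract step (finite `B` killed by `p` with an eigen-functional);
* `nontrivial_thetaPart_a0 : Stmt_N2 → … → Nontrivial (thetaPart ηC θ)`.
-/

set_option autoImplicit false
set_option linter.unusedSectionVars false
set_option linter.style.haveILetI false
set_option maxHeartbeats 1000000

noncomputable section

open ModularCurve AlgebraicCurve IsLocalRing TensorProduct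

namespace Fermat.Agent.NEB.Geom.H26

open Fermat.Agent.NEB Fermat.Agent.NEB.JH Fermat.Agent.GTor Fermat.Agent.GTor.H81
  Fermat.Agent.Betti Fermat.Agent.GTor.H58T1 Fermat.Agent.S59.Lim Fermat.Agent.S59.Lim.H2

/-- **N2** (abstract): the `θ`-part of `𝒪 ⊗ B` is nontrivial if the finite group `B`, killed by
`p`, carries a Hecke-eigen functional. -/
def Stmt_N2 : Prop :=
  ∀ (𝒪 : Type) [CommRing 𝒪] [IsDomain 𝒪] [IsDiscreteValuationRing 𝒪] [Finite (ResidueField 𝒪)]
    (p : ℕ), (p : 𝒪) ∈ maximalIdeal 𝒪 → (p : 𝒪) ≠ 0 →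
    ∀ (𝕋 : Type) [CommRing 𝕋] (B : Type) [AddCommGroup B] [Finite B], (∀ b : B, p • b = 0) →
    ∀ (η : 𝕋 →+* Module.End ℤ B) (θ : 𝕋 →+* ResidueField 𝒪) (μ : B →+ ResidueField 𝒪),
      (∀ t x, μ (η t x) = θ t * μ x) → ∀ x₀ : B, μ x₀ ≠ 0 → Nontrivial ↥(thetaPart η θ)

section B

variable (N p : ℕ) [NeZero N] {S : Set ℕ}

/-- The Hecke action on `J₀(N)[p]`. -/
def etaB (ηC : CuspForm.heckeAlgebra N 2 S →+* Module.End ℤ (A0 N p)) :
    CuspForm.heckeAlgebra N 2 S →+* Module.End ℤ (Jtor N (p ^ 1)) :=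
  ((addMonoidEndRingEquivInt (Jtor N (p ^ 1)) : AddMonoid.End (Jtor N (p ^ 1)) ≃+* _) :
    AddMonoid.End (Jtor N (p ^ 1)) →+* Module.End ℤ (Jtor N (p ^ 1))).comp
    ((resK N p 1).comp ηC)

theorem etaB_apply (ηC : CuspForm.heckeAlgebra N 2 S →+* Module.End ℤ (A0 N p))
    (t : CuspForm.heckeAlgebra N 2 S) (x : Jtor N (p ^ 1)) :
    etaB N p ηC t x = resK N p 1 (ηC t) x := rfl

/-- `J₀(N)[p] → J₀(N)[p^∞]` as a linear map. -/
def incB : Jtor N (p ^ 1) →ₗ[ℤ] A0 N p := (incK N p 1).toIntLinearMap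

theorem incB_apply (x : Jtor N (p ^ 1)) : incB N p x = incK N p 1 x := rfl

theorem incB_injective : Function.Injective (incB N p) := incK_injective N p 1

theorem incB_etaB (ηC : CuspForm.heckeAlgebra N 2 S →+* Module.End ℤ (A0 N p))
    (t : CuspForm.heckeAlgebra N 2 S) : incB N p ∘ₗ etaB N p ηC t = ηC t ∘ₗ incB N p := by
  refine LinearMap.ext fun x => ?_
  rw [LinearMap.comp_apply, LinearMap.comp_apply, incB_apply, incB_apply, etaB_apply,
    incK_resK]

theorem smul_Jtor_one (x : Jtor N (p ^ 1)) : p • x = 0 := by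
  have h : (p ^ 1) • incK N p 1 x = 0 := pow_smul_incK N p 1 x
  have h' : p • incK N p 1 x = 0 := by
    have e : (p ^ 1 : ℕ) = p := pow_one p
    exact (congrArg (fun m : ℕ => m • incK N p 1 x) e).symm.trans h
  apply incK_injective N p 1
  rw [map_nsmul, h', map_zero]

end B

/-! ## The eigen-functional -/

section Mu

variable {N p : ℕ} [NeZero N] {S : Set ℕ} (C : TateCoords N p S)
  {k : Type} [Field k] [CharP k p]

/-- The coefficient map `ℤ/p → k`. -/
def castK (p : ℕ) (k : Type) [Field k] [CharP k p] : ZMod (p ^ 1) →+* k :=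
  ZMod.castHom (dvd_pow_self p one_ne_zero) k

/-- The functional `w ↦ ∑ i, (w i) c i` on `(ℤ/p)^r`. -/
def phiBar (c : Fin C.r → k) : (Fin C.r → ZMod (p ^ 1)) →+ k where
  toFun w := ∑ i, castK p k (w i) * c i
  map_zero' := by
    refine Finset.sum_eq_zero fun i _ => ?_
    rw [Pi.zero_apply, map_zero, zero_mul]
  map_add' := fun w w' => by
    rw [← Finset.sum_add_distrib]
    refine Finset.sum_congr rfl fun i _ => ?_
    rw [Pi.add_apply, map_add, add_mul]

theorem phiBar_apply (c : Fin C.r → k) (w : Fin C.r → ZMod (p ^ 1)) :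
    phiBar C c w = ∑ i, castK p k (w i) * c i := rfl

/-- The functional on `J₀(N)[p]`. -/
def muB (c : Fin C.r → k) : Jtor N (p ^ 1) →+ k :=
  (phiBar C c).comp (C.θ 1).toAddMonoidHom

theorem muB_apply (c : Fin C.r → k) (x : Jtor N (p ^ 1)) :
    muB C c x = phiBar C c (C.θ 1 x) := rfl

theorem phiBar_mulVec (c : Fin C.r → k) (A : Matrix (Fin C.r) (Fin C.r) ℤ) (a : k)
    (hc : Matrix.vecMul c (A.map (Int.cast : ℤ → k)) = a • c)
    (v : Fin C.r → ZMod (p ^ 1)) :
    phiBar C c ((A.map (Int.cast : ℤ → ZMod (p ^ 1))).mulVec v) = a * phiBar C c v := by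
  rw [phiBar_apply, phiBar_apply, Finset.mul_sum]
  have h1 : ∀ i, castK p k ((A.map (Int.cast : ℤ → ZMod (p ^ 1))).mulVec v i) * c i
      = ∑ j, castK p k (v j) * (c i * ((A i j : ℤ) : k)) := by
    intro i
    rw [Matrix.mulVec, dotProduct, map_sum, Finset.sum_mul]
    refine Finset.sum_congr rfl fun j _ => ?_
    rw [map_mul, Matrix.map_apply, map_intCast]
    ring
  rw [Finset.sum_congr rfl (fun i _ => h1 i), Finset.sum_comm]
  refine Finset.sum_congr rfl fun j _ => ?_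
  rw [← Finset.mul_sum]
  have h2 := congrFun hc j
  rw [Matrix.vecMul, dotProduct, Pi.smul_apply, smul_eq_mul] at h2
  have h3 : ∑ i, c i * ((A i j : ℤ) : k) = a * c j := by
    rw [← h2]
    refine Finset.sum_congr rfl fun i _ => ?_
    rw [Matrix.map_apply]
  rw [h3]
  ring

end Mu

/-! ## The `θ`-part -/

section Main

variable {N p : ℕ} [NeZero N] {S : Set ℕ}

/-- **The `θ`-part of `𝒪 ⊗ J₀(N)[p^∞]` is nontrivial** (given the abstract step N2). -/
theorem nontrivial_thetaPart_a0 (hN2 : Stmt_N2) (hp : p.Prime) (C : TateCoords N p S)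
    (ηC : CuspForm.heckeAlgebra N 2 S →+* Module.End ℤ (A0 N p))
    (hη : ∀ t k, matK C k (ηC t) = Mc (ZMod (p ^ k)) C.M t)
    (𝒪 : Type) [CommRing 𝒪] [IsDomain 𝒪] [IsDiscreteValuationRing 𝒪]
    [Finite (ResidueField 𝒪)] [CharZero 𝒪] (hpm : (p : 𝒪) ∈ maximalIdeal 𝒪)
    (θ : CuspForm.heckeAlgebra N 2 S →+* ResidueField 𝒪) :
    Nontrivial ↥(thetaPart ηC θ) := by
  classical
  have hpk : ((p : ℕ) : ResidueField 𝒪) = 0 := by
    have h1 : residue 𝒪 (p : 𝒪) = 0 := (residue_eq_zero_iff _).mpr hpm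
    rw [map_natCast] at h1
    exact h1
  haveI : CharP (ResidueField 𝒪) p := (CharP.charP_iff_prime_eq_zero hp).mpr hpk
  have hp0 : (p : 𝒪) ≠ 0 := Nat.cast_ne_zero.mpr hp.ne_zero
  obtain ⟨c, hc0, hc⟩ := Fermat.Agent.NEB.Geom.H6.exists_left_eigenvector C.M C.tate.inj θ
  haveI : NeZero (p ^ 1) := ⟨pow_ne_zero 1 hp.ne_zero⟩
  haveI : Finite (Jtor N (p ^ 1)) := Finite.of_equiv _ (C.θ 1).symm.toEquiv
  -- the eigen-functional
  have hμ : ∀ (t : CuspForm.heckeAlgebra N 2 S) (x : Jtor N (p ^ 1)),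
      muB C c (etaB N p ηC t x) = θ t * muB C c x := by
    intro t x
    rw [muB_apply, muB_apply, etaB_apply, ← matK_mulVec, hη]
    exact phiBar_mulVec C c (C.M t) (θ t) (hc t) (C.θ 1 x)
  obtain ⟨i, hi⟩ : ∃ i, c i ≠ 0 := by
    by_contra hcon
    exact hc0 (funext fun i => not_not.mp fun h => hcon ⟨i, h⟩)
  have hx₀ : muB C c ((C.θ 1).symm (Pi.single i 1)) ≠ 0 := by
    rw [muB_apply, AddEquiv.apply_symm_apply, phiBar_apply, Finset.sum_eq_single i]
    · rw [Pi.single_eq_same, map_one, one_mul]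
      exact hi
    · intro j _ hj
      rw [Pi.single_eq_of_ne hj, map_zero, zero_mul]
    · intro h
      exact absurd (Finset.mem_univ i) h
  haveI := hN2 𝒪 p hpm hp0 (CuspForm.heckeAlgebra N 2 S) (Jtor N (p ^ 1)) (smul_Jtor_one N p)
    (etaB N p ηC) θ (muB C c) hμ _ hx₀
  haveI : Module.Flat ℤ 𝒪 := flat_int
  exact (thetaMap_injective (θ := θ) (incB N p) (incB_etaB N p ηC)
    (incB_injective N p)).nontrivial

end Main

end Fermat.Agent.NEB.Geom.H26
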