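import Fermat.Agent.NEB.Geom.H26_WMD
import Fermat.Agent.NEB.Geom.H6_ThetaNontriv

/-!
# Item 72 (LG-NEB), package NEB-GEOM, leaf W-MD (helper26): `stmt_W_MD : Stmt_W_MD`

Unconditional.  Inputs: the coordinatised Tate system of `J₀(N)` (G-TOR, helper81), G-RED
(Eichler–Shimura and unramifiedness), the eigenvector lemma N1 and the abstract `θ`-part step N2
(helper6), `thetaMap_injective` (helper2), LOC (helper61).
-/

set_option autoImplicit false

namespace Fermat.Agent.NEB.Geom.H26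

/-- **N2** in the explicit form. -/
theorem stmt_N2 : Stmt_N2 := by
  intro 𝒪 _ _ _ _ p hpm hp0 𝕋 _ B _ _ hB η θ μ hμ x₀ hx₀
  exact Fermat.Agent.NEB.Geom.H6.nontrivial_thetaPart_of_functional hpm hp0 hB η θ μ hμ x₀ hx₀

/-- **W-MD**: the level-`N` data of NEB-GEOM. -/
theorem stmt_W_MD : Stmt_W_MD := stmt_W_MD_of stmt_N2

end Fermat.Agent.NEB.Geom.H26
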