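import Mathlib

/-!
# NEB-GEOM / W-EIG (helper39): the divisible part of a `p`-power torsion group with finite `A[p]`

* `exists_pow_smul_stable` : if `A` is `p`-power torsion and `A[p]` is finite, then
  `p ^ e A = p ^ (e + 1) A` for some `e` (so `p ^ e A` is `p`-divisible);
* `divSub p e A` : the subgroup `p ^ e A`; `divSub_div`, `resEnd` (restriction of endomorphisms).
-/

set_option autoImplicit false

namespace Fermat.Agent.NEB.Geom.H39

section Stable

variable {A : Type*} [AddCommGroup A]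

/-- If `A` is `p`-power torsion with `A[p]` finite, then `p ^ e A = p ^ (e + 1) A` for some `e`. -/
theorem exists_pow_smul_stable (p : ℕ) (htors : ∀ x : A, ∃ k : ℕ, p ^ k • x = 0)
    (hfin : Finite {x : A // p • x = 0}) :
    ∃ e : ℕ, ∀ x : A, ∃ y : A, p ^ e • x = p ^ (e + 1) • y := by
  classical
  let T : ℕ → Set {x : A // p • x = 0} := fun k => {z | ∃ y : A, (z : A) = p ^ k • y}
  have hanti : Antitone T := by
    refine antitone_nat_of_succ_le fun k z hz => ?_
    obtain ⟨y, hy⟩ := hz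
    exact ⟨p • y, by rw [hy, pow_succ, mul_smul]⟩
  obtain ⟨e, he⟩ := WellFoundedLT.antitone_chain_condition hanti
  refine ⟨e, ?_⟩
  have key : ∀ (n : ℕ) (x : A), p ^ n • (p ^ e • x) = 0 → ∃ y : A, p ^ e • x = p ^ (e + 1) • y := by
    intro n
    induction n with
    | zero =>
      intro x hx
      rw [pow_zero, one_smul] at hx
      exact ⟨0, by rw [hx, smul_zero]⟩
    | succ n ih =>
      intro x hx
      have hz : p • (p ^ (n + e) • x) = 0 := by
        rw [← hx, pow_add, mul_smul, pow_succ, mul_smul, smul_comm]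
      have hmem : (⟨p ^ (n + e) • x, hz⟩ : {x : A // p • x = 0}) ∈ T (n + e) := ⟨x, rfl⟩
      rw [← he (n + e) (Nat.le_add_left e n), he (n + e + 1) (by omega)] at hmem
      obtain ⟨u, hu⟩ := hmem
      have hu' : p ^ (n + e) • x = p ^ (n + e + 1) • u := hu
      obtain ⟨y', hy'⟩ := ih (x - p • u) (by
        rw [smul_sub, smul_sub, ← mul_smul, ← pow_add, ← mul_smul, ← mul_smul, ← pow_add,
          ← pow_succ, hu', sub_self])
      refine ⟨y' + u, ?_⟩
      rw [smul_add, ← hy', smul_sub, ← mul_smul, ← pow_succ, sub_add_cancel]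
  intro x
  obtain ⟨k, hk⟩ := htors (p ^ e • x)
  exact key k x hk

end Stable

section DivSub

variable (p e : ℕ) (A : Type*) [AddCommGroup A]

/-- The subgroup `p ^ e A`. -/
def divSub : AddSubgroup A := (nsmulAddMonoidHom (α := A) (p ^ e)).range

variable {p e A}

theorem mem_divSub {x : A} : x ∈ divSub p e A ↔ ∃ y : A, p ^ e • y = x := Iff.rfl

theorem pow_smul_mem_divSub (x : A) : p ^ e • x ∈ divSub p e A := ⟨x, rfl⟩

/-- `p ^ e A` is `p`-divisible if `p ^ e A = p ^ (e + 1) A`. -/
theorem divSub_div (h : ∀ x : A, ∃ y : A, p ^ e • x = p ^ (e + 1) • y) (x : ↥(divSub p e A)) :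
    ∃ y : ↥(divSub p e A), p • y = x := by
  obtain ⟨x, x₀, rfl⟩ := x
  obtain ⟨y, hy⟩ := h x₀
  refine ⟨⟨p ^ e • y, pow_smul_mem_divSub y⟩, Subtype.ext ?_⟩
  show p • p ^ e • y = p ^ e • x₀
  rw [hy, pow_succ, mul_smul, smul_comm]

theorem divSub_tors (htors : ∀ x : A, ∃ k : ℕ, p ^ k • x = 0) (x : ↥(divSub p e A)) :
    ∃ k : ℕ, p ^ k • x = 0 := by
  obtain ⟨k, hk⟩ := htors x.1
  exact ⟨k, Subtype.ext hk⟩

theorem map_mem_divSub (f : Module.End ℤ A) {x : A} (hx : x ∈ divSub p e A) :
    f x ∈ divSub p e A := by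
  obtain ⟨y, rfl⟩ := hx
  refine ⟨f y, ?_⟩
  show p ^ e • f y = f (p ^ e • y)
  rw [map_nsmul]

variable (p e)

/-- Restriction of endomorphisms to `p ^ e A`. -/
def resEnd : Module.End ℤ A →+* Module.End ℤ ↥(divSub p e A) where
  toFun f := AddMonoidHom.toIntLinearMap
    ((f.toAddMonoidHom.comp (divSub p e A).subtype).codRestrict (divSub p e A)
      (fun x => map_mem_divSub f x.2))
  map_one' := by ext x; rfl
  map_mul' f g := by ext x; rfl
  map_zero' := by ext x; rfl
  map_add' f g := by ext x; rfl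

variable {p e}

@[simp] theorem coe_resEnd (f : Module.End ℤ A) (x : ↥(divSub p e A)) :
    ((resEnd p e f x : ↥(divSub p e A)) : A) = f (x : A) := rfl

end DivSub

end Fermat.Agent.NEB.Geom.H39
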