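import Fermat.Agent.S59.Lim.H2_Theta
import Fermat.Agent.NEB.EIG.H39_OPLattice
import Fermat.Agent.NEB.Geom.H39_DivPart

/-!
# NEB-GEOM, leaf **W-EIG** (helper39), abstract form

`A` an abelian group with operators `η : 𝕋 →+* End_ℤ A` (`𝕋` commutative), `W = thetaPart η θ`
the `θ`-part of `𝒪 ⊗ A` (helper2), assumed `p`-divisible.  `D ⊆ A` a subgroup containing `p ^ e A`
on which the Hecke algebra of level `N'` acts (`etaD`, from `H39.stmt_EIG_A`), the generators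
`T_ℓ` acting as `η (z ℓ)`.

`stmt_W_EIG` : there is a ring homomorphism `etaW : heckeAlgebra N' 2 S → End_𝒪 W` with
`etaW (T_ℓ) = thetaEta η θ (z ℓ)`, and every `etaW x` is of the form `thetaEta η θ t` with
`θ' x = θ t` (so: `etaW x` commutes with everything commuting with `η`, and `etaW x - a` is
locally nilpotent for `a ↦ θ' x`).
-/

set_option autoImplicit false

namespace Fermat.Agent.NEB.Geom.H39

open IsLocalRing TensorProduct Module
open Fermat.Agent.S59.Lim Fermat.Agent.S59.Lim.H2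
open Fermat.Agent.NEB.EIG.H39

section WEig

variable {𝒪 : Type} [CommRing 𝒪] [IsLocalRing 𝒪] {𝕋 : Type} [CommRing 𝕋]
  {A : Type} [AddCommGroup A] (η : 𝕋 →+* Module.End ℤ A) (θ : 𝕋 →+* ResidueField 𝒪)

theorem exists_pow_smul_of_div (p : ℕ)
    (hWdiv : ∀ w : ↥(thetaPart η θ), ∃ w' : ↥(thetaPart η θ), (p : 𝒪) • w' = w) (e : ℕ)
    (w : ↥(thetaPart η θ)) : ∃ w' : ↥(thetaPart η θ), (p : 𝒪) ^ e • w' = w := by
  induction e generalizing w with
  | zero => exact ⟨w, by rw [pow_zero, one_smul]⟩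
  | succ e ih =>
    obtain ⟨w₁, hw₁⟩ := hWdiv w
    obtain ⟨w₂, hw₂⟩ := ih w₁
    exact ⟨w₂, by rw [pow_succ, mul_comm, mul_smul, hw₂, hw₁]⟩

/-- An element of `𝕋` which kills `p ^ e A` acts as zero on a `p`-divisible `θ`-part. -/
theorem thetaEta_eq_zero_of (p e : ℕ)
    (hWdiv : ∀ w : ↥(thetaPart η θ), ∃ w' : ↥(thetaPart η θ), (p : 𝒪) • w' = w)
    (t : 𝕋) (ht : ∀ x : A, η t (p ^ e • x) = 0) : thetaEta η θ t = 0 := by
  have h0 : ((p ^ e : ℕ) : ℤ) • η t = 0 := by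
    refine LinearMap.ext fun x => ?_
    rw [LinearMap.smul_apply, LinearMap.zero_apply, ← map_zsmul, natCast_zsmul]
    exact ht x
  refine LinearMap.ext fun w => ?_
  obtain ⟨w', rfl⟩ := exists_pow_smul_of_div η θ p hWdiv e w
  rw [map_smul, LinearMap.zero_apply]
  refine Subtype.ext ?_
  rw [Submodule.coe_smul, thetaEta_apply, Submodule.coe_zero]
  have h1 : ((((p ^ e : ℕ) : ℤ) • η t).baseChange 𝒪) (w' : 𝒪 ⊗[ℤ] A) = 0 := by
    rw [h0, LinearMap.baseChange_zero, LinearMap.zero_apply]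
  rw [LinearMap.baseChange_smul, LinearMap.smul_apply, ← Int.cast_smul_eq_zsmul 𝒪] at h1
  rw [← h1]
  push_cast
  rfl

variable {N' : ℕ} [NeZero N'] {S : Set ℕ}

/-- **W-EIG**, abstract form. -/
theorem stmt_W_EIG (p e : ℕ)
    (hWdiv : ∀ w : ↥(thetaPart η θ), ∃ w' : ↥(thetaPart η θ), (p : 𝒪) • w' = w)
    (D : AddSubgroup A) (hD : ∀ x : A, p ^ e • x ∈ D)
    (hS : ∀ q : ℕ, q.Prime → q ∣ N' → q ∈ S)
    (etaD : CuspForm.heckeAlgebra N' 2 S →+* Module.End ℤ ↥D)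
    (z : ℕ → 𝕋)
    (hz : ∀ (ℓ : ℕ) (hℓ : ℓ.Prime) (hℓN : ¬ ℓ ∣ N') (hℓS : ℓ ∉ S) (x : ↥D),
      ((etaD (CuspForm.heckeAlgebra.T hℓ hℓN hℓS) x : ↥D) : A) = η (z ℓ) (x : A))
    (θ' : CuspForm.heckeAlgebra N' 2 S →+* ResidueField 𝒪)
    (hθ : ∀ (ℓ : ℕ) (hℓ : ℓ.Prime) (hℓN : ¬ ℓ ∣ N') (hℓS : ℓ ∉ S),
      θ' (CuspForm.heckeAlgebra.T hℓ hℓN hℓS) = θ (z ℓ)) :
    ∃ etaW : CuspForm.heckeAlgebra N' 2 S →+* Module.End 𝒪 ↥(thetaPart η θ),
      (∀ (ℓ : ℕ) (hℓ : ℓ.Prime) (hℓN : ¬ ℓ ∣ N') (hℓS : ℓ ∉ S),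
        etaW (CuspForm.heckeAlgebra.T hℓ hℓN hℓS) = thetaEta η θ (z ℓ)) ∧
      (∀ x, ∃ t : 𝕋, etaW x = thetaEta η θ t ∧ θ' x = θ t) ∧
      (∀ (x : CuspForm.heckeAlgebra N' 2 S) (a : 𝒪), residue 𝒪 a = θ' x →
        ∀ w : ↥(thetaPart η θ),
          ∃ m : ℕ, ((etaW x - a • (1 : Module.End 𝒪 ↥(thetaPart η θ))) ^ m) w = 0) := by
  have hall : ∀ x : CuspForm.heckeAlgebra N' 2 S, ∃ t : 𝕋,
      (∀ y : ↥D, ((etaD x y : ↥D) : A) = η t (y : A)) ∧ θ' x = θ t := by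
    refine hecke_induction hS (fun ℓ hℓ hℓN hℓS => ⟨z ℓ, hz ℓ hℓ hℓN hℓS, hθ ℓ hℓ hℓN hℓS⟩)
      (fun n => ⟨(n : 𝕋), fun y => ?_, ?_⟩) (fun x x' hx hx' => ?_) (fun x x' hx hx' => ?_)
    · rw [map_intCast, map_intCast, Module.End.intCast_apply, Module.End.intCast_apply]
      rfl
    · rw [map_intCast, map_intCast]
    · obtain ⟨t, ht, ht'⟩ := hx
      obtain ⟨u, hu, hu'⟩ := hx'
      refine ⟨t + u, fun y => ?_, by rw [map_add, map_add, ht', hu']⟩
      rw [map_add, map_add, LinearMap.add_apply, LinearMap.add_apply, AddSubgroup.coe_add,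
        ht y, hu y]
    · obtain ⟨t, ht, ht'⟩ := hx
      obtain ⟨u, hu, hu'⟩ := hx'
      refine ⟨t * u, fun y => ?_, by rw [map_mul, map_mul, ht', hu']⟩
      rw [map_mul, map_mul, Module.End.mul_apply, Module.End.mul_apply, ht, hu]
  choose c hc1 hc2 using hall
  have huniq : ∀ (x : CuspForm.heckeAlgebra N' 2 S) (t : 𝕋),
      (∀ y : ↥D, ((etaD x y : ↥D) : A) = η t (y : A)) →
        thetaEta η θ (c x) = thetaEta η θ t := by
    intro x t ht
    have hs : thetaEta η θ (c x - t) = 0 := by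
      apply thetaEta_eq_zero_of η θ p e hWdiv
      intro a
      rw [map_sub, LinearMap.sub_apply]
      have h1 := hc1 x ⟨p ^ e • a, hD a⟩
      have h2 := ht ⟨p ^ e • a, hD a⟩
      rw [← h1, ← h2, sub_self]
    rw [map_sub] at hs
    exact sub_eq_zero.mp hs
  refine ⟨{ toFun := fun x => thetaEta η θ (c x)
            map_one' := by
              rw [huniq 1 1 (fun y => by rw [map_one, map_one]; rfl), map_one]
            map_mul' := fun x x' => by
              rw [huniq (x * x') (c x * c x') (fun y => by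
                rw [map_mul, map_mul, Module.End.mul_apply, Module.End.mul_apply, hc1, hc1]),
                map_mul]
            map_zero' := by
              rw [huniq 0 0 (fun y => by rw [map_zero, map_zero]; rfl), map_zero]
            map_add' := fun x x' => by
              rw [huniq (x + x') (c x + c x') (fun y => by
                rw [map_add, map_add, LinearMap.add_apply, LinearMap.add_apply,
                  AddSubgroup.coe_add, hc1, hc1]), map_add] },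
    fun ℓ hℓ hℓN hℓS => huniq _ _ (hz ℓ hℓ hℓN hℓS), fun x => ⟨c x, rfl, hc2 x⟩,
    fun x a ha w => thetaEta_local (c x) a (ha.trans (hc2 x)) w⟩

end WEig

end Fermat.Agent.NEB.Geom.H39
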