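import Fermat.Agent.S59.TWH.AbsLG

/-!
# NEB-GEOM, leaf W-LG (helper46): abstract lemmas

* `eq_one_of_unip` : a unipotent element `g` of a ring with `g ^ Q = 1`, `Q` cancellable, is `1`;
* `isNilpotent_sub_one_of_pow` : in a commutative ring with `p` nilpotent, `d ^ (p ^ n) = 1`
  implies `d - 1` nilpotent;
* `pow_sub_apply_eq_zero` : generalised eigenvectors and commuting nilpotent perturbations;
* `pow_sub_one_apply_eq_zero` : an operator trivial on `V[𝔪]` is unipotent if `𝔪 ^ n V = 0`.

Only Mathlib (and `S59/TWH/AbsLG.lean`) is used.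
-/

set_option autoImplicit false

namespace Fermat.Agent.NEB.Geom.H46

open Fermat.Agent.S59.TWH

/-- If `E` is nilpotent and `(1 + E) ^ Q = 1` with `Q` cancellable, then `E = 0`. -/
theorem eq_zero_of_unip {S : Type*} [Ring S] (E : S) (n Q : ℕ) (hE : E ^ n = 0)
    (hQ : (1 + E) ^ Q = 1) (hcancel : ∀ f : S, (Q : S) * f = 0 → f = 0) : E = 0 := by
  have key : ∀ i : ℕ, E ^ (i + 2) = 0 → E ^ (i + 1) = 0 := by
    intro i hi
    have h1 : (1 + E) * E ^ (i + 1) = E ^ (i + 1) := by
      rw [add_mul, one_mul, ← pow_succ', hi, add_zero]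
    have h2 : ∀ j : ℕ, (1 + E) ^ j * E ^ (i + 1) = E ^ (i + 1) := by
      intro j
      induction j with
      | zero => rw [pow_zero, one_mul]
      | succ j ih => rw [pow_succ, mul_assoc, h1, ih]
    have h3 : (∑ j ∈ Finset.range Q, (1 + E) ^ j) * E ^ (i + 1) = (Q : S) * E ^ (i + 1) := by
      rw [Finset.sum_mul, Finset.sum_congr rfl (fun j _ => h2 j), Finset.sum_const,
        Finset.card_range, nsmul_eq_mul]
    have h4 : (∑ j ∈ Finset.range Q, (1 + E) ^ j) * E ^ (i + 1) = 0 := by
      have e : E = (1 + E) - 1 := by abel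
      have h5 := geom_sum_mul (1 + E) Q
      rw [← e, hQ, sub_self] at h5
      rw [pow_succ', ← mul_assoc, h5, zero_mul]
    apply hcancel
    rw [← h3, h4]
  have all : ∀ k i : ℕ, n ≤ i + 1 + k → E ^ (i + 1) = 0 := by
    intro k
    induction k with
    | zero =>
      intro i hi
      exact pow_eq_zero_of_le hi hE
    | succ k ih =>
      intro i hi
      apply key
      exact ih (i + 1) (by omega)
  have h := all n 0 (by omega)
  rw [zero_add, pow_one] at h
  exact h

/-- A unipotent element `g` with `g ^ Q = 1`, `Q` cancellable, is `1`. -/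
theorem eq_one_of_unip {S : Type*} [Ring S] (g : S) (n Q : ℕ) (hE : (g - 1) ^ n = 0)
    (hQ : g ^ Q = 1) (hcancel : ∀ f : S, (Q : S) * f = 0 → f = 0) : g = 1 := by
  have e : 1 + (g - 1) = g := by abel
  have h := eq_zero_of_unip (g - 1) n Q hE (by rw [e]; exact hQ) hcancel
  exact sub_eq_zero.mp h

/-- In a commutative ring in which `p` is nilpotent, `d ^ (p ^ n) = 1` implies that `d - 1` is
nilpotent. -/
theorem isNilpotent_sub_one_of_pow {R : Type*} [CommRing R] {p : ℕ} (hp : p.Prime) (n : ℕ)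
    (d : R) (hpn : IsNilpotent (p : R)) (hd : d ^ (p ^ n) = 1) : IsNilpotent (d - 1) := by
  obtain ⟨r, hr⟩ := exists_add_pow_prime_pow_eq hp (d - 1) 1 n
  rw [sub_add_cancel, hd, one_pow] at hr
  have h1 : (d - 1) ^ (p ^ n) = (p : R) * (-((d - 1) * r)) := by linear_combination -hr
  have h2 : IsNilpotent ((d - 1) ^ (p ^ n)) := by
    rw [h1]
    exact (Commute.all _ _).isNilpotent_mul_right hpn
  exact h2.of_pow

section Gen

variable {R : Type*} [CommRing R] {V : Type*} [AddCommGroup V] [Module R V]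

/-- If `E ^ N v = 0` and `ν` is nilpotent and commutes with `E` then `(E - ν) ^ (N + M) v = 0`. -/
theorem pow_sub_apply_eq_zero (E ν : Module.End R V) (hc : Commute E ν) {N M : ℕ}
    (hν : ν ^ M = 0) {v : V} (hv : (E ^ N) v = 0) : ((E - ν) ^ (N + M)) v = 0 := by
  have hc' : Commute E (-ν) := hc.neg_right
  rw [sub_eq_add_neg, hc'.add_pow']
  rw [LinearMap.sum_apply]
  refine Finset.sum_eq_zero fun ij hij => ?_
  rw [Finset.HasAntidiagonal.mem_antidiagonal] at hij
  rw [LinearMap.smul_apply]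
  by_cases hj : M ≤ ij.2
  · have : (-ν) ^ ij.2 = 0 := by
      rw [neg_pow, pow_eq_zero_of_le hj hν, mul_zero]
    rw [this, mul_zero, LinearMap.zero_apply, smul_zero]
  · have hi : N ≤ ij.1 := by omega
    have hcp : Commute (E ^ ij.1) ((-ν) ^ ij.2) := (hc'.pow_pow _ _)
    rw [hcp.eq, Module.End.mul_apply]
    have : (E ^ ij.1) v = 0 := by
      obtain ⟨k, hk⟩ := Nat.exists_eq_add_of_le hi
      rw [hk, add_comm, pow_add, Module.End.mul_apply, hv, map_zero]
    rw [this, map_zero, smul_zero]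

/-- An operator which is trivial on `V[𝔪]` is unipotent on `V`, if `𝔪 ^ n` kills `V`. -/
theorem pow_sub_one_apply_eq_zero {𝔪 : Ideal R} (σ : V →ₗ[R] V)
    (h6b : ∀ v : V, (∀ r ∈ 𝔪, r • v = 0) → σ v = v) (n : ℕ)
    (h𝔪 : ∀ r ∈ 𝔪 ^ n, ∀ v : V, r • v = 0) (v : V) :
    (((σ : Module.End R V) - 1) ^ n) v = 0 := by
  have key : ∀ (i : ℕ) (w : V), w ∈ killedBy 𝔪 V i → (((σ : Module.End R V) - 1) ^ i) w = 0 := by
    intro i
    induction i with
    | zero =>
      intro w hw
      rw [killedBy_zero] at hw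
      rw [pow_zero, Module.End.one_apply]
      exact (Submodule.mem_bot R).mp hw
    | succ i ih =>
      intro w hw
      rw [pow_succ, Module.End.mul_apply]
      apply ih
      have := sub_mem_killedBy σ h6b hw
      simpa using this
  apply key
  intro r hr
  exact h𝔪 r hr v

end Gen

end Fermat.Agent.NEB.Geom.H46
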