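import Fermat.Agent.NEB.Geom.AsmTop
import Fermat.Agent.NEB.Geom.H6_AFrobNil

/-!
# NEB-GEOM assembly leaf A-FROBNIL (helper6), universally quantified form

`stmt_A_FROBNIL_of : Stmt_A_PI → Stmt_A_FROBNIL`.
-/

set_option autoImplicit false
set_option linter.unusedSectionVars false
set_option linter.unusedVariables false

noncomputable section

open ModularCurve AlgebraicCurve IsLocalRing TensorProduct Polynomial

namespace Fermat.Agent.NEB.Geom.H6

open Fermat.Agent.NEB Fermat.Agent.NEB.JH Fermat.Agent.S59 Fermat.Agent.S59.Asm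
  Fermat.Agent.S59.Lim Fermat.Agent.S59.Lim.H2 Fermat.Agent.NEB.Geom

/-- **Leaf A-FROBNIL** (universally quantified), from A-PI. -/
theorem stmt_A_FROBNIL_of (hPI : Stmt_A_PI) : Stmt_A_FROBNIL := by
  intro 𝒪 _ _ _ _ _ _ ϖ p _ N _ S θ ρbar hstd Dm n r qv _ _ _ D
  exact a_frob_nil hstd.hϖ hstd.hpm Dm D (hPI 𝒪 ϖ p N S θ ρbar hstd Dm n r qv D)

end Fermat.Agent.NEB.Geom.H6
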