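import Fermat.Agent.NEB.Geom.Defs

/-!
# NEB-GEOM leaf CL-GAL (helper6): `K1` is stable under the decomposition group

`stmt_CL_gal p F₀ : Stmt_CL_gal p F₀`.  More generally `inK1_galois`: for every `σ` which preserves
the valuation ring `P` (i.e. `σ` in the decomposition group), `x ∈ K1 ⟹ σ • x ∈ K1`.
Also the Kummer form of the Galois action: `kummer_galois`, and `inKA_galois` (`K_A` is stable
under the decomposition group).
-/

set_option autoImplicit false

noncomputable section

open ModularCurve AlgebraicCurve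

namespace Fermat.Agent.NEB.Geom.H6

open Fermat.Agent.NEB Fermat.Agent.NEB.JH Fermat.Agent.NEB.Geom

variable {p : ℕ} {F₀ : IntermediateField ℚ (LaurentSeries ℚ)}

/-- **Kummer form of the Galois action**: if `n D = div f` then `n (σ D) = div (σ f)`, where
`σ f` is the coefficientwise action, and `σ • [D] = [σ D]`. -/
theorem kummer_galois (σ : GalQ) (n : ℤ)
    (D : Divisor.degZero (K := Kbar) (F := ↥(laurentBaseChange Kbar F₀)))
    (f : ↥(laurentBaseChange Kbar F₀))
    (hD : ∀ v : Place Kbar ↥(laurentBaseChange Kbar F₀),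
      n * (D : Divisor Kbar ↥(laurentBaseChange Kbar F₀)) v = v.ord f) :
    σ • Pic0.mk D = Pic0.mk (SemilinearAut.degZeroSMulHom (arithmeticGalois F₀ σ) D) ∧
    ∀ w : Place Kbar ↥(laurentBaseChange Kbar F₀),
      n * ((SemilinearAut.degZeroSMulHom (arithmeticGalois F₀ σ) D :
        Divisor.degZero (K := Kbar) (F := ↥(laurentBaseChange Kbar F₀))) :
          Divisor Kbar ↥(laurentBaseChange Kbar F₀)) w
        = w.ord (arithmeticRingAut F₀ σ f) := by
  refine ⟨rfl, fun w => ?_⟩
  rw [SemilinearAut.coe_degZeroSMulHom, SemilinearAut.divisor_smul_apply,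
    hD ((arithmeticGalois F₀ σ)⁻¹ • w)]
  have h := SemilinearAut.ord_smul (arithmeticGalois F₀ σ) ((arithmeticGalois F₀ σ)⁻¹ • w) f
  rw [smul_inv_smul] at h
  exact h.symm

/-- `K1` is stable under every `σ` preserving the valuation ring `P`. -/
theorem inK1_galois (P : ValuationSubring Kbar) (σ : GalQ)
    (hs : ∀ a : Kbar, σ.toRingEquiv a ∈ P ↔ a ∈ P)
    (x : Pic0 Kbar (laurentBaseChange Kbar F₀)) (hx : InK1 P p (laurentBaseChange Kbar F₀) x) :
    InK1 P p (laurentBaseChange Kbar F₀) (σ • x) := by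
  obtain ⟨k, D, f, hf, rfl, hD, hred⟩ := hx
  obtain ⟨h1, h2⟩ := kummer_galois σ ((p : ℤ) ^ k) D f hD
  refine ⟨k, SemilinearAut.degZeroSMulHom (arithmeticGalois F₀ σ) D, arithmeticRingAut F₀ σ f,
    ?_, h1, h2, ?_⟩
  · exact (map_ne_zero_iff _ (arithmeticRingAut F₀ σ).injective).2 hf
  · obtain ⟨c, hc, hr⟩ := hred
    refine ⟨σ c, (map_ne_zero_iff _ σ.injective).2 hc, ?_⟩
    have h3 := hr.cMap σ.toRingEquiv hs
    rw [map_mul, Fermat.Agent.NEB.H70.coeffMap_C', map_one] at h3
    exact h3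

/-- **Leaf CL-GAL.** -/
theorem stmt_CL_gal (p : ℕ) (F₀ : IntermediateField ℚ (LaurentSeries ℚ)) : Stmt_CL_gal p F₀ := by
  intro P σ hσ x hx
  exact inK1_galois P σ (Fermat.Agent.RED.H33.mem_iff_of_mem_decompositionSubgroup P hσ) x hx

/-- `K_A` is stable under the decomposition group of `P`. -/
theorem inKA_galois {M c : ℕ} [NeZero M] {H : Subgroup (ZMod c)ˣ}
    (hFF : Fermat.Agent.RED.IsFF Kbar ↥(FHbar M c H))
    (dd : DiamondData M c H) (P : ValuationSubring Kbar) (σ : GalQ)
    (hσ : σ ∈ P.decompositionSubgroup ℚ) (x : JH M c H) (hx : InKA P p dd x) :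
    InKA P p dd (σ • x) := by
  intro d
  rw [diamond_galois hFF dd d σ x]
  exact stmt_CL_gal p (FHQ M c H) P σ hσ _ (hx d)

end Fermat.Agent.NEB.Geom.H6
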