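import Fermat.Agent.NEB.Geom.Defs

/-!
# NEB-GEOM leaf CL-SUB (helper6): the kernel of reduction `K1` is a subgroup

`stmt_CL_sub p F : Stmt_CL_sub p F`, plus the separate closure lemmas `inK1_zero`, `inK1_add`,
`inK1_neg`, `inK1_sub`, `inK1_nsmul`, `inK1_zsmul`, `inK1_sum`, the subgroup `K1 P p F`, and for
`K_A`: `inKA_zero`, `inKA_add`, `inKA_neg`, `inKA_sub`, `inKA_nsmul`, `inKA_inK1`, `inKA_diamond`,
the subgroup `KA P p dd`.
-/

set_option autoImplicit false

noncomputable section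

open ModularCurve AlgebraicCurve

namespace Fermat.Agent.NEB.Geom.H6

open Fermat.Agent.NEB Fermat.Agent.NEB.JH Fermat.Agent.NEB.Geom

variable {P : ValuationSubring Kbar} {p : ℕ} {F : IntermediateField Kbar (LaurentSeries Kbar)}

theorem inK1_zero : InK1 P p F 0 := by
  refine ⟨0, 0, 1, one_ne_zero, Pic0.mk_zero.symm, fun v => ?_, ?_⟩
  · rw [v.ord_one]
    simp
  · exact Fermat.Agent.NEB.H70.isRedOneC_one

theorem inK1_neg {x : Pic0 Kbar ↥F} (hx : InK1 P p F x) : InK1 P p F (-x) := by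
  obtain ⟨k, D, f, hf, rfl, hD, hred⟩ := hx
  refine ⟨k, -D, f⁻¹, inv_ne_zero hf, rfl, fun v => ?_, ?_⟩
  · rw [v.ord_inv, ← hD v]
    simp
  · have : ((f⁻¹ : ↥F) : LaurentSeries Kbar) = (f : LaurentSeries Kbar)⁻¹ := rfl
    rw [this]
    exact hred.inv

theorem inK1_add {x y : Pic0 Kbar ↥F} (hx : InK1 P p F x) (hy : InK1 P p F y) :
    InK1 P p F (x + y) := by
  obtain ⟨k, D, f, hf, rfl, hD, hred⟩ := hx
  obtain ⟨k', D', f', hf', rfl, hD', hred'⟩ := hy
  refine ⟨k + k', D + D', f ^ (p ^ k') * f' ^ (p ^ k),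
    mul_ne_zero (pow_ne_zero _ hf) (pow_ne_zero _ hf'), rfl, fun v => ?_, ?_⟩
  · rw [v.ord_mul (pow_ne_zero _ hf) (pow_ne_zero _ hf'), ← zpow_natCast, ← zpow_natCast,
      v.ord_zpow, v.ord_zpow, ← hD v, ← hD' v]
    have e : ((D + D' : Divisor.degZero (K := Kbar) (F := ↥F)) : Divisor Kbar ↥F) v
        = (D : Divisor Kbar ↥F) v + (D' : Divisor Kbar ↥F) v := rfl
    rw [e]
    push_cast
    ring
  · have : ((f ^ (p ^ k') * f' ^ (p ^ k) : ↥F) : LaurentSeries Kbar) =
        (f : LaurentSeries Kbar) ^ (p ^ k') * (f' : LaurentSeries Kbar) ^ (p ^ k) := rfl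
    rw [this]
    exact (hred.pow _).mul (hred'.pow _)

theorem inK1_sub {x y : Pic0 Kbar ↥F} (hx : InK1 P p F x) (hy : InK1 P p F y) :
    InK1 P p F (x - y) := by
  rw [sub_eq_add_neg]
  exact inK1_add hx (inK1_neg hy)

theorem inK1_nsmul {x : Pic0 Kbar ↥F} (hx : InK1 P p F x) (n : ℕ) : InK1 P p F (n • x) := by
  induction n with
  | zero => rw [zero_nsmul]; exact inK1_zero
  | succ n ih => rw [succ_nsmul]; exact inK1_add ih hx

theorem inK1_zsmul {x : Pic0 Kbar ↥F} (hx : InK1 P p F x) (n : ℤ) : InK1 P p F (n • x) := by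
  obtain ⟨m, rfl | rfl⟩ := n.eq_nat_or_neg
  · rw [natCast_zsmul]; exact inK1_nsmul hx m
  · rw [neg_smul, natCast_zsmul]; exact inK1_neg (inK1_nsmul hx m)

theorem inK1_sum {ι : Type*} (s : Finset ι) (x : ι → Pic0 Kbar ↥F)
    (hx : ∀ i ∈ s, InK1 P p F (x i)) : InK1 P p F (∑ i ∈ s, x i) := by
  classical
  induction s using Finset.induction_on with
  | empty => rw [Finset.sum_empty]; exact inK1_zero
  | insert a s ha ih =>
    rw [Finset.sum_insert ha]
    exact inK1_add (hx a (Finset.mem_insert_self a s))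
      (ih (fun i hi => hx i (Finset.mem_insert_of_mem hi)))

/-- The kernel of reduction as an additive subgroup. -/
def K1 (P : ValuationSubring Kbar) (p : ℕ) (F : IntermediateField Kbar (LaurentSeries Kbar)) :
    AddSubgroup (Pic0 Kbar ↥F) where
  carrier := {x | InK1 P p F x}
  zero_mem' := inK1_zero
  add_mem' := fun hx hy => inK1_add hx hy
  neg_mem' := fun hx => inK1_neg hx

theorem mem_K1 {x : Pic0 Kbar ↥F} : x ∈ K1 P p F ↔ InK1 P p F x := Iff.rfl

/-- **Leaf CL-SUB.** -/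
theorem stmt_CL_sub (p : ℕ) (F : IntermediateField Kbar (LaurentSeries Kbar)) :
    Stmt_CL_sub p F :=
  fun _ => ⟨inK1_zero, fun _ _ hx hy => inK1_add hx hy, fun _ hx => inK1_neg hx⟩

section KA

variable {M c : ℕ} {H : Subgroup (ZMod c)ˣ} {dd : DiamondData M c H}

theorem inKA_zero : InKA P p dd (0 : JH M c H) := by
  intro d
  have h0 : dd.ρ d • (0 : JH M c H) = 0 := map_zero (diamond dd d)
  rw [h0]
  exact inK1_zero

theorem inKA_add {x y : JH M c H} (hx : InKA P p dd x) (hy : InKA P p dd y) :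
    InKA P p dd (x + y) := by
  intro d
  have h0 : dd.ρ d • (x + y) = dd.ρ d • x + dd.ρ d • y := map_add (diamond dd d) x y
  rw [h0]
  exact inK1_add (hx d) (hy d)

theorem inKA_neg {x : JH M c H} (hx : InKA P p dd x) : InKA P p dd (-x) := by
  intro d
  have h0 : dd.ρ d • (-x) = -(dd.ρ d • x) := map_neg (diamond dd d) x
  rw [h0]
  exact inK1_neg (hx d)

theorem inKA_sub {x y : JH M c H} (hx : InKA P p dd x) (hy : InKA P p dd y) :
    InKA P p dd (x - y) := by
  rw [sub_eq_add_neg]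
  exact inKA_add hx (inKA_neg hy)

theorem inKA_nsmul {x : JH M c H} (hx : InKA P p dd x) (n : ℕ) : InKA P p dd (n • x) := by
  induction n with
  | zero => rw [zero_nsmul]; exact inKA_zero
  | succ n ih => rw [succ_nsmul]; exact inKA_add ih hx

/-- `K_A ⊆ K1`. -/
theorem inKA_inK1 {x : JH M c H} (hx : InKA P p dd x) : InK1 P p (FHbar M c H) x := by
  have := hx 1
  rwa [map_one, one_smul] at this

/-- `K_A` is stable under the diamond operators. -/
theorem inKA_diamond {x : JH M c H} (hx : InKA P p dd x) (e : (ZMod c)ˣ) :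
    InKA P p dd (dd.ρ e • x) := by
  intro d
  rw [← mul_smul, ← map_mul]
  exact hx (d * e)

/-- `K_A` as an additive subgroup. -/
def KA (P : ValuationSubring Kbar) (p : ℕ) {M c : ℕ} {H : Subgroup (ZMod c)ˣ}
    (dd : DiamondData M c H) : AddSubgroup (JH M c H) where
  carrier := {x | InKA P p dd x}
  zero_mem' := inKA_zero
  add_mem' := fun hx hy => inKA_add hx hy
  neg_mem' := fun hx => inKA_neg hx

theorem mem_KA {x : JH M c H} : x ∈ KA P p dd ↔ InKA P p dd x := Iff.rfl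

end KA

end Fermat.Agent.NEB.Geom.H6
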