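import Fermat.Agent.NEB.Geom.DefsW

/-!
# NEB-GEOM leaf W-UNIT (helper6)

`stmt_W_unit : Stmt_W_unit`: an operator `t₀` with `θ t₀ ≠ 0` is bijective on the `θ`-part.

Abstract core: `bijective_of_locally_nilpotent` (an endomorphism `T` such that `T - a` is locally
nilpotent, `a` a unit, is bijective), with the explicit inverse property
`exists_preimage_of_locally_nilpotent`.
-/

set_option autoImplicit false

noncomputable section

open IsLocalRing TensorProduct Module

namespace Fermat.Agent.NEB.Geom.H6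

open Fermat.Agent.S59.Lim Fermat.Agent.S59.Lim.H2

section Abstract

variable {𝒪 : Type*} [CommRing 𝒪] {W : Type*} [AddCommGroup W] [Module 𝒪 W]

theorem injective_of_locally_nilpotent (T : Module.End 𝒪 W) (a : 𝒪) (ha : IsUnit a)
    (hloc : ∀ x : W, ∃ m : ℕ, ((T - a • (1 : Module.End 𝒪 W)) ^ m) x = 0) :
    Function.Injective T := by
  rw [injective_iff_map_eq_zero]
  intro x hx
  set N : Module.End 𝒪 W := T - a • (1 : Module.End 𝒪 W) with hN
  have hNx : N x = (-a) • x := by
    rw [hN, LinearMap.sub_apply, hx, LinearMap.smul_apply, Module.End.one_apply, zero_sub,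
      neg_smul]
  have hpow : ∀ m : ℕ, (N ^ m) x = ((-a) ^ m) • x := by
    intro m
    induction m with
    | zero => simp
    | succ m ih =>
      rw [pow_succ, Module.End.mul_apply, hNx, map_smul, ih, smul_smul, pow_succ, mul_comm]
  obtain ⟨m, hm⟩ := hloc x
  rw [hpow m] at hm
  have hu : IsUnit ((-a) ^ m) := (ha.neg).pow m
  have := congrArg (fun y => (↑(hu.unit⁻¹) : 𝒪) • y) hm
  simp only [smul_zero, smul_smul] at this
  rwa [IsUnit.val_inv_mul, one_smul] at this

theorem exists_preimage_of_locally_nilpotent (T : Module.End 𝒪 W) (a : 𝒪) (ha : IsUnit a)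
    (y : W) (hy : ∃ m : ℕ, ((T - a • (1 : Module.End 𝒪 W)) ^ m) y = 0) :
    ∃ x : W, T x = y := by
  obtain ⟨m, hm⟩ := hy
  set N : Module.End 𝒪 W := T - a • (1 : Module.End 𝒪 W) with hN
  set u : 𝒪 := (↑(ha.unit⁻¹) : 𝒪) with hu
  have hau : a * u = 1 := IsUnit.mul_val_inv ha
  set M : Module.End 𝒪 W := (-u) • N with hM
  have hT : T = a • ((1 : Module.End 𝒪 W) - M) := by
    rw [hM, smul_sub, smul_smul, mul_neg, hau, neg_smul, one_smul, sub_neg_eq_add, hN]
    abel
  have hMm : (M ^ m) y = 0 := by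
    rw [hM, smul_pow, LinearMap.smul_apply, hm, smul_zero]
  have hgeom : ((1 : Module.End 𝒪 W) - M) * ∑ i ∈ Finset.range m, M ^ i = 1 - M ^ m :=
    mul_neg_geom_sum M m
  refine ⟨u • (∑ i ∈ Finset.range m, M ^ i) y, ?_⟩
  rw [hT, LinearMap.smul_apply, map_smul, smul_smul, hau, one_smul, ← Module.End.mul_apply,
    hgeom, LinearMap.sub_apply, Module.End.one_apply, hMm, sub_zero]

/-- An endomorphism `T` such that `T - a` is locally nilpotent, `a` a unit, is bijective. -/
theorem bijective_of_locally_nilpotent (T : Module.End 𝒪 W) (a : 𝒪) (ha : IsUnit a)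
    (hloc : ∀ x : W, ∃ m : ℕ, ((T - a • (1 : Module.End 𝒪 W)) ^ m) x = 0) :
    Function.Bijective T :=
  ⟨injective_of_locally_nilpotent T a ha hloc,
    fun y => exists_preimage_of_locally_nilpotent T a ha y (hloc y)⟩

end Abstract

/-- **Leaf W-UNIT.** -/
theorem stmt_W_unit : Stmt_W_unit := by
  intro 𝒪 _ _ A _ 𝕋 _ η θ t₀ ht₀
  obtain ⟨a, ha⟩ := residue_surjective (θ t₀)
  have hau : IsUnit a := by
    by_contra hna
    apply ht₀
    rw [← ha]
    exact (residue_eq_zero_iff a).2 ((mem_maximalIdeal a).2 hna)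
  exact bijective_of_locally_nilpotent (thetaEta η θ t₀) a hau
    (fun x => thetaEta_local t₀ a ha x)

end Fermat.Agent.NEB.Geom.H6
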