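import Fermat.Agent.NEB.Geom.H70_OldRed
import Fermat.Agent.NEB.H84_Res
import Fermat.Agent.NEB.H29_Inv

/-!
# Item 72 (LG-NEB), package NEB-GEOM, leaf CL-RES (helper70)

`cl_RES`: class form of `H84.stmt_RES`.  For `p` prime, `2 ≤ c ∣ M`, `F_H / F₀` unramified
(every place of `F_H` has a uniformiser in `F₀`; true under `UnrCond M c H`), `(ℤ/c)ˣ/±H` of exponent `p^n`, `P` over a prime `r ≠ p`: a `p`-power
torsion class `x₀ ∈ J₀(M)` whose pull-back to `J_H` lies in the kernel of reduction is `y + z`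
with `y` in the kernel of reduction of `J₀(M)` and `π^* z = 0`.
-/

set_option autoImplicit false

noncomputable section

open ModularCurve AlgebraicCurve

namespace Fermat.Agent.NEB.Geom.H70

open Fermat.Agent.NEB Fermat.Agent.NEB.JH Fermat.Agent.NEB.H14 Fermat.Agent.GTor
open Fermat.Agent.S28.H73 Fermat.Agent.RED.H73

section Gen

variable {K F : Type} [Field K] [Field F] [Algebra K F]

/-- Change of representative, multiplicative form. -/
theorem KumRep.change_mul [HasPrincipalDivisors K F] {n : ℕ} {x : Pic0 K F} {f : F}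
    (hx : KumRep (n : ℤ) x f) {w : F} (hw : w ≠ 0) : KumRep (n : ℤ) x (f * w ^ n) := by
  have h1 := (kumRep_principal (K := K) hw).level n
  rw [one_mul] at h1
  have := hx.add h1
  rwa [add_zero] at this

/-- A class whose Kummer function is an `n`-th power is trivial. -/
theorem KumRep.eq_zero_of_pow {n : ℕ} (hn : n ≠ 0) {x : Pic0 K F} {g : F}
    (hx : KumRep (n : ℤ) x (g ^ n)) : x = 0 := by
  obtain ⟨hgn, D, rfl, hD⟩ := hx
  have hg : g ≠ 0 := fun h0 => hgn (by rw [h0, zero_pow hn])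
  refine (QuotientAddGroup.eq_zero_iff _).2 ?_
  refine ⟨g, hg, fun v => ?_⟩
  have h1 : v.ord (g ^ n) = (n : ℤ) * v.ord g := by rw [← zpow_natCast, v.ord_zpow]
  have h2 := hD v
  rw [h1] at h2
  exact mul_left_cancel₀ (by exact_mod_cast hn : (n : ℤ) ≠ 0) h2

/-- A function all of whose orders are divisible by `n` is the Kummer function of a class. -/
theorem exists_kumRep_of_dvd [HasPrincipalDivisors K F] {n : ℕ} (hn : n ≠ 0) {u : F}
    (hu : u ≠ 0) (hdiv : ∀ v : Place K F, (n : ℤ) ∣ v.ord u) :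
    ∃ z : Pic0 K F, KumRep (n : ℤ) z u := by
  let fe : unrSubgroup K F n := ⟨Units.mk0 u hu, hdiv⟩
  exact ⟨Pic0.mk (H33.divQuot hn fe), hu, H33.divQuot hn fe, rfl, H33.divQuot_apply hn fe⟩

end Gen

section Res

variable (M c : ℕ) (H : Subgroup (ZMod c)ˣ) (p : ℕ)

/-- The exponent condition propagates to multiples. -/
theorem exp_mul {c : ℕ} {H : Subgroup (ZMod c)ˣ} {a : ℕ}
    (h : ∀ d : (ZMod c)ˣ, d ^ a ∈ H ∨ -(d ^ a) ∈ H) (b : ℕ) :
    ∀ d : (ZMod c)ˣ, d ^ (a * b) ∈ H ∨ -(d ^ (a * b)) ∈ H := by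
  intro d
  rw [pow_mul]
  rcases h d with h1 | h1
  · exact Or.inl (H.pow_mem h1 b)
  · have h2 : (-(d ^ a)) ^ b ∈ H := H.pow_mem h1 b
    rcases Nat.even_or_odd b with hb | hb
    · rw [hb.neg_pow] at h2
      exact Or.inl h2
    · rw [hb.neg_pow] at h2
      exact Or.inr h2

/-- **CL-RES**. -/
theorem cl_RES (hp : p.Prime) (hc2 : 2 ≤ c) (hc : c ∣ M) (hM : M ≠ 0)
    (hunr : ∀ w : Place Kbar ↥(FHbar M c H),
      ∃ x : ↥(modularFunctionFieldBar M), w.ord (inclBar M c H x) = 1)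
    (n : ℕ) (hexp : ∀ d : (ZMod c)ˣ, d ^ (p ^ n) ∈ H ∨ -(d ^ (p ^ n)) ∈ H)
    (P : ValuationSubring Kbar) (r : ℕ) (hr : r.Prime) (hrp : r ≠ p) (hP : P.LiesOverPrime r)
    (x₀ : JZero M) (hx₀ : IsPTors p x₀)
    (hK : InK1 P p (FHbar M c H) (piUp M c H x₀)) :
    ∃ y z : JZero M, x₀ = y + z ∧ InK1 P p (modularFunctionFieldBar M) y ∧
      piUp M c H z = 0 := by
  have hMne : NeZero M := ⟨hM⟩
  have hFF : Fermat.Agent.RED.IsFF Kbar ↥(FHbar M c H) := isFF_JH M c H hc2 hc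
  have hF0 : Fermat.Agent.RED.IsFF Kbar ↥(modularFunctionFieldBar M) := isFF0 M
  have hPD : HasPrincipalDivisors Kbar ↥(modularFunctionFieldBar M) := hasPD hF0
  -- Kummer representation of `x₀` at level `N = p^(n+k)`
  obtain ⟨k, f₁, hf₁⟩ := exists_kumRep_of_isPTors₀ hx₀
  set N : ℕ := p ^ (n + k) with hN
  have hf : KumRep (N : ℤ) x₀ (f₁ ^ (p ^ n)) := by
    have := hf₁.level (p ^ n)
    have e : ((p : ℤ) ^ k) * ((p ^ n : ℕ) : ℤ) = (N : ℤ) := by
      rw [hN]; push_cast; rw [pow_add, mul_comm]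
    rwa [e] at this
  set f : ↥(modularFunctionFieldBar M) := f₁ ^ (p ^ n) with hfdef
  have hup : KumRep (N : ℤ) (piUp M c H x₀) (inclBar M c H f) :=
    hf.picMap (isCorr_pullD hF0 hFF (inclBar M c H))
  obtain ⟨k', D', h, hh0, hxD', hD', hred⟩ := hK
  set N' : ℕ := p ^ k' with hN'
  have hup' : KumRep (N' : ℤ) (piUp M c H x₀) h := by
    refine ⟨hh0, D', hxD', fun v => ?_⟩
    rw [← hD' v, hN']
    push_cast
    rfl
  obtain ⟨w, c₀, hw, hc₀, hE⟩ := KumRep.compare hFF hup hup'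
  set m : ℕ := N * N' with hm
  have hm0 : m ≠ 0 :=
    Nat.mul_ne_zero (pow_ne_zero _ hp.ne_zero) (pow_ne_zero _ hp.ne_zero)
  have hrm : ¬ r ∣ m := by
    intro hdvd
    have h1 : r ∣ p := by
      rcases (Nat.Prime.dvd_mul hr).1 hdvd with h2 | h2
      · exact hr.dvd_of_dvd_pow h2
      · exact hr.dvd_of_dvd_pow h2
    exact hrp ((Nat.prime_dvd_prime_iff_eq hr hp).1 h1)
  have hexpm : ∀ d : (ZMod c)ˣ, d ^ m ∈ H ∨ -(d ^ m) ∈ H := by
    have e : m = p ^ n * (p ^ k * N') := by rw [hm, hN, pow_add, mul_assoc]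
    rw [e]
    exact exp_mul hexp _
  -- the series identity
  have E : ((f : LaurentSeries Kbar)) ^ N'
      = HahnSeries.C c₀ * (h : LaurentSeries Kbar) ^ N * (w : LaurentSeries Kbar) ^ m := by
    have h1 := congrArg (fun z : ↥(FHbar M c H) => (z : LaurentSeries Kbar)) hE
    simp only [IntermediateField.coe_mul, IntermediateField.coe_pow, coe_inclBar,
      coe_algebraMap_F] at h1
    exact h1
  have hwc : (w : LaurentSeries Kbar) ≠ 0 := fun h0 => hw (Subtype.ext h0)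
  have hredFg : Fermat.Agent.NEB.H70.IsRedOneC P
      (((f ^ N' : ↥(modularFunctionFieldBar M)) : LaurentSeries Kbar)
        * ((w⁻¹ : ↥(FHbar M c H)) : LaurentSeries Kbar) ^ m) := by
    have e : ((f ^ N' : ↥(modularFunctionFieldBar M)) : LaurentSeries Kbar)
        * ((w⁻¹ : ↥(FHbar M c H)) : LaurentSeries Kbar) ^ m
        = HahnSeries.C c₀ * (h : LaurentSeries Kbar) ^ N := by
      rw [IntermediateField.coe_pow, IntermediateField.coe_inv, E, inv_pow]
      have : (w : LaurentSeries Kbar) ^ m ≠ 0 := pow_ne_zero _ hwc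
      field_simp
    rw [e]
    exact (hred.pow N).C_mul hc₀
  obtain ⟨y', u, g0, hy', hg0, hyu, hredu⟩ :=
    Fermat.Agent.NEB.H84.stmt_RES M c H hc2 hc hM P r hr hP m hm0 hrm hexpm (f ^ N') w⁻¹
      (inv_ne_zero hw) hredFg
  have hu0 : u ≠ 0 := by
    rintro rfl
    rw [map_zero] at hyu
    exact pow_ne_zero m hy' hyu
  -- `m ∣ div u` on `F₀`
  have hdivH : ∀ w' : Place Kbar ↥(FHbar M c H), (m : ℤ) ∣ w'.ord (inclBar M c H u) := by
    intro w'
    rw [← hyu, ← zpow_natCast, w'.ord_zpow]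
    exact dvd_mul_right _ _
  have hdiv : ∀ v : Place Kbar ↥(modularFunctionFieldBar M), (m : ℤ) ∣ v.ord u :=
    Fermat.Agent.NEB.H29.dvd_ord_of_uniformiser hF0 hFF (inclBar M c H) hunr m u hdivH
  obtain ⟨z, hz⟩ := exists_kumRep_of_dvd hm0 hu0 hdiv
  -- `π^* z = 0`
  have hzup : piUp M c H z = 0 := by
    have h1 : KumRep (m : ℤ) (piUp M c H z) (inclBar M c H u) :=
      hz.picMap (isCorr_pullD hF0 hFF (inclBar M c H))
    rw [← hyu] at h1
    exact h1.eq_zero_of_pow hm0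
  -- `y = x₀ - z`
  have hxm : KumRep (m : ℤ) x₀ (f ^ N') := by
    have := hf.level N'
    have e : (N : ℤ) * (N' : ℤ) = (m : ℤ) := by rw [hm]; push_cast; rfl
    rwa [e] at this
  have hy := ((hxm.sub hz).change_mul hg0)
  obtain ⟨hne, D, hxD, hD⟩ := hy
  have ecoe : ((f ^ N' * u⁻¹ * g0 ^ m : ↥(modularFunctionFieldBar M)) : LaurentSeries Kbar)
      = ((f ^ N' : ↥(modularFunctionFieldBar M)) : LaurentSeries Kbar)
        * ((u : LaurentSeries Kbar))⁻¹ * (g0 : LaurentSeries Kbar) ^ m := by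
    simp only [IntermediateField.coe_mul, IntermediateField.coe_pow, IntermediateField.coe_inv]
  refine ⟨x₀ - z, z, by abel, ⟨n + k + k', D, _, hne, hxD, fun v => ?_, ?_⟩, hzup⟩
  · rw [← hD v, hm, hN, hN']
    push_cast
    rw [pow_add (p : ℤ) (n + k) k']
  · rw [ecoe]
    exact hredu

end Res

end Fermat.Agent.NEB.Geom.H70
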