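import Mathlib

/-!
# Item 72 (LG-NEB), package NEB-GEOM, leaf W-KEYq (helper70): the algebra at one prime

Pure algebra of the two degeneracy maps at a prime `q ∥ Mq`.  `as = a^*`, `bs = b^*`, `ad = a_*`,
`bd = b_*`, `T = T_q` at level `M`, `U = U_q`, `W = w_q` at level `Mq`, `φ` = Frobenius.

* `keyq_old`  : `(U² - 1) y = a^* u + b^* v` with `u = T b_* y - a_* y`, `v = - b_* y`;
* `keyq_abs`  : if `φ u + q v = 0` and `(φ² - T φ + q) u = 0` then
  `(U φ - q) (a^* u + b^* v) = 0`.
-/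

set_option autoImplicit false

namespace Fermat.Agent.NEB.Geom.H70

section Abs

variable {A B : Type*} [AddCommGroup A] [AddCommGroup B]
  (as bs : A →+ B) (ad bd : B →+ A) (T : A →+ A) (U W : B →+ B) (q : ℕ)

/-- `(U² - 1) y` is old: `U (U y) - y = a^* (T b_* y - a_* y) + b^* (- b_* y)`. -/
theorem keyq_old (hbdas : ∀ x, bd (as x) = T x) (hU : ∀ y, U y = as (bd y) - W y)
    (hWas : ∀ x, W (as x) = bs x) (hWW : ∀ y, W (W y) = y) (hbdW : ∀ y, bd (W y) = ad y)
    (y : B) : U (U y) - y = as (T (bd y) - ad y) + bs (-bd y) := by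
  have h1 : bd (U y) = T (bd y) - ad y := by
    rw [hU y, map_sub, hbdas, hbdW]
  have h2 : W (U y) = bs (bd y) - y := by
    rw [hU y, map_sub, hWas, hWW]
  rw [hU (U y), h1, h2, map_neg]
  abel

/-- The key computation on old classes. -/
theorem keyq_abs (φA : A →+ A) (φB : B →+ B)
    (hbdas : ∀ x, bd (as x) = T x) (hbdbs : ∀ x, bd (bs x) = (q + 1) • x)
    (hU : ∀ y, U y = as (bd y) - W y)
    (hWas : ∀ x, W (as x) = bs x) (hWbs : ∀ x, W (bs x) = as x)
    (hφas : ∀ x, φB (as x) = as (φA x)) (hφbs : ∀ x, φB (bs x) = bs (φA x))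
    (u v : A) (h0 : φA u + q • v = 0) (hES : φA (φA u) - T (φA u) + q • u = 0) :
    U (φB (as u + bs v)) - q • (as u + bs v) = 0 := by
  have hUas : ∀ x, U (as x) = as (T x) - bs x := fun x => by
    rw [hU, hbdas, hWas]
  have hUbs : ∀ x, U (bs x) = q • as x := fun x => by
    rw [hU, hbdbs, hWbs, map_nsmul, add_smul, one_smul, add_sub_cancel_right]
  have hqv : q • v = -φA u := eq_neg_of_add_eq_zero_right h0
  have h1 : q • as (φA v) = -as (φA (φA u)) := by
    rw [← map_nsmul, ← map_nsmul, hqv, map_neg, map_neg]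
  have h2 : q • bs v = -bs (φA u) := by
    rw [← map_nsmul, hqv, map_neg]
  have h3 : as (φA (φA u)) - as (T (φA u)) + q • as u = 0 := by
    rw [← map_nsmul, ← map_sub, ← map_add, hES, map_zero]
  rw [map_add, hφas, hφbs, map_add, hUas, hUbs, h1, nsmul_add, h2]
  have h4 : as (T (φA u)) = as (φA (φA u)) + q • as u := by
    have := h3
    rw [sub_add_eq_add_sub, sub_eq_zero] at this
    exact this.symm
  rw [h4]
  abel

end Abs

end Fermat.Agent.NEB.Geom.H70
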