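import Fermat.Agent.NEB.Geom.H70_KeyqAbs
import Fermat.Agent.NEB.Geom.H70_Fix
import Fermat.Agent.NEB.Geom.H70_KU2
import Fermat.Agent.NEB.Geom.H6_ClSub
import Fermat.Agent.NEB.OLD.H14_Geo
import Fermat.Agent.NEB.OLD.H66_SquareW
import Fermat.Agent.NEB.OLD.H6_DegBeta
import Fermat.Agent.GTor.H81_TorsRed
import Fermat.Agent.GTor.H2_GalHecke

/-!
# Item 72 (LG-NEB), package NEB-GEOM, leaf W-KEYq (helper70): the identity on `J_H`

Level `L = M q`, `q ∤ M` prime, `P ∣ q` a place of `ℚ̄` with Frobenius `φ`, `p ≠ q` prime.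

* `inK1_U0`   : the kernel of reduction of `J₀(L)` is stable under `U_q` (`q ∣ L`);
* `keyq_zero` : for `y` in the kernel of reduction of `J₀(M q)`:
  `(U_q φ - q) (U_q² - 1) y = 0`;
* `keyq_JH`   : for a `Δ`-fixed `p`-power torsion class `x ∈ K_A ⊆ J_H(L)`:
  `(U_q^H φ - q) (U_q^H ² - 1) (T_ℓ^H - (ℓ + 1)) x = 0`.

Proof of `keyq_zero`: `(U² - 1) y = a^* u + b^* v` is old (OLDNEW-GEO, helper14) and lies in the
kernel of reduction; by OLD-RED and CL-TI at level `M`, `φ u + q v = 0`; by Eichler–Shimura at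
level `M`, `(φ² - T_q φ + q) u = 0`; conclude by `keyq_abs`.
Proof of `keyq_JH`: INV' (helper29) and CL-RES reduce to `keyq_zero`.
-/

set_option autoImplicit false
set_option linter.style.haveILetI false

noncomputable section

open ModularCurve AlgebraicCurve

namespace Fermat.Agent.NEB.Geom.H70

open Fermat.Agent.NEB Fermat.Agent.NEB.JH Fermat.Agent.NEB.H14 Fermat.Agent.NEB.OLD
open Fermat.Agent.RED

/-! ## 0. Torsion -/

theorem exists_bezout_h70 {q M : ℕ} (hq : q.Prime) (hqM : ¬ q ∣ M) :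
    ∃ a b : ℤ, a * q + b * M = 1 := by
  have hcop : Nat.Coprime q M := (Nat.Prime.coprime_iff_not_dvd hq).mpr hqM
  obtain ⟨u, v, huv⟩ := Nat.isCoprime_iff_coprime.mpr hcop
  exact ⟨u, v, huv⟩

section Tors

variable {K F : Type} [Field K] [Field F] [Algebra K F]

/-- A class with a Kummer representation of level `n` is killed by `n`. -/
theorem KumRep.zsmul_eq_zero {n : ℤ} {x : Pic0 K F} {f : F} (hx : KumRep n x f) :
    n • x = 0 := by
  obtain ⟨hf, D, rfl, hD⟩ := hx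
  show (Pic0.mk (n • D) : Pic0 K F) = 0
  refine (QuotientAddGroup.eq_zero_iff _).2 ?_
  refine ⟨f, hf, fun v => ?_⟩
  rw [← hD v]
  show (n • (D : Divisor K F)) v = _
  rw [Finsupp.smul_apply, smul_eq_mul]

end Tors

/-- The kernel of reduction is `p`-power torsion. -/
theorem isPTors_of_inK1 {P : ValuationSubring Kbar} {p : ℕ}
    {F : IntermediateField Kbar (LaurentSeries Kbar)} {x : Pic0 Kbar ↥F}
    (hx : InK1 P p F x) : IsPTors p x := by
  obtain ⟨k, D, f, hf, hxD, hD, -⟩ := hx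
  have h : KumRep ((p : ℤ) ^ k) x f := ⟨hf, D, hxD, hD⟩
  refine ⟨k, ?_⟩
  have h2 := h.zsmul_eq_zero
  have e : ((p : ℤ) ^ k) = ((p ^ k : ℕ) : ℤ) := by push_cast; rfl
  rw [e, natCast_zsmul] at h2
  exact h2

theorem isPTors_hom {p : ℕ} {X Y : Type*} [AddCommGroup X] [AddCommGroup Y] (f : X →+ Y)
    {x : X} (hx : IsPTors p x) : IsPTors p (f x) := by
  obtain ⟨k, hk⟩ := hx
  exact ⟨k, by rw [← map_nsmul, hk, map_zero]⟩

theorem isPTors_sub' {p : ℕ} {X : Type*} [AddCommGroup X] {x y : X} (hx : IsPTors p x)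
    (hy : IsPTors p y) : IsPTors p (x - y) := by
  obtain ⟨k, hk⟩ := hx
  obtain ⟨k', hk'⟩ := hy
  refine ⟨k + k', ?_⟩
  have h1 : (p ^ (k + k') : ℕ) • x = 0 := by
    rw [pow_add, mul_comm, mul_smul, hk, smul_zero]
  have h2 : (p ^ (k + k') : ℕ) • y = 0 := by
    rw [pow_add, mul_smul, hk', smul_zero]
  rw [smul_sub, h1, h2, sub_zero]

theorem isPTors_neg' {p : ℕ} {X : Type*} [AddCommGroup X] {x : X} (hx : IsPTors p x) :
    IsPTors p (-x) := by
  obtain ⟨k, hk⟩ := hx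
  exact ⟨k, by rw [smul_neg, hk, neg_zero]⟩

/-! ## 1. The kernel of reduction of `J₀(L)` is stable under `U_q`, `q ∣ L` -/

section U0

variable {L c q : ℕ} [NeZero L] [NeZero q] {H : Subgroup (ZMod c)ˣ}

/-- The `q`-expansion of the Kummer function of `U_q` on `J₀(L)`, `q ∣ L`. -/
theorem coe_U0fn_of_dvd (hd : HeckeData L c q H) (hq : q.Prime) (hqL : q ∣ L)
    (f : ↥(modularFunctionFieldBar L)) :
    ((normFn (heckeBetaBar Kbar L q) (heckeAlphaBar Kbar L q f) :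
        ↥(modularFunctionFieldBar L)) : LaurentSeries Kbar)
      = Fermat.Agent.NEB.H70.uSeries q (f : LaurentSeries Kbar) := by
  have h1 := (galSquare_beta hd).1 (heckeAlphaBar Kbar L q f)
  have h2 : inclBar (L * q) c H (heckeAlphaBar Kbar L q f) = alphaH L c q H (inclBar L c H f) :=
    DFunLike.congr_fun (inclBar_comp_alpha (M := L) (ℓ := q) (c := c) (H := H)) f
  rw [h2] at h1
  have h3 := coe_UHfn_of_dvd hd hq hqL (inclBar L c H f)
  rw [coe_inclBar] at h3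
  rw [← h3, ← coe_inclBar L c H, h1]
  rfl

/-- **CL-U at level `Γ₀`**: the kernel of reduction of `J₀(L)` is stable under `U_q`, `q ∣ L`. -/
theorem inK1_U0 (hd : HeckeData L c q H) (hq : q.Prime) (hqL : q ∣ L)
    {P : ValuationSubring Kbar} {p : ℕ} {y : JZero L}
    (hy : InK1 P p (modularFunctionFieldBar L) y) :
    InK1 P p (modularFunctionFieldBar L) (U0 L q y) := by
  haveI := neZero_mul L q
  obtain ⟨k, D, f, hf, hyD, hD, hred⟩ := hy
  have hK : KumRep ((p : ℤ) ^ k) y f := ⟨hf, D, hyD, hD⟩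
  have h1 := hK.picMap (isCorr_pullD (isFF0 L) (isFF0 (L * q)) (heckeAlphaBar Kbar L q))
  have h2 := h1.picMap (isCorr_pushD (isFF0 L) (isFF0 (L * q)) (heckeBetaBar Kbar L q))
  obtain ⟨hg, E, hE, hEd⟩ := h2
  obtain ⟨ζ, hζ⟩ := exists_primRoot_Kbar q
  refine ⟨k, E, _, hg, hE, hEd, ?_⟩
  rw [coe_U0fn_of_dvd hd hq hqL]
  exact Fermat.Agent.NEB.H70.IsRedOneC.uSeries hζ hred

end U0

/-! ## 2. Level `Γ₀(M q)` -/

section Zero

variable (M q : ℕ) [NeZero M] [NeZero q] (p : ℕ)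

/-- The Galois action as an additive map. -/
def galAdd (N : ℕ) [NeZero N] (σ : GalQ) : JZero N →+ JZero N :=
  DistribSMul.toAddMonoidHom (JZero N) σ

@[simp] theorem galAdd_apply (N : ℕ) [NeZero N] (σ : GalQ) (x : JZero N) :
    galAdd N σ x = σ • x := rfl

/-- `(U_q² - 1) y` is old. -/
theorem keyq_zero_old (hq : q.Prime) (hqM : ¬ q ∣ M) (y : JZero (M * q)) :
    U0 (M * q) q (U0 (M * q) q y) - y
      = pullP (heckeAlphaBar Kbar M q)
          (T0 M q (pushP (heckeBetaBar Kbar M q) y) - pushP (heckeAlphaBar Kbar M q) y)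
        + pullP (heckeBetaBar Kbar M q) (-pushP (heckeBetaBar Kbar M q) y) := by
  obtain ⟨a, b, hab⟩ := exists_bezout_h70 hq hqM
  exact keyq_old (pullP (heckeAlphaBar Kbar M q)) (pullP (heckeBetaBar Kbar M q))
    (pushP (heckeAlphaBar Kbar M q)) (pushP (heckeBetaBar Kbar M q)) (T0 M q) (U0 (M * q) q)
    (DistribSMul.toAddMonoidHom (JZero (M * q)) (Fermat.Agent.BAD.H88.wq q M a b hab hq))
    (fun x => bd_as M q a b hab hq x)
    (fun z => U_eq M q a b hab hq H66.stmt_SquareW H6.stmt_DegBeta z)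
    (fun x => W_as M q a b hab hq x) (fun z => W_W M q a b hab hq z)
    (fun z => bd_W M q a b hab hq z) y

theorem galAdd_pullP_alpha (φ : GalQ) (x : JZero M) :
    galAdd (M * q) φ (pullP (heckeAlphaBar Kbar M q) x)
      = pullP (heckeAlphaBar Kbar M q) (galAdd M φ x) := by
  show φ • pullP (heckeAlphaBar Kbar M q) x = pullP (heckeAlphaBar Kbar M q) (φ • x)
  rw [galois_smul_pic0_def, galois_smul_pic0_def]
  exact (pullP_semilinear (isFF0 M) (isFF0 (M * q)) _ _ _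
    (Fermat.Agent.GTor.H2.intertwines_heckeAlphaBar M q φ) x).symm

theorem galAdd_pullP_beta (φ : GalQ) (x : JZero M) :
    galAdd (M * q) φ (pullP (heckeBetaBar Kbar M q) x)
      = pullP (heckeBetaBar Kbar M q) (galAdd M φ x) := by
  show φ • pullP (heckeBetaBar Kbar M q) x = pullP (heckeBetaBar Kbar M q) (φ • x)
  rw [galois_smul_pic0_def, galois_smul_pic0_def]
  exact (pullP_semilinear (isFF0 M) (isFF0 (M * q)) _ _ _
    (Fermat.Agent.GTor.H2.intertwines_heckeBetaBar M q φ) x).symm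

/-- The key computation on old classes of `J₀(M q)`. -/
theorem keyq_zero_kill (hq : q.Prime) (hqM : ¬ q ∣ M) (φ : GalQ) (u v : JZero M)
    (h0 : galAdd M φ u + q • v = 0)
    (hES : galAdd M φ (galAdd M φ u) - T0 M q (galAdd M φ u) + q • u = 0) :
    U0 (M * q) q (galAdd (M * q) φ
        (pullP (heckeAlphaBar Kbar M q) u + pullP (heckeBetaBar Kbar M q) v))
      - q • (pullP (heckeAlphaBar Kbar M q) u + pullP (heckeBetaBar Kbar M q) v) = 0 := by
  obtain ⟨a, b, hab⟩ := exists_bezout_h70 hq hqM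
  exact keyq_abs (pullP (heckeAlphaBar Kbar M q)) (pullP (heckeBetaBar Kbar M q))
    (pushP (heckeBetaBar Kbar M q)) (T0 M q) (U0 (M * q) q)
    (DistribSMul.toAddMonoidHom (JZero (M * q)) (Fermat.Agent.BAD.H88.wq q M a b hab hq)) q
    (galAdd M φ) (galAdd (M * q) φ)
    (fun x => bd_as M q a b hab hq x) (fun x => bd_bs M q a b hab hq x)
    (fun z => U_eq M q a b hab hq H66.stmt_SquareW H6.stmt_DegBeta z)
    (fun x => W_as M q a b hab hq x) (fun x => W_bs M q a b hab hq x)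
    (galAdd_pullP_alpha M q φ) (galAdd_pullP_beta M q φ) u v h0 hES

/-- Eichler–Shimura on the `p`-power torsion of `J₀(M)`, in terms of `T0`. -/
theorem torsES_T0 (hp : p.Prime) (hq : q.Prime) (hqM : ¬ q ∣ M) (hqp : q ≠ p)
    (P : ValuationSubring Kbar) (hP : P.LiesOverPrime q) (φ : GalQ)
    (hφ : P.IsFrobeniusAt φ q) (u : JZero M) (hu : IsPTors p u) :
    galAdd M φ (galAdd M φ u) - T0 M q (galAdd M φ u) + q • u = 0 := by
  have hES0 := Fermat.Agent.GTor.H81.torsES_of_red hp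
    (fun ℓ hℓ hNp A hA =>
      haveI : NeZero ℓ := ⟨hℓ.ne_zero⟩
      Fermat.Agent.RED.H36.allRed M p ℓ hℓ hNp A hA) q hq hqM hqp P hP φ hφ u
      (by obtain ⟨k, hk⟩ := hu; exact ⟨k, hk⟩)
  have hT : heckeOperatorBar M (⟨q, hq⟩ : Nat.Primes) (φ • u) = T0 M q (φ • u) := by
    have h1 : heckeOperatorBar M (⟨q, hq⟩ : Nat.Primes) (φ • u)
        = heckeOperatorAlong Kbar M q (φ • u) := rfl
    rw [h1, T0_eq]
  rw [hT] at hES0
  exact hES0

/-- **KEYq at level `Γ₀(M q)`**: `(U_q φ - q)(U_q² - 1)` kills the kernel of reduction. -/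
theorem keyq_zero (hp : p.Prime) (hq : q.Prime) (hqM : ¬ q ∣ M) (hqp : q ≠ p)
    (P : ValuationSubring Kbar) (hP : P.LiesOverPrime q) (φ : GalQ)
    (hφ : P.IsFrobeniusAt φ q)
    (hU : ∀ y : JZero (M * q), InK1 P p (modularFunctionFieldBar (M * q)) y →
      InK1 P p (modularFunctionFieldBar (M * q)) (U0 (M * q) q y))
    (y : JZero (M * q)) (hy : InK1 P p (modularFunctionFieldBar (M * q)) y) :
    U0 (M * q) q (φ • (U0 (M * q) q (U0 (M * q) q y) - y))
      - q • (U0 (M * q) q (U0 (M * q) q y) - y) = 0 := by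
  have hold := keyq_zero_old M q hq hqM y
  have hyt : IsPTors p y := isPTors_of_inK1 hy
  have hut : IsPTors p
      (T0 M q (pushP (heckeBetaBar Kbar M q) y) - pushP (heckeAlphaBar Kbar M q) y) :=
    isPTors_sub' (isPTors_hom _ (isPTors_hom _ hyt)) (isPTors_hom _ hyt)
  have hvt : IsPTors p (-pushP (heckeBetaBar Kbar M q) y) :=
    isPTors_neg' (isPTors_hom _ hyt)
  -- `(U² - 1) y` lies in the kernel of reduction
  have hK : InK1 P p (modularFunctionFieldBar (M * q))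
      (U0 (M * q) q (U0 (M * q) q y) - y) :=
    Fermat.Agent.NEB.Geom.H6.inK1_sub (hU _ (hU _ hy)) hy
  rw [hold] at hK ⊢
  -- OLD-RED and CL-TI
  have hred := stmt_OLD_RED M p q hq hqM hqp P hP φ hφ _ _ hut hvt hK
  have h0 := cl_TI M p hp q hq hqM hqp P hP _ hred
  exact keyq_zero_kill M q hq hqM φ _ _ h0 (torsES_T0 M q p hp hq hqM hqp P hP φ hφ _ hut)

end Zero

/-! ## 3. Level `J_H` -/

section JHlevel

variable (M q c : ℕ) [NeZero M] [NeZero q] (H : Subgroup (ZMod c)ˣ) (p : ℕ)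

/-- **KEYq on `J_H(L)`**, `L = M q`, `q ∤ M`: for a `Δ`-fixed `p`-power torsion class `x` in the
uniform kernel of reduction at `P ∣ q`,
`(U_q^H φ - q) (U_q^H ² - 1) (T_ℓ^H - (ℓ + 1)) x = 0`. -/
theorem keyq_JH (L : ℕ) [NeZero L] (hL : L = M * q) (hp : p.Prime) (hc2 : 2 ≤ c) (hc : c ∣ L)
    (hq : q.Prime) (hqM : ¬ q ∣ M) (hqp : q ≠ p) (n : ℕ)
    (hexp : ∀ d : (ZMod c)ˣ, d ^ (p ^ n) ∈ H ∨ -(d ^ (p ^ n)) ∈ H)
    (hunr : ∀ w : Place Kbar ↥(FHbar L c H),
      ∃ x : ↥(modularFunctionFieldBar L), w.ord (inclBar L c H x) = 1)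
    (ℓ : ℕ) [NeZero ℓ] (hℓ : ℓ.Prime) (hℓL : ¬ ℓ ∣ L)
    (P : ValuationSubring Kbar) (hP : P.LiesOverPrime q) (φ : GalQ)
    (hφ : P.IsFrobeniusAt φ q)
    (hβℓ : BetaOK L c ℓ H) (hβq : BetaOK L c q H)
    (x : JH L c H) (hx : IsPTors p x)
    (hfix : ∀ d, (diamondData L c H hc2 hc).ρ d • x = x)
    (hK : InKU P p (diamondData L c H hc2 hc) x) :
    UH hβq (φ • (UH hβq (UH hβq (TH hβℓ x - (ℓ + 1) • x)) - (TH hβℓ x - (ℓ + 1) • x)))
      - q • (UH hβq (UH hβq (TH hβℓ x - (ℓ + 1) • x)) - (TH hβℓ x - (ℓ + 1) • x)) = 0 := by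
  subst hL
  have hL0 : M * q ≠ 0 := NeZero.ne (M * q)
  set hdℓ : HeckeData (M * q) c ℓ H := heckeData (M * q) c ℓ H hc2 hc with hdℓ_def
  set hdq : HeckeData (M * q) c q H := heckeData (M * q) c q H hc2 hc with hdq_def
  -- `t x` lies in the kernel of reduction
  have hKt : InKU P p (diamondData (M * q) c H hc2 hc) (TH hβℓ x - (ℓ + 1) • x) :=
    (InKU.TH hdℓ hc2 hc hℓ hℓL hK).sub (hK.nsmul (ℓ + 1))
  -- INV'
  obtain ⟨k, hk⟩ := hx
  have hm0 : p ^ k ≠ 0 := pow_ne_zero k hp.ne_zero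
  have hxm : ((p ^ k : ℕ) : ℤ) • x = 0 := by
    rw [natCast_zsmul]
    exact hk
  obtain ⟨y₀, hy₀, hup⟩ :=
    Fermat.Agent.NEB.H29.stmt_INV_JH' hdℓ hℓ hℓL hunr (p ^ k) hm0 x hxm hfix
  have hy₀t : IsPTors p y₀ := ⟨k, by
    rw [natCast_zsmul] at hy₀
    exact hy₀⟩
  have hup' : piUp (M * q) c H y₀ = TH hβℓ x - (ℓ + 1) • x := hup
  rw [← hup'] at hKt ⊢
  -- CL-RES
  obtain ⟨y₁, z, hyz, hy₁, hz⟩ :=
    cl_RES (M * q) c H p hp hc2 hc hL0 hunr n hexp P q hq hqp hP y₀ hy₀t hKt.inK1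
  have hpi : piUp (M * q) c H y₀ = piUp (M * q) c H y₁ := by
    rw [hyz, map_add, hz, add_zero]
  rw [hpi]
  -- level `Γ₀`
  have hqL : q ∣ M * q := dvd_mul_left q M
  have key := keyq_zero M q p hp hq hqM hqp P hP φ hφ
    (fun y hy => inK1_U0 hdq hq hqL hy) y₁ hy₁
  have hFF := isFF_JH (M * q) c H hc2 hc
  have hUup : ∀ w, UH hβq (piUp (M * q) c H w) = piUp (M * q) c H (U0 (M * q) q w) :=
    fun w => (piUp_U0 hdq w).symm
  rw [hUup, hUup, ← map_sub, ← piUp_galois hFF, hUup, ← map_nsmul, ← map_sub, key, map_zero]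

end JHlevel

end Fermat.Agent.NEB.Geom.H70
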