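import Fermat.Agent.NEB.Geom.H70_KU
import Fermat.Agent.BAD.H82_Deg
import Fermat.Agent.RED.H36_Fin

/-!
# Item 72 (LG-NEB), package NEB-GEOM, leaf OLD-RED (helper70)

`stmt_OLD_RED : Stmt_OLD_RED M p`: for a prime `q ∤ M`, a place `P ∣ q` of `ℚ̄` with Frobenius `φ`,
and `p`-power torsion classes `u, v ∈ J₀(M)`: if `α^* u + β^* v` lies in the kernel of reduction of
`J₀(Mq)` then `φ u + q v` lies in the kernel of reduction of `J₀(M)`.

Proof.  `u = [D_u]`, `n D_u = div f`; `v = [D_v]`, `n D_v = div g`.  The class `α^*u + β^*v` has the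
Kummer function `f(t) g(t^q)`; comparing with the representative given by the hypothesis,
`(f(t) g(t^q))^{n'} = c h^n w^{n n'}` with `h ≡ const` and `w ∈ F₀(Mq)`.  Apply `φ`:
`φ g (t^q) ≡ g^q` (Frobenius) and `φ w ≡ W` for some `W ∈ F₀(M)` (the residue fields of the Gauss
valuations of levels `Mq` and `M` coincide: `BAD.H82.redField_eq_redField`).  Hence
`(φ f · g^q)^{n'} / W^{n n'} ≡ const`, and this is a Kummer function of `φ u + q v`.
-/

set_option autoImplicit false

noncomputable section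

open ModularCurve AlgebraicCurve

namespace Fermat.Agent.NEB.Geom.H70

open Fermat.Agent.NEB Fermat.Agent.NEB.JH Fermat.Agent.NEB.H14
open Fermat.Agent.S28.H73 Fermat.Agent.RED.H73

/-! ## 1. Kummer representations: comparison and change of representative -/

section Compare

variable {K F : Type} [Field K] [Field F] [Algebra K F]

/-- A `p`-power torsion class has a Kummer representation of level `p^k` (any function field). -/
theorem exists_kumRep_of_isPTors₀ {p : ℕ} {x : Pic0 K F} (hx : IsPTors p x) :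
    ∃ (k : ℕ) (f : F), KumRep ((p : ℤ) ^ k) x f := by
  obtain ⟨k, hk⟩ := hx
  have h : ((p : ℤ) ^ k) • x = 0 := by
    have e : ((p : ℤ) ^ k) = ((p ^ k : ℕ) : ℤ) := by push_cast; rfl
    rw [e, natCast_zsmul]
    exact hk
  obtain ⟨f, hf⟩ := exists_kumRep h
  exact ⟨k, f, hf⟩

/-- The class `0` is represented by every principal divisor. -/
theorem kumRep_principal [HasPrincipalDivisors K F] {w : F} (hw : w ≠ 0) :
    KumRep 1 (0 : Pic0 K F) w := by
  obtain ⟨D, hD, hdeg⟩ := HasPrincipalDivisors.exists_divisor (K := K) w hw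
  refine ⟨hw, ⟨D, hdeg⟩, ?_, fun v => by rw [one_mul]; exact hD v⟩
  symm
  refine (QuotientAddGroup.eq_zero_iff _).2 ?_
  exact ⟨w, hw, hD⟩

/-- Change of representative: `n D = div f ⟹ n (D - div w) = div (f / w^n)`. -/
theorem KumRep.change [HasPrincipalDivisors K F] {n : ℕ} {x : Pic0 K F} {f : F}
    (hx : KumRep (n : ℤ) x f) {w : F} (hw : w ≠ 0) : KumRep (n : ℤ) x (f * (w ^ n)⁻¹) := by
  have h1 := (kumRep_principal (K := K) hw).level n
  rw [one_mul] at h1
  have := hx.sub h1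
  rwa [sub_zero] at this

/-- **Comparison of two Kummer representations of the same class.** -/
theorem KumRep.compare [IsAlgClosed K] (hF : Fermat.Agent.RED.IsFF K F) {n n' : ℕ} {x : Pic0 K F} {f₁ f₂ : F}
    (h₁ : KumRep (n : ℤ) x f₁) (h₂ : KumRep (n' : ℤ) x f₂) :
    ∃ (w : F) (c : K), w ≠ 0 ∧ c ≠ 0 ∧
      f₁ ^ n' = algebraMap K F c * f₂ ^ n * w ^ (n * n') := by
  obtain ⟨hf₁, D₁, hx₁, hD₁⟩ := h₁
  obtain ⟨hf₂, D₂, hx₂, hD₂⟩ := h₂
  have hmk : (Pic0.mk D₁ : Pic0 K F) = Pic0.mk D₂ := hx₁.symm.trans hx₂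
  have hpr : ((-D₂ + D₁ : Divisor.degZero (K := K) (F := F)) : Divisor K F)
      ∈ Divisor.principal (K := K) (F := F) := by
    have := (QuotientAddGroup.eq (s := (Divisor.principal (K := K) (F := F)).addSubgroupOf
      (Divisor.degZero (K := K) (F := F))) (a := D₂) (b := D₁)).1 hmk.symm
    exact this
  obtain ⟨w, hw, hDw⟩ := hpr
  have hwD : ∀ v : Place K F, v.ord w = (D₁ : Divisor K F) v - (D₂ : Divisor K F) v := by
    intro v
    rw [← hDw v]
    show (-(D₂ : Divisor K F) + (D₁ : Divisor K F)) v = _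
    rw [Finsupp.add_apply, Finsupp.neg_apply]
    ring
  set T : F := f₁ ^ n' * (f₂ ^ n)⁻¹ * (w ^ (n * n'))⁻¹ with hT
  have hT0 : T ≠ 0 :=
    mul_ne_zero (mul_ne_zero (pow_ne_zero _ hf₁) (inv_ne_zero (pow_ne_zero _ hf₂)))
      (inv_ne_zero (pow_ne_zero _ hw))
  have hord : ∀ v : Place K F, v.ord T = 0 := by
    intro v
    have e1 : v.ord (f₁ ^ n') = n' * v.ord f₁ := by rw [← zpow_natCast, v.ord_zpow]
    have e2 : v.ord (f₂ ^ n) = n * v.ord f₂ := by rw [← zpow_natCast, v.ord_zpow]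
    have e3 : v.ord (w ^ (n * n')) = ((n * n' : ℕ) : ℤ) * v.ord w := by
      rw [← zpow_natCast, v.ord_zpow]
    rw [hT, v.ord_mul (mul_ne_zero (pow_ne_zero _ hf₁) (inv_ne_zero (pow_ne_zero _ hf₂)))
      (inv_ne_zero (pow_ne_zero _ hw)),
      v.ord_mul (pow_ne_zero _ hf₁) (inv_ne_zero (pow_ne_zero _ hf₂)), v.ord_inv, v.ord_inv,
      e1, e2, e3, hwD v, ← hD₁ v, ← hD₂ v]
    push_cast
    ring
  obtain ⟨c, hc⟩ := Fermat.Agent.RED.H36.const_of_ord_eq_zero hF T hT0 hord
  have hc0 : c ≠ 0 := by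
    rintro rfl
    rw [map_zero] at hc
    exact hT0 hc
  refine ⟨w, c, hw, hc0, ?_⟩
  rw [← hc, hT]
  have h2 : f₂ ^ n ≠ 0 := pow_ne_zero _ hf₂
  have h3 : w ^ (n * n') ≠ 0 := pow_ne_zero _ hw
  field_simp

end Compare

/-! ## 2. Series level -/

section Series

variable {C : Type} [Field C] {O : ValuationSubring C} {ℓ : ℕ} [Fact ℓ.Prime] [NeZero ℓ]
  [CharP (kV O) ℓ]

/-- `x^ℓ / (φ x)(t^ℓ)` reduces to `1` up to a constant, for a Frobenius lift `φ`. -/
theorem isRedOneC_pow_div_qExpand (s : C ≃+* C) (hs : ∀ a : C, s a ∈ O ↔ a ∈ O)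
    (hFr : ∀ a : kV O, Fermat.Agent.RED.H33.autkHom O s hs a = a ^ ℓ) {x : LaurentSeries C}
    (hx : Fermat.Agent.NEB.H70.Scalable O x) :
    Fermat.Agent.NEB.H70.IsRedOneC O
      (x ^ ℓ * (qExpand C ℓ (coeffMap (s : C →+* C) x))⁻¹) := by
  obtain ⟨c, y, hc, hy, h⟩ := hx.exists_redTo
  have h1 := h.pow ℓ
  rw [mul_pow, ← map_pow] at h1
  have h2 := (h.frob s hs hFr).qExp ℓ
  rw [Fermat.Agent.NEB.H70.qExpand_Fr, map_mul, Fermat.Agent.NEB.H70.coeffMap_C', map_mul,
    qExpand_C] at h2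
  exact Fermat.Agent.NEB.H70.isRedOneC_of_redTo (pow_ne_zero ℓ hc)
    ((map_ne_zero (s : C →+* C)).2 hc) (pow_ne_zero ℓ hy) h1 h2

end Series

/-! ## 3. Lifting reductions from level `M q` to level `M` -/

section Lift

/-- A function of level `M q` is, modulo `P ∣ q` and up to a constant, a function of level `M`
(`q ∤ M`): the residue fields of the Gauss valuations coincide. -/
theorem exists_lift_level (M q : ℕ) [NeZero M] [NeZero q] (hq : q.Prime) (hqM : ¬ q ∣ M)
    (P : ValuationSubring Kbar) (hP : P.LiesOverPrime q)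
    (w : ↥(modularFunctionFieldBar (M * q))) (hw : w ≠ 0) :
    ∃ W : ↥(modularFunctionFieldBar M), W ≠ 0 ∧
      Fermat.Agent.NEB.H70.IsRedOneC P
        ((w : LaurentSeries Kbar) * (W : LaurentSeries Kbar)⁻¹) := by
  have : NeZero (M * q) := ⟨Nat.mul_ne_zero (NeZero.ne M) (NeZero.ne q)⟩
  have hcop : Nat.Coprime q M := (Nat.Prime.coprime_iff_not_dvd hq).2 hqM
  obtain ⟨a, b, hab⟩ := (Nat.isCoprime_iff_coprime.2 hcop)
  have hw' : (w : LaurentSeries Kbar) ≠ 0 := fun h0 => hw (Subtype.ext h0)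
  obtain ⟨c, hc, hu⟩ := hasScale_laurentBaseChange P (M * q) (w : LaurentSeries Kbar) w.2 hw'
  obtain ⟨y, hy, hred⟩ := Fermat.Agent.NEB.H70.redTo_of_gaussUnit hu
  have hmem : y ∈ redField P (modularFunctionFieldBar (M * q))
      (Fermat.Agent.BAD.H88.hSc P q M) := by
    have hx : algebraMap Kbar ↥(modularFunctionFieldBar (M * q)) c * w
        ∈ gaussValSub P (modularFunctionFieldBar (M * q)) (Fermat.Agent.BAD.H88.hSc P q M) := by
      rw [mem_gaussValSub_iff]
      have e : ((algebraMap Kbar ↥(modularFunctionFieldBar (M * q)) c * w :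
          ↥(modularFunctionFieldBar (M * q))) : LaurentSeries Kbar)
          = HahnSeries.C c * (w : LaurentSeries Kbar) := by
        show ((algebraMap Kbar ↥(modularFunctionFieldBar (M * q)) c :
          ↥(modularFunctionFieldBar (M * q))) : LaurentSeries Kbar) * (w : LaurentSeries Kbar) = _
        rw [coe_algebraMap_F]
      rw [e]
      exact hred.mem
    refine ⟨⟨_, hx⟩, ?_⟩
    rw [gaussResF_apply]
    have e : (⟨((⟨algebraMap Kbar ↥(modularFunctionFieldBar (M * q)) c * w, hx⟩ :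
          ↥(gaussValSub P (modularFunctionFieldBar (M * q))
            (Fermat.Agent.BAD.H88.hSc P q M))) :
          ↥(modularFunctionFieldBar (M * q))), hx⟩ : gaussRingV P)
        = ⟨HahnSeries.C c * (w : LaurentSeries Kbar), hred.mem⟩ := by
      apply Subtype.ext
      show ((algebraMap Kbar ↥(modularFunctionFieldBar (M * q)) c :
        ↥(modularFunctionFieldBar (M * q))) : LaurentSeries Kbar) * (w : LaurentSeries Kbar) = _
      rw [coe_algebraMap_F]
    rw [e]
    exact hred.eq _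
  rw [Fermat.Agent.BAD.H82.redField_eq_redField q M a b hab hq P hP] at hmem
  obtain ⟨W', hW'⟩ := hmem
  have hredW : Fermat.Agent.NEB.H70.RedTo P
      (((W' : ↥(modularFunctionFieldBar M)) : LaurentSeries Kbar)) y :=
    ⟨W'.2, by rw [← hW', gaussResF_apply]⟩
  refine ⟨(W' : ↥(modularFunctionFieldBar M)), ?_, ?_⟩
  · intro h0
    apply hy
    rw [← hW']
    have : W' = 0 := Subtype.ext h0
    rw [this, map_zero]
  · refine Fermat.Agent.NEB.H70.isRedOneC_of_redTo hc one_ne_zero hy hred ?_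
    rw [map_one, one_mul]
    exact hredW

end Lift

/-! ## 4. OLD-RED -/

section OldRed

/-- The field identity behind OLD-RED. -/
theorem oldRed_identity {L : Type*} [Field L] (a b g h w W : L) (n' N : ℕ) (hb : b ≠ 0)
    (hW : W ≠ 0) (hE : (a * b) ^ n' = h * w ^ N) :
    (a * g) ^ n' * (W ^ N)⁻¹ = h * (g * b⁻¹) ^ n' * (w * W⁻¹) ^ N := by
  have hbn : b ^ n' ≠ 0 := pow_ne_zero _ hb
  have hWN : W ^ N ≠ 0 := pow_ne_zero _ hW
  rw [mul_pow] at hE
  rw [mul_pow, mul_pow, mul_pow, inv_pow, inv_pow]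
  field_simp
  linear_combination (g ^ n') * hE

/-- **OLD-RED** (`NEB/Geom/Defs.lean`). -/
theorem stmt_OLD_RED (M p : ℕ) : Stmt_OLD_RED M p := by
  intro _ q _ hq hqM _ P hP φ hφ u v hu hv hK
  have hMq : NeZero (M * q) := ⟨Nat.mul_ne_zero (NeZero.ne M) (NeZero.ne q)⟩
  have hFact : Fact q.Prime := ⟨hq⟩
  have hchar : CharP (kV P) q := charP_kV_of_liesOverPrime P hq hP
  have hs := Fermat.Agent.RED.H33.mem_iff_of_mem_decompositionSubgroup P
    hφ.mem_decompositionSubgroup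
  have hFr : ∀ a : kV P, Fermat.Agent.RED.H33.autkHom P φ.toRingEquiv hs a = a ^ q :=
    fun a => Fermat.Agent.RED.H33.autkHom_frobenius P hφ a
  -- Kummer representations of `u`, `v` at a common level `N = p^(k₁+k₂)`
  obtain ⟨k₁, f₁, hf₁⟩ := exists_kumRep_of_isPTors₀ hu
  obtain ⟨k₂, g₁, hg₁⟩ := exists_kumRep_of_isPTors₀ hv
  set N : ℕ := p ^ (k₁ + k₂) with hN
  have hf : KumRep (N : ℤ) u (f₁ ^ (p ^ k₂)) := by
    have := hf₁.level (p ^ k₂)
    have e : ((p : ℤ) ^ k₁) * ((p ^ k₂ : ℕ) : ℤ) = (N : ℤ) := by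
      rw [hN]; push_cast; rw [pow_add]
    rwa [e] at this
  have hg : KumRep (N : ℤ) v (g₁ ^ (p ^ k₁)) := by
    have := hg₁.level (p ^ k₁)
    have e : ((p : ℤ) ^ k₂) * ((p ^ k₁ : ℕ) : ℤ) = (N : ℤ) := by
      rw [hN]; push_cast; rw [pow_add, mul_comm]
    rwa [e] at this
  set f : ↥(modularFunctionFieldBar M) := f₁ ^ (p ^ k₂) with hfdef
  set g : ↥(modularFunctionFieldBar M) := g₁ ^ (p ^ k₁) with hgdef
  -- the class `x = α^* u + β^* v`
  have hx : KumRep (N : ℤ)
      (H14.pullP (heckeAlphaBar Kbar M q) u + H14.pullP (heckeBetaBar Kbar M q) v)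
      (heckeAlphaBar Kbar M q f * heckeBetaBar Kbar M q g) :=
    (hf.picMap (isCorr_pullD (isFF0 M) (isFF0 (M * q)) (heckeAlphaBar Kbar M q))).add
      (hg.picMap (isCorr_pullD (isFF0 M) (isFF0 (M * q)) (heckeBetaBar Kbar M q)))
  obtain ⟨k', D', h, hh0, hxD', hD', hred⟩ := hK
  set n' : ℕ := p ^ k' with hn'
  have hx' : KumRep (n' : ℤ)
      (H14.pullP (heckeAlphaBar Kbar M q) u + H14.pullP (heckeBetaBar Kbar M q) v) h := by
    refine ⟨hh0, D', hxD', fun v => ?_⟩
    rw [← hD' v, hn']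
    push_cast
    rfl
  obtain ⟨w, c, hw, hc, hE⟩ := KumRep.compare (isFF0 (M * q)) hx hx'
  -- series
  have E : ((f : LaurentSeries Kbar) * qExpand Kbar q (g : LaurentSeries Kbar)) ^ n'
      = HahnSeries.C c * (h : LaurentSeries Kbar) ^ N * (w : LaurentSeries Kbar) ^ (N * n') := by
    have := congrArg (fun z : ↥(modularFunctionFieldBar (M * q)) => (z : LaurentSeries Kbar)) hE
    rw [← coe_algebraMap_F (F := modularFunctionFieldBar (M * q)) c]
    exact this
  have E' := congrArg (coeffMap (φ.toRingEquiv : Kbar →+* Kbar)) E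
  rw [map_mul, map_mul, map_pow, map_pow, map_pow, map_mul, Fermat.Agent.NEB.H70.coeffMap_C',
    coeffMap_qExpand_jh] at E'
  -- the three factors
  have hg0 : g ≠ 0 := hg.ne_zero
  have hgs : Fermat.Agent.NEB.H70.Scalable P (g : LaurentSeries Kbar) :=
    hasScale_laurentBaseChange P M (g : LaurentSeries Kbar) g.2 (fun h0 => hg0 (Subtype.ext h0))
  have T2 := (isRedOneC_pow_div_qExpand φ.toRingEquiv hs hFr hgs).pow n'
  have T1 := ((isRedOneC_cMap φ.toRingEquiv hs hred).pow N).C_mul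
    ((map_ne_zero (φ.toRingEquiv : Kbar →+* Kbar)).2 hc)
  have hφw : arithmeticRingAut (modularFunctionFieldFull (M * q)) φ w ≠ 0 :=
    (map_ne_zero _).2 hw
  obtain ⟨W, hW, hWred⟩ := exists_lift_level M q hq hqM P hP _ hφw
  have T3 := hWred.pow (N * n')
  -- the Kummer representation of `φ u + q v`
  have hy : KumRep (N : ℤ) (φ • u + q • v)
      (arithmeticRingAut (modularFunctionFieldFull M) φ f * g ^ q) :=
    (hf.semilinear (arithmeticGalois (modularFunctionFieldFull M) φ)).add (hg.nsmul q)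
  have hy' : KumRep ((N * n' : ℕ) : ℤ) (φ • u + q • v)
      ((arithmeticRingAut (modularFunctionFieldFull M) φ f * g ^ q) ^ n') := by
    have := hy.level n'
    have e : (N : ℤ) * (n' : ℤ) = ((N * n' : ℕ) : ℤ) := by push_cast; rfl
    rwa [e] at this
  have : HasPrincipalDivisors Kbar ↥(modularFunctionFieldBar M) := hasPD (isFF0 M)
  have hy'' := hy'.change hW
  obtain ⟨hne, D, hxD, hD⟩ := hy''
  refine ⟨k₁ + k₂ + k', D, _, hne, hxD, fun v => ?_, ?_⟩
  · rw [← hD v, hN, hn']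
    push_cast
    rw [pow_add]
  · have hb : qExpand Kbar q (coeffMap (φ.toRingEquiv : Kbar →+* Kbar) (g : LaurentSeries Kbar))
        ≠ 0 := by
      intro h0
      have h1 := coeffMap_qExpand_jh (φ.toRingEquiv : Kbar →+* Kbar) q (g : LaurentSeries Kbar)
      rw [h0] at h1
      have h2 : qExpand Kbar q (g : LaurentSeries Kbar) = 0 := by
        have hinj : Function.Injective (coeffMap (φ.toRingEquiv : Kbar →+* Kbar)) :=
          (coeffMap (φ.toRingEquiv : Kbar →+* Kbar)).injective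
        exact hinj (by rw [h1, map_zero])
      have h3 : (g : LaurentSeries Kbar) = 0 :=
        (qExpand Kbar q).injective (by rw [h2, map_zero])
      exact hg0 (Subtype.ext h3)
    have hWc : (W : LaurentSeries Kbar) ≠ 0 := fun h0 => hW (Subtype.ext h0)
    have key := oldRed_identity
      (coeffMap (φ.toRingEquiv : Kbar →+* Kbar) (f : LaurentSeries Kbar))
      (qExpand Kbar q (coeffMap (φ.toRingEquiv : Kbar →+* Kbar) (g : LaurentSeries Kbar)))
      ((g : LaurentSeries Kbar) ^ q)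
      (HahnSeries.C ((φ.toRingEquiv : Kbar →+* Kbar) c)
        * coeffMap (φ.toRingEquiv : Kbar →+* Kbar) (h : LaurentSeries Kbar) ^ N)
      (coeffMap (φ.toRingEquiv : Kbar →+* Kbar) (w : LaurentSeries Kbar))
      (W : LaurentSeries Kbar) n' (N * n') hb hWc E'
    have hcoe : (((arithmeticRingAut (modularFunctionFieldFull M) φ f * g ^ q) ^ n'
          * (W ^ (N * n'))⁻¹ : ↥(modularFunctionFieldBar M)) : LaurentSeries Kbar)
        = (coeffMap (φ.toRingEquiv : Kbar →+* Kbar) (f : LaurentSeries Kbar)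
            * (g : LaurentSeries Kbar) ^ q) ^ n' * ((W : LaurentSeries Kbar) ^ (N * n'))⁻¹ := rfl
    rw [hcoe, key]
    exact (T1.mul T2).mul T3

end OldRed

end Fermat.Agent.NEB.Geom.H70
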