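import Fermat.Agent.NEB.Geom.H70_KeyqZ
import Fermat.Agent.NEB.Geom.DefsWD
import Fermat.Agent.NEB.Geom.H12_WES
import Fermat.Agent.NEB.Geom.H29_ZCommTw
import Fermat.Agent.NEB.H34_Unr
import Fermat.Agent.S59.Asm.H57_UnrCond

/-!
# Item 72 (LG-NEB), package NEB-GEOM, leaf W-KEYq (helper70)

`stmt_W_KEYq : Stmt_W_KEYq` (`NEB/Geom/DefsWD.lean`): at a place `P` over a Taylor–Wiles prime
`q_j` with Frobenius `φ`, `U_j φ x = q_j x` for every `Δ`-fixed `x ∈ K^𝒪(P) ∩ W`.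

* `wkey_abs`  : the algebra: if `η(s) E` kills the `Δ`-fixed part of `K`, `θ(s) ≠ 0` and `E`
  commutes with the Hecke operators, then `E_𝒪` kills the `Δ`-fixed part of `K^𝒪 ∩ W`
  (flatness of `𝒪` over `ℤ`, as in helper12's W-ES);
* `keyq_AH`   : `keyq_JH` on `J_H[p^∞]` in terms of `Uz`, `Tz`, `galZ`;
* `stmt_W_KEYq` with `s = (U_j² - 1)(T'_ℓ₀ - (ℓ₀ + 1))`, `E = U_j φ - q_j`.
-/

set_option autoImplicit false
set_option linter.style.haveILetI false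
set_option linter.unusedSectionVars false
set_option linter.unusedVariables false

noncomputable section

open ModularCurve AlgebraicCurve IsLocalRing TensorProduct

namespace Fermat.Agent.NEB.Geom.H70

open Fermat.Agent.NEB Fermat.Agent.NEB.JH Fermat.Agent.S59.Asm Fermat.Agent.S59.Lim
  Fermat.Agent.S59.Lim.H2 Fermat.Agent.NEB.Geom

/-! ## 1. The algebra -/

section Abs

variable {𝒪 : Type} [CommRing 𝒪] [IsLocalRing 𝒪] [Module.Flat ℤ 𝒪] {A : Type}
  [AddCommGroup A] {𝕋 : Type} [CommRing 𝕋]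

/-- If `η(s) E` kills the `Δ`-fixed part of `K`, with `θ(s) ≠ 0` and `E` commuting with the
Hecke operators, then `E_𝒪` kills the `Δ`-fixed part of `K^𝒪 ∩ W`. -/
theorem wkey_abs (η : 𝕋 →+* Module.End ℤ A) (θ : 𝕋 →+* ResidueField 𝒪) {G : Type} [Finite G]
    (dia : G → Module.End ℤ A) (K : AddSubgroup A) (E : Module.End ℤ A)
    (hE : ∀ t, Commute (η t) E) (s : 𝕋) (hs : θ s ≠ 0)
    (hkey : ∀ x ∈ K, (∀ u, dia u x = x) → η s (E x) = 0)
    (x : 𝒪 ⊗[ℤ] A) (hx : x ∈ thetaPart η θ) (hxK : x ∈ KO 𝒪 K)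
    (hfix : ∀ u, (dia u).baseChange 𝒪 x = x) : E.baseChange 𝒪 x = 0 := by
  let KZ : Submodule ℤ A := AddSubgroup.toIntSubmodule K
  obtain ⟨k₀, hk₀⟩ := hxK
  have hk₀' : KZ.subtype.baseChange 𝒪 k₀ = x := hk₀
  let F : KZ →ₗ[ℤ] (G → A) := LinearMap.pi fun u => (dia u - 1) ∘ₗ KZ.subtype
  have hFk₀ : F.baseChange 𝒪 k₀ = 0 := by
    apply H12.baseChange_pi_eq_zero
    intro u
    rw [LinearMap.baseChange_comp, LinearMap.comp_apply, hk₀', LinearMap.baseChange_sub,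
      LinearMap.sub_apply, sub_eq_zero]
    have h1 : (1 : Module.End ℤ A).baseChange 𝒪 x = x := by
      rw [baseChange_one_eq, Module.End.one_apply]
    rw [h1]
    exact hfix u
  obtain ⟨k₁, hk₁⟩ := exists_of_baseChange_eq_zero (𝒪 := 𝒪) F hFk₀
  have hzero : (η s * E) ∘ₗ KZ.subtype ∘ₗ (LinearMap.ker F).subtype = 0 := by
    ext ⟨⟨a, ha⟩, hak⟩
    show η s (E a) = 0
    apply hkey a ha
    intro u
    have h1 : F ⟨a, ha⟩ = 0 := hak
    have h2 := congrFun h1 u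
    have h3 : dia u a - a = 0 := h2
    exact sub_eq_zero.mp h3
  have h4 := congrArg (fun f => f k₁) (congrArg (fun f => f.baseChange 𝒪) hzero)
  simp only [LinearMap.baseChange_comp, LinearMap.comp_apply, LinearMap.baseChange_zero,
    LinearMap.zero_apply] at h4
  rw [hk₁, hk₀', baseChange_mul_eq, Module.End.mul_apply] at h4
  have hEx : E.baseChange 𝒪 x ∈ thetaPart η θ :=
    thetaPart_stable (fun t => baseChange_commute 𝒪 (hE t)) hx
  exact H12.eq_zero_of_eta_eq_zero η θ s hs hEx h4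

end Abs

/-! ## 2. The identity on `J_H[p^∞]` -/

section Coe

variable {p : ℕ} {X : Type*} [AddCommGroup X]

theorem coe_natCast_apply (m : ℕ) (x : ↥(ptors p X)) :
    (((m : Module.End ℤ ↥(ptors p X)) x : ↥(ptors p X)) : X) = m • (x : X) := by
  rw [Module.End.natCast_apply, AddSubgroup.coe_nsmul]

theorem coe_sub_apply (f g : Module.End ℤ ↥(ptors p X)) (x : ↥(ptors p X)) :
    (((f - g) x : ↥(ptors p X)) : X)
      = ((f x : ↥(ptors p X)) : X) - ((g x : ↥(ptors p X)) : X) := by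
  rw [LinearMap.sub_apply, AddSubgroup.coe_sub]

theorem coe_mul_apply (f g : Module.End ℤ ↥(ptors p X)) (x : ↥(ptors p X)) :
    (((f * g) x : ↥(ptors p X)) : X) = ((f (g x) : ↥(ptors p X)) : X) := rfl

end Coe

section AHlevel

variable (N : ℕ) (S : Finset ℕ) (p n : ℕ) {r : ℕ} (qv : Fin r → ℕ)

/-- `F_H / F₀` is unramified at a Taylor–Wiles family (UNRCOND, helper57 + FH-UNR, helper34). -/
theorem hunr_tw [NeZero (N * twC qv)] (h2 : 2 ≤ twC qv) (hTW : TwHyp N S p n qv) :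
    ∀ w : Place Kbar ↥(FHbar (N * twC qv) (twC qv) (twH p n qv)),
      ∃ x : ↥(modularFunctionFieldBar (N * twC qv)),
        w.ord (inclBar (N * twC qv) (twC qv) (twH p n qv) x) = 1 :=
  Fermat.Agent.NEB.H34.fh_unr (twC qv) (N * twC qv) (twH p n qv) h2 (dvd_mul_left _ _)
    (NeZero.ne _)
    (Fermat.Agent.S59.Asm.H57.stmt_UNRCOND p n hTW.hp hTW.hp2 r qv hTW.inj
      (fun j => ⟨hTW.prime j, hTW.cong j⟩) (N * twC qv) (dvd_mul_left _ _) (twH p n qv)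
      (fun x => ⟨x, rfl⟩))

/-- The level `N c` is `M q_j` with `q_j ∤ M`. -/
theorem level_split (hTW : TwHyp N S p n qv) (j : Fin r) :
    ∃ M : ℕ, N * twC qv = M * qv j ∧ ¬ qv j ∣ M := by
  classical
  refine ⟨N * ∏ i ∈ Finset.univ.erase j, qv i, ?_, ?_⟩
  · unfold twC
    rw [← Finset.mul_prod_erase Finset.univ qv (Finset.mem_univ j)]
    ring
  · intro hd
    rcases (Nat.Prime.dvd_mul (hTW.prime j)).1 hd with h | h
    · exact hTW.notS j (hTW.hNS _ (hTW.prime j) h)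
    · obtain ⟨i, hi, hdi⟩ := (Prime.dvd_finsetProd_iff (Nat.Prime.prime (hTW.prime j)) _).1 h
      have : qv j = qv i := (Nat.prime_dvd_prime_iff_eq (hTW.prime j) (hTW.prime i)).1 hdi
      exact (Finset.ne_of_mem_erase hi) (hTW.inj this).symm

variable [NeZero (N * twC qv)] (h2 : 2 ≤ twC qv)

set_option maxHeartbeats 1000000 in
/-- **KEYq on `J_H[p^∞]`**: `(U_j φ - q_j)(U_j² - 1)(T_ℓ₀ - (ℓ₀ + 1))` kills the `Δ`-fixed part of
the kernel of reduction at `P ∣ q_j`. -/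
theorem keyq_AH (hTW : TwHyp N S p n qv) (ℓ₀ : ℕ) (hℓ₀ : GoodTw N S qv ℓ₀) (j : Fin r)
    (P : ValuationSubring Kbar) (hP : P.LiesOverPrime (qv j)) (φ : GalQ)
    (hφ : P.IsFrobeniusAt φ (qv j))
    (x : AH (N * twC qv) (twC qv) (twH p n qv) p) (hxK : x ∈ KZ N p n qv h2 P)
    (hfix : ∀ u, diaZ (N * twC qv) (twC qv) (twH p n qv) h2 (dvd_mul_left _ _) p u x = x) :
    (Uz (N * twC qv) (twC qv) (twH p n qv) h2 (dvd_mul_left _ _) p (qv j)
        * galZ (N * twC qv) (twC qv) (twH p n qv) p φ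
        - ((qv j : ℕ) : Module.End ℤ (AH (N * twC qv) (twC qv) (twH p n qv) p)))
      ((Uz (N * twC qv) (twC qv) (twH p n qv) h2 (dvd_mul_left _ _) p (qv j)
          * Uz (N * twC qv) (twC qv) (twH p n qv) h2 (dvd_mul_left _ _) p (qv j) - 1)
        ((Tz (N * twC qv) (twC qv) (twH p n qv) h2 (dvd_mul_left _ _) p ℓ₀
          - ((ℓ₀ + 1 : ℕ) : Module.End ℤ (AH (N * twC qv) (twC qv) (twH p n qv) p))) x)) = 0 := by
  haveI : NeZero ℓ₀ := ⟨hℓ₀.1.ne_zero⟩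
  haveI : NeZero (qv j) := ⟨(hTW.prime j).ne_zero⟩
  obtain ⟨M, hL, hqM⟩ := level_split N S p n qv hTW j
  haveI : NeZero M := ⟨fun h0 => NeZero.ne (N * twC qv) (by rw [hL, h0, zero_mul])⟩
  have hqp : qv j ≠ p := fun h => hTW.notS j (h ▸ hTW.hpS)
  have hc : twC qv ∣ N * twC qv := dvd_mul_left _ _
  have hx : IsPTors p (x : JH (N * twC qv) (twC qv) (twH p n qv)) := x.2
  have hfix' : ∀ d, (diamondData (N * twC qv) (twC qv) (twH p n qv) h2 hc).ρ d
      • (x : JH (N * twC qv) (twC qv) (twH p n qv)) = x := fun d =>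
    congrArg Subtype.val (hfix d)
  have hK : InKU P p (diamondData (N * twC qv) (twC qv) (twH p n qv) h2 hc)
      (x : JH (N * twC qv) (twC qv) (twH p n qv)) := hxK
  have key := keyq_JH M (qv j) (twC qv) (twH p n qv) p (N * twC qv) hL hTW.hp h2 hc
    (hTW.prime j) hqM hqp n (fun d => Or.inl ⟨d, rfl⟩) (hunr_tw N S p n qv h2 hTW) ℓ₀ hℓ₀.1
    (Fermat.Agent.NEB.Geom.H29.not_dvd_level_of_good hℓ₀) P hP φ hφ
    (heckeData (N * twC qv) (twC qv) ℓ₀ (twH p n qv) h2 hc).hβ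
    (heckeData (N * twC qv) (twC qv) (qv j) (twH p n qv) h2 hc).hβ
    (x : JH (N * twC qv) (twC qv) (twH p n qv)) hx hfix' hK
  apply Subtype.ext
  rw [coe_sub_apply, coe_mul_apply, coe_natCast_apply, Uz_apply, galZ_apply,
    coe_sub_apply, coe_mul_apply, Uz_apply, Uz_apply, Module.End.one_apply,
    coe_sub_apply, Tz_apply, coe_natCast_apply]
  exact key

/-- A fixed vector is fixed by every power. -/
theorem pow_apply_of_fixed {R X : Type*} [CommRing R] [AddCommGroup X] [Module R X]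
    (f : Module.End R X) {x : X} (hx : f x = x) (k : ℕ) : (f ^ k) x = x := by
  induction k with
  | zero => rw [pow_zero, Module.End.one_apply]
  | succ k ih => rw [pow_succ, Module.End.mul_apply, hx, ih]

/-- The Galois action commutes with `η⁺`. -/
theorem comm_gal_tw (hcomm : ∀ i j, Commute (opsTw N S p n qv h2 i) (opsTw N S p n qv h2 j))
    (σ : GalQ) (t : PolyTw r (twC qv)) :
    Commute (etaTw N S p n qv h2 hcomm t)
      (galZ (N * twC qv) (twC qv) (twH p n qv) p σ) := by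
  induction t using MvPolynomial.induction_on with
  | C a =>
    have : etaTw N S p n qv h2 hcomm (MvPolynomial.C a)
        = (a : Module.End ℤ (AH (N * twC qv) (twC qv) (twH p n qv) p)) := by
      rw [show (MvPolynomial.C a : PolyTw r (twC qv)) = ((a : ℤ) : PolyTw r (twC qv)) from
        (eq_intCast (MvPolynomial.C : ℤ →+* PolyTw r (twC qv)) a), map_intCast]
    rw [this]
    exact Int.cast_commute a _
  | add f g hf hg =>
    rw [map_add]
    exact hf.add_left hg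
  | mul_X f i hf =>
    rw [map_mul]
    refine hf.mul_left ?_
    have h : etaTw N S p n qv h2 hcomm (MvPolynomial.X i) = opsTw N S p n qv h2 i :=
      polyHom_X _ _ _
    rw [h]
    exact Fermat.Agent.NEB.Geom.H29.commute_opsTw_galZ N S p n qv h2 i σ

end AHlevel

/-! ## 3. W-KEYq -/

theorem map_keyq_elt {R E : Type*} [CommRing R] [Ring E] (f : R →+* E) (a b : R) (m : ℕ) :
    f ((a * a - 1) * (b - (m : R))) = (f a * f a - 1) * (f b - (m : E)) := by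
  rw [map_mul, map_sub, map_sub, map_mul, map_one, map_natCast]

theorem baseChange_mul_sub_natCast (𝒪 : Type) [CommRing 𝒪] {A : Type} [AddCommGroup A]
    (f g : Module.End ℤ A) (m : ℕ) (x : 𝒪 ⊗[ℤ] A) :
    (f * g - (m : Module.End ℤ A)).baseChange 𝒪 x
      = f.baseChange 𝒪 (g.baseChange 𝒪 x) - (m : 𝒪) • x := by
  have hq : ((m : ℕ) : Module.End ℤ A).baseChange 𝒪 = ((m : ℕ) : Module.End 𝒪 (𝒪 ⊗[ℤ] A)) :=
    map_natCast (Module.End.baseChangeHom ℤ 𝒪 A) m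
  rw [LinearMap.baseChange_sub, LinearMap.sub_apply, baseChange_mul_eq, Module.End.mul_apply,
    hq, Module.End.natCast_apply, Nat.cast_smul_eq_nsmul]

/-- The element `s = (U_j² - 1)(T'_ℓ₀ - (ℓ₀ + 1))` of `𝕋⁺`. -/
def keyqElt (r c : ℕ) (j : Fin r) (ℓ₀ : ℕ) : PolyTw r c :=
  (MvPolynomial.X (Sum.inr (Sum.inl j)) * MvPolynomial.X (Sum.inr (Sum.inl j)) - 1)
    * (MvPolynomial.X (Sum.inl ℓ₀) - ((ℓ₀ + 1 : ℕ) : PolyTw r c))

section Elt

variable (N : ℕ) (S : Finset ℕ) (p n : ℕ) {r : ℕ} (qv : Fin r → ℕ)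

section Theta

variable {k : Type} [Field k] [NeZero N]

theorem thetaTw_keyqElt (θ : CuspForm.heckeAlgebra N 2 (↑S : Set ℕ) →+* k) (α : Fin r → k)
    (j : Fin r) (ℓ₀ : ℕ) (hℓ₀ : GoodTw N S qv ℓ₀) :
    thetaTw N S qv θ α (keyqElt r (twC qv) j ℓ₀)
      = (α j * α j - 1) * (θ (CuspForm.heckeAlgebra.T hℓ₀.1 hℓ₀.not_dvd hℓ₀.not_mem)
          - ((ℓ₀ + 1 : ℕ) : k)) := by
  have hθXj : thetaTw N S qv θ α (MvPolynomial.X (Sum.inr (Sum.inl j))) = α j := by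
    show MvPolynomial.eval₂Hom _ _ (MvPolynomial.X _) = _
    rw [MvPolynomial.eval₂Hom_X']
    rfl
  have hθXℓ : thetaTw N S qv θ α (MvPolynomial.X (Sum.inl ℓ₀))
      = θ (CuspForm.heckeAlgebra.T hℓ₀.1 hℓ₀.not_dvd hℓ₀.not_mem) := by
    show MvPolynomial.eval₂Hom _ _ (MvPolynomial.X _) = _
    rw [MvPolynomial.eval₂Hom_X']
    show thetaVal N S qv θ α (Sum.inl ℓ₀) = _
    simp only [thetaVal, dif_pos hℓ₀]
  unfold keyqElt
  rw [map_keyq_elt, hθXj, hθXℓ]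

theorem thetaTw_keyqElt_ne (θ : CuspForm.heckeAlgebra N 2 (↑S : Set ℕ) →+* k) (α β : Fin r → k)
    (hne : ∀ j, α j ≠ β j) (hmul : ∀ j, α j * β j = 1)
    (j : Fin r) (ℓ₀ : ℕ) (hℓ₀ : GoodTw N S qv ℓ₀)
    (hℓne : θ (CuspForm.heckeAlgebra.T hℓ₀.1 hℓ₀.not_dvd hℓ₀.not_mem) ≠ ((ℓ₀ : k) + 1)) :
    thetaTw N S qv θ α (keyqElt r (twC qv) j ℓ₀) ≠ 0 := by
  rw [thetaTw_keyqElt N S qv θ α j ℓ₀ hℓ₀]
  refine mul_ne_zero ?_ ?_
  · intro h0
    have h1 : α j * α j = α j * β j := by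
      rw [hmul j]
      exact sub_eq_zero.mp h0
    have hα0 : α j ≠ 0 := fun h => by
      have := hmul j
      rw [h, zero_mul] at this
      exact zero_ne_one this
    exact hne j (mul_left_cancel₀ hα0 h1)
  · rw [sub_ne_zero]
    intro h0
    apply hℓne
    rw [h0]
    push_cast
    rfl

end Theta

variable [NeZero (N * twC qv)] (h2 : 2 ≤ twC qv)

theorem etaTw_keyqElt
    (hcomm : ∀ i j, Commute (opsTw N S p n qv h2 i) (opsTw N S p n qv h2 j))
    (j : Fin r) (ℓ₀ : ℕ) (hℓ₀ : GoodTw N S qv ℓ₀) :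
    etaTw N S p n qv h2 hcomm (keyqElt r (twC qv) j ℓ₀)
      = (Uz (N * twC qv) (twC qv) (twH p n qv) h2 (dvd_mul_left _ _) p (qv j)
          * Uz (N * twC qv) (twC qv) (twH p n qv) h2 (dvd_mul_left _ _) p (qv j) - 1)
        * (TzTw (N * twC qv) (twC qv) (twH p n qv) h2 (dvd_mul_left _ _) p (jTw p n) ℓ₀
          - ((ℓ₀ + 1 : ℕ) : Module.End ℤ (AH (N * twC qv) (twC qv) (twH p n qv) p))) := by
  have hηXj : etaTw N S p n qv h2 hcomm (MvPolynomial.X (Sum.inr (Sum.inl j)))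
      = Uz (N * twC qv) (twC qv) (twH p n qv) h2 (dvd_mul_left _ _) p (qv j) :=
    polyHom_X _ _ _
  have hηXℓ : etaTw N S p n qv h2 hcomm (MvPolynomial.X (Sum.inl ℓ₀))
      = TzTw (N * twC qv) (twC qv) (twH p n qv) h2 (dvd_mul_left _ _) p (jTw p n) ℓ₀ :=
    (polyHom_X _ _ _).trans (Fermat.Agent.NEB.Geom.H29.opsTw_inl_good N S p n qv h2 hℓ₀)
  unfold keyqElt
  rw [map_keyq_elt, hηXj, hηXℓ]

/-- `E = U_j φ - q_j`. -/
def keyqE (j : Fin r) (φ : GalQ) : Module.End ℤ (AH (N * twC qv) (twC qv) (twH p n qv) p) :=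
  Uz (N * twC qv) (twC qv) (twH p n qv) h2 (dvd_mul_left _ _) p (qv j)
      * galZ (N * twC qv) (twC qv) (twH p n qv) p φ
    - ((qv j : ℕ) : Module.End ℤ (AH (N * twC qv) (twC qv) (twH p n qv) p))

theorem commute_eta_keyqE
    (hcomm : ∀ i j, Commute (opsTw N S p n qv h2 i) (opsTw N S p n qv h2 j))
    (j : Fin r) (φ : GalQ) (t : PolyTw r (twC qv)) :
    Commute (etaTw N S p n qv h2 hcomm t) (keyqE N p n qv h2 j φ) := by
  have hηXj : etaTw N S p n qv h2 hcomm (MvPolynomial.X (Sum.inr (Sum.inl j)))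
      = Uz (N * twC qv) (twC qv) (twH p n qv) h2 (dvd_mul_left _ _) p (qv j) :=
    polyHom_X _ _ _
  have hU : Commute (etaTw N S p n qv h2 hcomm t)
      (Uz (N * twC qv) (twC qv) (twH p n qv) h2 (dvd_mul_left _ _) p (qv j)) := by
    rw [← hηXj]
    exact (Commute.all t _).map (etaTw N S p n qv h2 hcomm)
  exact (hU.mul_right (comm_gal_tw N S p n qv h2 hcomm φ t)).sub_right (Nat.commute_cast _ _)

theorem keyqE_baseChange (𝒪 : Type) [CommRing 𝒪] (j : Fin r) (φ : GalQ)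
    (x : 𝒪 ⊗[ℤ] AH (N * twC qv) (twC qv) (twH p n qv) p) :
    (keyqE N p n qv h2 j φ).baseChange 𝒪 x
      = (Uz (N * twC qv) (twC qv) (twH p n qv) h2 (dvd_mul_left _ _) p (qv j)).baseChange 𝒪
          ((galZ (N * twC qv) (twC qv) (twH p n qv) p φ).baseChange 𝒪 x)
        - ((qv j : ℕ) : 𝒪) • x :=
  baseChange_mul_sub_natCast 𝒪 _ _ _ x

/-- The key identity: `η(s) E` kills the `Δ`-fixed part of the kernel of reduction. -/
theorem keyq_eta (hTW : TwHyp N S p n qv)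
    (hcomm : ∀ i j, Commute (opsTw N S p n qv h2 i) (opsTw N S p n qv h2 j))
    (ℓ₀ : ℕ) (hℓ₀ : GoodTw N S qv ℓ₀) (j : Fin r)
    (P : ValuationSubring Kbar) (hP : P.LiesOverPrime (qv j)) (φ : GalQ)
    (hφ : P.IsFrobeniusAt φ (qv j))
    (y : AH (N * twC qv) (twC qv) (twH p n qv) p) (hy : y ∈ KZ N p n qv h2 P)
    (hfy : ∀ u, diaZ (N * twC qv) (twC qv) (twH p n qv) h2 (dvd_mul_left _ _) p u y = y) :
    etaTw N S p n qv h2 hcomm (keyqElt r (twC qv) j ℓ₀) (keyqE N p n qv h2 j φ y) = 0 := by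
  have h1 : etaTw N S p n qv h2 hcomm (keyqElt r (twC qv) j ℓ₀) (keyqE N p n qv h2 j φ y)
      = keyqE N p n qv h2 j φ (etaTw N S p n qv h2 hcomm (keyqElt r (twC qv) j ℓ₀) y) := by
    have := congrArg (fun f : Module.End ℤ (AH (N * twC qv) (twC qv) (twH p n qv) p) => f y)
      (commute_eta_keyqE N S p n qv h2 hcomm j φ (keyqElt r (twC qv) j ℓ₀)).eq
    exact this
  have h2' : (TzTw (N * twC qv) (twC qv) (twH p n qv) h2 (dvd_mul_left _ _) p (jTw p n) ℓ₀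
        - ((ℓ₀ + 1 : ℕ) : Module.End ℤ (AH (N * twC qv) (twC qv) (twH p n qv) p))) y
      = (Tz (N * twC qv) (twC qv) (twH p n qv) h2 (dvd_mul_left _ _) p ℓ₀
        - ((ℓ₀ + 1 : ℕ) : Module.End ℤ (AH (N * twC qv) (twC qv) (twH p n qv) p))) y := by
    rw [LinearMap.sub_apply, LinearMap.sub_apply]
    congr 1
    show (Tz (N * twC qv) (twC qv) (twH p n qv) h2 (dvd_mul_left _ _) p ℓ₀
      * diaZ (N * twC qv) (twC qv) (twH p n qv) h2 (dvd_mul_left _ _) p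
        (Fermat.Agent.NEB.EIG.H39.unitOf (twC qv) ℓ₀) ^ (jTw p n)) y = _
    rw [Module.End.mul_apply, pow_apply_of_fixed _ (hfy _)]
  rw [h1, etaTw_keyqElt N S p n qv h2 hcomm j ℓ₀ hℓ₀, Module.End.mul_apply, h2']
  exact keyq_AH N S p n qv h2 hTW ℓ₀ hℓ₀ j P hP φ hφ y hy hfy

end Elt

/-- **W-KEYq.** -/
theorem stmt_W_KEYq : Stmt_W_KEYq := by
  intro 𝒪 _ _ _ _ _ ϖ hϖ p hpF hpm N _ S n r qv hTW hsq _ h2 hcomm θ α β hEig ℓ₀ hℓ₀ hne j P hP
    φ hφ x hxW hxK hfix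
  haveI : Module.Flat ℤ 𝒪 := flat_int (𝒪 := 𝒪)
  haveI : Finite (ZMod (twC qv))ˣ := finite_units_zmod (twC qv)
  have hfin := wkey_abs (etaTw N S p n qv h2 hcomm) (thetaTw N S qv θ α)
    (fun u => diaZ (N * twC qv) (twC qv) (twH p n qv) h2 (dvd_mul_left _ _) p u)
    (KZ N p n qv h2 P) (keyqE N p n qv h2 j φ)
    (commute_eta_keyqE N S p n qv h2 hcomm j φ) (keyqElt r (twC qv) j ℓ₀)
    (thetaTw_keyqElt_ne N S qv θ α β hEig.ne hEig.mul j ℓ₀ hℓ₀ hne)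
    (fun y hy hfy => keyq_eta N S p n qv h2 hTW hcomm ℓ₀ hℓ₀ j P hP φ hφ y hy hfy)
    x hxW hxK hfix
  rw [keyqE_baseChange] at hfin
  exact sub_eq_zero.mp hfin

end Fermat.Agent.NEB.Geom.H70
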