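import Fermat.Agent.NEB.Geom.AsmDefs

/-!
# Item 72 (LG-NEB), package NEB-GEOM (helper84): `TWDiv` from the field statements

`nonempty_twDiv : Stmt_A_gal D → Stmt_A_es D → Stmt_A_hstep D → Stmt_A_pi Dm D →
  Stmt_A_frob_nil D → Stmt_A_lg D → Nonempty (TWDiv 𝒪 ϖ p ρbar N S θ Dm.MD n qv)`.
-/

set_option autoImplicit false
set_option linter.unusedSectionVars false

noncomputable section

open ModularCurve AlgebraicCurve IsLocalRing TensorProduct Polynomial

namespace Fermat.Agent.NEB.Geom.H84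

open Fermat.Agent.NEB Fermat.Agent.NEB.JH Fermat.Agent.S59.Asm Fermat.Agent.S59.Lim
  Fermat.Agent.S59.Lim.H2 Fermat.Agent.NEB.Geom

variable {𝒪 : Type} [CommRing 𝒪] [IsDomain 𝒪] [IsDiscreteValuationRing 𝒪]
  {ϖ : 𝒪} {p : ℕ} {N : ℕ} [NeZero N] {S : Finset ℕ}
  {θ : CuspForm.heckeAlgebra N 2 (↑S : Set ℕ) →+* ResidueField 𝒪}
  {ρbar : ResidualGaloisRep (ResidueField 𝒪)} {n : ℕ} {r : ℕ} {qv : Fin r → ℕ}
  [NeZero (N * twC qv)] [NeZero (twC qv)] [NeZero (twLevel N qv)]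

/-- **The final plumbing**: `TWDiv` from the field statements. -/
theorem nonempty_twDiv (Dm : MinSetup 𝒪 ϖ p N S θ) (D : TwSetup 𝒪 ϖ p N S θ ρbar n qv)
    (hgal : Stmt_A_gal D) (hes : Stmt_A_es D) (hstep : Stmt_A_hstep D)
    (hpi : Stmt_A_pi Dm D) (hfn : Stmt_A_frob_nil D) (hlg : Stmt_A_lg D) :
    Nonempty (TWDiv 𝒪 ϖ p ρbar N S θ Dm.MD n qv) := by
  obtain ⟨π, πup, h1, h2, h3, h4, h5, _⟩ := hpi
  obtain ⟨g1, g2, g3, g4, g5, g6⟩ := hgal
  exact ⟨{
    rest := Fermat.Agent.S59.Asm.H41.restTW N S qv D.hTW.prime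
    rest_T := fun ℓ hℓ hℓN' hℓS' hℓN hℓS =>
      Fermat.Agent.S59.Asm.H41.restTW_T N S qv D.hTW.prime ℓ hℓ hℓN' hℓS' hℓN hℓS
    WD := D.WD
    gal := D.gal
    gal_cont := g1
    gal_η := g2
    es := hes
    d := D.d
    d_pow := g3
    d_comm := g4
    d_η := g5
    d_gal := g6
    hstep := hstep
    π := π
    πup := πup
    πup_injective := h1
    πup_π := h2
    d_πup := h3
    inv := h4
    π_η := h5
    P := D.P
    P_over := D.P_over
    frob := D.frob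
    frob_spec := D.frob_spec
    σ := D.σ
    σ_mem := D.σ_mem
    a := D.a
    a' := D.a'
    a_ne := fun j => by
      rw [D.ha j, D.ha' j]
      exact D.eig.ne j
    charpoly_frob := D.charpoly_frob
    frob_nil := hfn
    lg := hlg }⟩

end Fermat.Agent.NEB.Geom.H84
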