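import Fermat.Agent.NEB.Geom.H84_Geom
import Fermat.Agent.NEB.Geom.H39_WEigTw
import Fermat.Agent.NEB.Geom.H15_APIof
import Fermat.Agent.NEB.Geom.H14_PiFinal

/-!
# Item 72 (LG-NEB), package NEB-GEOM (helper84): **`Asm.Stmt_TWGEOM`, unconditional**

* `stmt_A_PI      : Stmt_A_PI`   (`H15.stmt_A_PI_of` + `H14.stmt_PI_WIRE`);
* `stmt_A_SETUP   : Stmt_A_SETUP`, `stmt_A_FROBNIL : Stmt_A_FROBNIL`, `stmt_A_LG : Stmt_A_LG`;
* `nonempty_twDiv` : the Taylor–Wiles data `TWDiv` over the divisible module of an arbitrary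
  level-`N` setup `Dm : MinSetup`;
* `stmt_TWGEOM    : Fermat.Agent.S59.Asm.Stmt_TWGEOM`.
-/

set_option autoImplicit false
set_option linter.unusedSectionVars false
set_option linter.style.haveILetI false
set_option linter.unusedVariables false

noncomputable section

open ModularCurve AlgebraicCurve IsLocalRing TensorProduct Polynomial

namespace Fermat.Agent.NEB.Geom

open Fermat.Agent.NEB Fermat.Agent.NEB.JH Fermat.Agent.S59 Fermat.Agent.S59.Asm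
  Fermat.Agent.S59.Lim Fermat.Agent.S59.Lim.H2

/-- **A-PI**. -/
theorem stmt_A_PI : Stmt_A_PI :=
  Fermat.Agent.NEB.Geom.H15.stmt_A_PI_of Fermat.Agent.NEB.Geom.H14.stmt_PI_WIRE

/-- **A-SETUP**. -/
theorem stmt_A_SETUP : Stmt_A_SETUP :=
  stmt_A_SETUP_of_eta Fermat.Agent.NEB.Geom.H39.stmt_A_ETA

/-- **A-FROBNIL**. -/
theorem stmt_A_FROBNIL : Stmt_A_FROBNIL := stmt_A_FROBNIL_of_pi stmt_A_PI

/-- **A-LG**. -/
theorem stmt_A_LG : Stmt_A_LG := stmt_A_LG_of_pi stmt_A_PI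

/-- The Taylor–Wiles data `TWDiv` over the divisible module of an ARBITRARY level-`N` setup. -/
theorem nonempty_twDiv_final
    (𝒪 : Type) [CommRing 𝒪] [IsDomain 𝒪] [IsDiscreteValuationRing 𝒪]
    [IsAdicComplete (maximalIdeal 𝒪) 𝒪] [Finite (ResidueField 𝒪)] [CharZero 𝒪]
    (ϖ : 𝒪) (p : ℕ) [Fact p.Prime] (N : ℕ) [NeZero N] (S : Finset ℕ)
    (θ : CuspForm.heckeAlgebra N 2 (↑S : Set ℕ) →+* ResidueField 𝒪)
    (ρbar : ResidualGaloisRep (ResidueField 𝒪)) (hstd : StdHyp 𝒪 ϖ p N S θ ρbar)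
    (Dm : MinSetup 𝒪 ϖ p N S θ) (r n : ℕ) (qv : Fin r → ℕ)
    (hfam : Fermat.Agent.S56.IsTWFamily ρbar p n S qv) [NeZero (twLevel N qv)]
    (hint' : CuspForm.HasIntegralStructure (twLevel N qv) 2) :
    Nonempty (TWDiv 𝒪 ϖ p ρbar N S θ Dm.MD n qv) :=
  nonempty_twDiv_of_eta_pi Fermat.Agent.NEB.Geom.H39.stmt_A_ETA stmt_A_PI
    𝒪 ϖ p N S θ ρbar hstd Dm r n qv hfam hint'

/-- **NEB-GEOM**: `Asm.Stmt_TWGEOM`, unconditionally. -/
theorem stmt_TWGEOM : Fermat.Agent.S59.Asm.Stmt_TWGEOM :=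
  stmt_TWGEOM_of_eta_pi Fermat.Agent.NEB.Geom.H39.stmt_A_ETA stmt_A_PI

end Fermat.Agent.NEB.Geom
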