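import Fermat.Agent.NEB.Geom.AsmTop

/-!
# Item 72 (LG-NEB), package NEB-GEOM, leaf A-R0 (helper84): the case `r = 0`

* `cont_baseChange` : pointwise continuity of a Galois action passes to `𝒪 ⊗ A`;
* `stmt_A_R0 : Stmt_A_R0`.
-/

set_option autoImplicit false
set_option linter.unusedSectionVars false
set_option linter.style.haveILetI false
set_option linter.unusedVariables false

noncomputable section

open ModularCurve AlgebraicCurve IsLocalRing TensorProduct Polynomial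

namespace Fermat.Agent.NEB.Geom.H84

open Fermat.Agent.NEB Fermat.Agent.NEB.JH Fermat.Agent.S59 Fermat.Agent.S59.Asm
  Fermat.Agent.S59.Lim Fermat.Agent.S59.Lim.H2 Fermat.Agent.NEB.Geom

/-- Pointwise continuity passes to the tensor product. -/
theorem cont_baseChange {A : Type} [AddCommGroup A] (ρ : GalQ →* Module.End ℤ A)
    (h : ∀ x : A, ∃ L : IntermediateField ℚ Kbar, FiniteDimensional ℚ L ∧
      ∀ σ : GalQ, (∀ y ∈ L, σ y = y) → ρ σ x = x)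
    (𝒪 : Type) [CommRing 𝒪] (x : 𝒪 ⊗[ℤ] A) :
    ∃ L : IntermediateField ℚ Kbar, FiniteDimensional ℚ L ∧
      ∀ σ : GalQ, (∀ y ∈ L, σ y = y) → (ρ σ).baseChange 𝒪 x = x := by
  induction x using TensorProduct.induction_on with
  | zero =>
    exact ⟨⊥, inferInstance, fun σ _ => map_zero _⟩
  | tmul a x =>
    obtain ⟨L, hL, hLx⟩ := h x
    refine ⟨L, hL, fun σ hσ => ?_⟩
    rw [LinearMap.baseChange_tmul, hLx σ hσ]
  | add x y hx hy =>
    obtain ⟨L₁, hL₁, h₁⟩ := hx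
    obtain ⟨L₂, hL₂, h₂⟩ := hy
    refine ⟨L₁ ⊔ L₂, IntermediateField.finiteDimensional_sup L₁ L₂, fun σ hσ => ?_⟩
    rw [map_add, h₁ σ (fun y hy => hσ y ((le_sup_left : L₁ ≤ L₁ ⊔ L₂) hy)),
      h₂ σ (fun y hy => hσ y ((le_sup_right : L₂ ≤ L₁ ⊔ L₂) hy))]

section

variable {𝒪 : Type} [CommRing 𝒪] [IsDomain 𝒪] [IsDiscreteValuationRing 𝒪]
  {ϖ : 𝒪} {p : ℕ} {N : ℕ} [NeZero N] {S : Finset ℕ}
  {θ : CuspForm.heckeAlgebra N 2 (↑S : Set ℕ) →+* ResidueField 𝒪}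

/-- Continuity of the Galois action on `MD.W`. -/
theorem MinSetup.gal_cont (Dm : MinSetup 𝒪 ϖ p N S θ) (x : Dm.MD.W) :
    ∃ L : IntermediateField ℚ Kbar, FiniteDimensional ℚ L ∧
      ∀ σ : GalQ, (∀ y ∈ L, σ y = y) → Dm.gal σ x = x := by
  obtain ⟨L, hL, h⟩ := cont_baseChange (galZ0 N p) Dm.cont 𝒪 (x : ↥(thetaPart Dm.ηC θ)).1
  exact ⟨L, hL, fun σ hσ => Subtype.ext (h σ hσ)⟩

/-- Eichler–Shimura on `MD.W`. -/
theorem MinSetup.es_W (Dm : MinSetup 𝒪 ϖ p N S θ) (ℓ : ℕ) (hℓ : ℓ.Prime) (hℓN : ¬ ℓ ∣ N)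
    (hℓS : ℓ ∉ (↑S : Set ℕ)) (hℓp : ℓ ≠ p)
    (P : ValuationSubring Kbar) (hP : P.LiesOverPrime ℓ) (σ : GalQ)
    (hσ : P.IsFrobeniusAt σ ℓ) :
    Dm.gal σ * Dm.gal σ - Dm.MD.η (CuspForm.heckeAlgebra.T hℓ hℓN hℓS) * Dm.gal σ
      + (ℓ : 𝒪) • (1 : Module.End 𝒪 Dm.MD.W) = 0 := by
  have h := Dm.es ℓ hℓ hℓN hℓp P hP σ hσ
  rw [← Dm.ηC_T ℓ hℓ hℓN hℓS] at h
  have h' : galZ0 N p σ * galZ0 N p σ
      - Dm.ηC (CuspForm.heckeAlgebra.T hℓ hℓN hℓS) * galZ0 N p σ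
      + ℓ • (1 : Module.End ℤ (A0 N p)) = 0 := by
    rw [← h]
    congr 1
  exact thetaZ_es (θ := θ) (Dm.gal_comm σ)
    (fun t' => (Commute.all t' (CuspForm.heckeAlgebra.T hℓ hℓN hℓS)).map Dm.ηC) ℓ h'

end

/-- **A-R0**: the case `r = 0`. -/
theorem stmt_A_R0 : Stmt_A_R0 := by
  intro 𝒪 _ _ _ _ _ _ ϖ p _ N _ S θ ρbar hstd Dm n qv _
  have hqv : ∀ j : Fin 0, (qv j).Prime := fun j => j.elim0
  have hpS : p ∈ S := hstd.hres.hpSmin
  refine ⟨{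
    rest := Fermat.Agent.S59.Asm.H41.restTW N S qv hqv
    rest_T := fun ℓ hℓ hℓN' hℓS' hℓN hℓS =>
      Fermat.Agent.S59.Asm.H41.restTW_T N S qv hqv ℓ hℓ hℓN' hℓS' hℓN hℓS
    WD := {
      W := Dm.MD.W
      isDiv := Dm.MD.isDiv
      η := Dm.MD.η.comp (Fermat.Agent.S59.Asm.H41.restTW N S qv hqv)
      η_local := fun t a ha x hx => Dm.MD.η_local _ a ha x hx }
    gal := Dm.gal
    gal_cont := fun x => MinSetup.gal_cont Dm x
    gal_η := fun g t => thetaZ_commute_eta (Dm.gal_comm g) _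
    es := ?_
    d := fun j => j.elim0
    d_pow := fun j => j.elim0
    d_comm := fun i => i.elim0
    d_η := fun j => j.elim0
    d_gal := fun j => j.elim0
    hstep := fun j => j.elim0
    π := LinearMap.id
    πup := LinearMap.id
    πup_injective := fun _ _ h => h
    πup_π := ?_
    d_πup := fun j => j.elim0
    inv := fun v _ _ => ⟨v, rfl⟩
    π_η := fun t v => rfl
    P := fun j => j.elim0
    P_over := fun j => j.elim0
    frob := fun j => j.elim0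
    frob_spec := fun j => j.elim0
    σ := fun j => j.elim0
    σ_mem := fun j => j.elim0
    a := fun j => j.elim0
    a' := fun j => j.elim0
    a_ne := fun j => j.elim0
    charpoly_frob := fun j => j.elim0
    frob_nil := fun j => j.elim0
    lg := fun j => j.elim0 }⟩
  · intro ℓ hℓ hℓN hℓS A hA σ hσ
    have hℓN' : ¬ ℓ ∣ N := fun hd => hℓN (Dvd.dvd.trans hd (Fermat.Agent.S59.Asm.H41.dvd_twLevel N qv))
    have hℓS' : ℓ ∉ (↑S : Set ℕ) := fun h => hℓS (Fermat.Agent.S59.Asm.H41.subset_twSet S qv h)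
    have hℓp : ℓ ≠ p := by
      rintro rfl
      exact hℓS' (by exact_mod_cast hpS)
    have h := MinSetup.es_W Dm ℓ hℓ hℓN' hℓS' hℓp A hA σ hσ
    show Dm.gal σ * Dm.gal σ
      - Dm.MD.η (Fermat.Agent.S59.Asm.H41.restTW N S qv hqv
          (CuspForm.heckeAlgebra.T hℓ hℓN hℓS)) * Dm.gal σ
      + (ℓ : 𝒪) • (1 : Module.End 𝒪 Dm.MD.W) = 0
    rw [Fermat.Agent.S59.Asm.H41.restTW_T N S qv hqv ℓ hℓ hℓN hℓS hℓN' hℓS']
    exact h
  · intro x
    show x = Fermat.Agent.S59.TWH.H90.nmTot (p ^ n) (fun j : Fin 0 => j.elim0) x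
    simp [Fermat.Agent.S59.TWH.H90.nmTot]

end Fermat.Agent.NEB.Geom.H84
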