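/-
helper9, item 72 (LG-NEB), package NEB-GEOM, assembly leaf **A-LG** = `Stmt_A_lg D`:
local–global compatibility at the Taylor–Wiles primes on `W`.

Wiring of `H46.stmt_W_LG` (abstract local–global) with
* the kernel of reduction `KZ` (stable under `η⁺`, the decomposition group; contains
  `(σ - 1) J_H[p^∞]` for `σ` in the inertia group: helper70),
* `Stmt_W_KEYq` (hypothesis), `Stmt_A_pi` (hypothesis: the socle is a pull-back from level `N`,
  where inertia at `q_j` is trivial),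
* `S59.TWGal.H59.stmt_TAME` and `H29.stmt_ZGALCONT_tors` (tame relations at finite level).
-/
import Fermat.Agent.NEB.Geom.H9_AGal
import Fermat.Agent.NEB.Geom.H6_ALGParts
import Fermat.Agent.NEB.Geom.AsmTop
import Fermat.Agent.NEB.Geom.H46_WLG
import Fermat.Agent.NEB.Geom.H70_KU2
import Fermat.Agent.S59.TWGal.H59_Tame

set_option autoImplicit false
set_option linter.unusedSectionVars false
set_option linter.style.haveILetI false
set_option linter.unusedVariables false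
set_option synthInstance.maxHeartbeats 400000
set_option maxHeartbeats 1000000

noncomputable section

open ModularCurve AlgebraicCurve IsLocalRing TensorProduct Polynomial

namespace Fermat.Agent.NEB.Geom.H9

open Fermat.Agent.NEB Fermat.Agent.NEB.JH Fermat.Agent.NEB.Geom Fermat.Agent.S59.Asm
  Fermat.Agent.S59.Lim Fermat.Agent.S59.Lim.H2

/-! ## Finiteness of `J_H[p]` -/

theorem finite_AH_p (M c : ℕ) [NeZero M] [NeZero c] (H : Subgroup (ZMod c)ˣ) (h2 : 2 ≤ c)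
    (hc : c ∣ M) (p : ℕ) [Fact p.Prime] : Finite {x : AH M c H p // p • x = 0} := by
  have hfin := Fermat.Agent.NEB.Geom.H29.stmt_ZFIN_final H h2 hc p 1
  haveI : Finite ↥{y : JH M c H | ((p ^ 1 : ℕ) : ℤ) • y = 0} := hfin.to_subtype
  have hmem : ∀ x : {x : AH M c H p // p • x = 0},
      ((x.1 : AH M c H p) : JH M c H) ∈ {y : JH M c H | ((p ^ 1 : ℕ) : ℤ) • y = 0} := by
    intro x
    have h1 : ((p • x.1 : AH M c H p) : JH M c H) = 0 := by rw [x.2]; rfl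
    show ((p ^ 1 : ℕ) : ℤ) • ((x.1 : AH M c H p) : JH M c H) = 0
    rw [pow_one, natCast_zsmul]
    exact h1
  refine Finite.of_injective (fun x : {x : AH M c H p // p • x = 0} =>
    (⟨((x.1 : AH M c H p) : JH M c H), hmem x⟩ :
      ↥{y : JH M c H | ((p ^ 1 : ℕ) : ℤ) • y = 0})) ?_
  intro x y hxy
  exact Subtype.ext (Subtype.ext (Subtype.mk.inj hxy))

/-! ## The kernel of reduction is stable under the operators -/

section KZ

variable {N : ℕ} {S : Finset ℕ} {p n : ℕ} {r : ℕ} {qv : Fin r → ℕ}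
  [NeZero (N * twC qv)] (h2 : 2 ≤ twC qv) (P : ValuationSubring Kbar)

theorem mem_KZ {x : AH (N * twC qv) (twC qv) (twH p n qv) p} :
    x ∈ KZ N p n qv h2 P ↔
      Fermat.Agent.NEB.Geom.H70.InKU P p
        (diamondData (N * twC qv) (twC qv) (twH p n qv) h2 (dvd_mul_left _ _))
        (x : JH (N * twC qv) (twC qv) (twH p n qv)) := Iff.rfl

theorem KZ_dia {x : AH (N * twC qv) (twC qv) (twH p n qv) p} (hx : x ∈ KZ N p n qv h2 P)
    (u : (ZMod (twC qv))ˣ) :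
    diaZ (N * twC qv) (twC qv) (twH p n qv) h2 (dvd_mul_left _ _) p u x ∈ KZ N p n qv h2 P := by
  rw [mem_KZ] at hx ⊢
  exact hx.diamond u

theorem not_dvd_level_of_goodTw {ℓ : ℕ} (h : GoodTw N S qv ℓ) : ¬ ℓ ∣ N * twC qv := by
  intro hd
  apply h.2.1
  have h1 : N * twC qv ∣ twLevel N qv := by
    unfold twLevel twC
    refine mul_dvd_mul_left N ?_
    rw [Finset.prod_pow]
    exact Dvd.intro _ (sq _).symm
  exact hd.trans h1

theorem KZ_ops (hprime : ∀ j, (qv j).Prime) (i : IdxTw r (twC qv))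
    {x : AH (N * twC qv) (twC qv) (twH p n qv) p} (hx : x ∈ KZ N p n qv h2 P) :
    opsTw N S p n qv h2 i x ∈ KZ N p n qv h2 P := by
  classical
  rcases i with ℓ | j | u
  · by_cases hg : GoodTw N S qv ℓ
    · have e : opsTw N S p n qv h2 (Sum.inl ℓ)
          = TzTw (N * twC qv) (twC qv) (twH p n qv) h2 (dvd_mul_left _ _) p (jTw p n) ℓ := by
        show (if GoodTw N S qv ℓ then _ else 0) = _
        rw [if_pos hg]
      rw [e, TzTw, Module.End.mul_apply, ← map_pow]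
      have hx' := KZ_dia h2 P hx (Fermat.Agent.NEB.EIG.H39.unitOf (twC qv) ℓ ^ jTw p n)
      haveI : NeZero ℓ := ⟨hg.1.ne_zero⟩
      rw [mem_KZ] at hx' ⊢
      rw [Tz_apply]
      exact Fermat.Agent.NEB.Geom.H70.InKU.TH
        (heckeData (N * twC qv) (twC qv) ℓ (twH p n qv) h2 (dvd_mul_left _ _)) h2
        (dvd_mul_left _ _) hg.1 (not_dvd_level_of_goodTw hg) hx'
    · have e : opsTw N S p n qv h2 (Sum.inl ℓ) = 0 := by
        show (if GoodTw N S qv ℓ then _ else 0) = _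
        rw [if_neg hg]
      rw [e, LinearMap.zero_apply]
      exact zero_mem _
  · have e : opsTw N S p n qv h2 (Sum.inr (Sum.inl j))
        = Uz (N * twC qv) (twC qv) (twH p n qv) h2 (dvd_mul_left _ _) p (qv j) := rfl
    haveI : NeZero (qv j) := ⟨(hprime j).ne_zero⟩
    have hdvd : qv j ∣ N * twC qv :=
      Dvd.dvd.mul_left (Finset.dvd_prod_of_mem qv (Finset.mem_univ j)) N
    rw [e]
    rw [mem_KZ] at hx ⊢
    rw [Uz_apply]
    exact Fermat.Agent.NEB.Geom.H70.InKU.UH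
      (heckeData (N * twC qv) (twC qv) (qv j) (twH p n qv) h2 (dvd_mul_left _ _))
      (hprime j) hdvd hx
  · exact KZ_dia h2 P hx u

theorem KZ_eta (hprime : ∀ j, (qv j).Prime)
    (hcomm : ∀ i j, Commute (opsTw N S p n qv h2 i) (opsTw N S p n qv h2 j))
    (t : PolyTw r (twC qv)) :
    ∀ x : AH (N * twC qv) (twC qv) (twH p n qv) p, x ∈ KZ N p n qv h2 P →
      etaTw N S p n qv h2 hcomm t x ∈ KZ N p n qv h2 P := by
  induction t using MvPolynomial.induction_on with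
  | C a =>
    intro x hx
    have : etaTw N S p n qv h2 hcomm (MvPolynomial.C a)
        = (a : Module.End ℤ (AH (N * twC qv) (twC qv) (twH p n qv) p)) := by
      rw [show (MvPolynomial.C a : PolyTw r (twC qv)) = ((a : ℤ) : PolyTw r (twC qv)) from
        (eq_intCast (MvPolynomial.C : ℤ →+* PolyTw r (twC qv)) a), map_intCast]
    rw [this]
    have h1 : (a : Module.End ℤ (AH (N * twC qv) (twC qv) (twH p n qv) p)) x = a • x := by
      rw [← zsmul_one, LinearMap.smul_apply, Module.End.one_apply]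
    rw [h1]
    exact zsmul_mem hx a
  | add f g hf hg =>
    intro x hx
    rw [map_add, LinearMap.add_apply]
    exact add_mem (hf x hx) (hg x hx)
  | mul_X f i hf =>
    intro x hx
    rw [map_mul, Module.End.mul_apply]
    have h : etaTw N S p n qv h2 hcomm (MvPolynomial.X i) = opsTw N S p n qv h2 i :=
      polyHom_X _ _ _
    rw [h]
    exact hf _ (KZ_ops h2 P hprime i hx)

end KZ

/-! ## A-LG -/

section Main

variable {𝒪 : Type} [CommRing 𝒪] [IsDomain 𝒪] [IsDiscreteValuationRing 𝒪]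
  {ϖ : 𝒪} {p : ℕ} {N : ℕ} [NeZero N] {S : Finset ℕ}
  {θ : CuspForm.heckeAlgebra N 2 (↑S : Set ℕ) →+* ResidueField 𝒪}
  {ρbar : ResidualGaloisRep (ResidueField 𝒪)} {n : ℕ} {r : ℕ} {qv : Fin r → ℕ}
  [NeZero (N * twC qv)] [NeZero (twC qv)] [NeZero (twLevel N qv)]

theorem normal_inertia (P : ValuationSubring Kbar) : (P.inertiaSubgroup ℚ).Normal :=
  MonoidHom.normal_ker _

/-- The tame relations on `J_H[p^m]`. -/
theorem tame_inst (D : TwSetup 𝒪 ϖ p N S θ ρbar n qv) [Fact p.Prime] (j : Fin r) (m : ℕ) :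
    ∃ τ₀ ∈ (D.P j).inertiaSubgroup ℚ,
      (∀ σ ∈ (D.P j).inertiaSubgroup ℚ, ∃ i e : ℕ,
        ∀ y : AH (N * twC qv) (twC qv) (twH p n qv) p, p ^ m • y = 0 →
          galZ (N * twC qv) (twC qv) (twH p n qv) p
            ((((τ₀ ^ i)⁻¹ * σ) ^ (qv j ^ e) : ↥((D.P j).decompositionSubgroup ℚ)) : GalQ) y
            = y) ∧
      (∃ e : ℕ, ∀ y : AH (N * twC qv) (twC qv) (twH p n qv) p, p ^ m • y = 0 →
        galZ (N * twC qv) (twC qv) (twH p n qv) p
          ((((τ₀ ^ (qv j))⁻¹ * ((⟨D.frob j, (D.frob_spec j).mem_decompositionSubgroup⟩ :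
            ↥((D.P j).decompositionSubgroup ℚ)) * τ₀ *
            (⟨D.frob j, (D.frob_spec j).mem_decompositionSubgroup⟩ :
              ↥((D.P j).decompositionSubgroup ℚ))⁻¹)) ^ (qv j ^ e) :
            ↥((D.P j).decompositionSubgroup ℚ)) : GalQ) y = y) := by
  obtain ⟨L, hL, hfix⟩ := Fermat.Agent.NEB.Geom.H29.stmt_ZGALCONT_tors (twH p n qv) D.h2
    (dvd_mul_left (twC qv) N) p m
  obtain ⟨τ₀, hτ₀, ht1, ht2, -⟩ := Fermat.Agent.S59.TWGal.H59.stmt_TAME (qv j)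
    (D.hTW.prime j) (D.P j) (D.P_over j) (D.frob j) (D.frob_spec j) L hL
  rw [ValuationSubring.inertiaSubgroupIn, Subgroup.mem_map] at hτ₀
  obtain ⟨τ, hτ, rfl⟩ := hτ₀
  have htriv : ∀ g : GalQ, g ∈ L.fixingSubgroup →
      ∀ y : AH (N * twC qv) (twC qv) (twH p n qv) p, p ^ m • y = 0 →
        galZ (N * twC qv) (twC qv) (twH p n qv) p g y = y := by
    intro g hg y hy
    apply Subtype.ext
    rw [galZ_apply]
    refine hfix g (fun z hz => (IntermediateField.mem_fixingSubgroup_iff L g).1 hg z hz)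
      (y : JH (N * twC qv) (twC qv) (twH p n qv)) ?_
    have h1 : ((p ^ m • y : AH (N * twC qv) (twC qv) (twH p n qv) p) :
        JH (N * twC qv) (twC qv) (twH p n qv)) = 0 := by
      rw [hy]; rfl
    rw [natCast_zsmul]
    exact h1
  refine ⟨τ, hτ, fun σ hσ => ?_, ?_⟩
  · obtain ⟨i, e, hie⟩ := ht1 (σ : GalQ) (Subgroup.mem_map_of_mem _ hσ)
    exact ⟨i, e, fun y hy => htriv _ hie y hy⟩
  · obtain ⟨e, he⟩ := ht2
    exact ⟨e, fun y hy => htriv _ he y hy⟩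

theorem thetaTw_U (D : TwSetup 𝒪 ϖ p N S θ ρbar n qv) (j : Fin r) :
    thetaTw N S qv θ D.α (MvPolynomial.X (Sum.inr (Sum.inl j))) = D.α j := by
  simp [thetaTw, thetaVal]

theorem alpha_sq_ne_one (D : TwSetup 𝒪 ϖ p N S θ ρbar n qv) (j : Fin r) :
    D.α j ^ 2 ≠ 1 := by
  intro h
  have h1 : D.α j * (D.α j - D.β j) = 0 := by
    rw [mul_sub, D.eig.mul j, ← sq, h, sub_self]
  have hα : D.α j ≠ 0 := fun h0 => by
    have := D.eig.mul j
    rw [h0, zero_mul] at this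
    exact zero_ne_one this
  rcases mul_eq_zero.mp h1 with h2 | h2
  · exact hα h2
  · exact D.eig.ne j (sub_eq_zero.mp h2)

/-- The instance of W-LG at the Taylor–Wiles prime `q_j`. -/
theorem wlg_inst [Finite (ResidueField 𝒪)] [CharZero 𝒪] [Fact p.Prime] (hϖ : Irreducible ϖ)
    (hpm : (p : 𝒪) ∈ maximalIdeal 𝒪) (hsq : Squarefree N)
    (Dm : MinSetup 𝒪 ϖ p N S θ) (D : TwSetup 𝒪 ϖ p N S θ ρbar n qv)
    (hKEY : Stmt_W_KEYq) (hPI : Stmt_A_pi Dm D) (j : Fin r) (σ : GalQ)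
    (hσ : σ ∈ (D.P j).inertiaSubgroupIn ℚ)
    (x : 𝒪 ⊗[ℤ] AH (N * twC qv) (twC qv) (twH p n qv) p)
    (hx : x ∈ Wtw 𝒪 N S p n qv D.h2 D.hcomm θ D.α)
    (hgk : ∃ k : ℕ, ((((galZ (N * twC qv) (twC qv) (twH p n qv) p (D.frob j) *
        diaZ (N * twC qv) (twC qv) (twH p n qv) D.h2 (dvd_mul_left _ _) p
          (Fermat.Agent.NEB.Geom.H6.chiC (twC qv) (D.frob j) ^ (jTw p n + 1))).baseChange 𝒪
        - D.a j • (1 : Module.End 𝒪 (𝒪 ⊗[ℤ] AH (N * twC qv) (twC qv) (twH p n qv) p))) ^ k)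
          x = 0)) :
    (galZ (N * twC qv) (twC qv) (twH p n qv) p σ).baseChange 𝒪 x = x := by
  have hp0 : (p : 𝒪) ≠ 0 := Nat.cast_ne_zero.mpr (Fact.out : p.Prime).ne_zero
  rw [ValuationSubring.inertiaSubgroupIn, Subgroup.mem_map] at hσ
  obtain ⟨σ', hσ', rfl⟩ := hσ
  refine Fermat.Agent.NEB.Geom.H46.stmt_W_LG 𝒪 ϖ hϖ p hpm hp0
    (AH (N * twC qv) (twC qv) (twH p n qv) p) (fun y => isPTors_coe y)
    (finite_AH_p (N * twC qv) (twC qv) (twH p n qv) D.h2 (dvd_mul_left _ _) p)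
    (PolyTw r (twC qv)) (etaTw N S p n qv D.h2 D.hcomm) (thetaTw N S qv θ D.α)
    (ZMod (twC qv))ˣ (diaZ (N * twC qv) (twC qv) (twH p n qv) D.h2 (dvd_mul_left _ _) p) n
    ?_ ?_ (KZ N p n qv D.h2 (D.P j)) ?_
    ↥((D.P j).decompositionSubgroup ℚ)
    ((galZ (N * twC qv) (twC qv) (twH p n qv) p).comp (Subgroup.subtype _))
    ?_ ?_ ((D.P j).inertiaSubgroup ℚ)
    ⟨D.frob j, (D.frob_spec j).mem_decompositionSubgroup⟩
    ?_ ?_ (Fermat.Agent.NEB.Geom.H6.chiC (twC qv) (D.frob j) ^ (jTw p n + 1))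
    (MvPolynomial.X (Sum.inr (Sum.inl j))) (qv j) (D.a j) ?_ ?_ ?_ ?_ ?_ ?_ σ' hσ' x hx hgk
  · intro u
    rw [← map_pow]
    exact diaZ_eq_one_of_mem _ _ _ _ _ _ ⟨u, rfl⟩
  · exact fun u => ⟨MvPolynomial.X (Sum.inr (Sum.inr u)), polyHom_X _ _ _⟩
  · exact fun t y hy => KZ_eta D.h2 (D.P j) D.hTW.prime D.hcomm t y hy
  · exact fun g t => D.comm_gal (g : GalQ) t
  · intro g y hy
    rw [mem_KZ] at hy ⊢
    exact Fermat.Agent.NEB.Geom.H70.InKU.galois hy g.2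
  · exact fun τ hτ => (normal_inertia (D.P j)).conj_mem τ hτ _
  · intro τ hτ y
    rw [mem_KZ]
    exact Fermat.Agent.NEB.Geom.H70.inKU_inertia _ (Subgroup.mem_map_of_mem _ hτ) y.2
  · rw [D.ha j, thetaTw_U]
  · exact D.eig.q_one j
  · rw [thetaTw_U]
    exact alpha_sq_ne_one D j
  · intro y hyW hyK hyfix
    have e : etaTw N S p n qv D.h2 D.hcomm (MvPolynomial.X (Sum.inr (Sum.inl j)))
        = Uz (N * twC qv) (twC qv) (twH p n qv) D.h2 (dvd_mul_left _ _) p (qv j) :=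
      polyHom_X _ _ _
    rw [e]
    exact hKEY 𝒪 ϖ hϖ p hpm N S n r qv D.hTW hsq D.h2 D.hcomm θ D.α D.β D.eig D.ℓ₀ D.hℓ₀
      D.hne j (D.P j) (D.P_over j) (D.frob j) (D.frob_spec j) y hyW hyK hyfix
  · intro τ hτ y hyW hy0 hyfix
    exact Fermat.Agent.NEB.Geom.H6.lg_socle Dm D hPI j (τ : GalQ)
      (Subgroup.mem_map_of_mem _ hτ) y hyW hy0 hyfix
  · exact fun m => tame_inst D j m

/-- **A-LG**, from W-KEYq and A-PI. -/
theorem a_lg [Finite (ResidueField 𝒪)] [CharZero 𝒪] [Fact p.Prime] (hϖ : Irreducible ϖ)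
    (hpm : (p : 𝒪) ∈ maximalIdeal 𝒪) (hsq : Squarefree N)
    (Dm : MinSetup 𝒪 ϖ p N S θ) (D : TwSetup 𝒪 ϖ p N S θ ρbar n qv)
    (hKEY : Stmt_W_KEYq) (hPI : Stmt_A_pi Dm D) : Stmt_A_lg D :=
  Fermat.Agent.NEB.Geom.H6.a_lg_of_wlg D fun j σ hσ x hx hgk =>
    wlg_inst hϖ hpm hsq Dm D hKEY hPI j σ hσ x hx hgk

/-- **A-LG** (universally quantified), from W-KEYq and A-PI. -/
theorem stmt_A_LG_of (hKEY : Stmt_W_KEYq) (hPI : Stmt_A_PI) : Stmt_A_LG := by
  intro 𝒪 _ _ _ _ _ _ ϖ p _ N _ S θ ρbar hstd Dm n r qv _ _ _ D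
  exact a_lg hstd.hϖ hstd.hpm hstd.hsq Dm D hKEY (hPI 𝒪 ϖ p N S θ ρbar hstd Dm n r qv D)

/-- **A-GAL** (universally quantified). -/
theorem stmt_A_GAL : Stmt_A_GAL := by
  intro 𝒪 _ _ _ _ _ _ ϖ p _ N _ S θ ρbar hstd Dm n r qv _ _ _ D
  exact a_gal D

end Main

end Fermat.Agent.NEB.Geom.H9
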