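import Fermat.Agent.NEB.Geom.H84_Eta
import Fermat.Agent.NEB.Geom.H84_R0
import Fermat.Agent.NEB.Geom.H6_AMin
import Fermat.Agent.NEB.Geom.H26_WMDFinal
import Fermat.Agent.NEB.Geom.H29_ZCommTw
import Fermat.Agent.NEB.Geom.H6_WNonEis
import Fermat.Agent.NEB.Geom.H9_ALG
import Fermat.Agent.NEB.Geom.H29_AES
import Fermat.Agent.NEB.Geom.H6_AFrobNilTop
import Fermat.Agent.NEB.Geom.H70_WKeyq

/-!
# Item 72 (LG-NEB), package NEB-GEOM (helper84): the final wiring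

`stmt_TWGEOM_of_eta_pi : Stmt_A_ETA → Stmt_A_PI → Asm.Stmt_TWGEOM`:
all other leaves of the assembly (`AsmTop.stmt_TWGEOM_of`) are discharged here:

* A-MIN     : `H6.stmt_A_MIN_of` + `H26.stmt_W_MD`;
* A-SETUP   : `stmt_A_SETUP_of` + `H29.stmt_Z_COMMtw` + `H6.stmt_W_NONEIS` (+ A-ETA);
* A-R0      : `H84.stmt_A_R0`;
* A-GAL     : `H9.stmt_A_GAL`;
* A-ES      : `H29.stmt_A_ES`;
* A-HSTEP   : `stmt_A_HSTEP`;
* A-FROBNIL : `H6.stmt_A_FROBNIL_of` (+ A-PI);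
* A-LG      : `H9.stmt_A_LG_of` + `H70.stmt_W_KEYq` (+ A-PI).

`nonempty_twDiv_of_eta_pi` : the same for an ARBITRARY `MinSetup` (for `Stmt_TWGEOMB`).
-/

set_option autoImplicit false
set_option linter.unusedSectionVars false
set_option linter.style.haveILetI false
set_option linter.unusedVariables false

noncomputable section

open ModularCurve AlgebraicCurve IsLocalRing TensorProduct Polynomial

namespace Fermat.Agent.NEB.Geom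

open Fermat.Agent.NEB Fermat.Agent.NEB.JH Fermat.Agent.S59 Fermat.Agent.S59.Asm
  Fermat.Agent.S59.Lim Fermat.Agent.S59.Lim.H2

/-- **A-COMM**. -/
theorem stmt_A_COMM : Stmt_A_COMM :=
  fun N S p n _ qv _ h2 => Fermat.Agent.NEB.Geom.H29.stmt_Z_COMMtw N S p n qv h2

/-- **A-MIN**. -/
theorem stmt_A_MIN : Stmt_A_MIN :=
  Fermat.Agent.NEB.Geom.H6.stmt_A_MIN_of Fermat.Agent.NEB.Geom.H26.stmt_W_MD

/-- **A-SETUP**, modulo A-ETA. -/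
theorem stmt_A_SETUP_of_eta (hETA : Stmt_A_ETA) : Stmt_A_SETUP :=
  stmt_A_SETUP_of stmt_A_COMM Fermat.Agent.NEB.Geom.H6.stmt_W_NONEIS hETA

/-- **A-FROBNIL**, modulo A-PI. -/
theorem stmt_A_FROBNIL_of_pi (hPI : Stmt_A_PI) : Stmt_A_FROBNIL :=
  Fermat.Agent.NEB.Geom.H6.stmt_A_FROBNIL_of hPI

/-- **A-LG**, modulo A-PI. -/
theorem stmt_A_LG_of_pi (hPI : Stmt_A_PI) : Stmt_A_LG :=
  Fermat.Agent.NEB.Geom.H9.stmt_A_LG_of Fermat.Agent.NEB.Geom.H70.stmt_W_KEYq hPI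

/-- The Taylor–Wiles data `TWDiv` over the divisible module of an ARBITRARY level-`N` setup `Dm`,
modulo A-ETA and A-PI. -/
theorem nonempty_twDiv_of_eta_pi (hETA : Stmt_A_ETA) (hPI : Stmt_A_PI)
    (𝒪 : Type) [CommRing 𝒪] [IsDomain 𝒪] [IsDiscreteValuationRing 𝒪]
    [IsAdicComplete (maximalIdeal 𝒪) 𝒪] [Finite (ResidueField 𝒪)] [CharZero 𝒪]
    (ϖ : 𝒪) (p : ℕ) [Fact p.Prime] (N : ℕ) [NeZero N] (S : Finset ℕ)
    (θ : CuspForm.heckeAlgebra N 2 (↑S : Set ℕ) →+* ResidueField 𝒪)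
    (ρbar : ResidualGaloisRep (ResidueField 𝒪)) (hstd : StdHyp 𝒪 ϖ p N S θ ρbar)
    (Dm : MinSetup 𝒪 ϖ p N S θ) (r n : ℕ) (qv : Fin r → ℕ)
    (hfam : Fermat.Agent.S56.IsTWFamily ρbar p n S qv) [NeZero (twLevel N qv)]
    (hint' : CuspForm.HasIntegralStructure (twLevel N qv) 2) :
    Nonempty (TWDiv 𝒪 ϖ p ρbar N S θ Dm.MD n qv) := by
  rcases Nat.eq_zero_or_pos r with hr | hr
  · subst hr
    exact H84.stmt_A_R0 𝒪 ϖ p N S θ ρbar hstd Dm n qv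
  · have hprime : ∀ j, (qv j).Prime := fun j => (hfam.2.1 j).1
    have hc0 : twC qv ≠ 0 := Finset.prod_ne_zero_iff.mpr fun j _ => (hprime j).ne_zero
    haveI : NeZero (twC qv) := ⟨hc0⟩
    haveI : NeZero (N * twC qv) := ⟨mul_ne_zero (NeZero.ne N) hc0⟩
    obtain ⟨D⟩ := stmt_A_SETUP_of_eta hETA 𝒪 ϖ p N S θ ρbar hstd n r qv hr hfam hint'
    exact H84.nonempty_twDiv Dm D
      (Fermat.Agent.NEB.Geom.H9.stmt_A_GAL 𝒪 ϖ p N S θ ρbar hstd Dm n r qv D)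
      (Fermat.Agent.NEB.Geom.H29.stmt_A_ES 𝒪 ϖ p N S θ ρbar hstd Dm n r qv D)
      (stmt_A_HSTEP 𝒪 ϖ p N S θ ρbar hstd Dm n r qv D)
      (hPI 𝒪 ϖ p N S θ ρbar hstd Dm n r qv D)
      (stmt_A_FROBNIL_of_pi hPI 𝒪 ϖ p N S θ ρbar hstd Dm n r qv D)
      (stmt_A_LG_of_pi hPI 𝒪 ϖ p N S θ ρbar hstd Dm n r qv D)

/-- **NEB-GEOM**, modulo A-ETA and A-PI. -/
theorem stmt_TWGEOM_of_eta_pi (hETA : Stmt_A_ETA) (hPI : Stmt_A_PI) :
    Fermat.Agent.S59.Asm.Stmt_TWGEOM :=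
  stmt_TWGEOM_of stmt_A_MIN (stmt_A_SETUP_of_eta hETA)
    H84.stmt_A_R0 Fermat.Agent.NEB.Geom.H9.stmt_A_GAL Fermat.Agent.NEB.Geom.H29.stmt_A_ES
    stmt_A_HSTEP hPI (stmt_A_FROBNIL_of_pi hPI) (stmt_A_LG_of_pi hPI)

end Fermat.Agent.NEB.Geom
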