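import Fermat.Agent.NEB.Geom.DefsW

/-!
# NEB-GEOM, leaf W-PROJ (helper98): the functorial projector onto the `θ`-part

`stmt_W_proj : Stmt_W_proj`.

`primProj I W` is the projector of `W` onto `primPart I W` along `stabPart I W` (zero if the two
are not complementary); it is natural for linear maps between modules with the decomposition.
`eProj θ A η` is `primProj (span (thetaGens 𝒪 θ)) (𝒪 ⊗ A)` for the `𝒪 ⊗ 𝕋`-module structure
`opModule 𝒪 η`, seen as an `𝒪`-linear endomorphism.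
-/

set_option autoImplicit false
set_option linter.unusedSectionVars false
set_option linter.style.haveILetI false

noncomputable section

open IsLocalRing TensorProduct Module

namespace Fermat.Agent.NEB.Geom.H98

open Fermat.Agent.S59.Lim Fermat.Agent.S59.Lim.H2

/-! ## The projector onto the primary part -/

section Generic

variable {R : Type*} [CommRing R]

open Classical in
/-- The projector onto the primary part along the stable part (zero if they are not
complementary). -/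
def primProj (I : Ideal R) (W : Type*) [AddCommGroup W] [Module R W] : W →ₗ[R] W :=
  if h : IsCompl (primPart I W) (stabPart I W) then
    (primPart I W).subtype ∘ₗ Submodule.projectionOnto _ _ h
  else 0

variable {I : Ideal R} {W : Type*} [AddCommGroup W] [Module R W]
  {W' : Type*} [AddCommGroup W'] [Module R W']

theorem primProj_eq (h : IsCompl (primPart I W) (stabPart I W)) (x : W) :
    primProj I W x = (Submodule.projectionOnto _ _ h x : W) := by
  rw [primProj, dif_pos h]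
  rfl

theorem primProj_mem (h : IsCompl (primPart I W) (stabPart I W)) (x : W) :
    primProj I W x ∈ primPart I W := by
  rw [primProj_eq h]
  exact Submodule.coe_mem _

theorem primProj_of_mem_prim (h : IsCompl (primPart I W) (stabPart I W)) {x : W}
    (hx : x ∈ primPart I W) : primProj I W x = x := by
  rw [primProj_eq h]
  exact congrArg Subtype.val (Submodule.projectionOnto_apply_left h ⟨x, hx⟩)

theorem primProj_of_mem_stab (h : IsCompl (primPart I W) (stabPart I W)) {x : W}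
    (hx : x ∈ stabPart I W) : primProj I W x = 0 := by
  rw [primProj_eq h, (Submodule.projectionOnto_apply_eq_zero_iff h).mpr hx]
  rfl

/-- naturality of the projector -/
theorem primProj_map (h : IsCompl (primPart I W) (stabPart I W))
    (h' : IsCompl (primPart I W') (stabPart I W')) (f : W →ₗ[R] W') (x : W) :
    f (primProj I W x) = primProj I W' (f x) := by
  have hx : x ∈ primPart I W ⊔ stabPart I W := by
    rw [h.sup_eq_top]
    exact Submodule.mem_top
  obtain ⟨a, ha, b, hb, rfl⟩ := Submodule.mem_sup.mp hx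
  have e1 : primProj I W (a + b) = a := by
    rw [map_add, primProj_of_mem_prim h ha, primProj_of_mem_stab h hb, add_zero]
  have e2 : primProj I W' (f (a + b)) = f a := by
    rw [map_add, map_add, primProj_of_mem_prim h' (H61.map_mem_primPart I f ha),
      primProj_of_mem_stab h' (H61.map_mem_stabPart I f hb), add_zero]
  rw [e1, e2]

end Generic

/-! ## The projector onto the `θ`-part -/

section Theta

variable {𝒪 : Type} [CommRing 𝒪] [IsLocalRing 𝒪] {𝕋 : Type} [CommRing 𝕋]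

/-- The projector onto the `θ`-part of `𝒪 ⊗ A`. -/
def eProj (θ : 𝕋 →+* ResidueField 𝒪) (A : Type) [AddCommGroup A]
    (η : 𝕋 →+* Module.End ℤ A) : Module.End 𝒪 (𝒪 ⊗[ℤ] A) :=
  letI := opModule 𝒪 η
  { toFun := fun x => primProj (Ideal.span (thetaGens 𝒪 θ)) (𝒪 ⊗[ℤ] A) x
    map_add' := fun x y => map_add _ x y
    map_smul' := fun a x => by
      have h1 : ∀ y : 𝒪 ⊗[ℤ] A, a • y = ((a ⊗ₜ[ℤ] (1 : 𝕋) : opRing 𝒪 𝕋) • y) :=
        fun y => (opHom_pi η a y).symm
      simp only [RingHom.id_apply]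
      rw [h1 x, h1, map_smul] }

variable {θ : 𝕋 →+* ResidueField 𝒪} {A : Type} [AddCommGroup A] {η : 𝕋 →+* Module.End ℤ A}
  {B : Type} [AddCommGroup B] {ηB : 𝕋 →+* Module.End ℤ B}

theorem eProj_apply (x : 𝒪 ⊗[ℤ] A) :
    eProj θ A η x =
      (letI := opModule 𝒪 η; primProj (Ideal.span (thetaGens 𝒪 θ)) (𝒪 ⊗[ℤ] A) x) := rfl

/-- the decomposition of `𝒪 ⊗ A` -/
theorem isCompl_opModule (η : 𝕋 →+* Module.End ℤ A) (θ : 𝕋 →+* ResidueField 𝒪) {ϖ : 𝒪}
    (htors : ∀ x : 𝒪 ⊗[ℤ] A, ∃ k : ℕ, ϖ ^ k • x = 0)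
    (hfin : Finite (Submodule.torsionBy 𝒪 (𝒪 ⊗[ℤ] A) ϖ)) :
    letI := opModule 𝒪 η
    IsCompl (primPart (Ideal.span (thetaGens 𝒪 θ)) (𝒪 ⊗[ℤ] A))
      (stabPart (Ideal.span (thetaGens 𝒪 θ)) (𝒪 ⊗[ℤ] A)) := by
  letI := opModule 𝒪 η
  exact ⟨H61.disjoint_prim_stab _, H61.codisjoint_prim_stab _ (finite_span_opModule η htors hfin)⟩

theorem eProj_mem {ϖ : 𝒪} (htors : ∀ x : 𝒪 ⊗[ℤ] A, ∃ k : ℕ, ϖ ^ k • x = 0)
    (hfin : Finite (Submodule.torsionBy 𝒪 (𝒪 ⊗[ℤ] A) ϖ)) (x : 𝒪 ⊗[ℤ] A) :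
    eProj θ A η x ∈ thetaPart η θ := by
  letI := opModule 𝒪 η
  rw [mem_thetaPart_iff_primPart η θ htors hfin, eProj_apply]
  exact primProj_mem (isCompl_opModule η θ htors hfin) x

theorem eProj_of_mem {ϖ : 𝒪} (htors : ∀ x : 𝒪 ⊗[ℤ] A, ∃ k : ℕ, ϖ ^ k • x = 0)
    (hfin : Finite (Submodule.torsionBy 𝒪 (𝒪 ⊗[ℤ] A) ϖ)) {x : 𝒪 ⊗[ℤ] A}
    (hx : x ∈ thetaPart η θ) : eProj θ A η x = x := by
  letI := opModule 𝒪 η
  rw [eProj_apply]
  exact primProj_of_mem_prim (isCompl_opModule η θ htors hfin)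
    ((mem_thetaPart_iff_primPart η θ htors hfin x).mp hx)

theorem eProj_map {ϖ : 𝒪} (htors : ∀ x : 𝒪 ⊗[ℤ] A, ∃ k : ℕ, ϖ ^ k • x = 0)
    (hfin : Finite (Submodule.torsionBy 𝒪 (𝒪 ⊗[ℤ] A) ϖ))
    (htorsB : ∀ x : 𝒪 ⊗[ℤ] B, ∃ k : ℕ, ϖ ^ k • x = 0)
    (hfinB : Finite (Submodule.torsionBy 𝒪 (𝒪 ⊗[ℤ] B) ϖ))
    (g : A →ₗ[ℤ] B) (hg : ∀ t, g ∘ₗ η t = ηB t ∘ₗ g) (x : 𝒪 ⊗[ℤ] A) :
    g.baseChange 𝒪 (eProj θ A η x) = eProj θ B ηB (g.baseChange 𝒪 x) := by
  letI i1 := opModule 𝒪 η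
  letI i2 := opModule 𝒪 ηB
  let gR : (𝒪 ⊗[ℤ] A) →ₗ[opRing 𝒪 𝕋] (𝒪 ⊗[ℤ] B) :=
    { toFun := g.baseChange 𝒪
      map_add' := fun x y => map_add _ x y
      map_smul' := fun r x => opHom_baseChange g hg r x }
  rw [eProj_apply, eProj_apply]
  exact primProj_map (isCompl_opModule η θ htors hfin) (isCompl_opModule ηB θ htorsB hfinB) gR x

end Theta

/-- **W-PROJ**. -/
theorem stmt_W_proj : Stmt_W_proj := by
  intro 𝒪 _ _ _ _ ϖ hϖ p _ hpm hp0 𝕋 _ θ
  refine ⟨fun A _ η => eProj θ A η, ?_⟩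
  intro A _ htors hfin η
  have hp : p.Prime := Fact.out
  have hT := tens_tors (A := A) hϖ hpm hp0 htors
  have hF := tens_fin (A := A) hϖ hp hpm hp0 hfin
  refine ⟨fun x => eProj_mem hT hF x, fun x hx => eProj_of_mem hT hF hx, ?_, ?_⟩
  · intro f hf
    have hg : ∀ t, f ∘ₗ η t = η t ∘ₗ f := fun t => ((hf t).eq).symm
    refine LinearMap.ext fun x => ?_
    exact eProj_map hT hF hT hF f hg x
  · intro B _ htorsB hfinB ηB g hg x
    exact eProj_map hT hF (tens_tors (A := B) hϖ hpm hp0 htorsB)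
      (tens_fin (A := B) hϖ hp hpm hp0 hfinB) g hg x

end Fermat.Agent.NEB.Geom.H98
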